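import Fermat.Prelude.Def_AlgebraicCurve_IsCurveOver
import Mathlib.RingTheory.IntegralClosure.IsIntegralClosure.Basic
import Mathlib.RingTheory.Polynomial.Basic
import Mathlib.RingTheory.Valuation.LocalSubring
import Mathlib.LinearAlgebra.FiniteDimensional.Basic

/-!
# Coordinate data on a curve over a field

Elementary facts about places (membership through orders, values at rational places) and the
bundle `CoordData` of facts about a coordinate function `x` used by the reduction of places.
-/

set_option autoImplicit false

noncomputable section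

open AlgebraicCurve Polynomial

namespace Fermat.Agent.RED

section PlaceAPI

variable {K E : Type*} [Field K] [Field E] [Algebra K E] (v : Place K E)

theorem mem_of_ord_nonneg {f : E} (hf : 0 ≤ v.ord f) : f ∈ v.toValuationSubring := by
  rcases eq_or_ne f 0 with rfl | h0
  · exact zero_mem _
  obtain ⟨π, hπ⟩ := IsDiscreteValuationRing.exists_irreducible v.toValuationSubring
  obtain ⟨u, hu⟩ := v.exists_unit_mul_zpow h0 hπ
  obtain ⟨n, hn⟩ := Int.eq_ofNat_of_zero_le hf
  rw [hu, hn, zpow_natCast]
  exact mul_mem (SetLike.coe_mem _) (pow_mem (SetLike.coe_mem _) n)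

theorem ord_nonneg_of_mem {f : E} (hf : f ∈ v.toValuationSubring) : 0 ≤ v.ord f := by
  rcases eq_or_ne f 0 with rfl | h0
  · simp
  have h := v.heightOneSpectrum.intValuation_le_one ⟨f, hf⟩
  rw [← v.adicValuation_coe ⟨f, hf⟩] at h
  have h' : WithZero.log (v.adicValuation f) ≤ 0 := by
    have := (WithZero.log_le_iff_le_exp (v.adicValuation_ne_zero h0)).mpr
      (show v.adicValuation f ≤ WithZero.exp (0 : ℤ) by simpa using h)
    simpa using this
  simp only [Place.ord]
  omega

theorem mem_iff_ord_nonneg {f : E} : f ∈ v.toValuationSubring ↔ 0 ≤ v.ord f :=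
  ⟨ord_nonneg_of_mem v, mem_of_ord_nonneg v⟩

theorem bijective_algebraMap_residueField (h : v.deg = 1) :
    Function.Bijective (algebraMap K v.ResidueField) := by
  refine ⟨(algebraMap K v.ResidueField).injective, ?_⟩
  have : Module.Finite K v.ResidueField :=
    Module.finite_of_finrank_eq_succ (n := 0) h
  have htop : (⊥ : Subalgebra K v.ResidueField) = ⊤ :=
    Subalgebra.bot_eq_top_of_finrank_eq_one h
  intro z
  have hz : z ∈ (⊥ : Subalgebra K v.ResidueField) := htop ▸ Algebra.mem_top
  exact Algebra.mem_bot.mp hz

/-- The residue of a function regular at a place of degree one, as a constant. -/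
def placeVal (h : v.deg = 1) : v.toValuationSubring →+* K :=
  (RingEquiv.ofBijective (algebraMap K v.ResidueField)
    (bijective_algebraMap_residueField v h)).symm.toRingHom.comp
      (IsLocalRing.residue v.toValuationSubring)

variable (h : v.deg = 1)

theorem algebraMap_placeVal (f : v.toValuationSubring) :
    algebraMap K v.ResidueField (placeVal v h f) = IsLocalRing.residue _ f := by
  exact (RingEquiv.ofBijective (algebraMap K v.ResidueField)
    (bijective_algebraMap_residueField v h)).apply_symm_apply _

theorem placeVal_algebraMap (a : K) :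
    placeVal v h (algebraMap K v.toValuationSubring a) = a := by
  apply (algebraMap K v.ResidueField).injective
  rw [algebraMap_placeVal]
  rfl

theorem placeVal_eq_zero_iff (f : v.toValuationSubring) :
    placeVal v h f = 0 ↔ ((f : E) = 0 ∨ 0 < v.ord (f : E)) := by
  rw [← (algebraMap K v.ResidueField).injective.eq_iff, algebraMap_placeVal, map_zero,
    IsLocalRing.residue_eq_zero_iff, IsLocalRing.mem_maximalIdeal, mem_nonunits_iff]
  constructor
  · intro hu
    rcases eq_or_ne (f : E) 0 with h0 | h0
    · exact Or.inl h0
    refine Or.inr (lt_of_le_of_ne (ord_nonneg_of_mem v f.2) fun heq => hu ?_)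
    have hinv : (f : E)⁻¹ ∈ v.toValuationSubring :=
      mem_of_ord_nonneg v (by rw [v.ord_inv, ← heq]; simp)
    exact IsUnit.of_mul_eq_one ⟨_, hinv⟩ (Subtype.ext (mul_inv_cancel₀ h0))
  · rintro (h0 | hpos) hu
    · have hf0 : f = 0 := Subtype.ext h0
      exact not_isUnit_zero (hf0 ▸ hu)
    · obtain ⟨u, rfl⟩ := hu
      rw [v.ord_coe_unit] at hpos
      exact lt_irrefl 0 hpos

end PlaceAPI

section Coord

variable (K : Type*) {E : Type*} [Field K] [Field E] [Algebra K E] (x : E)

/-- Evaluation of polynomials over the constants at `x`. -/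
abbrev coordEval : K[X] →+* E := (Polynomial.aeval (R := K) x).toRingHom

/-- The elements integral over `K[x]`. -/
def coordRing : Subalgebra K E where
  carrier := {f | (coordEval K x).IsIntegralElem f}
  mul_mem' ha hb := RingHom.IsIntegralElem.mul _ ha hb
  one_mem' := RingHom.isIntegralElem_one (f := coordEval K x)
  add_mem' ha hb := RingHom.IsIntegralElem.add _ ha hb
  zero_mem' := RingHom.isIntegralElem_zero (f := coordEval K x)
  algebraMap_mem' a := by
    have h := RingHom.isIntegralElem_map (f := coordEval K x) (x := Polynomial.C a)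
    simpa [coordEval] using h

theorem mem_coordRing {f : E} : f ∈ coordRing K x ↔ (coordEval K x).IsIntegralElem f := Iff.rfl

theorem aeval_mem_coordRing (p : K[X]) : Polynomial.aeval x p ∈ coordRing K x :=
  RingHom.isIntegralElem_map (f := coordEval K x)

theorem self_mem_coordRing : x ∈ coordRing K x := by
  simpa using aeval_mem_coordRing K x Polynomial.X

/-- An element integral over a subring of a valuation ring lies in it. -/
theorem mem_valuationSubring_of_isIntegralElem {R : Type*} [CommRing R] {φ : R →+* E}
    (V : ValuationSubring E) (hφ : ∀ r, φ r ∈ V) {f : E} (hf : φ.IsIntegralElem f) : f ∈ V := by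
  obtain ⟨p, hp, hroot⟩ := hf
  have hint : IsIntegral V f :=
    ⟨p.map (φ.codRestrict V.toSubring hφ), hp.map _, by
      rw [Polynomial.eval₂_map]
      exact hroot⟩
  obtain ⟨g, hg⟩ := IsIntegrallyClosed.isIntegral_iff.mp hint
  exact hg ▸ g.2

theorem mem_place_of_mem_coordRing (v : Place K E) (hx : x ∈ v.toValuationSubring) {f : E}
    (hf : f ∈ coordRing K x) : f ∈ v.toValuationSubring := by
  refine mem_valuationSubring_of_isIntegralElem v.toValuationSubring (fun p => ?_) hf
  show Polynomial.aeval x p ∈ v.toValuationSubring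
  rw [Polynomial.aeval_eq_sum_range]
  refine sum_mem fun i _ => ?_
  rw [Algebra.smul_def]
  exact mul_mem (v.algebraMap_mem' _) (pow_mem hx i)

/-- Facts about a coordinate `x` of degree `n` on a curve over an algebraically closed field. -/
structure CoordData (n : ℕ) : Prop where
  transcendental : Transcendental K x
  deg_one : ∀ v : Place K E, v.deg = 1
  mem_coordRing_of_forall :
    ∀ f : E, (∀ v : Place K E, x ∈ v.toValuationSubring → f ∈ v.toValuationSubring) →
      f ∈ coordRing K x
  exists_zeros : ∀ a : K, ∃ D : Divisor K E,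
    (∀ v : Place K E, D v = max (v.ord (x - algebraMap K E a)) 0) ∧ Divisor.degree D = n
  exists_ord_one : ∀ v : Place K E, x ∈ v.toValuationSubring →
    ∃ t ∈ coordRing K x, v.ord t = 1
  separate : ∀ v w : Place K E, x ∈ v.toValuationSubring → x ∈ w.toValuationSubring → v ≠ w →
    ∃ s ∈ coordRing K x, s ≠ 0 ∧ 0 < v.ord s ∧ w.ord s = 0
  exists_place : ∀ χ : coordRing K x →ₐ[K] K, ∃ v : Place K E,
    x ∈ v.toValuationSubring ∧ ∀ f : coordRing K x, χ f = 0 → (f : E) = 0 ∨ 0 < v.ord (f : E)

end Coord

end Fermat.Agent.RED
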