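import Fermat.Agent.RED.CoordData
import Fermat.Agent.FF.Models

/-!
# Coordinate data of a function field over an algebraically closed field
-/

set_option autoImplicit false

noncomputable section

namespace Fermat.Agent.RED

open AlgebraicCurve IntermediateField Polynomial

variable {K E : Type*} [Field K] [Field E] [Algebra K E] {x : E}

theorem adjoin_sub_algebraMap (a : K) : K⟮x - algebraMap K E a⟯ = K⟮x⟯ := by
  refine le_antisymm (adjoin_simple_le_iff.mpr ?_) (adjoin_simple_le_iff.mpr ?_)
  · exact sub_mem (mem_adjoin_simple_self K x) (K⟮x⟯.algebraMap_mem a)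
  · simpa using add_mem (mem_adjoin_simple_self K (x - algebraMap K E a))
      (K⟮x - algebraMap K E a⟯.algebraMap_mem a)

theorem transcendental_sub_algebraMap (hx : Transcendental K x) (a : K) :
    Transcendental K (x - algebraMap K E a) := fun h =>
  hx (by simpa using h.add (isAlgebraic_algebraMap (R := K) (A := E) a))

variable [IsAlgClosed K] [FF.IsFunctionField K E]

/-- The bundle `CoordData` for a transcendental `x` of degree `n`. -/
theorem coordData_of_functionField (hx : Transcendental K x) {n : ℕ}
    (hn : Module.finrank K⟮x⟯ E = n) : CoordData K x n := by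
  refine ⟨hx, fun v => v.deg_eq_one_of_isAlgClosed_of_finite, fun f hf => ?_, fun a => ?_,
    fun v hv => ?_, fun v w hv hw hne => ?_, fun χ => ?_⟩
  · exact (FF.isIntegralElem_aeval_iff x f).mpr fun v hv =>
      ord_nonneg_of_mem v (hf v (mem_of_ord_nonneg v hv))
  · refine ⟨FF.zeroDivisor K (x - algebraMap K E a), fun v => FF.zeroDivisor_apply _ v, ?_⟩
    rw [FF.degree_zeroDivisor (transcendental_sub_algebraMap hx a), adjoin_sub_algebraMap, hn]
  · obtain ⟨t, ht, htv⟩ := FF.exists_integral_ord_eq_one hx v (ord_nonneg_of_mem v hv)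
    exact ⟨t, (FF.isIntegralElem_aeval_iff x t).mpr ht, htv⟩
  · obtain ⟨s, hs, hs0, hsv, hsw⟩ := FF.exists_integral_separating hx (ord_nonneg_of_mem v hv)
      (ord_nonneg_of_mem w hw) hne
    exact ⟨s, (FF.isIntegralElem_aeval_iff x s).mpr hs, hs0, hsv, hsw⟩
  · obtain ⟨v, hv⟩ :=
      FF.exists_place_of_algHom (coordRing K x) (self_mem_coordRing K x) hx χ
    refine ⟨v, mem_of_ord_nonneg v (hv ⟨x, self_mem_coordRing K x⟩).1, fun f hf => ?_⟩
    have h := (hv f).2
    rw [hf, map_zero, sub_zero, FF.mem_ordGE] at h
    exact h.imp_right fun h => by omega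

end Fermat.Agent.RED
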