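import Fermat.Agent.RED.LaurentRed
import Fermat.Agent.RED.RamBound.Main
import Fermat.Agent.MF.Coeff.FieldK
import Fermat.Agent.MF.Cosets.Index
import Fermat.Agent.Igusa.Descent
import Fermat.Agent.FF.Curve
import Fermat.Agent.Galois.Places
import Fermat.Prelude.Def_ModularCurve_ReductionModL

/-!
# The Gauss constant reduction of `X₀(N)` at a prime not dividing `N`
-/

set_option autoImplicit false
set_option linter.unusedSectionVars false
set_option linter.style.haveILetI false

noncomputable section

open Polynomial IntermediateField ModularCurve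

namespace Fermat.Agent.RED

section Special

variable {k : Type} [Field k] (N : ℕ) [NeZero N]

/-- `j` in `k(X₀(N))`. -/
def jSpecial : modularFunctionFieldFullC k N := ⟨jqModC k, jqModC_mem_full k N⟩

@[simp] theorem coe_jSpecial : (jSpecial (k := k) N : LaurentSeries k) = jqModC k := rfl

theorem transcendental_jSpecial : Transcendental k (jSpecial (k := k) N) := fun h =>
  MF.Coeff.transcendental_jqModC k (h.algHom (modularFunctionFieldFullC k N).val)

theorem natCast_ne_zero_of_dvd {d : ℕ} (hd : d ∣ N) (hN : (N : k) ≠ 0) : (d : k) ≠ 0 := by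
  obtain ⟨c, rfl⟩ := hd
  intro h
  apply hN
  rw [Nat.cast_mul, h, zero_mul]

theorem evC_mem_adjoin (p : k[X]) : Igusa.evC k p ∈ k⟮jqModC k⟯ := by
  induction p using Polynomial.induction_on' with
  | add p q hp hq => rw [map_add]; exact add_mem hp hq
  | monomial i a =>
    simp only [Igusa.evC, Polynomial.coe_eval₂RingHom, Polynomial.eval₂_monomial]
    refine mul_mem ?_ (pow_mem (mem_adjoin_simple_self k _) i)
    rw [show (HahnSeries.C a : LaurentSeries k) = algebraMap k (LaurentSeries k) a by
      rw [algebraMap_laurentSeries_eq_single]; rfl]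
    exact k⟮jqModC k⟯.algebraMap_mem a

/-- `j(dτ)` is algebraic over `k(j)`. -/
theorem isAlgebraic_jqNModC {d : ℕ} [NeZero d] (hd : (d : k) ≠ 0) :
    IsAlgebraic k⟮jqModC k⟯ (jqNModC k d) := by
  obtain ⟨P, hPm, -, hP0, -⟩ := Igusa.exists_modularEquation (K := k) (N := d) hd
  let e : k[X] →+* k⟮jqModC k⟯ := (Igusa.evC k).codRestrict k⟮jqModC k⟯.toSubring evC_mem_adjoin
  have hint : IsIntegral k⟮jqModC k⟯ (jqNModC k d) :=
    ⟨P.map e, hPm.map e, by rw [Polynomial.eval₂_map]; exact hP0⟩
  exact hint.isAlgebraic

theorem finite_divisorExpansionsC : (divisorExpansionsC k N).Finite := by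
  classical
  refine (N.divisors.finite_toSet.image fun d =>
    if h : d = 0 then 0 else haveI : NeZero d := ⟨h⟩; qExpand k d (jqModC k)).subset ?_
  rintro _ ⟨d, hne, hd, rfl⟩
  refine ⟨d, Nat.mem_divisors.mpr ⟨hd, NeZero.ne N⟩, ?_⟩
  show dite _ _ _ = _
  rw [dif_neg hne.ne]

/-- `k(X₀(N))` is a function field. -/
theorem isFunctionField_special (hN : (N : k) ≠ 0) :
    FF.IsFunctionField k (modularFunctionFieldFullC k N) := by
  refine FF.IsFunctionField.of_adjoin (finite_divisorExpansionsC N) (jqModC_mem_full k N)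
    (MF.Coeff.transcendental_jqModC k) ?_
  rintro _ ⟨d, hne, hd, rfl⟩
  exact isAlgebraic_jqNModC (natCast_ne_zero_of_dvd N hd hN)

/-- `[k(X₀(N)) : k(j)] ≥ ψ(N)`. -/
theorem dedekindPsi_le_finrank_special (hN : (N : k) ≠ 0) :
    dedekindPsi N ≤ Module.finrank k⟮jSpecial (k := k) N⟯ (modularFunctionFieldFullC k N) := by
  haveI := isFunctionField_special N hN
  haveI := FF.finiteDimensional_adjoin (transcendental_jSpecial (k := k) N)
  let y : modularFunctionFieldFullC k N := ⟨jqNModC k N, jqModCd_mem_full k N dvd_rfl⟩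
  have hli : LinearIndependent k⟮jSpecial (k := k) N⟯
      (fun i : Fin (Igusa.cosetCard N) => y ^ (i : ℕ)) := by
    refine FF.linearIndependent_adjoin_of_polynomial (transcendental_jSpecial N) _ fun p hp => ?_
    let c : k[X][X] := ∑ i : Fin (Igusa.cosetCard N), Polynomial.monomial (i : ℕ) (p i)
    have hco : ∀ i : Fin (Igusa.cosetCard N), c.coeff (i : ℕ) = p i := by
      intro i
      simp only [c, Polynomial.finsetSum_coeff, Polynomial.coeff_monomial]
      rw [Finset.sum_eq_single i] <;> simp +contextual [Fin.val_eq_val]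
    have hc : c = 0 := by
      refine Igusa.eq_zero_of_evXY hN c (fun i hi => ?_) ?_
      · simp only [c, Polynomial.finsetSum_coeff, Polynomial.coeff_monomial]
        exact Finset.sum_eq_zero fun b _ => if_neg (by omega)
      · have h1 : ∀ q : k[X], Igusa.evC k q =
            ((Polynomial.aeval (jSpecial (k := k) N) q : modularFunctionFieldFullC k N) :
              LaurentSeries k) := by
          intro q
          induction q using Polynomial.induction_on' with
          | add q r hq hr => simp [hq, hr]
          | monomial i a =>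
            simp [Igusa.evC, algebraMap_laurentSeries_eq_single]
        have h2 := congrArg (fun z : modularFunctionFieldFullC k N => (z : LaurentSeries k)) hp
        simp only [ZeroMemClass.coe_zero, AddSubmonoidClass.coe_finsetSum, MulMemClass.coe_mul,
          SubmonoidClass.coe_pow, ← h1] at h2
        rw [← h2, map_sum]
        simp [Igusa.evXY, y]
    exact fun i => by rw [← hco i, hc, Polynomial.coeff_zero]
  have hcard := hli.fintype_card_le_finrank
  rwa [Fintype.card_fin, Igusa.cosetCard_eq_index, MF.Cosets.Gamma0_index_eq_dedekindPsi] at hcard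

end Special

section Good

variable {L : Type} [Field L] [Algebra ℚ L] (A : ValuationSubring L) {k : Type} [Field k]
  (π : A →+* k) (N : ℕ) [NeZero N]

/-- `j` as an integral series. -/
def jPair : pairs π (laurentBaseChange L (modularFunctionFieldFull N))
    (modularFunctionFieldFullC k N) :=
  ⟨jqModC A, by
    rw [mem_pairs, coeffMap_jqModC, coeffMap_jqModC]
    exact ⟨(MF.Coeff.jElem L N).2, jqModC_mem_full k N⟩⟩

theorem toE_jPair :
    (laurentMaps π (laurentBaseChange L (modularFunctionFieldFull N))
      (modularFunctionFieldFullC k N)).toE (jPair A π N) = MF.Coeff.jElem L N :=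
  Subtype.ext (coeffMap_jqModC _)

theorem toEb_jPair :
    (laurentMaps π (laurentBaseChange L (modularFunctionFieldFull N))
      (modularFunctionFieldFullC k N)).toEb (jPair A π N) = jSpecial N :=
  Subtype.ext (coeffMap_jqModC _)

/-- The Gauss hypotheses for `X₀(N)` when `N` is invertible in the residue field. -/
theorem good_x0 (hπ : Function.Surjective π) (hN : (N : k) ≠ 0) :
    (laurentMaps π (laurentBaseChange L (modularFunctionFieldFull N))
      (modularFunctionFieldFullC k N)).Good (jPair A π N) where
  surjective := hπ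
  transcendental := by rw [toEb_jPair]; exact transcendental_jSpecial N
  finite := by rw [toE_jPair]; exact MF.Coeff.finiteDimensional_adjoin_jElem L N
  finrank_le := by
    rw [toE_jPair, toEb_jPair, MF.Coeff.finrank_adjoin_jElem]
    exact dedekindPsi_le_finrank_special N hN
  generated := by
    refine adjoin_range_toEb_eq_top (IntermediateField.adjoin.mono k _ _ ?_)
    rintro _ ⟨d, hne, hd, rfl⟩
    refine ⟨qExpand A d (jqModC A), mem_pairs.mpr ⟨?_, ?_⟩, ?_⟩
    · rw [coeffMap_qExpand, coeffMap_jqModC, MF.Coeff.laurentBaseChange_full_eq_fullC]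
      exact jqModCd_mem_full L N hd
    · rw [coeffMap_qExpand, coeffMap_jqModC]
      exact jqModCd_mem_full k N hd
    · rw [coeffMap_qExpand, coeffMap_jqModC]

end Good

section ModL

variable {N ℓ : ℕ} [NeZero N] {A : ValuationSubring (AlgebraicClosure ℚ)}

theorem natCast_residue_ne_zero (hℓ : ℓ.Prime) (hN : ¬ℓ ∣ N) (hA : A.LiesOverPrime ℓ) :
    (N : IsLocalRing.ResidueField A) ≠ 0 := by
  haveI := Galois.place_charP_residueField hA hℓ
  exact fun h => hN ((CharP.cast_eq_zero_iff _ ℓ N).mp h)

/-- The Gauss hypotheses for `X₀(N)` at a place over `ℓ ∤ N`. -/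
theorem good_modL (hℓ : ℓ.Prime) (hN : ¬ℓ ∣ N) (hA : A.LiesOverPrime ℓ) :
    (laurentMaps (IsLocalRing.residue A) (modularFunctionFieldBar N)
      (modularFunctionFieldFullC (IsLocalRing.ResidueField A) N)).Good
        (jPair A (IsLocalRing.residue A) N) :=
  good_x0 A _ N IsLocalRing.residue_surjective (natCast_residue_ne_zero hℓ hN hA)

/-- The constant reduction of `X₀(N)` at a place over `ℓ ∤ N`. -/
def x0Red (hℓ : ℓ.Prime) (hN : ¬ℓ ∣ N) (hA : A.LiesOverPrime ℓ) :
    ConstRed A (IsLocalRing.residue A) (modularFunctionFieldBar N)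
      (modularFunctionFieldFullC (IsLocalRing.ResidueField A) N) :=
  (good_modL hℓ hN hA).constRed

variable (hℓ : ℓ.Prime) (hN : ¬ℓ ∣ N) (hA : A.LiesOverPrime ℓ)

/-- `j` in the valuation ring of `x0Red`. -/
def x0Param : (x0Red hℓ hN hA).W := (good_modL hℓ hN hA).paramX

theorem jPlace_eq_jElem : RamBound.jPlace N = MF.Coeff.jElem (AlgebraicClosure ℚ) N :=
  Subtype.ext (MF.Coeff.coeffEmb_jq_eq _)

theorem coe_x0Param :
    ((x0Param hℓ hN hA : (x0Red hℓ hN hA).W) : modularFunctionFieldBar N) = RamBound.jPlace N :=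
  (toE_jPair A (IsLocalRing.residue A) N).trans jPlace_eq_jElem.symm

theorem red_x0Param : (x0Red hℓ hN hA).red (x0Param hℓ hN hA) = jSpecial N :=
  (good_modL hℓ hN hA).red_paramX.trans (toEb_jPair A (IsLocalRing.residue A) N)

theorem x0Param_param : (x0Red hℓ hN hA).Param (x0Param hℓ hN hA) := (good_modL hℓ hN hA).param

end ModL

end Fermat.Agent.RED
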