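import Fermat.Agent.RED.X0Lift
import Fermat.Agent.RED.Normal.Extension

/-!
# Normality of the finite chart descends from level `M` to a divisor `N`
-/

set_option autoImplicit false
set_option synthInstance.maxHeartbeats 400000
set_option maxHeartbeats 1000000

noncomputable section

open IntermediateField ModularCurve

namespace Fermat.Agent.RED

theorem fullC_le_of_dvd (k : Type) [Field k] {N M : ℕ} [NeZero N] [NeZero M] (h : N ∣ M) :
    modularFunctionFieldFullC k N ≤ modularFunctionFieldFullC k M := by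
  refine IntermediateField.adjoin.mono k _ _ ?_
  rintro _ ⟨d, hne, hd, rfl⟩
  exact ⟨d, hne, hd.trans h, rfl⟩

theorem modularFunctionFieldBar_le_of_dvd {N M : ℕ} [NeZero N] [NeZero M] (h : N ∣ M) :
    modularFunctionFieldBar N ≤ modularFunctionFieldBar M := by
  rw [show modularFunctionFieldBar N = _ from MF.Coeff.laurentBaseChange_full_eq_fullC _ N,
    show modularFunctionFieldBar M = _ from MF.Coeff.laurentBaseChange_full_eq_fullC _ M]
  exact fullC_le_of_dvd _ h

namespace LaurentPair

variable {L k : Type*} [Field L] [Field k] {A : ValuationSubring L} {π : A →+* k}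
variable {E E' : IntermediateField L (LaurentSeries L)}
  {Eb Eb' : IntermediateField k (LaurentSeries k)}
variable {y₀ : pairs π E Eb} (h : (laurentMaps π E Eb).Good y₀)
  {y₁ : pairs π E' Eb'} (h' : (laurentMaps π E' Eb').Good y₁)

/-- Gauss rings and their reductions are compatible with inclusions. -/
theorem exists_mem_inclusion (hE : E ≤ E') (hEb : Eb ≤ Eb') (w : h.constRed.W) :
    ∃ hw : IntermediateField.inclusion hE (w : E) ∈ h'.constRed.W,
      h'.constRed.red ⟨_, hw⟩ = IntermediateField.inclusion hEb (h.constRed.red w) := by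
  obtain ⟨y, z, hz, heq, hred⟩ := h.exists_pairs_of_mem w.2
  have hle : pairs π E Eb ≤ pairs π E' Eb' := fun y hy =>
    mem_pairs.mpr ⟨hE (mem_pairs.mp hy).1, hEb (mem_pairs.mp hy).2⟩
  have hz' : (laurentMaps π E' Eb').toEb ⟨_, hle z.2⟩ ≠ 0 := fun h0 => hz (Subtype.ext
    (congrArg (fun e : Eb' => (e : LaurentSeries k)) h0))
  have heq' : IntermediateField.inclusion hE (w : E) * (laurentMaps π E' Eb').toE ⟨_, hle z.2⟩ =
      (laurentMaps π E' Eb').toE ⟨_, hle y.2⟩ :=
    Subtype.ext (congrArg (fun e : E => (e : LaurentSeries L)) heq)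
  have hw' : IntermediateField.inclusion hE (w : E) ∈ h'.constRed.W :=
    ⟨⟨_, hle y.2⟩, ⟨_, hle z.2⟩, hz', heq'⟩
  obtain ⟨y', z', hz'', heq'', hred'⟩ := h'.exists_pairs_of_mem hw'
  refine ⟨hw', hred'.trans ?_⟩
  rw [GaussMaps.Good.red_eq_of_eq h' hz'' hz' heq'' heq']
  have h2 : h.constRed.red w = (laurentMaps π E Eb).toEb y / (laurentMaps π E Eb).toEb z := hred
  rw [h2, map_div₀]
  rfl

end LaurentPair

variable {N M ℓ : ℕ} [NeZero N] [NeZero M] {A : ValuationSubring (AlgebraicClosure ℚ)}
  (hℓ : ℓ.Prime) (hN : ¬ℓ ∣ N) (hM : ¬ℓ ∣ M) (hA : A.LiesOverPrime ℓ)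

theorem normal_x0Param_of_dvd (hNM : N ∣ M)
    (h : (x0Red hℓ hM hA).Normal (x0Param hℓ hM hA)) :
    (x0Red hℓ hN hA).Normal (x0Param hℓ hN hA) := by
  have := Galois.place_residueField_isAlgClosed A
  let : Algebra (modularFunctionFieldBar N) (modularFunctionFieldBar M) :=
    (IntermediateField.inclusion (modularFunctionFieldBar_le_of_dvd hNM)).toRingHom.toAlgebra
  let : Algebra (modularFunctionFieldFullC (IsLocalRing.ResidueField A) N)
      (modularFunctionFieldFullC (IsLocalRing.ResidueField A) M) :=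
    (IntermediateField.inclusion
      (fullC_le_of_dvd (IsLocalRing.ResidueField A) hNM)).toRingHom.toAlgebra
  have : IsScalarTower (AlgebraicClosure ℚ) (modularFunctionFieldBar N)
      (modularFunctionFieldBar M) := IsScalarTower.of_algebraMap_eq fun _ => rfl
  have : IsScalarTower (IsLocalRing.ResidueField A)
      (modularFunctionFieldFullC (IsLocalRing.ResidueField A) N)
      (modularFunctionFieldFullC (IsLocalRing.ResidueField A) M) :=
    IsScalarTower.of_algebraMap_eq fun _ => rfl
  have hext : IsRedExtension (x0Red hℓ hN hA) (x0Red hℓ hM hA) :=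
    ⟨fun w => (LaurentPair.exists_mem_inclusion (good_modL hℓ hN hA) (good_modL hℓ hM hA)
        (modularFunctionFieldBar_le_of_dvd hNM) (fullC_le_of_dvd _ hNM) w).1,
      fun w => (LaurentPair.exists_mem_inclusion (good_modL hℓ hN hA) (good_modL hℓ hM hA)
        (modularFunctionFieldBar_le_of_dvd hNM) (fullC_le_of_dvd _ hNM) w).2⟩
  have hX : (⟨algebraMap _ (modularFunctionFieldBar M)
        ((x0Param hℓ hN hA : (x0Red hℓ hN hA).W) : modularFunctionFieldBar N),
        hext.map_mem _⟩ : (x0Red hℓ hM hA).W) = x0Param hℓ hM hA :=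
    Subtype.ext ((congrArg (algebraMap _ (modularFunctionFieldBar M)) (coe_x0Param hℓ hN hA)).trans
      ((Subtype.ext rfl : algebraMap _ (modularFunctionFieldBar M) (RamBound.jPlace N) =
        RamBound.jPlace M).trans (coe_x0Param hℓ hM hA).symm))
  refine hext.normal (x0Param_param hℓ hN hA) ?_ ?_ ?_ <;> rw [hX]
  · exact x0Param_param hℓ hM hA
  · exact isSeparable_x0Param hℓ hM hA
  · exact h

end Fermat.Agent.RED
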