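import Fermat.Agent.RED.X0Lift
import Fermat.Agent.RED.X0Extension
import Fermat.Agent.RED.Normal.AuxLevelX0

/-!
# The lifting property of `X₀(N)` at every prime `ℓ ∤ N`
-/

set_option autoImplicit false
set_option maxHeartbeats 1000000

noncomputable section

open ModularCurve

namespace Fermat.Agent.RED

variable {N ℓ : ℕ} [NeZero N] {A : ValuationSubring (AlgebraicClosure ℚ)}
  (hℓ : ℓ.Prime) (hN : ¬ℓ ∣ N) (hA : A.LiesOverPrime ℓ)

theorem x0SmallLift : X0SmallLift hℓ hN hA := by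
  intro h
  haveI := Galois.place_charP_residueField hA hℓ
  haveI := Galois.place_residueField_isAlgClosed A
  rw [← Nat.cast_ofNat (R := IsLocalRing.ResidueField A), CharP.cast_eq_zero_iff _ ℓ,
    show (1728 : ℕ) = 2 ^ 6 * 3 ^ 3 by norm_num, hℓ.dvd_mul] at h
  refine ConstRed.Normal.liftsAt (x0Red hℓ hN hA) (X := x0Param hℓ hN hA) ?_ 0
  rcases h with h | h
  · obtain rfl := (Nat.prime_dvd_prime_iff_eq hℓ Nat.prime_two).mp (hℓ.dvd_of_dvd_pow h)
    have hM : ¬2 ∣ N * 9 := fun h => (hℓ.dvd_mul.mp h).elim hN (by norm_num)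
    refine normal_x0Param_of_dvd hℓ hN hM hA (Nat.dvd_mul_right N 9) ?_
    exact normal_x0Param hℓ hM hA fun _ => x0Red_liftsAt_zero_two hℓ hM hA rfl (Nat.dvd_mul_left 9 N)
      (isSeparable_x0Param hℓ hM hA)
  · obtain rfl := (Nat.prime_dvd_prime_iff_eq hℓ Nat.prime_three).mp (hℓ.dvd_of_dvd_pow h)
    have hM : ¬3 ∣ N * 4 := fun h => (hℓ.dvd_mul.mp h).elim hN (by norm_num)
    refine normal_x0Param_of_dvd hℓ hN hM hA (Nat.dvd_mul_right N 4) ?_
    exact normal_x0Param hℓ hM hA fun _ => x0Red_liftsAt_zero_three hℓ hM hA rfl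
      (Nat.dvd_mul_left 4 N) (isSeparable_x0Param hℓ hM hA)

/-- Every function on the two charts of the special fibre lifts. -/
theorem x0Lift : X0Lift hℓ hN hA := x0Lift_of_small hℓ hN hA (x0SmallLift hℓ hN hA)

end Fermat.Agent.RED
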