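import Fermat.Agent.RED.GaussRed
import Fermat.Prelude.Def_ModularCurve_LaurentCoeff

/-!
# The Gauss reduction of a field of Laurent series
-/

set_option autoImplicit false

noncomputable section

open Polynomial IntermediateField ModularCurve

namespace Fermat.Agent.RED

variable {L k : Type*} [Field L] [Field k] {A : ValuationSubring L} (π : A →+* k)

theorem coeffMap_subtype_injective :
    Function.Injective (coeffMap (R := A) (S := L) A.subtype) := fun y z h => by
  ext n
  exact congrArg (fun s : LaurentSeries L => s.coeff n) h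

variable (E : IntermediateField L (LaurentSeries L)) (Eb : IntermediateField k (LaurentSeries k))

/-- Integral series lying in `E` whose reduction lies in `Eb`. -/
def pairs : Subring (LaurentSeries A) :=
  E.toSubfield.toSubring.comap (coeffMap A.subtype) ⊓ Eb.toSubfield.toSubring.comap (coeffMap π)

variable {π E Eb}

theorem mem_pairs {y : LaurentSeries A} :
    y ∈ pairs π E Eb ↔ coeffMap A.subtype y ∈ E ∧ coeffMap π y ∈ Eb := Iff.rfl

theorem single_mem_pairs (a : A) : HahnSeries.single 0 a ∈ pairs π E Eb := by
  refine mem_pairs.mpr ⟨?_, ?_⟩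
  · rw [coeffMap_single, ← algebraMap_laurentSeries_eq_single]
    exact E.algebraMap_mem _
  · rw [coeffMap_single, ← algebraMap_laurentSeries_eq_single]
    exact Eb.algebraMap_mem _

variable (π E Eb) in
/-- The two maps on integral series. -/
def laurentMaps : GaussMaps A π E Eb (pairs π E Eb) where
  toE :=
    { toFun := fun y => ⟨coeffMap A.subtype (y : LaurentSeries A), (mem_pairs.mp y.2).1⟩
      map_one' := Subtype.ext (map_one _)
      map_mul' := fun _ _ => Subtype.ext (map_mul _ _ _)
      map_zero' := Subtype.ext (map_zero _)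
      map_add' := fun _ _ => Subtype.ext (map_add _ _ _) }
  toEb :=
    { toFun := fun y => ⟨coeffMap π (y : LaurentSeries A), (mem_pairs.mp y.2).2⟩
      map_one' := Subtype.ext (map_one _)
      map_mul' := fun _ _ => Subtype.ext (map_mul _ _ _)
      map_zero' := Subtype.ext (map_zero _)
      map_add' := fun _ _ => Subtype.ext (map_add _ _ _) }
  C := (HahnSeries.C (Γ := ℤ) (R := A)).codRestrict (pairs π E Eb) single_mem_pairs
  toE_C a := by
    apply Subtype.ext
    show coeffMap A.subtype (HahnSeries.single 0 a) = algebraMap L (LaurentSeries L) (a : L)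
    rw [coeffMap_single, algebraMap_laurentSeries_eq_single]
    rfl
  toEb_C a := by
    apply Subtype.ext
    show coeffMap π (HahnSeries.single 0 a) = algebraMap k (LaurentSeries k) (π a)
    rw [coeffMap_single, algebraMap_laurentSeries_eq_single]
  toE_injective _ _ h :=
    Subtype.ext (coeffMap_subtype_injective (congrArg (fun e : E => (e : LaurentSeries L)) h))

@[simp] theorem coe_laurentMaps_toE (y : pairs π E Eb) :
    (((laurentMaps π E Eb).toE y : E) : LaurentSeries L) = coeffMap A.subtype (y : LaurentSeries A) :=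
  rfl

@[simp] theorem coe_laurentMaps_toEb (y : pairs π E Eb) :
    (((laurentMaps π E Eb).toEb y : Eb) : LaurentSeries k) = coeffMap π (y : LaurentSeries A) :=
  rfl

theorem adjoin_range_toEb_eq_top
    (hgen : Eb ≤ IntermediateField.adjoin k
      (⇑(coeffMap π) '' (pairs π E Eb : Set (LaurentSeries A)))) :
    IntermediateField.adjoin k (Set.range (laurentMaps π E Eb).toEb) = ⊤ := by
  apply IntermediateField.lift_injective Eb
  rw [IntermediateField.lift_top, IntermediateField.lift_adjoin]
  refine le_antisymm ?_ ?_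
  · rw [IntermediateField.adjoin_le_iff]
    rintro _ ⟨z, -, rfl⟩
    exact z.2
  · refine hgen.trans (IntermediateField.adjoin.mono k _ _ ?_)
    rintro _ ⟨y, hy, rfl⟩
    exact ⟨(laurentMaps π E Eb).toEb ⟨y, hy⟩, ⟨_, rfl⟩, rfl⟩

namespace LaurentPair

variable {y₀ : pairs π E Eb} (h : (laurentMaps π E Eb).Good y₀)

include h

/-- An integral series in `E` reduces into `Eb`. -/
theorem coeffMap_mem {y : LaurentSeries A} (hy : coeffMap A.subtype y ∈ E) :
    coeffMap π y ∈ Eb := by
  rcases eq_or_ne y 0 with rfl | hy0
  · simp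
  have h0 : (⟨coeffMap A.subtype y, hy⟩ : E) ≠ 0 := fun h0 => hy0 (coeffMap_subtype_injective
    (by rw [map_zero]; exact congrArg (fun e : E => (e : LaurentSeries L)) h0))
  obtain ⟨c, y', z', hc, hy', hz', heq⟩ := h.exists_scale h0
  have heq' : coeffMap A.subtype y * coeffMap A.subtype (z' : LaurentSeries A)
      = HahnSeries.single 0 c * coeffMap A.subtype (y' : LaurentSeries A) := by
    have hcoe := congrArg (fun e : E => (e : LaurentSeries L)) heq
    rw [← algebraMap_laurentSeries_eq_single]
    exact hcoe
  have hy0 : coeffMap π (y' : LaurentSeries A) ≠ 0 := fun h3 => hy' (Subtype.ext h3)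
  have hz0 : coeffMap π (z' : LaurentSeries A) ≠ 0 := fun h3 => hz' (Subtype.ext h3)
  have hsm : ∀ a : A, HahnSeries.single (0 : ℤ) (π a) ∈ Eb := fun a => by
    rw [← algebraMap_laurentSeries_eq_single]
    exact Eb.algebraMap_mem _
  rcases A.mem_or_inv_mem c with hcA | hcA
  · have h1 : y * (z' : LaurentSeries A)
        = HahnSeries.single 0 (⟨c, hcA⟩ : A) * (y' : LaurentSeries A) :=
      coeffMap_subtype_injective (by rw [map_mul, map_mul, coeffMap_single]; exact heq')
    have h2 := congrArg (coeffMap π) h1
    rw [map_mul, map_mul, coeffMap_single] at h2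
    rw [(eq_div_iff hz0).mpr h2]
    exact div_mem (mul_mem (hsm _) ((laurentMaps π E Eb).toEb y').2)
      ((laurentMaps π E Eb).toEb z').2
  · have h1 : HahnSeries.single 0 (⟨c⁻¹, hcA⟩ : A) * (y * (z' : LaurentSeries A))
        = (y' : LaurentSeries A) :=
      coeffMap_subtype_injective (by
        rw [map_mul, map_mul, coeffMap_single, heq', ← mul_assoc,
          HahnSeries.single_mul_single]
        simp [inv_mul_cancel₀ hc])
    have h2 := congrArg (coeffMap π) h1
    rw [map_mul, map_mul, coeffMap_single] at h2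
    have hne : HahnSeries.single (0 : ℤ) (π ⟨c⁻¹, hcA⟩) * coeffMap π (z' : LaurentSeries A) ≠ 0 :=
      fun h4 => hy0 (by rw [← h2, mul_left_comm, h4, mul_zero])
    rw [show coeffMap π y = coeffMap π (y' : LaurentSeries A) /
        (HahnSeries.single 0 (π ⟨c⁻¹, hcA⟩) * coeffMap π (z' : LaurentSeries A)) by
          rw [eq_div_iff hne, ← h2, mul_left_comm]]
    exact div_mem ((laurentMaps π E Eb).toEb y').2
      (mul_mem (hsm _) ((laurentMaps π E Eb).toEb z').2)

/-- Integral series in `E` are in `W`, with the coefficientwise reduction. -/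
theorem exists_mem_of_coeffMap_mem {y : LaurentSeries A} (hy : coeffMap A.subtype y ∈ E) :
    ∃ hw : (⟨coeffMap A.subtype y, hy⟩ : E) ∈ h.constRed.W,
      ((h.constRed.red ⟨_, hw⟩ : Eb) : LaurentSeries k) = coeffMap π y := by
  have hp : y ∈ pairs π E Eb := mem_pairs.mpr ⟨hy, coeffMap_mem h hy⟩
  exact ⟨h.toE_mem ⟨y, hp⟩, congrArg (fun e : Eb => (e : LaurentSeries k))
    (h.gaussRed_toE ⟨y, hp⟩)⟩

end LaurentPair

end Fermat.Agent.RED
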