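import Fermat.Agent.RED.PlaceReductionOrder
import Fermat.Prelude.Def_AlgebraicCurve_BaseChangeGalois

/-!
# The reduction map on places and its uniqueness

Two charts, for `x` and `x⁻¹`, give the reduction of every place. It is the only map compatible
with divisors of functions, hence also equivariant for semilinear automorphisms.
-/

set_option autoImplicit false
set_option linter.unusedSectionVars false

noncomputable section

open AlgebraicCurve

namespace Fermat.Agent.RED

variable {L k : Type*} [Field L] [Field k] {F Fb : Type*} [Field F] [Field Fb] [Algebra L F]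
  [Algebra k Fb] {A : ValuationSubring L} {π : A →+* k}

/-- The charts of `x` and of `x⁻¹`. -/
structure TwoCharts (D : ReductionDatum A π F Fb) (x : F) (xb : Fb) (n : ℕ) : Prop where
  finite : ReductionChart D x xb n
  infinite : ReductionChart D x⁻¹ xb⁻¹ n

/-- `r` carries the divisor of an integral function to the divisor of its reduction. -/
def IsPlaceReduction (D : ReductionDatum A π F Fb) (r : Place L F → Place k Fb) : Prop :=
  ∀ (y : F) (g : Fb), D.Reduces y g → g ≠ 0 → ∀ E : Divisor L F, IsDivisorOf E y →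
    ∀ Q, Finsupp.mapDomain r E Q = Q.ord g

namespace TwoCharts

variable {D : ReductionDatum A π F Fb} {x : F} {xb : Fb} {n : ℕ} (h : TwoCharts D x xb n)
include h

theorem coord_ne_zero : x ≠ 0 := fun e =>
  h.finite.coordGeneric.transcendental (e ▸ isAlgebraic_zero)

theorem special_coord_ne_zero : xb ≠ 0 := fun e =>
  h.finite.coordSpecial.transcendental (e ▸ isAlgebraic_zero)

/-- Away from the integral places the inverse coordinate is in the maximal ideal. -/
theorem inv_of_not_isIntegralPlace {P : Place L F} (hP : ¬IsIntegralPlace A x P) :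
    ∃ _ : IsIntegralPlace A x⁻¹ P, ∀ a : A, pval P x⁻¹ = (a : L) → π a = 0 := by
  have hv := h.finite.coordGeneric.deg_one P
  have hmem : x⁻¹ ∈ P.toValuationSubring := by
    rcases P.toValuationSubring.mem_or_inv_mem x with hx | hx
    · refine mem_of_ord_nonneg P ?_
      have hne : pval P x ≠ 0 := fun e => hP ⟨hx, e ▸ zero_mem A⟩
      rw [P.ord_inv, ((pval_ne_zero_iff hv hx).mp hne).2, neg_zero]
    · exact hx
  by_cases hx : x ∈ P.toValuationSubring
  · have hα : pval P x ∉ A := fun e => hP ⟨hx, e⟩
    have hinv : pval P x⁻¹ = (pval P x)⁻¹ := by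
      refine (inv_eq_of_mul_eq_one_right ?_).symm
      rw [← pval_mul hv hx hmem, mul_inv_cancel₀ h.coord_ne_zero, pval_one hv]
    have hA : (pval P x)⁻¹ ∈ A := (A.mem_or_inv_mem _).resolve_left hα
    refine ⟨⟨hmem, hinv ▸ hA⟩, fun a ha => ?_⟩
    have : a = ⟨(pval P x)⁻¹, hA⟩ := Subtype.ext (ha.symm.trans hinv)
    exact this ▸ h.finite.π_inv_eq_zero hα hA
  · have h0 : pval P x⁻¹ = 0 := (pval_eq_zero_iff hv hmem).mpr (Or.inr (by
      rw [P.ord_inv]
      have := not_le.mp fun hle => hx (mem_of_ord_nonneg P hle)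
      omega))
    refine ⟨⟨hmem, h0 ▸ zero_mem A⟩, fun a ha => ?_⟩
    have : a = 0 := Subtype.ext (ha.symm.trans h0)
    rw [this, map_zero]

open Classical in
/-- The reduction of places. -/
def redPlace (P : Place L F) : Place k Fb :=
  if hP : IsIntegralPlace A x P then (h.finite.exists_specializes hP).choose
  else (h.infinite.exists_specializes (h.inv_of_not_isIntegralPlace hP).choose).choose

theorem redPlace_finite {P : Place L F} (hP : IsIntegralPlace A x P) :
    Specializes D x xb P (h.redPlace P) := by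
  rw [redPlace, dif_pos hP]
  exact (h.finite.exists_specializes hP).choose_spec

theorem redPlace_infinite {P : Place L F} (hP : ¬IsIntegralPlace A x P) :
    Specializes D x⁻¹ xb⁻¹ P (h.redPlace P) ∧ xb ∉ (h.redPlace P).toValuationSubring := by
  rw [redPlace, dif_neg hP]
  obtain ⟨hI, hπ⟩ := h.inv_of_not_isIntegralPlace hP
  set Q := (h.infinite.exists_specializes hI).choose
  have hQ : Specializes D x⁻¹ xb⁻¹ P Q := (h.infinite.exists_specializes hI).choose_spec
  refine ⟨hQ, fun hxb => ?_⟩
  have hQd := h.finite.coordSpecial.deg_one Q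
  have h0 := h.infinite.pval_coord hQ ⟨_, hI.2⟩ rfl
  rw [hπ _ rfl] at h0
  have := pval_mul hQd hxb hQ.2.1
  rw [mul_inv_cancel₀ h.special_coord_ne_zero, pval_one hQd, h0, mul_zero] at this
  exact one_ne_zero this

theorem coord_mem_redPlace_iff {P : Place L F} :
    xb ∈ (h.redPlace P).toValuationSubring ↔ IsIntegralPlace A x P :=
  ⟨fun hm => by_contra fun hP => (h.redPlace_infinite hP).2 hm,
    fun hP => (h.redPlace_finite hP).2.1⟩

/-- The coordinate of the reduction is the reduction of the coordinate. -/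
theorem pval_redPlace {P : Place L F} (hP : IsIntegralPlace A x P) (a : A)
    (ha : pval P x = (a : L)) : pval (h.redPlace P) xb = π a :=
  h.finite.pval_coord (h.redPlace_finite hP) a ha

theorem redPlace_eq_iff {P : Place L F} {Q : Place k Fb} (hQ : xb ∈ Q.toValuationSubring) :
    h.redPlace P = Q ↔ Specializes D x xb P Q := by
  constructor
  · rintro rfl
    exact h.redPlace_finite (h.coord_mem_redPlace_iff.mp hQ)
  · exact fun hs => h.finite.specializes_unique (h.redPlace_finite hs.1) hs

theorem redPlace_eq_iff_inv {P : Place L F} {Q : Place k Fb} (hQ : xb ∉ Q.toValuationSubring) :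
    h.redPlace P = Q ↔ Specializes D x⁻¹ xb⁻¹ P Q := by
  constructor
  · rintro rfl
    exact (h.redPlace_infinite fun hP => hQ (h.redPlace_finite hP).2.1).1
  · intro hs
    by_cases hP : IsIntegralPlace A x P
    · exfalso
      have hv := h.finite.coordGeneric.deg_one P
      have hQd := h.finite.coordSpecial.deg_one Q
      have hmul := pval_mul hv hP.1 hs.1.1
      rw [mul_inv_cancel₀ h.coord_ne_zero, pval_one hv] at hmul
      have h0 : pval Q xb⁻¹ = 0 := (pval_eq_zero_iff hQd hs.2.1).mpr (Or.inr (by
        rw [Q.ord_inv]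
        have := not_le.mp fun hle => hQ (mem_of_ord_nonneg Q hle)
        omega))
      rw [h.infinite.pval_coord hs ⟨_, hs.1.2⟩ rfl] at h0
      have : π (⟨_, hP.2⟩ * ⟨_, hs.1.2⟩) = π 1 := congrArg π (Subtype.ext hmul.symm)
      rw [map_mul, h0, mul_zero, map_one] at this
      exact zero_ne_one this
    · exact h.infinite.specializes_unique (h.redPlace_infinite hP).1 hs

theorem deg_redPlace (P : Place L F) : (h.redPlace P).deg = P.deg := by
  rw [h.finite.coordSpecial.deg_one, h.finite.coordGeneric.deg_one]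

theorem isPlaceReduction_redPlace [IsAlgClosed L] [HasPrincipalDivisors L F] :
    IsPlaceReduction D h.redPlace := by
  intro y g hyg hg E hE Q
  rw [mapDomain_apply_eq_sumOver]
  by_cases hQ : xb ∈ Q.toValuationSubring
  · rw [sumOver_congr fun P _ => h.redPlace_eq_iff hQ]
    exact h.finite.orderPreserved hyg hg E hE Q hQ
  · rw [sumOver_congr fun P _ => h.redPlace_eq_iff_inv hQ]
    exact h.infinite.orderPreserved hyg hg E hE Q
      ((Q.toValuationSubring.mem_or_inv_mem xb).resolve_left hQ)

end TwoCharts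

section Unique

variable {D : ReductionDatum A π F Fb} {x : F} {xb : Fb} {n : ℕ}
variable [HasPrincipalDivisors L F]

/-- Any reduction map respects the coordinate: zeros of `x - a` go to zeros of `xb - π a`, poles of
`x` to poles of `xb`. -/
theorem IsPlaceReduction.pos_of_pos {r : Place L F → Place k Fb} (hr : IsPlaceReduction D r)
    (h : TwoCharts D x xb n) (a : A) (P : Place L F) :
    (0 < P.ord (x - algebraMap L F a) →
      0 < (r P).ord (xb - algebraMap k Fb (π a))) ∧
    (P.ord x < 0 → (r P).ord xb < 0) := by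
  classical
  have hv := h.finite.coordGeneric.deg_one
  have hw := h.finite.coordSpecial.deg_one
  obtain ⟨Z, hZ, hZdeg⟩ := h.finite.coordGeneric.exists_zeros a
  obtain ⟨Zi, hZi, hZideg⟩ := h.infinite.coordGeneric.exists_zeros 0
  obtain ⟨Zb, hZb, hZbdeg⟩ := h.finite.coordSpecial.exists_zeros (π a)
  obtain ⟨Zbi, hZbi, hZbideg⟩ := h.infinite.coordSpecial.exists_zeros 0
  simp only [map_zero, sub_zero, Place.ord_inv] at hZi hZbi
  obtain ⟨E, hE⟩ := exists_isDivisorOf (L := L) (h.finite.sub_algebraMap_ne_zero (a : L))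
  have hneg : ∀ v : Place L F, v.ord x < 0 → v.ord (x - algebraMap L F a) = v.ord x := by
    intro v hneg
    have hxinv : 0 < v.ord x⁻¹ := by rw [v.ord_inv]; omega
    have hmem : x⁻¹ ∈ v.toValuationSubring := mem_of_ord_nonneg v hxinv.le
    have hu : 1 - algebraMap L F a * x⁻¹ ∈ v.toValuationSubring :=
      sub_mem (one_mem _) (mul_mem (v.algebraMap_mem' _) hmem)
    have hu1 : pval v (1 - algebraMap L F a * x⁻¹) = 1 := by
      rw [pval_sub (hv v) (one_mem _) (mul_mem (v.algebraMap_mem' _) hmem), pval_one (hv v),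
        pval_mul (hv v) (v.algebraMap_mem' _) hmem,
        (pval_eq_zero_iff (hv v) hmem).mpr (Or.inr hxinv), mul_zero, sub_zero]
    obtain ⟨hu0, huord⟩ := (pval_ne_zero_iff (hv v) hu).mp (hu1 ▸ one_ne_zero)
    have : x - algebraMap L F a = x * (1 - algebraMap L F a * x⁻¹) := by
      field_simp [h.coord_ne_zero]
    rw [this, v.ord_mul h.coord_ne_zero hu0, huord, add_zero]
  have hnegb : ∀ v : Place k Fb, v.ord xb < 0 →
      v.ord (xb - algebraMap k Fb (π a)) = v.ord xb := by
    intro v hneg
    have hxinv : 0 < v.ord xb⁻¹ := by rw [v.ord_inv]; omega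
    have hmem : xb⁻¹ ∈ v.toValuationSubring := mem_of_ord_nonneg v hxinv.le
    have hu : 1 - algebraMap k Fb (π a) * xb⁻¹ ∈ v.toValuationSubring :=
      sub_mem (one_mem _) (mul_mem (v.algebraMap_mem' _) hmem)
    have hu1 : pval v (1 - algebraMap k Fb (π a) * xb⁻¹) = 1 := by
      rw [pval_sub (hw v) (one_mem _) (mul_mem (v.algebraMap_mem' _) hmem), pval_one (hw v),
        pval_mul (hw v) (v.algebraMap_mem' _) hmem,
        (pval_eq_zero_iff (hw v) hmem).mpr (Or.inr hxinv), mul_zero, sub_zero]
    obtain ⟨hu0, huord⟩ := (pval_ne_zero_iff (hw v) hu).mp (hu1 ▸ one_ne_zero)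
    have : xb - algebraMap k Fb (π a) = xb * (1 - algebraMap k Fb (π a) * xb⁻¹) := by
      field_simp [h.special_coord_ne_zero]
    rw [this, v.ord_mul h.special_coord_ne_zero hu0, huord, add_zero]
  have hsplit : E = Z - Zi := Finsupp.ext fun v => by
    rw [Finsupp.sub_apply, hE v, hZ, hZi]
    rcases lt_or_ge (v.ord x) 0 with hl | hl
    · rw [hneg v hl]; omega
    · have : 0 ≤ v.ord (x - algebraMap L F a) :=
        ord_nonneg_of_mem v (sub_mem (mem_of_ord_nonneg v hl) (v.algebraMap_mem' _))
      omega
  have hred := h.finite.reduces.sub (D.reduces_algebraMap a)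
  have heq : ∀ Q, Finsupp.mapDomain r Zi Q = Finsupp.mapDomain r Z Q - Zb Q + Zbi Q := by
    intro Q
    have := hr _ _ hred (h.finite.special_sub_algebraMap_ne_zero (π a)) E hE Q
    rw [hsplit, Finsupp.mapDomain_sub, Finsupp.sub_apply] at this
    rw [hZb, hZbi]
    rcases lt_or_ge (Q.ord xb) 0 with hl | hl
    · rw [hnegb Q hl] at this ⊢; omega
    · have : 0 ≤ Q.ord (xb - algebraMap k Fb (π a)) :=
        ord_nonneg_of_mem Q (sub_mem (mem_of_ord_nonneg Q hl) (Q.algebraMap_mem' _))
      omega
  have hZnn : ∀ Q, 0 ≤ Finsupp.mapDomain r Z Q := fun Q => by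
    rw [mapDomain_apply_eq_sumOver]
    exact sumOver_nonneg fun v _ => by rw [hZ]; exact le_max_right _ _
  have hZinn : ∀ Q, 0 ≤ Finsupp.mapDomain r Zi Q := fun Q => by
    rw [mapDomain_apply_eq_sumOver]
    exact sumOver_nonneg fun v _ => by rw [hZi]; exact le_max_right _ _
  have hle : ∀ Q, Zbi Q ≤ Finsupp.mapDomain r Zi Q := by
    intro Q
    have h1 := heq Q
    have h2 := hZnn Q
    have h3 := hZinn Q
    rw [hZb, hZbi] at *
    rcases lt_or_ge (Q.ord xb) 0 with hl | hl
    · have h4 := hnegb Q hl
      omega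
    · omega
  have hdegeq : Divisor.degree (Finsupp.mapDomain r Zi - Zbi) = 0 := by
    rw [map_sub, hZbideg]
    have : Divisor.degree (Finsupp.mapDomain r Zi) = Divisor.degree Zi := by
      clear hle heq hZinn hZi hZideg hsplit
      induction Zi using Finsupp.induction with
      | zero => simp
      | single_add P m D' _ _ ih =>
        rw [Finsupp.mapDomain_add, map_add, map_add, ih, Finsupp.mapDomain_single,
          Divisor.degree_single, Divisor.degree_single, hw, hv]
    rw [this, hZideg, sub_self]
  have hzero : Finsupp.mapDomain r Zi = Zbi := by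
    rw [← sub_eq_zero]
    rw [degree_eq_sum hw] at hdegeq
    refine Finsupp.ext fun Q => ?_
    by_contra hne
    exact hne ((Finset.sum_eq_zero_iff_of_nonneg fun Q _ => by
      rw [Finsupp.sub_apply]; linarith [hle Q]).mp hdegeq Q (Finsupp.mem_support_iff.mpr hne))
  constructor
  · intro hpos
    by_contra hcon
    have h0 : Finsupp.mapDomain r Z (r P) = 0 := by
      have := heq (r P)
      rw [hzero, hZb, max_eq_right (not_lt.mp hcon)] at this
      omega
    have h1 : Z P ≤ 0 := by
      rw [← h0, mapDomain_apply_eq_sumOver]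
      exact le_sumOver (fun v _ => by rw [hZ]; exact le_max_right _ _) rfl
    rw [hZ] at h1
    omega
  · intro hlt
    have h1 : Zi P ≤ Finsupp.mapDomain r Zi (r P) := by
      rw [mapDomain_apply_eq_sumOver]
      exact le_sumOver (fun v _ => by rw [hZi]; exact le_max_right _ _) rfl
    rw [hzero, hZi, hZbi] at h1
    omega

/-- For an integral place `P`, `r P` is a finite place with the reduced coordinate. -/
theorem IsPlaceReduction.finite_of_isIntegralPlace {r : Place L F → Place k Fb}
    (hr : IsPlaceReduction D r) (h : TwoCharts D x xb n) {P : Place L F}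
    (hP : IsIntegralPlace A x P) : xb ∈ (r P).toValuationSubring := by
  have hv := h.finite.coordGeneric.deg_one P
  have := ((hr.pos_of_pos h ⟨_, hP.2⟩ P).1
    ((pval_sub_algebraMap hv hP.1).resolve_left (h.finite.sub_algebraMap_ne_zero _)))
  simpa using add_mem (mem_of_ord_nonneg _ this.le)
    ((r P).algebraMap_mem' (π ⟨pval P x, hP.2⟩))

theorem TwoCharts.swap (h : TwoCharts D x xb n) : TwoCharts D x⁻¹ xb⁻¹ n :=
  ⟨h.infinite, by rw [inv_inv, inv_inv]; exact h.finite⟩

theorem IsPlaceReduction.infinite_of_not_isIntegralPlace {r : Place L F → Place k Fb}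
    (hr : IsPlaceReduction D r) (h : TwoCharts D x xb n) {P : Place L F}
    (hP : ¬IsIntegralPlace A x P) : xb ∉ (r P).toValuationSubring := by
  intro hmem
  obtain ⟨hI, hπ⟩ := h.inv_of_not_isIntegralPlace hP
  have hv := h.finite.coordGeneric.deg_one P
  have := (hr.pos_of_pos h.swap ⟨_, hI.2⟩ P).1
    ((pval_sub_algebraMap hv hI.1).resolve_left (h.infinite.sub_algebraMap_ne_zero _))
  rw [hπ _ rfl, map_zero, sub_zero, Place.ord_inv] at this
  have := ord_nonneg_of_mem _ hmem
  omega

/-- The key step of uniqueness, on one chart. -/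
theorem IsPlaceReduction.eq_of_specializes {r : Place L F → Place k Fb}
    (hr : IsPlaceReduction D r) (h : TwoCharts D x xb n) {P : Place L F} {Q : Place k Fb}
    (hQ : Specializes D x xb P Q) : r P = Q := by
  by_contra hne
  have hv := h.finite.coordGeneric.deg_one P
  have hfin := hr.finite_of_isIntegralPlace h hQ.1
  obtain ⟨f, hf, s, hfs, hs, -, h0, h1⟩ :=
    h.finite.exists_separating hQ.2.1 hfin (Ne.symm hne)
  have hsd := h.finite.coordSpecial.deg_one (r P)
  obtain ⟨hs0, hs1⟩ := (pval_ne_zero_iff hsd (mem_place_of_mem_coordRing k xb _ hfin hs)).mp h1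
  have hπ : π ⟨pval P f, h.finite.pval_mem hQ.1 hf⟩ = 0 :=
    (hQ.2.2 f hf s hfs _ rfl).symm.trans h0
  have hred : D.Reduces (f - algebraMap L F (pval P f)) s := by
    have := hfs.sub (D.reduces_algebraMap ⟨pval P f, h.finite.pval_mem hQ.1 hf⟩)
    rwa [hπ, map_zero, sub_zero] at this
  have hy0 := hred.ne_zero hs0
  obtain ⟨E, hE⟩ := exists_isDivisorOf (L := L) hy0
  have heq := hr _ _ hred hs0 E hE (r P)
  rw [hs1, mapDomain_apply_eq_sumOver] at heq
  have hnn : ∀ v, r v = r P → 0 ≤ E v := fun v hv' => by
    have hvI : IsIntegralPlace A x v :=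
      by_contra fun hcon => hr.infinite_of_not_isIntegralPlace h hcon (hv' ▸ hfin)
    rw [hE]
    exact ord_nonneg_of_mem v (sub_mem (h.finite.mem_place hvI hf) (v.algebraMap_mem' _))
  have hpos : 0 < E P := by
    rw [hE]
    exact (pval_sub_algebraMap hv (h.finite.mem_place hQ.1 hf)).resolve_left hy0
  have : E P ≤ sumOver (fun v => r v = r P) E := le_sumOver hnn rfl
  omega

/-- The reduction of places is unique. -/
theorem TwoCharts.eq_redPlace {r : Place L F → Place k Fb} (h : TwoCharts D x xb n)
    (hr : IsPlaceReduction D r) : r = h.redPlace := by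
  funext P
  by_cases hP : IsIntegralPlace A x P
  · exact hr.eq_of_specializes h (h.redPlace_finite hP)
  · exact hr.eq_of_specializes h.swap (h.redPlace_infinite hP).1

/-- Equivariance of the reduction of places under a compatible pair of semilinear symmetries. -/
theorem TwoCharts.redPlace_semilinear [IsAlgClosed L] (h : TwoCharts D x xb n)
    (σ : SemilinearAut L F) (τ : SemilinearAut k Fb)
    (hστ : ∀ y g, D.Reduces y g → D.Reduces (σ • y) (τ • g)) (P : Place L F) :
    h.redPlace (σ • P) = τ • h.redPlace P := by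
  have hr : IsPlaceReduction D (fun v => τ⁻¹ • h.redPlace (σ • v)) := by
    intro y g hyg hg E hE Q
    have hg' : τ • g ≠ 0 := by simpa using hg
    have hE' : IsDivisorOf (Finsupp.mapDomain (fun v : Place L F => σ • v) E) (σ • y) := by
      intro v
      obtain ⟨w, rfl⟩ : ∃ w : Place L F, σ • w = v := ⟨σ⁻¹ • v, smul_inv_smul σ v⟩
      rw [Finsupp.mapDomain_apply (MulAction.injective σ) E w, SemilinearAut.ord_smul σ w y, hE w]
    have := h.isPlaceReduction_redPlace (σ • y) (τ • g) (hστ y g hyg) hg' _ hE' (τ • Q)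
    rw [← Finsupp.mapDomain_comp, SemilinearAut.ord_smul] at this
    rw [← this]
    have hcomp : (fun v : Place L F => τ⁻¹ • h.redPlace (σ • v)) =
        (fun w => τ⁻¹ • w) ∘ (h.redPlace ∘ fun v : Place L F => σ • v) := rfl
    conv_lhs => rw [hcomp, Finsupp.mapDomain_comp, ← inv_smul_smul τ Q,
      Finsupp.mapDomain_apply (MulAction.injective τ⁻¹)]
  have := congrFun (h.eq_redPlace hr) P
  rw [← this, smul_inv_smul]

end Unique

end Fermat.Agent.RED
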