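import Fermat.Agent.RED.ChartBounded
import Fermat.Agent.RED.CoordDataFF
import Fermat.Agent.RED.PlaceReductionGlobal

/-!
# Two charts from a lifted basis and the lifting property
-/

set_option autoImplicit false

noncomputable section

open Polynomial IntermediateField

namespace Fermat.Agent.RED

section General

variable {K E : Type*} [Field K] [Field E] [Algebra K E] {x : E} {ι : Type*} [Fintype ι]

theorem aeval_reflect (hx : x ≠ 0) (p : K[X]) {N : ℕ} (hp : p.natDegree ≤ N) :
    Polynomial.aeval x⁻¹ (p.reflect N) = Polynomial.aeval x p * (x ^ N)⁻¹ := by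
  haveI : Invertible x := invertibleOfNonzero hx
  have h := Polynomial.eval₂_reflect_mul_pow (algebraMap K E) x N p hp
  rw [invOf_eq_inv] at h
  rw [Polynomial.aeval_def, Polynomial.aeval_def, ← h, mul_inv_cancel_right₀ (pow_ne_zero N hx)]

/-- An element and its inverse have the same polynomial relations. -/
theorem polyIndependent_inv (hx : x ≠ 0) (b : ι → E)
    (h : ∀ p : ι → K[X], ∑ i, Polynomial.aeval x (p i) * b i = 0 → ∀ i, p i = 0)
    (p : ι → K[X]) (hp : ∑ i, Polynomial.aeval x⁻¹ (p i) * b i = 0) : ∀ i, p i = 0 := by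
  classical
  set N := Finset.univ.sup fun i => (p i).natDegree
  have hN : ∀ i, (p i).natDegree ≤ N := fun i =>
    Finset.le_sup (f := fun i => (p i).natDegree) (Finset.mem_univ i)
  refine fun i => Polynomial.reflect_eq_zero_iff.mp (h (fun i => (p i).reflect N) ?_ i)
  have hterm : ∀ i, Polynomial.aeval x ((p i).reflect N) * b i =
      ((x⁻¹) ^ N)⁻¹ * (Polynomial.aeval x⁻¹ (p i) * b i) := fun i => by
    have := aeval_reflect (inv_ne_zero hx) (p i) (hN i)
    rw [inv_inv] at this
    rw [this]; ring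
  rw [Finset.sum_congr rfl fun i _ => hterm i, ← Finset.mul_sum, hp, mul_zero]

theorem polySpan_inv (hx : x ≠ 0) (b : ι → E)
    (h : ∀ f : E, ∃ q : K[X], q ≠ 0 ∧ ∃ p : ι → K[X],
      Polynomial.aeval x q * f = ∑ i, Polynomial.aeval x (p i) * b i)
    (f : E) : ∃ q : K[X], q ≠ 0 ∧ ∃ p : ι → K[X],
      Polynomial.aeval x⁻¹ q * f = ∑ i, Polynomial.aeval x⁻¹ (p i) * b i := by
  classical
  obtain ⟨q, hq, p, hp⟩ := h f
  set N := q.natDegree + Finset.univ.sup fun i => (p i).natDegree
  have hN : ∀ i, (p i).natDegree ≤ N := fun i =>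
    (Finset.le_sup (f := fun i => (p i).natDegree) (Finset.mem_univ i)).trans (Nat.le_add_left _ _)
  refine ⟨q.reflect N, mt Polynomial.reflect_eq_zero_iff.mp hq, fun i => (p i).reflect N, ?_⟩
  rw [aeval_reflect hx q (Nat.le_add_right _ _), mul_right_comm, hp, Finset.sum_mul]
  exact Finset.sum_congr rfl fun i _ => by rw [aeval_reflect hx (p i) (hN i)]; ring

/-- A polynomially spanning independent family is a basis over `K(x)`. -/
theorem finiteDimensional_and_finrank (hx : Transcendental K x) (b : ι → E)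
    (hind : ∀ p : ι → K[X], ∑ i, Polynomial.aeval x (p i) * b i = 0 → ∀ i, p i = 0)
    (hspan : ∀ f : E, ∃ q : K[X], q ≠ 0 ∧ ∃ p : ι → K[X],
      Polynomial.aeval x q * f = ∑ i, Polynomial.aeval x (p i) * b i) :
    FiniteDimensional K⟮x⟯ E ∧ Module.finrank K⟮x⟯ E = Fintype.card ι := by
  have hli := FF.linearIndependent_adjoin_of_polynomial hx b hind
  have hmem : ∀ p : K[X], Polynomial.aeval x p ∈ K⟮x⟯ := fun p => by
    have := (Algebra.adjoin_singleton_eq_range_aeval K x).ge ⟨p, rfl⟩
    exact IntermediateField.algebra_adjoin_le_adjoin K _ this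
  have hsp : ⊤ ≤ Submodule.span K⟮x⟯ (Set.range b) := by
    rintro f -
    obtain ⟨q, hq, p, hp⟩ := hspan f
    have hq0 : Polynomial.aeval x q ≠ 0 := fun e => hx ⟨q, hq, e⟩
    have hf : f = ∑ i, (⟨_, hmem (p i)⟩ * (⟨_, hmem q⟩)⁻¹ : K⟮x⟯) • b i := by
      simp only [IntermediateField.smul_def, smul_eq_mul, MulMemClass.coe_mul,
        IntermediateField.coe_inv]
      rw [← mul_right_inj' hq0, hp, Finset.mul_sum]
      exact Finset.sum_congr rfl fun i _ => by field_simp
    rw [hf]
    exact Submodule.sum_mem _ fun i _ => Submodule.smul_mem _ _ (Submodule.subset_span ⟨i, rfl⟩)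
  let B := Module.Basis.mk hli hsp
  exact ⟨Module.Finite.of_basis B, Module.finrank_eq_card_basis B⟩

end General

variable {L k : Type*} [Field L] [Field k] {F Fb : Type*} [Field F] [Field Fb] [Algebra L F]
  [Algebra k Fb] {A : ValuationSubring L} {π : A →+* k} {D : ReductionDatum A π F Fb}
  {x : F} {xb : Fb} {ι : Type*} [Fintype ι]

theorem transcendental_of_reduces (hx : D.Reduces x xb) (hxb : Transcendental k xb) :
    Transcendental L x := by
  rintro ⟨r, hr, hr'⟩
  obtain ⟨c, R, -, hR, u, -, hRπ⟩ :=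
    exists_scale_polynomials π ({()} : Finset Unit) (fun _ => r)
      ⟨(), Finset.mem_singleton_self _, hr⟩
  refine hxb ⟨_, hRπ, (reduces_intEval hx (R u)).unique ?_⟩
  rw [← aeval_map_subtype, hR u (by cases u; exact Finset.mem_singleton_self _), map_mul, hr',
    mul_zero]
  exact D.reduces_zero

namespace LiftedBasis

variable (B : LiftedBasis D x xb ι)

/-- The lifted family is independent. -/
theorem independent_generic (hx : D.Reduces x xb) (p : ι → L[X])
    (hp : ∑ i, Polynomial.aeval x (p i) * B.b i = 0) : ∀ i, p i = 0 := by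
  classical
  by_contra h
  push Not at h
  obtain ⟨i₀, hi₀⟩ := h
  obtain ⟨c, P, -, hP, i₁, -, hi₁⟩ :=
    exists_scale_polynomials π Finset.univ p ⟨i₀, Finset.mem_univ _, hi₀⟩
  refine hi₁ (B.independent (fun i => (P i).map π) ?_ i₁)
  have hred : D.Reduces (∑ i, intEval A x (P i) * B.b i)
      (∑ i, Polynomial.aeval xb ((P i).map π) * B.bb i) :=
    ReductionDatum.Reduces.sum fun i _ => (reduces_intEval hx _).mul (B.reduces i)
  refine hred.unique ?_
  have : ∑ i, intEval A x (P i) * B.b i =
      algebraMap L F c * ∑ i, Polynomial.aeval x (p i) * B.b i := by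
    rw [Finset.mul_sum]
    refine Finset.sum_congr rfl fun i _ => ?_
    rw [← aeval_map_subtype, hP i (Finset.mem_univ _), map_mul, Polynomial.aeval_C]
    ring
  rw [this, hp, mul_zero]
  exact D.reduces_zero

/-- The lifted basis for the inverse coordinate. -/
def invCoord (hx0 : x ≠ 0) (hxb0 : xb ≠ 0) : LiftedBasis D x⁻¹ xb⁻¹ ι where
  b := B.b
  bb := B.bb
  reduces := B.reduces
  independent := polyIndependent_inv hxb0 B.bb B.independent
  spans := polySpan_inv hx0 B.b B.spans

end LiftedBasis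

/-- Both fields are function fields and the two charts exist, given the lifting property. -/
theorem twoCharts_of_liftedBasis [IsAlgClosed L] [IsAlgClosed k] (B : LiftedBasis D x xb ι)
    (hx : D.Reduces x xb) (hxb : Transcendental k xb)
    (hspanb : ∀ g : Fb, ∃ q : k[X], q ≠ 0 ∧ ∃ p : ι → k[X],
      Polynomial.aeval xb q * g = ∑ i, Polynomial.aeval xb (p i) * B.bb i)
    (hlift : ∀ g ∈ coordRing k xb, ∃ f ∈ coordRing L x, D.Reduces f g)
    (hliftInv : ∀ g ∈ coordRing k xb⁻¹, ∃ f ∈ coordRing L x⁻¹, D.Reduces f g) :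
    FF.IsFunctionField L F ∧ FF.IsFunctionField k Fb ∧ TwoCharts D x xb (Fintype.card ι) := by
  have hxt := transcendental_of_reduces hx hxb
  have hx0 : x ≠ 0 := fun e => hxt (e ▸ isAlgebraic_zero)
  have hxb0 : xb ≠ 0 := fun e => hxb (e ▸ isAlgebraic_zero)
  have hxbi : Transcendental k xb⁻¹ := fun h => hxb (by simpa using h.inv)
  have hxi := hx.inv hxb0
  have hxti := transcendental_of_reduces hxi hxbi
  set B' := B.invCoord hx0 hxb0 with hB'
  obtain ⟨hfF, hrF⟩ := finiteDimensional_and_finrank hxt B.b (B.independent_generic hx) B.spans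
  obtain ⟨hfb, hrb⟩ := finiteDimensional_and_finrank hxb B.bb B.independent hspanb
  obtain ⟨-, hrFi⟩ := finiteDimensional_and_finrank hxti B'.b (B'.independent_generic hxi) B'.spans
  obtain ⟨-, hrbi⟩ := finiteDimensional_and_finrank hxbi B'.bb B'.independent
    (polySpan_inv hxb0 B.bb hspanb)
  haveI iF : FF.IsFunctionField L F := ⟨x, hxt, hfF⟩
  haveI ib : FF.IsFunctionField k Fb := ⟨xb, hxb, hfb⟩
  refine ⟨iF, ib, ⟨?_, ?_⟩⟩
  · refine ⟨hx, coordData_of_functionField hxt hrF, coordData_of_functionField hxb hrb,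
      fun f hf hfO => B.mem_intRing hx hxb hxt hf hfO, fun g hg => ?_⟩
    obtain ⟨f, hf, hfg⟩ := hlift g hg
    exact ⟨f, B.mem_intRing hx hxb hxt hf hfg.mem, hfg⟩
  · refine ⟨hxi, coordData_of_functionField hxti hrFi, coordData_of_functionField hxbi hrbi,
      fun f hf hfO => B'.mem_intRing hxi hxbi hxti hf hfO, fun g hg => ?_⟩
    obtain ⟨f, hf, hfg⟩ := hliftInv g hg
    exact ⟨f, B'.mem_intRing hxi hxbi hxti hf hfg.mem, hfg⟩

end Fermat.Agent.RED
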