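import Fermat.Agent.RED.ConstRed
import Fermat.Agent.RED.TwoChartsOfBasis

/-!
# From a constant reduction with parameter to the two charts
-/

set_option autoImplicit false

noncomputable section

open Polynomial IntermediateField

namespace Fermat.Agent.RED

variable {L k : Type*} [Field L] [Field k] {A : ValuationSubring L} {π : A →+* k}
variable {F Fb : Type*} [Field F] [Field Fb] [Algebra L F] [Algebra k Fb]

/-- A basis over `K(x)` spans with polynomial coefficients after clearing denominators. -/
theorem polySpan_of_span {K E : Type*} [Field K] [Field E] [Algebra K E] {x : E}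
    (hx : Transcendental K x) {ι : Type*} [Fintype ι] (b : ι → E)
    (hb : ⊤ ≤ Submodule.span K⟮x⟯ (Set.range b)) (f : E) :
    ∃ q : K[X], q ≠ 0 ∧ ∃ p : ι → K[X],
      Polynomial.aeval x q * f = ∑ i, Polynomial.aeval x (p i) * b i := by
  classical
  obtain ⟨g, hg⟩ := (Submodule.mem_span_range_iff_exists_fun K⟮x⟯).mp (hb (Submodule.mem_top (x := f)))
  have hrep : ∀ i, ∃ r s : K[X], s ≠ 0 ∧ (g i : E) = aeval x r / aeval x s := by
    intro i
    obtain ⟨r, s, hrs⟩ := (mem_adjoin_simple_iff (F := K) (g i : E)).mp (g i).2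
    rcases eq_or_ne s 0 with rfl | hs
    · exact ⟨0, 1, one_ne_zero, by simp [hrs]⟩
    · exact ⟨r, s, hs, hrs⟩
  choose r s hs hrs using hrep
  have hsx : ∀ i, aeval x (s i) ≠ 0 := fun i h0 => hs i (transcendental_iff.mp hx _ h0)
  refine ⟨∏ i, s i, Finset.prod_ne_zero_iff.mpr fun i _ => hs i,
    fun i => r i * ∏ j ∈ Finset.univ.erase i, s j, ?_⟩
  rw [← hg, Finset.mul_sum, map_prod]
  refine Finset.sum_congr rfl fun i hi => ?_
  rw [IntermediateField.smul_def, smul_eq_mul, map_mul, map_prod, ← Finset.mul_prod_erase _ _ hi,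
    hrs i]
  field_simp [hsx i]

namespace ConstRed

variable (R : ConstRed A π F Fb)

/-- The same data as a `ReductionDatum`. -/
def toDatum : ReductionDatum A π F Fb where
  O := R.W
  red := R.red
  surjective_π := R.surjective_π
  algebraMap_mem := R.algebraMap_mem
  red_algebraMap := R.red_algebraMap'
  scale f hf := by
    obtain ⟨c, w, hc, hw, rfl⟩ := R.exists_scale hf
    have h : algebraMap L F c⁻¹ * (algebraMap L F c * (w : F)) = w := by
      rw [← mul_assoc, ← map_mul, inv_mul_cancel₀ hc, map_one, one_mul]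
    refine ⟨c⁻¹, h.symm ▸ w.2, ?_⟩
    convert hw using 3

@[simp]
theorem toDatum_O : R.toDatum.O = R.W := rfl

theorem reduces_iff {f : F} {g : Fb} :
    R.toDatum.Reduces f g ↔ ∃ h : f ∈ R.W, R.red ⟨f, h⟩ = g := Iff.rfl

theorem reduces_coe (w : R.W) : R.toDatum.Reduces (w : F) (R.red w) := ⟨w.2, rfl⟩

/-- A parameter gives a lifted basis. -/
theorem exists_liftedBasis {X : R.W} (hX : R.Param X) :
    ∃ B : LiftedBasis R.toDatum (X : F) (R.red X) (Fin (Module.finrank k⟮R.red X⟯ Fb)),
      ∀ g : Fb, ∃ q : k[X], q ≠ 0 ∧ ∃ p : Fin (Module.finrank k⟮R.red X⟯ Fb) → k[X],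
        Polynomial.aeval (R.red X) q * g = ∑ i, Polynomial.aeval (R.red X) (p i) * B.bb i := by
  classical
  haveI := hX.finite_red
  haveI := hX.finite
  let bk := Module.finBasis k⟮R.red X⟯ Fb
  choose e he using fun i => R.red_surjective (bk i)
  have hind : LinearIndependent k⟮R.red X⟯ fun i => R.red (e i) := by
    simpa only [he] using bk.linearIndependent
  have hspan := (R.linearIndependent_of_red hX.transcendental hind).span_eq_top_of_card_eq_finrank'
    (by rw [Fintype.card_fin, hX.finrank_eq])
  refine ⟨{ b := fun i => (e i : F)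
            bb := fun i => bk i
            reduces := fun i => ⟨(e i).2, he i⟩
            independent := fun p hp => ?_
            spans := polySpan_of_span (R.transcendental_of_red hX.transcendental) _ hspan.ge },
    polySpan_of_span hX.transcendental _ bk.span_eq.ge⟩
  intro i
  let y : k⟮R.red X⟯ := ⟨R.red X, mem_adjoin_simple_self k _⟩
  have h2 := Fintype.linearIndependent_iff.mp bk.linearIndependent (fun i => aeval y (p i)) (by
    rw [← hp]
    refine Finset.sum_congr rfl fun i _ => ?_
    show (algebraMap k⟮R.red X⟯ Fb (aeval y (p i))) * _ = _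
    rw [← aeval_algebraMap_apply]
    rfl) i
  refine (transcendental_iff.mp hX.transcendental) _ ?_
  have := congrArg (algebraMap k⟮R.red X⟯ Fb) h2
  rwa [← aeval_algebraMap_apply, map_zero] at this

/-- Integral over `L[X]` and in `W` implies integral over `A[X]`. -/
theorem mem_intRing {X : R.W} (hX : R.Param X) {f : F} (hf : f ∈ coordRing L (X : F))
    (hfW : f ∈ R.W) : f ∈ intRing A (X : F) := by
  obtain ⟨B, -⟩ := R.exists_liftedBasis hX
  exact B.mem_intRing (R.reduces_coe X) hX.transcendental
    (R.transcendental_of_red hX.transcendental) hf hfW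

/-- Function fields and charts from a parameter and the lifting property. -/
theorem twoCharts [IsAlgClosed L] [IsAlgClosed k] {X : R.W} (hX : R.Param X)
    (hlift : ∀ g ∈ coordRing k (R.red X), ∃ f ∈ coordRing L (X : F), R.toDatum.Reduces f g)
    (hliftInv : ∀ g ∈ coordRing k (R.red X)⁻¹,
      ∃ f ∈ coordRing L (X : F)⁻¹, R.toDatum.Reduces f g) :
    FF.IsFunctionField L F ∧ FF.IsFunctionField k Fb ∧
      TwoCharts R.toDatum (X : F) (R.red X) (Module.finrank k⟮R.red X⟯ Fb) := by
  obtain ⟨B, hB⟩ := R.exists_liftedBasis hX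
  simpa only [Fintype.card_fin] using
    twoCharts_of_liftedBasis B (R.reduces_coe X) hX.transcendental hB hlift hliftInv

end ConstRed

end Fermat.Agent.RED
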