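import Fermat.Agent.RED.PlaceReductionGlobal
import Fermat.Agent.RED.Specialization.FrobSeries
import Fermat.Agent.RED.ConstRedDatum
import Fermat.Agent.RED.LaurentRed
import Fermat.Prelude.Def_ModularCurve_ReductionModL

/-!
# Reduction of places of `X₀(N)`

Translation between `ReductionDatum` and the statements about coefficientwise reduction of Laurent
series: existence of reduction inputs, uniqueness of the reduction of places, and Galois
equivariance of the reduction on `Pic⁰`.
-/

set_option autoImplicit false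
set_option linter.unusedSectionVars false

noncomputable section

open AlgebraicCurve ModularCurve

namespace Fermat.Agent.RED

variable {L : Type*} [Field L] [Algebra ℚ L] {A : ValuationSubring L}
variable {k : Type*} [Field k] {π : A →+* k} {N : ℕ}

/-- The reduction is induced by reduction of coefficients of `q`-expansions: integral series of
the field reduce coefficientwise, and everything of `D.O` is a quotient of such series. (An element
of `D.O` need not have integral coefficients itself, e.g. `1/(a j - 1)` for `a ∈ 𝔪`.) -/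
structure IsCoefficientwise
    (D : ReductionDatum A π (laurentBaseChange L (modularFunctionFieldFull N))
      (modularFunctionFieldFullC k N)) : Prop where
  mem : ∀ (Y : LaurentSeries A)
    (hY : coeffMap A.subtype Y ∈ laurentBaseChange L (modularFunctionFieldFull N)),
      ∃ g : modularFunctionFieldFullC k N, (g : LaurentSeries k) = coeffMap π Y ∧
        D.Reduces ⟨coeffMap A.subtype Y, hY⟩ g
  frac : ∀ (f : laurentBaseChange L (modularFunctionFieldFull N))
    (g : modularFunctionFieldFullC k N), D.Reduces f g →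
      ∃ (Y Z : LaurentSeries A)
        (_ : coeffMap A.subtype Y ∈ laurentBaseChange L (modularFunctionFieldFull N))
        (hZ : coeffMap A.subtype Z ∈ laurentBaseChange L (modularFunctionFieldFull N)),
        coeffMap π Z ≠ 0 ∧ (f : LaurentSeries L) * coeffMap A.subtype Z = coeffMap A.subtype Y

/-- The Gauss reduction of Laurent series is coefficientwise. -/
theorem isCoefficientwise_of_good
    {y₀ : pairs π (laurentBaseChange L (modularFunctionFieldFull N))
      (modularFunctionFieldFullC k N)}
    (h : (laurentMaps π (laurentBaseChange L (modularFunctionFieldFull N))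
      (modularFunctionFieldFullC k N)).Good y₀) :
    IsCoefficientwise h.constRed.toDatum where
  mem Y hY := by
    obtain ⟨hw, hwY⟩ := LaurentPair.exists_mem_of_coeffMap_mem h hY
    exact ⟨_, hwY, hw, rfl⟩
  frac f g hfg := by
    obtain ⟨hf, -⟩ := hfg
    obtain ⟨y, z, hz, heq, -⟩ := h.exists_pairs_of_mem hf
    refine ⟨y, z, y.2.1, z.2.1, fun e => hz (Subtype.ext e), ?_⟩
    exact congrArg (fun e : laurentBaseChange L (modularFunctionFieldFull N) =>
      (e : LaurentSeries L)) heq

variable {D : ReductionDatum A π (laurentBaseChange L (modularFunctionFieldFull N))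
  (modularFunctionFieldFullC k N)}
  {x : laurentBaseChange L (modularFunctionFieldFull N)} {xb : modularFunctionFieldFullC k N}
  {n : ℕ}

/-- An element with integral coefficients reduces coefficientwise. -/
theorem IsCoefficientwise.reduces (hD : IsCoefficientwise D) {Y : LaurentSeries A}
    {f : laurentBaseChange L (modularFunctionFieldFull N)} {g : modularFunctionFieldFullC k N}
    (hf : (f : LaurentSeries L) = coeffMap A.subtype Y) (hg : (g : LaurentSeries k) = coeffMap π Y) :
    D.Reduces f g := by
  obtain ⟨g', hg', h⟩ := hD.mem Y (hf ▸ f.2)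
  rwa [show f = ⟨coeffMap A.subtype Y, hf ▸ f.2⟩ from Subtype.ext hf,
    show g = g' from Subtype.ext (hg.trans hg'.symm)]

/-- Quotient presentation of a reduction. -/
theorem IsCoefficientwise.exists_frac (hD : IsCoefficientwise D)
    {f : laurentBaseChange L (modularFunctionFieldFull N)} {g : modularFunctionFieldFullC k N}
    (hfg : D.Reduces f g) :
    ∃ (Y Z : LaurentSeries A) (hY : coeffMap A.subtype Y ∈ laurentBaseChange L (modularFunctionFieldFull N))
      (hZ : coeffMap A.subtype Z ∈ laurentBaseChange L (modularFunctionFieldFull N))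
      (gY gZ : modularFunctionFieldFullC k N),
      (gY : LaurentSeries k) = coeffMap π Y ∧ (gZ : LaurentSeries k) = coeffMap π Z ∧ gZ ≠ 0 ∧
      D.Reduces ⟨_, hY⟩ gY ∧ D.Reduces ⟨_, hZ⟩ gZ ∧
      f * ⟨_, hZ⟩ = ⟨_, hY⟩ ∧ g * gZ = gY := by
  obtain ⟨Y, Z, hY, hZ, hZ0, heq⟩ := hD.frac f g hfg
  obtain ⟨gY, hgY, hYr⟩ := hD.mem Y hY
  obtain ⟨gZ, hgZ, hZr⟩ := hD.mem Z hZ
  have hfz : f * (⟨_, hZ⟩ : laurentBaseChange L (modularFunctionFieldFull N)) = ⟨_, hY⟩ :=
    Subtype.ext heq
  exact ⟨Y, Z, hY, hZ, gY, gZ, hgY, hgZ, fun e => hZ0 (by rw [← hgZ, e]; rfl), hYr, hZr, hfz,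
    (hfz ▸ hfg.mul hZr).unique hYr⟩

theorem isPlaceReduction_of_along [HasPrincipalDivisors L
      (laurentBaseChange L (modularFunctionFieldFull N))]
    (hD : IsCoefficientwise D)
    {r : Place L (laurentBaseChange L (modularFunctionFieldFull N)) →
      Place k (modularFunctionFieldFullC k N)}
    (hr : IsPlaceReductionAlong A π N r) : IsPlaceReduction D r := by
  intro f g hfg hg E hE Q
  obtain ⟨Y, Z, hY, hZ, gY, gZ, hgY, hgZ, hgZ0, hYr, hZr, hfz, hgz⟩ := hD.exists_frac hfg
  have hgY0 : gY ≠ 0 := hgz ▸ mul_ne_zero hg hgZ0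
  have hf0 := hfg.ne_zero hg
  have hZ0 := hZr.ne_zero hgZ0
  obtain ⟨EZ, hEZ⟩ := exists_isDivisorOf (L := L) hZ0
  have hEY : IsDivisorOf (E + EZ) (⟨_, hY⟩ : laurentBaseChange L (modularFunctionFieldFull N)) :=
    hfz ▸ isDivisorOf_mul hE hEZ hf0 hZ0
  have h1 := hr.2 Y hY (hgY ▸ gY.2) (fun e => hgY0 (Subtype.ext (hgY.trans e))) (E + EZ) hEY Q
  have h2 := hr.2 Z hZ (hgZ ▸ gZ.2) (fun e => hgZ0 (Subtype.ext (hgZ.trans e))) EZ hEZ Q
  rw [show (⟨coeffMap π Y, hgY ▸ gY.2⟩ : modularFunctionFieldFullC k N) = g * gZ from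
      Subtype.ext (hgY.symm.trans (congrArg Subtype.val hgz.symm)),
    Finsupp.mapDomain_add, Finsupp.add_apply, Q.ord_mul hg hgZ0, h2,
    show (⟨coeffMap π Z, hgZ ▸ gZ.2⟩ : modularFunctionFieldFullC k N) = gZ from
      Subtype.ext hgZ.symm] at h1
  omega

theorem principalGeneratedByIntegral [HasPrincipalDivisors L
      (laurentBaseChange L (modularFunctionFieldFull N))]
    (hD : IsCoefficientwise D) : PrincipalGeneratedByIntegral A π N := by
  rintro E ⟨f, hf, hE⟩
  obtain ⟨c, g, hc, hg, hred⟩ := D.exists_scale hf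
  obtain ⟨Y, Z, hY, hZ, gY, gZ, hgY, hgZ, hgZ0, -, hZr, hfz, hgz⟩ := hD.exists_frac hred
  have hgY0 : gY ≠ 0 := hgz ▸ mul_ne_zero hg hgZ0
  obtain ⟨EZ, hEZ⟩ := exists_isDivisorOf (L := L) (hZr.ne_zero hgZ0)
  have hcf : IsDivisorOf E
      (algebraMap L (laurentBaseChange L (modularFunctionFieldFull N)) c * f) := fun P => by
    rw [hE P, P.ord_mul (by simpa using hc) hf, ord_algebraMap', zero_add]
  have hEY : IsDivisorOf (E + EZ) (⟨_, hY⟩ : laurentBaseChange L (modularFunctionFieldFull N)) :=
    hfz ▸ isDivisorOf_mul hcf hEZ (hred.ne_zero hg) (hZr.ne_zero hgZ0)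
  have h1 : E + EZ ∈ AddSubgroup.closure (integralPrincipalDivisors A π N) :=
    AddSubgroup.subset_closure
      ⟨Y, hY, hgY ▸ gY.2, fun e => hgY0 (Subtype.ext (hgY.trans e)), hEY⟩
  have h2 : EZ ∈ AddSubgroup.closure (integralPrincipalDivisors A π N) :=
    AddSubgroup.subset_closure
      ⟨Z, hZ, hgZ ▸ gZ.2, fun e => hgZ0 (Subtype.ext (hgZ.trans e)), hEZ⟩
  simpa using sub_mem h1 h2

variable [IsAlgClosed L] [HasPrincipalDivisors L (laurentBaseChange L (modularFunctionFieldFull N))]

theorem isPlaceReductionAlong_redPlace (hD : IsCoefficientwise D) (h : TwoCharts D x xb n) :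
    IsPlaceReductionAlong A π N h.redPlace := by
  refine ⟨h.deg_redPlace, fun Y hy hyk hne E hE Q => ?_⟩
  exact h.isPlaceReduction_redPlace _ _ (hD.reduces rfl rfl)
    (fun e => hne (congrArg Subtype.val e)) E hE Q

theorem reductionInputsAlong (hD : IsCoefficientwise D) (h : TwoCharts D x xb n) :
    ReductionInputsAlong A π N :=
  ⟨h.redPlace, isPlaceReductionAlong_redPlace hD h, principalGeneratedByIntegral hD⟩

theorem choose_eq_redPlace (hD : IsCoefficientwise D) (h : TwoCharts D x xb n)
    (hin : ReductionInputsAlong A π N) : hin.choose = h.redPlace :=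
  h.eq_redPlace (isPlaceReduction_of_along hD hin.choose_spec.1)

theorem reductionAlong_mk_redPlace (hD : IsCoefficientwise D) (h : TwoCharts D x xb n)
    (E : Divisor.degZero (K := L) (F := laurentBaseChange L (modularFunctionFieldFull N))) :
    reductionAlong A π N (Pic0.mk E) =
      Pic0.mk (reductionDegZeroAlong h.redPlace h.deg_redPlace E) := by
  have hin := reductionInputsAlong hD h
  rw [reductionAlong_mk hin]
  refine congrArg Pic0.mk (Subtype.ext ?_)
  rw [coe_reductionDegZeroAlong, coe_reductionDegZeroAlong, choose_eq_redPlace hD h hin]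

section Galois

variable {σ : L ≃ₐ[ℚ] L} {φ : k ≃+* k}

theorem reduces_smul (hD : IsCoefficientwise D)
    (hA : ∀ a : A, σ (a : L) ∈ A) (hφ : ∀ a : A, π ⟨σ (a : L), hA a⟩ = φ (π a))
    {y : laurentBaseChange L (modularFunctionFieldFull N)} {g : modularFunctionFieldFullC k N}
    (hyg : D.Reduces y g) :
    D.Reduces (arithmeticGalois (modularFunctionFieldFull N) σ • y) (Spec.coeffAut N φ • g) := by
  obtain ⟨Y, Z, hY, hZ, gY, gZ, hgY, hgZ, hgZ0, -, hZr, hfz, hgz⟩ := hD.exists_frac hyg
  let σA : A →+* A := ((σ : L →+* L).comp A.subtype).codRestrict A.toSubring hA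
  have key : ∀ (W : LaurentSeries A) (f : laurentBaseChange L (modularFunctionFieldFull N))
      (gW : modularFunctionFieldFullC k N), (f : LaurentSeries L) = coeffMap A.subtype W →
      (gW : LaurentSeries k) = coeffMap π W →
      D.Reduces (arithmeticGalois (modularFunctionFieldFull N) σ • f)
        (Spec.coeffAut N φ • gW) := by
    intro W f gW hf hgW
    refine hD.reduces (Y := coeffMap σA W) ?_ ?_
    · rw [coe_arithmeticGalois_smul, hf, coeffMap_coeffMap, coeffMap_coeffMap]
      exact coeffMap_congr (RingHom.ext fun a => rfl) W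
    · rw [Spec.coe_coeffAut_smul, hgW, coeffMap_coeffMap, coeffMap_coeffMap]
      exact coeffMap_congr (RingHom.ext fun a => (hφ a).symm) W
  have hne : Spec.coeffAut N φ • gZ ≠ 0 := by simpa using hgZ0
  have := (key Y ⟨_, hY⟩ gY rfl hgY).mul ((key Z ⟨_, hZ⟩ gZ rfl hgZ).inv hne)
  rw [← hfz, ← hgz, smul_mul', smul_mul', mul_assoc, mul_assoc, mul_inv_cancel₀ hne, mul_one,
    mul_inv_cancel₀ (by simpa using hZr.ne_zero hgZ0), mul_one] at this
  exact this

/-- Reduction of places commutes with the decomposition group. -/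
theorem redPlace_galois (hD : IsCoefficientwise D) (h : TwoCharts D x xb n)
    (hA : ∀ a : A, σ (a : L) ∈ A) (hφ : ∀ a : A, π ⟨σ (a : L), hA a⟩ = φ (π a))
    (P : Place L (laurentBaseChange L (modularFunctionFieldFull N))) :
    h.redPlace (arithmeticGalois (modularFunctionFieldFull N) σ • P) =
      Spec.coeffAut N φ • h.redPlace P :=
  h.redPlace_semilinear _ _ (fun _ _ => reduces_smul hD hA hφ) P

/-- Reduction on `Pic⁰` commutes with the decomposition group. -/
theorem reductionAlong_galois (hD : IsCoefficientwise D) (h : TwoCharts D x xb n)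
    (hA : ∀ a : A, σ (a : L) ∈ A) (hφ : ∀ a : A, π ⟨σ (a : L), hA a⟩ = φ (π a))
    (z : Pic0 L (laurentBaseChange L (modularFunctionFieldFull N))) :
    reductionAlong A π N (σ • z) = Spec.coeffAut N φ • reductionAlong A π N z := by
  obtain ⟨E, rfl⟩ := Pic0.mk_surjective z
  rw [galois_smul_pic0_def, SemilinearAut.pic0_smul_mk, reductionAlong_mk_redPlace hD h,
    reductionAlong_mk_redPlace hD h, SemilinearAut.pic0_smul_mk]
  refine congrArg Pic0.mk (Subtype.ext ?_)
  simp only [coe_reductionDegZeroAlong, SemilinearAut.coe_degZeroSMulHom,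
    SemilinearAut.divisor_smul_def]
  rw [← Finsupp.mapDomain_comp, ← Finsupp.mapDomain_comp]
  exact congrArg (fun r => Finsupp.mapDomain r
    (E : Divisor L (laurentBaseChange L (modularFunctionFieldFull N))))
    (funext fun P => redPlace_galois hD h hA hφ P)

/-- Automorphisms acting trivially on the residue field act trivially after reduction. -/
theorem reductionAlong_inertia (hD : IsCoefficientwise D) (h : TwoCharts D x xb n)
    (hA : ∀ a : A, σ (a : L) ∈ A) (hφ : ∀ a : A, π ⟨σ (a : L), hA a⟩ = π a)
    (z : Pic0 L (laurentBaseChange L (modularFunctionFieldFull N))) :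
    reductionAlong A π N (σ • z) = reductionAlong A π N z := by
  rw [reductionAlong_galois (φ := RingEquiv.refl k) hD h hA hφ z, Spec.coeffAut_one, one_smul]

end Galois

end Fermat.Agent.RED
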