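import Fermat.Agent.RED.X0Red
import Fermat.Agent.RED.PlaceReductionModular
import Fermat.Agent.Galois.Decomposition

/-!
# Reduction of places and of `Pic⁰` of `X₀(N)` at a prime `ℓ ∤ N`

Everything here takes the lifting property `X0Lift` (normality of the special fibre of the two
charts) as a hypothesis.
-/

set_option autoImplicit false
set_option linter.unusedSectionVars false
set_option linter.style.haveILetI false

noncomputable section

open AlgebraicCurve ModularCurve

namespace Fermat.Agent.RED

variable {N ℓ : ℕ} [NeZero N] {A : ValuationSubring (AlgebraicClosure ℚ)}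
  (hℓ : ℓ.Prime) (hN : ¬ℓ ∣ N) (hA : A.LiesOverPrime ℓ)

/-- Every function of the special fibre integral over `k[j]` (resp. `k[1/j]`) is the reduction of a
function integral over `ℚ̄[j]` (resp. `ℚ̄[1/j]`). -/
def X0Lift : Prop :=
  (∀ g ∈ coordRing (IsLocalRing.ResidueField A) (jSpecial (k := IsLocalRing.ResidueField A) N),
    ∃ f ∈ coordRing (AlgebraicClosure ℚ) (RamBound.jPlace N),
      (x0Red hℓ hN hA).toDatum.Reduces f g) ∧
  (∀ g ∈ coordRing (IsLocalRing.ResidueField A) (jSpecial (k := IsLocalRing.ResidueField A) N)⁻¹,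
    ∃ f ∈ coordRing (AlgebraicClosure ℚ) (RamBound.jPlace N)⁻¹,
      (x0Red hℓ hN hA).toDatum.Reduces f g)

theorem isCoefficientwise_x0Red : IsCoefficientwise (x0Red hℓ hN hA).toDatum :=
  isCoefficientwise_of_good (good_modL hℓ hN hA)

theorem hasPrincipalDivisors_bar (N : ℕ) [NeZero N] :
    HasPrincipalDivisors (AlgebraicClosure ℚ) (modularFunctionFieldBar N) :=
  haveI := MF.Coeff.isFunctionField_laurentBaseChange (AlgebraicClosure ℚ) N
  inferInstance

variable (hlift : X0Lift hℓ hN hA)
include hlift

theorem exists_twoCharts_x0 : ∃ n : ℕ,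
    TwoCharts (x0Red hℓ hN hA).toDatum (RamBound.jPlace N)
      (jSpecial (k := IsLocalRing.ResidueField A) N) n := by
  haveI := Galois.place_residueField_isAlgClosed A
  have hXF := coe_x0Param hℓ hN hA
  have hXb := red_x0Param hℓ hN hA
  obtain ⟨-, -, hT⟩ := (x0Red hℓ hN hA).twoCharts (x0Param_param hℓ hN hA)
    (by rw [hXb, hXF]; exact hlift.1) (by rw [hXb, hXF]; exact hlift.2)
  exact ⟨_, hXF ▸ hXb ▸ hT⟩

/-- The reduction of places of `X₀(N)`. -/
def x0RedPlace : Place (AlgebraicClosure ℚ) (modularFunctionFieldBar N) →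
    Place (IsLocalRing.ResidueField A) (modularFunctionFieldFullC (IsLocalRing.ResidueField A) N) :=
  (exists_twoCharts_x0 hℓ hN hA hlift).choose_spec.redPlace

theorem isPlaceReductionModL_x0RedPlace :
    IsPlaceReductionModL A N (x0RedPlace hℓ hN hA hlift) :=
  haveI := hasPrincipalDivisors_bar N
  isPlaceReductionAlong_redPlace (isCoefficientwise_x0Red hℓ hN hA)
    (exists_twoCharts_x0 hℓ hN hA hlift).choose_spec

theorem reductionInputsModL : ReductionInputsModL A N :=
  haveI := hasPrincipalDivisors_bar N
  reductionInputsAlong (isCoefficientwise_x0Red hℓ hN hA)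
    (exists_twoCharts_x0 hℓ hN hA hlift).choose_spec

theorem placeReductionModL_eq (h : ReductionInputsModL A N) :
    placeReductionModL h = x0RedPlace hℓ hN hA hlift :=
  haveI := hasPrincipalDivisors_bar N
  choose_eq_redPlace (isCoefficientwise_x0Red hℓ hN hA)
    (exists_twoCharts_x0 hℓ hN hA hlift).choose_spec h

/-- Any map with the reduction property is `x0RedPlace`. -/
theorem eq_x0RedPlace
    {r : Place (AlgebraicClosure ℚ) (modularFunctionFieldBar N) →
      Place (IsLocalRing.ResidueField A) (modularFunctionFieldFullC (IsLocalRing.ResidueField A) N)}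
    (hr : IsPlaceReductionModL A N r) : r = x0RedPlace hℓ hN hA hlift :=
  haveI := hasPrincipalDivisors_bar N
  (exists_twoCharts_x0 hℓ hN hA hlift).choose_spec.eq_redPlace
    (isPlaceReduction_of_along (isCoefficientwise_x0Red hℓ hN hA) hr)

/-- `j̄` is regular at `r P` iff `j` is regular at `P` with integral value. -/
theorem jSpecial_mem_x0RedPlace_iff (P : Place (AlgebraicClosure ℚ) (modularFunctionFieldBar N)) :
    jSpecial N ∈ (x0RedPlace hℓ hN hA hlift P).toValuationSubring ↔
      IsIntegralPlace A (RamBound.jPlace N) P :=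
  (exists_twoCharts_x0 hℓ hN hA hlift).choose_spec.coord_mem_redPlace_iff

/-- `j̄ (r P)` is the reduction of `j(P)`. -/
theorem pval_x0RedPlace {P : Place (AlgebraicClosure ℚ) (modularFunctionFieldBar N)}
    (hP : IsIntegralPlace A (RamBound.jPlace N) P) (a : A)
    (ha : pval P (RamBound.jPlace N) = (a : AlgebraicClosure ℚ)) :
    pval (x0RedPlace hℓ hN hA hlift P)
        (jSpecial (k := IsLocalRing.ResidueField A) N) = IsLocalRing.residue A a :=
  (exists_twoCharts_x0 hℓ hN hA hlift).choose_spec.pval_redPlace hP a ha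

omit hlift in
/-- The action of the decomposition group on the residue field. -/
def residueAut {σ : AlgebraicClosure ℚ ≃ₐ[ℚ] AlgebraicClosure ℚ}
    (hσ : σ ∈ A.decompositionSubgroup ℚ) :
    IsLocalRing.ResidueField A ≃+* IsLocalRing.ResidueField A :=
  MulSemiringAction.toRingEquiv (A.decompositionSubgroup ℚ) (IsLocalRing.ResidueField A) ⟨σ, hσ⟩

variable {σ : AlgebraicClosure ℚ ≃ₐ[ℚ] AlgebraicClosure ℚ}

/-- Reduction of places commutes with the decomposition group. -/
theorem x0RedPlace_galois (hσ : σ ∈ A.decompositionSubgroup ℚ)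
    (P : Place (AlgebraicClosure ℚ) (modularFunctionFieldBar N)) :
    x0RedPlace hℓ hN hA hlift (arithmeticGalois (modularFunctionFieldFull N) σ • P) =
      Spec.coeffAut N (residueAut hσ) • x0RedPlace hℓ hN hA hlift P :=
  haveI := hasPrincipalDivisors_bar N
  redPlace_galois (isCoefficientwise_x0Red hℓ hN hA)
    (exists_twoCharts_x0 hℓ hN hA hlift).choose_spec
    (fun a => Galois.decomposition_apply_mem hσ a.2) (fun _ => rfl) P

/-- Reduction on `Pic⁰` commutes with the decomposition group. -/
theorem reductionModL_galois (hσ : σ ∈ A.decompositionSubgroup ℚ) (z : JZero N) :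
    reductionModL A N (σ • z) = Spec.coeffAut N (residueAut hσ) • reductionModL A N z :=
  haveI := hasPrincipalDivisors_bar N
  reductionAlong_galois (isCoefficientwise_x0Red hℓ hN hA)
    (exists_twoCharts_x0 hℓ hN hA hlift).choose_spec
    (fun a => Galois.decomposition_apply_mem hσ a.2) (fun _ => rfl) z

/-- Inertia acts trivially after reduction. -/
theorem reductionModL_inertia (hσ : σ ∈ A.inertiaSubgroupIn ℚ) (z : JZero N) :
    reductionModL A N (σ • z) = reductionModL A N z :=
  haveI := hasPrincipalDivisors_bar N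
  reductionAlong_inertia (isCoefficientwise_x0Red hℓ hN hA)
    (exists_twoCharts_x0 hℓ hN hA hlift).choose_spec
    (fun a => Galois.decomposition_apply_mem (Galois.inertia_le_decomposition A hσ) a.2)
    (fun a => Galois.residue_eq_residue_iff.mpr (Galois.inertia_sub_mem_nonunits hσ a.2)) z

omit hlift in
theorem residueAut_eq_frobenius {q : ℕ} (hq : q.Prime) (hAq : A.LiesOverPrime q)
    (hσ : A.IsFrobeniusAt σ q) :
    residueAut hσ.mem_decompositionSubgroup = Galois.placeFrobeniusEquiv hAq hq :=
  RingEquiv.ext fun x => hσ.smul_residue_eq x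

/-- A Frobenius element acts after reduction as Frobenius on coefficients. -/
theorem reductionModL_frobenius (hσ : A.IsFrobeniusAt σ ℓ) (z : JZero N) :
    reductionModL A N (σ • z) =
      Spec.coeffAut N (Galois.placeFrobeniusEquiv hA hℓ) • reductionModL A N z := by
  rw [reductionModL_galois hℓ hN hA hlift hσ.mem_decompositionSubgroup,
    residueAut_eq_frobenius hℓ hA hσ]

end Fermat.Agent.RED
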