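import Fermat.Agent.RED.X0Separable
import Fermat.Agent.RED.X0PlaceReduction
import Fermat.Agent.RED.Normal.Tame
import Fermat.Agent.RED.Normal.AuxParam

/-!
# Normality of the two charts of the special fibre of `X₀(N)`

The lifting property `X0Lift`, from the ramification of `j` on `X₀(N)` over `ℚ̄`. The point
`j = 0` in residue characteristic `2`, `3` is taken as the hypothesis `X0SmallLift`.
-/

set_option autoImplicit false
set_option linter.unusedSectionVars false

noncomputable section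

open Polynomial IntermediateField AlgebraicCurve ModularCurve

namespace Fermat.Agent.RED

namespace ConstRed

variable {L k : Type*} [Field L] [Field k] {A : ValuationSubring L} {π : A →+* k}
variable {F Fb : Type*} [Field F] [Field Fb] [Algebra L F] [Algebra k Fb]
variable (R : ConstRed A π F Fb)

/-- The inverse of a parameter. -/
def invParam {X : R.W} (hX : R.Param X) : R.W :=
  ⟨(X : F)⁻¹, R.inv_mem_of_red_ne_zero fun h => hX.transcendental (h ▸ isAlgebraic_zero)⟩

theorem red_invParam {X : R.W} (hX : R.Param X) : R.red (R.invParam hX) = (R.red X)⁻¹ := by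
  have hne : R.red X ≠ 0 := fun h => hX.transcendental (h ▸ isAlgebraic_zero)
  refine eq_inv_of_mul_eq_one_left ?_
  rw [← map_mul, show R.invParam hX * X = 1 from
    Subtype.ext (inv_mul_cancel₀ (R.ne_zero_of_red_ne_zero hne)), map_one]

theorem param_invParam {X : R.W} (hX : R.Param X) : R.Param (R.invParam hX) := by
  refine hX.of_mem ?_ ?_
  · simpa [invParam] using inv_mem (mem_adjoin_simple_self L ((R.invParam hX : R.W) : F))
  · simpa [red_invParam] using inv_mem (mem_adjoin_simple_self k (R.red (R.invParam hX)))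

theorem isSeparable_invParam {X : R.W} (hX : R.Param X)
    (hsep : Algebra.IsSeparable k⟮R.red X⟯ Fb) :
    Algebra.IsSeparable k⟮R.red (R.invParam hX)⟯ Fb :=
  isSeparable_of_mem hsep (by
    simpa [red_invParam] using inv_mem (mem_adjoin_simple_self k (R.red (R.invParam hX))))

theorem Normal.exists_reduces {X : R.W} (h : R.Normal X) :
    ∀ g ∈ coordRing k (R.red X), ∃ f ∈ coordRing L (X : F), R.toDatum.Reduces f g := fun g hg => by
  obtain ⟨w, hw, rfl⟩ := h g hg
  exact ⟨w, hw, R.reduces_coe w⟩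

end ConstRed

/-- The ramification of `1/x` at a nonzero value. -/
theorem ord_inv_sub_algebraMap_le {L F : Type*} [Field L] [Field F] [Algebra L F] (P : Place L F)
    (x : F) {c : L} (hc : c ≠ 0) {m : ℕ} (h : P.ord (x - algebraMap L F c⁻¹) ≤ m) :
    P.ord (x⁻¹ - algebraMap L F c) ≤ m := by
  rcases le_or_gt (P.ord (x⁻¹ - algebraMap L F c)) 0 with hle | hgt
  · exact hle.trans (Int.natCast_nonneg m)
  have hc' : algebraMap L F c ≠ 0 := by simpa using hc
  have hc0 := FF.ord_algebraMap P c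
  obtain ⟨-, h1⟩ := FF.add_ne_zero_and_ord_eq_of_lt P hc' (g := x⁻¹ - algebraMap L F c)
    (Or.inr (by rw [hc0]; exact hgt))
  rw [add_sub_cancel, hc0, P.ord_inv, neg_eq_zero] at h1
  have hx : x ≠ 0 := by
    intro hx
    rw [hx, inv_zero, zero_sub, FF.ord_neg, hc0] at hgt
    exact lt_irrefl _ hgt
  have hd : x - algebraMap L F c⁻¹ ≠ 0 := fun hd => by
    rw [sub_eq_zero] at hd
    rw [hd, ← map_inv₀, inv_inv, sub_self, P.ord_zero] at hgt
    exact lt_irrefl _ hgt
  have key : x⁻¹ - algebraMap L F c = -(algebraMap L F c * x⁻¹ * (x - algebraMap L F c⁻¹)) := by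
    rw [map_inv₀]
    field_simp
    ring
  rw [key, FF.ord_neg, P.ord_mul (mul_ne_zero hc' (inv_ne_zero hx)) hd,
    P.ord_mul hc' (inv_ne_zero hx), hc0, P.ord_inv, h1]
  simpa using h

variable {N ℓ : ℕ} [NeZero N] {A : ValuationSubring (AlgebraicClosure ℚ)}
  (hℓ : ℓ.Prime) (hN : ¬ℓ ∣ N) (hA : A.LiesOverPrime ℓ)

/-- Normality of the finite chart at `j = 0` when `0 = 1728` in the residue field. -/
def X0SmallLift : Prop :=
  (1728 : IsLocalRing.ResidueField A) = 0 →
    (x0Red hℓ hN hA).LiftsAt (x0Param hℓ hN hA) 0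

theorem isSeparable_x0Param :
    Algebra.IsSeparable
      (IsLocalRing.ResidueField A)⟮(x0Red hℓ hN hA).red (x0Param hℓ hN hA)⟯
      (modularFunctionFieldFullC (IsLocalRing.ResidueField A) N) := by
  rw [red_x0Param]
  exact isSeparable_special N (natCast_residue_ne_zero hℓ hN hA)

omit [NeZero N] in
theorem coe_1728 : ((1728 : A) : AlgebraicClosure ℚ) = 1728 := map_ofNat A.subtype 1728

omit [NeZero N] in
/-- A lift of a residue which is the only possibly ramified one. -/
theorem exists_good_lift (x₀ : IsLocalRing.ResidueField A)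
    (h : (1728 : IsLocalRing.ResidueField A) = 0 → x₀ ≠ 0) :
    ∃ a : A, IsLocalRing.residue A a = x₀ ∧ ∀ a' : A, a' ≠ a →
      IsLocalRing.residue A a' = x₀ → RamBound.ellRam (a' : AlgebraicClosure ℚ) = 1 := by
  classical
  have h1728 : IsLocalRing.residue A (1728 : A) = 1728 := map_ofNat _ 1728
  have main : ∀ a : A, IsLocalRing.residue A a = x₀ →
      (x₀ = 0 → a = 0) → (x₀ = 1728 → a = 1728) →
      ∀ a' : A, a' ≠ a → IsLocalRing.residue A a' = x₀ →
        RamBound.ellRam (a' : AlgebraicClosure ℚ) = 1 := by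
    intro a _ h0 h1 a' hne ha'
    refine RamBound.ellRam_of_ne (fun hz => ?_) fun hz => ?_
    · obtain rfl : a' = 0 := Subtype.ext hz
      exact hne (h0 (by rw [← ha', map_zero])).symm
    · obtain rfl : a' = 1728 := Subtype.ext (hz.trans coe_1728.symm)
      exact hne (h1 (ha'.symm.trans h1728)).symm
  by_cases h0 : x₀ = 0
  · refine ⟨0, by rw [map_zero, h0], main 0 (by rw [map_zero, h0]) (fun _ => rfl) fun h1 => ?_⟩
    exact absurd h0 (h (h1.symm.trans h0))
  by_cases h1 : x₀ = 1728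
  · exact ⟨1728, h1728.trans h1.symm,
      main 1728 (h1728.trans h1.symm) (fun h => absurd h h0) fun _ => rfl⟩
  obtain ⟨a, ha⟩ := IsLocalRing.residue_surjective x₀
  exact ⟨a, ha, main a ha (fun h => absurd h h0) fun h => absurd h h1⟩

theorem normal_x0Param (hsmall : X0SmallLift hℓ hN hA) :
    (x0Red hℓ hN hA).Normal (x0Param hℓ hN hA) := by
  have := Galois.place_residueField_isAlgClosed A
  refine ConstRed.normal_of_liftsAt _ fun x₀ => ?_
  by_cases h : (1728 : IsLocalRing.ResidueField A) = 0 ∧ x₀ = 0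
  · rw [h.2]; exact hsmall h.1
  obtain ⟨a, rfl, hgood⟩ := exists_good_lift (A := A) x₀ fun h1 h2 => h ⟨h1, h2⟩
  refine (x0Red hℓ hN hA).liftsAt_of_ramification (x0Param_param hℓ hN hA)
    (isSeparable_x0Param hℓ hN hA) (RamBound.ellRam_pos (a : AlgebraicClosure ℚ))
    (fun P => ?_) fun P a' hne ha' => ?_
  · rw [coe_x0Param]; exact RamBound.ord_jPlace_sub_le N P _
  · rw [coe_x0Param]
    exact (RamBound.ord_jPlace_sub_le N P _).trans_eq (by rw [hgood a' hne ha', Nat.cast_one])

/-- The coordinate at infinity. -/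
def x0ParamInv : (x0Red hℓ hN hA).W :=
  (x0Red hℓ hN hA).invParam (x0Param_param hℓ hN hA)

theorem coe_x0ParamInv :
    ((x0ParamInv hℓ hN hA : (x0Red hℓ hN hA).W) : modularFunctionFieldBar N) =
      (RamBound.jPlace N)⁻¹ :=
  congrArg (·⁻¹) (coe_x0Param hℓ hN hA)

theorem red_x0ParamInv :
    (x0Red hℓ hN hA).red (x0ParamInv hℓ hN hA) =
      (jSpecial (k := IsLocalRing.ResidueField A) N)⁻¹ :=
  ((x0Red hℓ hN hA).red_invParam _).trans (congrArg (·⁻¹) (red_x0Param hℓ hN hA))

theorem normal_x0ParamInv : (x0Red hℓ hN hA).Normal (x0ParamInv hℓ hN hA) := by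
  have := Galois.place_residueField_isAlgClosed A
  have hX := (x0Red hℓ hN hA).param_invParam (x0Param_param hℓ hN hA)
  have hsep := (x0Red hℓ hN hA).isSeparable_invParam (x0Param_param hℓ hN hA)
    (isSeparable_x0Param hℓ hN hA)
  refine ConstRed.normal_of_liftsAt _ fun x₀ => ?_
  have hbound : ∀ (P : Place (AlgebraicClosure ℚ) (modularFunctionFieldBar N))
      (c : AlgebraicClosure ℚ), c ≠ 0 →
      P.ord ((RamBound.jPlace N)⁻¹ - algebraMap (AlgebraicClosure ℚ) _ c) ≤
        (RamBound.ellRam c⁻¹ : ℤ) :=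
    fun P c hc => ord_inv_sub_algebraMap_le P _ hc (RamBound.ord_jPlace_sub_le N P c⁻¹)
  by_cases h0 : x₀ = 0
  · subst h0
    have := (x0Red hℓ hN hA).liftsAt_of_ramification hX hsep (a := 0) (NeZero.pos N)
      (fun P => ?_) (fun P a' hne ha' => ?_)
    · rwa [map_zero] at this
    · show P.ord (((x0ParamInv hℓ hN hA : (x0Red hℓ hN hA).W) : modularFunctionFieldBar N) - _) ≤ _
      rw [coe_x0ParamInv, ZeroMemClass.coe_zero, map_zero, sub_zero, P.ord_inv]
      exact RamBound.neg_ord_jPlace_le N P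
    · show P.ord (((x0ParamInv hℓ hN hA : (x0Red hℓ hN hA).W) : modularFunctionFieldBar N) - _) ≤ _
      have hc : (a' : AlgebraicClosure ℚ) ≠ 0 := fun h => hne (Subtype.ext h)
      rw [coe_x0ParamInv]
      refine (hbound P _ hc).trans_eq ?_
      rw [map_zero] at ha'
      have hnot : (a' : AlgebraicClosure ℚ)⁻¹ ∉ A := fun hmem => one_ne_zero <|
        calc (1 : IsLocalRing.ResidueField A) = IsLocalRing.residue A (a' * ⟨_, hmem⟩) := by
              rw [show a' * ⟨_, hmem⟩ = 1 from Subtype.ext (mul_inv_cancel₀ hc), map_one]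
          _ = 0 := by rw [map_mul, ha', zero_mul]
      rw [RamBound.ellRam_of_ne (inv_ne_zero hc)
        fun h => hnot (by rw [h, ← coe_1728 (A := A)]; exact (1728 : A).2), Nat.cast_one]
  · obtain ⟨c, hc, hgood⟩ := exists_good_lift (A := A) x₀⁻¹ fun _ => inv_ne_zero h0
    have hc0 : (c : AlgebraicClosure ℚ) ≠ 0 := fun h => by
      obtain rfl : c = 0 := Subtype.ext h
      rw [map_zero] at hc
      exact inv_ne_zero h0 hc.symm
    obtain ⟨u, rfl⟩ := (IsLocalRing.residue_ne_zero_iff_isUnit c).mp (hc ▸ inv_ne_zero h0)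
    have hu : ((↑u⁻¹ : A) : AlgebraicClosure ℚ) = ((u : A) : AlgebraicClosure ℚ)⁻¹ :=
      eq_inv_of_mul_eq_one_left (by rw [← MulMemClass.coe_mul, Units.inv_mul]; rfl)
    have hres : IsLocalRing.residue A (↑u⁻¹ : A) = x₀ := by
      rw [map_units_inv, hc, inv_inv]
    rw [← hres]
    refine (x0Red hℓ hN hA).liftsAt_of_ramification hX hsep
      (RamBound.ellRam_pos ((u : A) : AlgebraicClosure ℚ)) (fun P => ?_) fun P a' hne ha' => ?_
    · show P.ord (((x0ParamInv hℓ hN hA : (x0Red hℓ hN hA).W) : modularFunctionFieldBar N) - _) ≤ _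
      rw [coe_x0ParamInv, hu]
      exact (hbound P _ (inv_ne_zero hc0)).trans_eq (by rw [inv_inv])
    · show P.ord (((x0ParamInv hℓ hN hA : (x0Red hℓ hN hA).W) : modularFunctionFieldBar N) - _) ≤ _
      rw [coe_x0ParamInv]
      rw [hres] at ha'
      obtain ⟨v, rfl⟩ := (IsLocalRing.residue_ne_zero_iff_isUnit a').mp (ha'.symm ▸ h0)
      have hv : ((↑v⁻¹ : A) : AlgebraicClosure ℚ) = ((v : A) : AlgebraicClosure ℚ)⁻¹ :=
        eq_inv_of_mul_eq_one_left (by rw [← MulMemClass.coe_mul, Units.inv_mul]; rfl)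
      refine (hbound P _ fun h => v.ne_zero (Subtype.ext h)).trans_eq ?_
      rw [← hv, hgood (↑v⁻¹ : A) (fun h => hne ?_) (by rw [map_units_inv, ha']), Nat.cast_one]
      rw [show u = v⁻¹ from (Units.ext h).symm, inv_inv]

theorem x0Lift_of_small (hsmall : X0SmallLift hℓ hN hA) : X0Lift hℓ hN hA := by
  refine ⟨?_, ?_⟩
  · have h := (normal_x0Param hℓ hN hA hsmall).exists_reduces
    rwa [red_x0Param, coe_x0Param] at h
  · have h := (normal_x0ParamInv hℓ hN hA).exists_reduces
    rwa [red_x0ParamInv, coe_x0ParamInv] at h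

/-- For `ℓ ≥ 5` there is no small point. -/
theorem x0SmallLift_of_five_le (h5 : 5 ≤ ℓ) : X0SmallLift hℓ hN hA := fun h => by
  haveI := Galois.place_charP_residueField hA hℓ
  rw [← Nat.cast_ofNat (R := IsLocalRing.ResidueField A), CharP.cast_eq_zero_iff _ ℓ,
    show (1728 : ℕ) = 2 ^ 6 * 3 ^ 3 by norm_num, hℓ.dvd_mul] at h
  rcases h with h | h <;> have := Nat.le_of_dvd (by norm_num) (hℓ.dvd_of_dvd_pow h) <;> omega

theorem x0Lift_of_five_le (h5 : 5 ≤ ℓ) : X0Lift hℓ hN hA :=
  x0Lift_of_small hℓ hN hA (x0SmallLift_of_five_le hℓ hN hA h5)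

end Fermat.Agent.RED
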