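import Fermat.Agent.RED.X0Red
import Mathlib.FieldTheory.SeparableClosure

/-!
# `k(X₀(N))` is separable over `k(j)` when `N` is invertible in `k`
-/

set_option autoImplicit false

noncomputable section

open Polynomial IntermediateField ModularCurve

namespace Fermat.Agent.RED

/-- A root of a polynomial which is not a root of the derivative is separable. -/
theorem isSeparable_of_aeval_derivative_ne_zero {K E : Type*} [Field K] [Field E] [Algebra K E]
    {y : E} {p : K[X]} (hp : p.Monic) (h0 : aeval y p = 0) (h1 : aeval y p.derivative ≠ 0) :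
    IsSeparable K y := by
  have hint : IsIntegral K y := ⟨p, hp, h0⟩
  obtain ⟨c, hc⟩ := minpoly.dvd K y h0
  refine (Polynomial.separable_iff_derivative_ne_zero (minpoly.irreducible hint)).mpr fun hd => h1 ?_
  rw [hc, derivative_mul, hd, zero_mul, zero_add, map_mul, minpoly.aeval, zero_mul]

theorem isSeparable_special {k : Type} [Field k] (N : ℕ) [NeZero N] (hN : (N : k) ≠ 0) :
    Algebra.IsSeparable k⟮jSpecial (k := k) N⟯ (modularFunctionFieldFullC k N) := by
  obtain ⟨P, hPm, -, hP0, hP', hPQ⟩ := Igusa.exists_modularEquation (K := k) (N := N) hN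
  let Fb := modularFunctionFieldFullC k N
  let y : Fb := ⟨jqNModC k N, jqModCd_mem_full k N dvd_rfl⟩
  let E := k⟮jSpecial (k := k) N⟯
  let e : k[X] →+* E := (aeval (R := k) (⟨jSpecial N, mem_adjoin_simple_self k _⟩ : E)).toRingHom
  have hev : ∀ p : k[X][X], Igusa.evXY k N p =
      ((aeval y (p.map e) : Fb) : LaurentSeries k) := by
    intro p
    induction p using Polynomial.induction_on' with
    | add p q hp hq => simp [hp, hq]
    | monomial i a =>
      rw [Polynomial.map_monomial, aeval_monomial]
      induction a using Polynomial.induction_on' with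
      | add a b ha hb => simp only [map_add, add_mul, AddMemClass.coe_add, ← ha, ← hb]
      | monomial j c =>
        simp [Igusa.evXY, Igusa.evC, y, e, E, Fb, algebraMap_laurentSeries_eq_single]
  have hy : IsSeparable E y := by
    refine isSeparable_of_aeval_derivative_ne_zero (hPm.map e)
      (Subtype.ext (by rw [← hev, hP0]; rfl)) fun h => hP' ?_
    rw [hev, ← derivative_map, h]; rfl
  have htop : E⟮y⟯ = ⊤ := by
    rw [eq_top_iff]
    rintro z -
    have hle : modularFunctionFieldFullC k N ≤ IntermediateField.lift (E⟮y⟯.restrictScalars k) := by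
      refine adjoin_le_iff.mpr ?_
      rintro _ ⟨d, hne, hd, rfl⟩
      obtain ⟨Q, hQ⟩ := hPQ d hd
      rw [SetLike.mem_coe, show qExpand k d (jqModC k) =
        Igusa.evXY k N Q / Igusa.evXY k N P.derivative by rw [hQ, mul_div_cancel_right₀ _ hP']]
      have hmem : ∀ p : k[X][X],
          Igusa.evXY k N p ∈ IntermediateField.lift (E⟮y⟯.restrictScalars k) := fun p => by
        rw [hev, mem_lift]
        show aeval y (p.map e) ∈ E⟮y⟯
        rw [aeval_eq_sum_range]
        exact sum_mem fun i _ => IntermediateField.smul_mem _
          (pow_mem (mem_adjoin_simple_self E y) _)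
      exact div_mem (hmem Q) (hmem _)
    exact (mem_lift z).mp (hle z.2)
  have : Algebra.IsSeparable E E⟮y⟯ := (isSeparable_adjoin_simple_iff_isSeparable _ _).mpr hy
  rw [htop] at this
  exact AlgEquiv.Algebra.isSeparable IntermediateField.topEquiv

end Fermat.Agent.RED
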