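import Fermat.Agent.RED.AdaptedBasis
import Fermat.Agent.RED.ConstRedDatum
import Mathlib.LinearAlgebra.Matrix.NonsingularInverse
import Mathlib.LinearAlgebra.Matrix.ToLinearEquiv

/-!
# Integral functions on a chart are spanned by finitely many

Lifts `b` of a basis of the reduced chart ring are a basis of the chart ring over `L[x]` after
inverting polynomials without roots in `A`: a root `a ∈ A` of the determinant of `b` in a basis
of the chart ring would give a relation between the reductions.
-/

set_option autoImplicit false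

noncomputable section

open AlgebraicCurve Polynomial IntermediateField

namespace Fermat.Agent.RED

variable {L k : Type*} [Field L] [Field k] {A : ValuationSubring L} {π : A →+* k}
variable {F Fb : Type*} [Field F] [Field Fb] [Algebra L F] [Algebra k Fb]

/-- A polynomial without roots in `A` is a constant times one reducing to `1`. -/
theorem exists_eq_C_mul_of_eval_ne_zero [IsAlgClosed L]
    (hπ : ∀ a : A, π a = 0 ↔ ¬IsUnit a) (U : L[X]) (hU : ∀ a : A, U.eval (a : L) ≠ 0) :
    ∃ (c : L) (P : A[X]), c ≠ 0 ∧ P.map π = 1 ∧ U = Polynomial.C c * P.map A.subtype := by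
  obtain ⟨m, hm⟩ : ∃ m, U.natDegree ≤ m := ⟨_, le_rfl⟩
  induction m generalizing U with
  | zero =>
    have h0 := eq_C_of_natDegree_le_zero hm
    refine ⟨U.coeff 0, 1, fun h => hU 0 ?_, Polynomial.map_one π, by simpa using h0⟩
    rw [h0, h]
    simp
  | succ m ih =>
    rcases eq_or_ne U.natDegree 0 with hd | hd
    · exact ih U hU (hd.le.trans (Nat.zero_le _))
    have hU0 : U ≠ 0 := fun h => hd (by rw [h, natDegree_zero])
    obtain ⟨r, hr⟩ := IsAlgClosed.exists_root U
      (fun h => hd (natDegree_eq_zero_iff_degree_le_zero.mpr h.le))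
    have hrA : r ∉ A := fun h => hU ⟨r, h⟩ hr
    have hr0 : r ≠ 0 := fun h => hrA (h ▸ zero_mem A)
    obtain ⟨Q, rfl⟩ := dvd_iff_isRoot.mpr hr
    have hQ : Q.natDegree ≤ m := by
      rw [natDegree_mul (X_sub_C_ne_zero r) (right_ne_zero_of_mul hU0), natDegree_X_sub_C] at hm
      omega
    obtain ⟨c, P, hc, hP, hQP⟩ := ih Q (fun a h => hU a (by rw [eval_mul, h, mul_zero])) hQ
    have hinv : r⁻¹ ∈ A := (A.mem_or_inv_mem r).resolve_left hrA
    have hπr : π ⟨r⁻¹, hinv⟩ = 0 := (hπ _).mpr fun hu => by
      obtain ⟨e, he⟩ := hu.exists_right_inv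
      have he' : r⁻¹ * (e : L) = 1 := congrArg Subtype.val he
      exact hrA (((inv_mul_eq_one₀ hr0).mp he').symm ▸ e.2)
    refine ⟨-r * c, (1 - Polynomial.C ⟨r⁻¹, hinv⟩ * Polynomial.X) * P,
      mul_ne_zero (neg_ne_zero.mpr hr0) hc, ?_, ?_⟩
    · rw [Polynomial.map_mul, hP, Polynomial.map_sub, Polynomial.map_mul, Polynomial.map_C,
        Polynomial.map_one, Polynomial.map_X, hπr, map_zero, zero_mul, sub_zero, one_mul]
    · rw [hQP, Polynomial.map_mul, Polynomial.map_sub, Polynomial.map_mul, Polynomial.map_C,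
        Polynomial.map_one, Polynomial.map_X]
      have h1 : (Polynomial.C r * Polynomial.C r⁻¹ : L[X]) = 1 := by
        rw [← Polynomial.C_mul, mul_inv_cancel₀ hr0, Polynomial.C_1]
      show _ = Polynomial.C (-r * c) * ((1 - Polynomial.C r⁻¹ * Polynomial.X) * _)
      rw [Polynomial.C_mul, Polynomial.C_neg]
      linear_combination (Polynomial.X * Polynomial.C c * -P.map A.subtype) * h1

namespace ReductionChart

variable {D : ReductionDatum A π F Fb} {x : F} {xb : Fb} {n : ℕ}

theorem finrank_special [IsAlgClosed k] [FF.IsFunctionField k Fb] (h : ReductionChart D x xb n) :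
    Module.finrank k⟮xb⟯ Fb = n := by
  obtain ⟨E, hE, hdeg⟩ := h.coordSpecial.exists_zeros 0
  have : E = FF.zeroDivisor k xb := Finsupp.ext fun v => by
    rw [hE v, map_zero, sub_zero, FF.zeroDivisor_apply]
  rw [this, FF.degree_zeroDivisor h.coordSpecial.transcendental] at hdeg
  exact_mod_cast hdeg

theorem finrank_generic [IsAlgClosed L] [FF.IsFunctionField L F] (h : ReductionChart D x xb n) :
    Module.finrank L⟮x⟯ F = n := by
  obtain ⟨E, hE, hdeg⟩ := h.coordGeneric.exists_zeros 0
  have : E = FF.zeroDivisor L x := Finsupp.ext fun v => by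
    rw [hE v, map_zero, sub_zero, FF.zeroDivisor_apply]
  rw [this, FF.degree_zeroDivisor h.coordGeneric.transcendental] at hdeg
  exact_mod_cast hdeg

/-- The determinant of lifts of a basis of the reduced chart ring has no root in `A`. -/
theorem eval_det_ne_zero (h : ReductionChart D x xb n) {d : ℕ} {b w : Fin d → F}
    {bb : Fin d → Fb} {M : Matrix (Fin d) (Fin d) L[X]} (hw : ∀ j, w j ∈ coordRing L x)
    (hM : ∀ i, ∑ j, aeval x (M i j) * w j = b i) (hred : ∀ i, D.Reduces (b i) (bb i))
    (hindep : ∀ p : Fin d → k[X], ∑ i, aeval xb (p i) * bb i = 0 → ∀ i, p i = 0)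
    (hspan : ∀ g ∈ coordRing k xb, ∃ p : Fin d → k[X], ∑ i, aeval xb (p i) * bb i = g)
    (a : A) : M.det.eval (a : L) ≠ 0 := by
  intro h0
  have hdet : ((Polynomial.evalRingHom (a : L)).mapMatrix M).det = 0 := by
    rw [← RingHom.map_det]
    exact h0
  obtain ⟨v, hv, hvM⟩ := Matrix.exists_vecMul_eq_zero_iff.mpr hdet
  obtain ⟨c, u, hc, hvu, i₀, hi₀⟩ := exists_primitive_scale A v
    (Function.ne_iff.mp hv)
  have hroot : ∀ j, (∑ i, Polynomial.C ((u i : L)) * M i j).IsRoot (a : L) := by
    intro j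
    have := congrFun hvM j
    simp only [Matrix.vecMul, dotProduct, RingHom.mapMatrix_apply, Matrix.map_apply,
      coe_evalRingHom, Pi.zero_apply, hvu, mul_assoc, ← Finset.mul_sum] at this
    rw [IsRoot, eval_finsetSum]
    simpa [eval_mul] using (mul_eq_zero.mp this).resolve_left hc
  choose q hq using fun j => dvd_iff_isRoot.mpr (hroot j)
  set r := ∑ j, aeval x (q j) * w j
  have hr : r ∈ coordRing L x := sum_mem fun j _ => mul_mem (aeval_mem_coordRing L x _) (hw j)
  have hxa : D.Reduces (x - algebraMap L F (a : L)) (xb - algebraMap k Fb (π a)) :=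
    h.reduces.sub (D.reduces_algebraMap a)
  have hxa0 : xb - algebraMap k Fb (π a) ≠ 0 := fun e => h.coordSpecial.transcendental
    ((sub_eq_zero.mp e) ▸ isAlgebraic_algebraMap (R := k) (A := Fb) (π a))
  have hsum : ∑ i, algebraMap L F (u i : L) * b i = (x - algebraMap L F (a : L)) * r := by
    rw [Finset.mul_sum, Finset.sum_congr rfl fun i _ => by rw [← hM i, Finset.mul_sum],
      Finset.sum_comm]
    refine Finset.sum_congr rfl fun j _ => ?_
    rw [← mul_assoc, show x - algebraMap L F (a : L) =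
      aeval x (Polynomial.X - Polynomial.C (a : L)) by simp, ← map_mul, ← hq j, map_sum,
      Finset.sum_mul]
    exact Finset.sum_congr rfl fun i _ => by rw [map_mul, aeval_C, mul_assoc]
  have hrred : D.Reduces r
      ((xb - algebraMap k Fb (π a))⁻¹ * ∑ i, algebraMap k Fb (π (u i)) * bb i) := by
    have := (hxa.inv hxa0).mul (ReductionDatum.Reduces.sum (s := Finset.univ)
      fun i _ => (D.reduces_algebraMap (u i)).mul (hred i))
    rwa [hsum, inv_mul_cancel_left₀ (hxa.ne_zero hxa0)] at this
  obtain ⟨s, hs⟩ := hspan _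
    (mem_coordRing_of_reduces h.reduces (h.bounded r hr hrred.mem) hrred)
  have h1 := congrArg ((xb - algebraMap k Fb (π a)) * ·) hs
  simp only [mul_inv_cancel_left₀ hxa0] at h1
  have h2 := hindep (fun i => (Polynomial.X - Polynomial.C (π a)) * s i - Polynomial.C (π (u i)))
    (by
      simp only [map_sub, map_mul, aeval_X, aeval_C, sub_mul, Finset.sum_sub_distrib]
      rw [← sub_eq_zero, Finset.mul_sum] at h1
      simpa only [mul_assoc, sub_mul, Finset.sum_sub_distrib] using h1) i₀
  have h3 := congrArg (Polynomial.eval (π a)) h2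
  simp [hi₀] at h3

/-- Integral chart functions are spanned by finitely many, after inverting polynomials which
reduce to units. -/
theorem exists_spanning [IsAlgClosed L] [IsAlgClosed k] [FF.IsFunctionField L F]
    [FF.IsFunctionField k Fb] (h : ReductionChart D x xb n) :
    ∃ (m : ℕ) (b : Fin m → F), (∀ i, b i ∈ coordRing L x ∧ b i ∈ D.O) ∧
      ∀ f ∈ coordRing L x, f ∈ D.O → ∃ P : A[X], IsUnit (P.coeff 0) ∧
        (∀ i, i ≠ 0 → π (P.coeff i) = 0) ∧
        ∃ p : Fin m → A[X], intEval A x P * f = ∑ i, intEval A x (p i) * b i := by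
  classical
  have hxt := h.coordGeneric.transcendental
  obtain ⟨Bg⟩ := nonempty_adaptedBasis (K := L) hxt
  obtain ⟨Bs⟩ := nonempty_adaptedBasis (K := k) h.coordSpecial.transcendental
  rw [h.finrank_generic] at Bg
  rw [h.finrank_special] at Bs
  have hx0 : x ≠ 0 := fun e => hxt (e ▸ isAlgebraic_zero)
  have hxb0 : xb ≠ 0 := fun e => h.coordSpecial.transcendental (e ▸ isAlgebraic_zero)
  choose b hb hbred using fun i => h.lift _ (Bs.w_mem_coordRing hxb0 i)
  have hbc : ∀ i, b i ∈ coordRing L x := fun i => mem_coordRing_of_mem_intRing (hb i)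
  choose M hM using fun i => Bg.exists_coeff (hbc i)
  let M' : Matrix (Fin n) (Fin n) L[X] := Matrix.of M
  have hU : ∀ a : A, M'.det.eval (a : L) ≠ 0 := h.eval_det_ne_zero (Bg.w_mem_coordRing hx0)
    hM hbred Bs.independent fun g hg => Bs.exists_coeff hg
  obtain ⟨c, P, hc, hP, hUP⟩ := exists_eq_C_mul_of_eval_ne_zero
    (ReductionDatum.π_eq_zero_iff D) M'.det hU
  have hcomb : ∀ q : Fin n → L[X], ∑ i, aeval x (q i) * b i =
      ∑ j, aeval x (Matrix.vecMul q M' j) * Bg.w j := by
    intro q
    simp only [Matrix.vecMul, dotProduct, map_sum, map_mul, Finset.sum_mul]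
    rw [Finset.sum_comm]
    refine Finset.sum_congr rfl fun i _ => ?_
    rw [← hM i, Finset.mul_sum]
    exact Finset.sum_congr rfl fun j _ => (mul_assoc _ _ _).symm
  have hind : ∀ q : Fin n → L[X], ∑ i, aeval x (q i) * b i = 0 → ∀ i, q i = 0 := by
    intro q hq
    have h0 : Matrix.vecMul q M' = 0 := funext (Bg.independent _ (hcomb q ▸ hq))
    exact congrFun (Matrix.eq_zero_of_vecMul_eq_zero (fun e => hU 0 (by rw [e, eval_zero])) h0)
  have := FF.finiteDimensional_adjoin hxt
  let B : LiftedBasis D x xb (Fin n) :=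
    { b := b
      bb := Bs.w
      reduces := hbred
      independent := Bs.independent
      spans := polySpan_of_span hxt b
        ((FF.linearIndependent_adjoin_of_polynomial hxt b hind).span_eq_top_of_card_eq_finrank'
          (by rw [Fintype.card_fin, h.finrank_generic])).ge }
  refine ⟨n, b, fun i => ⟨hbc i, (hbred i).mem⟩, fun f hf hfO => ?_⟩
  obtain ⟨p, hp⟩ := Bg.exists_coeff hf
  set q : Fin n → L[X] := fun i => Polynomial.C c⁻¹ * Matrix.vecMul p M'.adjugate i
  have hq : ∑ i, aeval x (q i) * b i = intEval A x P * f := by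
    rw [hcomb, ← aeval_map_subtype, ← hp, Finset.mul_sum]
    refine Finset.sum_congr rfl fun j _ => ?_
    have hq' : q = Polynomial.C c⁻¹ • Matrix.vecMul p M'.adjugate := rfl
    rw [hq', Matrix.smul_vecMul, Matrix.vecMul_vecMul, Matrix.adjugate_mul, Matrix.vecMul_smul,
      Matrix.vecMul_one, Pi.smul_apply, Pi.smul_apply, smul_eq_mul, smul_eq_mul, hUP,
      ← mul_assoc (Polynomial.C c⁻¹), ← mul_assoc (Polynomial.C c⁻¹), ← Polynomial.C_mul,
      inv_mul_cancel₀ hc, Polynomial.C_1, one_mul, map_mul]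
    ring
  have hPO : intEval A x P * f ∈ D.O :=
    mul_mem (mem_of_mem_intRing (D := D) h.reduces.mem (RingHom.isIntegralElem_map
      (f := intEval A x))) hfO
  obtain ⟨R, hR⟩ := B.exists_coeff h.reduces q (show ∑ i, aeval x (q i) * b i ∈ D.O from hq ▸ hPO)
  have h0 := congrArg (fun s : k[X] => s.coeff 0) hP
  refine ⟨P, not_not.mp ((ReductionDatum.π_eq_zero_iff D _).not.mp ?_), fun i hi => ?_, R, ?_⟩
  · rw [coeff_map, coeff_one_zero] at h0
    rw [h0]
    exact one_ne_zero
  · rw [← coeff_map π, hP, coeff_one, if_neg hi]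
  · rw [← hq]
    exact Finset.sum_congr rfl fun i _ => by rw [← aeval_map_subtype, hR i]

end ReductionChart

end Fermat.Agent.RED
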