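import Fermat.Agent.RED.GenusMid
import Fermat.Agent.RED.PlaceReductionGlobal

/-!
# A good reduction with two normal charts does not lower the genus

Lifts of representatives of the special two-chart quotient span the generic one: an integral
functional killing them and both chart rings is bounded on the integral middle ring, hence zero.
-/

set_option autoImplicit false

noncomputable section

open AlgebraicCurve Polynomial

namespace Fermat.Agent.RED

variable {L k : Type*} [Field L] [Field k] {F Fb : Type*} [Field F] [Field Fb] [Algebra L F]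
  [Algebra k Fb] {A : ValuationSubring L} {π : A →+* k} {D : ReductionDatum A π F Fb}
  {x : F} {xb : Fb} {n : ℕ}

/-- Integral functions of a chart are spanned by finitely many ones after inverting polynomials
with constant nonzero reduction. -/
def ChartSpans (D : ReductionDatum A π F Fb) (x : F) : Prop :=
  ∃ (m : ℕ) (b : Fin m → F), (∀ i, b i ∈ coordRing L x ∧ b i ∈ D.O) ∧
    ∀ f ∈ coordRing L x, f ∈ D.O → ∃ P : A[X], IsUnit (P.coeff 0) ∧
      (∀ i, i ≠ 0 → π (P.coeff i) = 0) ∧
      ∃ p : Fin m → A[X], intEval A x P * f = ∑ i, intEval A x (p i) * b i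

theorem zpow_mem_valuationSubring {y : F} (hx : D.Reduces x xb) (hxb : xb ≠ 0) (hy : y ∈ D.O)
    (j : ℤ) : x ^ j * y ∈ D.O := by
  refine mul_mem ?_ hy
  obtain ⟨m, rfl | rfl⟩ := j.eq_nat_or_neg
  · rw [zpow_natCast]; exact pow_mem hx.mem m
  · rw [zpow_neg, zpow_natCast, ← inv_pow]; exact pow_mem (hx.inv hxb).mem m

theorem valuation_lt_one_of_π_eq_zero (D : ReductionDatum A π F Fb) {a : A} (ha : π a = 0) :
    A.valuation (a : L) < 1 := by
  rw [← A.valuation_lt_one_iff, IsLocalRing.mem_maximalIdeal]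
  exact (D.π_eq_zero_iff a).mp ha

section UnitIdeal

theorem eval₂_ne_zero_of_mem {E : Type*} [Field E] (W : ValuationSubring E) (φ : A →+* E)
    (hφ : ∀ a, φ a ∈ W) (hlt : ∀ a : A, ¬IsUnit a → W.valuation (φ a) < 1) {P : A[X]}
    (h0 : IsUnit (P.coeff 0)) (hlow : ∀ i, i ≠ 0 → ¬IsUnit (P.coeff i)) {t : E} (ht : t ∈ W) :
    P.eval₂ φ t ≠ 0 := by
  rw [Polynomial.eval₂_eq_sum_range, Finset.sum_range_succ']
  simp only [pow_zero, mul_one]
  intro hzero
  have hv0 : W.valuation (φ (P.coeff 0)) = 1 := by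
    have hu : IsUnit (φ.codRestrict W.toSubring hφ (P.coeff 0)) := h0.map _
    exact (W.valuation_eq_one_iff _).mp hu
  have hsum : W.valuation (∑ i ∈ Finset.range P.natDegree, φ (P.coeff (i + 1)) * t ^ (i + 1)) < 1 := by
    refine Valuation.map_sum_lt _ one_ne_zero fun i _ => ?_
    rw [map_mul, map_pow]
    refine mul_lt_one_of_lt_of_le (hlt _ (hlow _ (Nat.succ_ne_zero i))) ?_
    exact pow_le_one₀ zero_le ((W.valuation_le_one_iff t).mpr ht)
  rw [eq_neg_of_add_eq_zero_right hzero, Valuation.map_neg] at hv0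
  exact hsum.ne hv0

variable (A x) in
/-- The ring `A[x, x⁻¹]`. -/
def laurentRing : Subring F :=
  Subring.closure (Set.range (fun a : A => algebraMap L F a) ∪ {x, x⁻¹})

theorem self_mem_laurentRing : x ∈ laurentRing A x :=
  Subring.subset_closure (Or.inr (Or.inl rfl))

theorem inv_mem_laurentRing : x⁻¹ ∈ laurentRing A x :=
  Subring.subset_closure (Or.inr (Or.inr rfl))

theorem algebraMap_mem_laurentRing (a : A) : algebraMap L F a ∈ laurentRing A x :=
  Subring.subset_closure (Or.inl ⟨a, rfl⟩)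

theorem intEval_mem_laurentRing {y : F} (hy : y ∈ laurentRing A x) (p : A[X]) :
    intEval A y p ∈ laurentRing A x := by
  simp only [intEval, Polynomial.coe_eval₂RingHom, Polynomial.eval₂_eq_sum_range]
  exact sum_mem fun i _ => mul_mem (algebraMap_mem_laurentRing _) (pow_mem hy i)

/-- `P(x)` and `Q(1/x)` generate the unit ideal of `A[x, 1/x]`. -/
theorem span_eq_top (hx : x ≠ 0) {P Q : A[X]} (hP0 : IsUnit (P.coeff 0))
    (hP : ∀ i, i ≠ 0 → ¬IsUnit (P.coeff i)) (hQ0 : IsUnit (Q.coeff 0))
    (hQ : ∀ i, i ≠ 0 → ¬IsUnit (Q.coeff i)) (I : Ideal (laurentRing A x))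
    (hPI : (⟨intEval A x P, intEval_mem_laurentRing self_mem_laurentRing P⟩ : laurentRing A x) ∈ I)
    (hQI : (⟨intEval A x⁻¹ Q, intEval_mem_laurentRing inv_mem_laurentRing Q⟩ :
      laurentRing A x) ∈ I) : I = ⊤ := by
  by_contra hI
  obtain ⟨M, hM, hIM⟩ := Ideal.exists_le_maximal I hI
  let _ := Ideal.Quotient.field M
  let mkM := Ideal.Quotient.mk M
  let ι : A →+* laurentRing A x :=
    ((algebraMap L F).comp A.subtype).codRestrict _ fun a => algebraMap_mem_laurentRing a
  obtain ⟨W, hW, hloc⟩ := IsLocalRing.exists_factor_valuationRing (mkM.comp ι)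
  have hlt : ∀ a : A, ¬IsUnit a → W.valuation ((mkM.comp ι) a) < 1 := by
    intro a ha
    have hnu : ¬IsUnit ((mkM.comp ι).codRestrict W.toSubring hW a) :=
      fun hu => ha (hloc.map_nonunit a hu)
    exact (W.valuation_lt_one_iff _).mp
      ((IsLocalRing.mem_maximalIdeal _).mpr hnu)
  set t := mkM ⟨x, self_mem_laurentRing⟩ with ht
  set s := mkM ⟨x⁻¹, inv_mem_laurentRing⟩ with hs
  have hts : t * s = 1 := by
    rw [ht, hs, ← map_mul, ← map_one mkM]
    exact congrArg mkM (Subtype.ext (mul_inv_cancel₀ hx))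
  have key : ∀ (y : F) (hy : y ∈ laurentRing A x) (p : A[X]),
      mkM ⟨intEval A y p, intEval_mem_laurentRing hy p⟩ = p.eval₂ (mkM.comp ι) (mkM ⟨y, hy⟩) := by
    intro y hy p
    rw [← Polynomial.hom_eval₂]
    refine congrArg mkM (Subtype.ext ?_)
    show intEval A y p = (laurentRing A x).subtype (p.eval₂ ι ⟨y, hy⟩)
    rw [Polynomial.hom_eval₂]
    rfl
  rcases W.mem_or_inv_mem t with h | h
  · refine eval₂_ne_zero_of_mem W (mkM.comp ι) hW hlt hP0 hP h ?_
    rw [← key]
    exact Ideal.Quotient.eq_zero_iff_mem.mpr (hIM hPI)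
  · rw [← eq_inv_of_mul_eq_one_right hts] at h
    refine eval₂_ne_zero_of_mem W (mkM.comp ι) hW hlt hQ0 hQ h ?_
    rw [← key]
    exact Ideal.Quotient.eq_zero_iff_mem.mpr (hIM hQI)

end UnitIdeal

section Chart

theorem ReductionChart.mem_coordRing_special (h : ReductionChart D x xb n) {f : F} {g : Fb}
    (hf : f ∈ coordRing L x) (hfg : D.Reduces f g) : g ∈ coordRing k xb :=
  mem_coordRing_of_reduces h.reduces (h.bounded f hf hfg.mem) hfg

theorem ReductionChart.exists_lift_coordRing (h : ReductionChart D x xb n) {g : Fb}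
    (hg : g ∈ coordRing k xb) : ∃ f ∈ coordRing L x, D.Reduces f g :=
  let ⟨f, hf, hfg⟩ := h.lift g hg
  ⟨f, mem_coordRing_of_mem_intRing hf, hfg⟩

end Chart

namespace TwoCharts

variable (h : TwoCharts D x xb n)
include h

theorem special_mem_midSpace [HasPrincipalDivisors L F] {f : F} {g : Fb}
    (hf : f ∈ midSpace L x) (hfg : D.Reduces f g) : g ∈ midSpace k xb := by
  obtain ⟨N, hN⟩ := exists_pow_mul_mem_coordRing h.finite.coordGeneric hf
  have h1 := h.finite.mem_coordRing_special (hN N le_rfl)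
    ((h.finite.reduces.pow N).mul hfg)
  have h2 := mul_mem_midSpace (zpow_mem_midSpace (K := k) (x := xb) (-(N : ℤ)))
    (coordRing_le_midSpace h1)
  rwa [zpow_neg, zpow_natCast, inv_mul_cancel_left₀ (pow_ne_zero _ h.special_coord_ne_zero)] at h2

theorem exists_lift_midSpace [HasPrincipalDivisors k Fb] {g : Fb} (hg : g ∈ midSpace k xb) :
    ∃ f ∈ midSpace L x, D.Reduces f g := by
  obtain ⟨N, hN⟩ := exists_pow_mul_mem_coordRing h.finite.coordSpecial hg
  obtain ⟨f, hf, hfg⟩ := h.finite.exists_lift_coordRing (hN N le_rfl)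
  refine ⟨(x⁻¹) ^ N * f, ?_, ?_⟩
  · refine mul_mem_midSpace ?_ (coordRing_le_midSpace hf)
    rw [inv_pow, ← zpow_natCast, ← zpow_neg]
    exact zpow_mem_midSpace _
  · have := ((h.finite.reduces.inv h.special_coord_ne_zero).pow N).mul hfg
    rwa [inv_pow, inv_pow, inv_mul_cancel_left₀ (pow_ne_zero _ h.special_coord_ne_zero),
      ← inv_pow] at this

variable [IsAlgClosed L] [IsAlgClosed k] [FF.IsFunctionField L F] [FF.IsFunctionField k Fb]

/-- **The genus does not drop under reduction.** -/
theorem genusFF_le (hn : 0 < n) (hs : ChartSpans D x) (hs' : ChartSpans D x⁻¹) :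
    genusFF L F ≤ genusFF k Fb := by
  classical
  have hx0 := h.coord_ne_zero
  obtain ⟨hfk, hgk⟩ := finite_and_finrank_midQuotient hn h.finite.coordSpecial
    h.infinite.coordSpecial
  obtain ⟨hfL, hgL⟩ := finite_and_finrank_midQuotient hn h.finite.coordGeneric
    h.infinite.coordGeneric
  by_contra hlt
  push Not at hlt
  set q := Module.finBasis k (midSpace k xb ⧸ chartSum k xb) with hq
  choose u hu using fun l => (chartSum k xb).mkQ_surjective (q l)
  choose U hU hUu using fun l => h.exists_lift_midSpace (u l).2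
  set S : Submodule L (midSpace L x ⧸ chartSum L x) :=
    Submodule.span L (Set.range fun l => (chartSum L x).mkQ ⟨U l, hU l⟩) with hS
  have hStop : S < ⊤ := by
    refine lt_top_iff_ne_top.mpr fun htop => ?_
    have := finrank_range_le_card (R := L) fun l => (chartSum L x).mkQ ⟨U l, hU l⟩
    rw [Set.finrank, ← hS, htop, finrank_top, hgL, Fintype.card_fin, hgk] at this
    omega
  obtain ⟨φ, hφ0, hφS⟩ := Submodule.exists_dual_map_eq_bot_of_lt_top hStop inferInstance
  obtain ⟨Ψ, hΨ⟩ := (φ.comp (chartSum L x).mkQ).exists_extend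
  have hΨ' : ∀ {f : F} (hf : f ∈ midSpace L x), Ψ f = φ ((chartSum L x).mkQ ⟨f, hf⟩) :=
    fun hf => LinearMap.congr_fun hΨ ⟨_, hf⟩
  have hU0 : ∀ l, Ψ (U l) = 0 := by
    intro l
    rw [hΨ' (hU l)]
    have : φ ((chartSum L x).mkQ ⟨U l, hU l⟩) ∈ S.map φ :=
      Submodule.mem_map_of_mem (Submodule.subset_span ⟨l, rfl⟩)
    rwa [hφS, Submodule.mem_bot] at this
  have hc1 : ∀ {f : F}, f ∈ coordRing L x → Ψ f = 0 := by
    intro f hf
    rw [hΨ' (coordRing_le_midSpace hf)]
    have : (chartSum L x).mkQ ⟨f, coordRing_le_midSpace hf⟩ = 0 :=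
      (Submodule.Quotient.mk_eq_zero (chartSum L x)).mpr
        (Submodule.mem_sup_left (T := (coordRing L x⁻¹).toSubmodule) hf)
    rw [this, map_zero]
  have hc2 : ∀ {f : F}, f ∈ coordRing L x⁻¹ → Ψ f = 0 := by
    intro f hf
    rw [hΨ' (coordRing_inv_le_midSpace hf)]
    have : (chartSum L x).mkQ ⟨f, coordRing_inv_le_midSpace hf⟩ = 0 :=
      (Submodule.Quotient.mk_eq_zero (chartSum L x)).mpr
        (Submodule.mem_sup_right (S := (coordRing L x).toSubmodule) hf)
    rw [this, map_zero]
  -- one step of approximation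
  have step : ∀ e ∈ midSpace L x, e ∈ D.O → ∃ (c : A) (e' : F), π c = 0 ∧
      e' ∈ midSpace L x ∧ e' ∈ D.O ∧ Ψ e = (c : L) * Ψ e' := by
    intro e he heO
    obtain ⟨eb, hred⟩ : ∃ eb, D.Reduces e eb := ⟨_, heO, rfl⟩
    have heb := h.special_mem_midSpace he hred
    set κ := q.repr ((chartSum k xb).mkQ ⟨eb, heb⟩)
    have hmem : (⟨eb, heb⟩ : midSpace k xb) - ∑ l, κ l • u l ∈ chartSum k xb := by
      rw [← Submodule.Quotient.mk_eq_zero, ← Submodule.mkQ_apply, map_sub, map_sum,
        sub_eq_zero]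
      simp only [map_smul, hu]
      exact (q.sum_repr _).symm
    obtain ⟨g₁, hg₁, g₂, hg₂, hg⟩ := Submodule.mem_sup.mp hmem
    obtain ⟨f₁, hf₁, hr₁⟩ := h.finite.exists_lift_coordRing hg₁
    obtain ⟨f₂, hf₂, hr₂⟩ := h.infinite.exists_lift_coordRing hg₂
    choose a ha using fun l => D.surjective_π (κ l)
    set d := e - (∑ l, algebraMap L F (a l) * U l + (f₁ + f₂)) with hd
    have hd0 : D.Reduces d 0 := by
      have h1 : D.Reduces (∑ l, algebraMap L F (a l) * U l)
          (∑ l, algebraMap k Fb (κ l) * (u l : Fb)) :=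
        ReductionDatum.Reduces.sum fun l _ => by
          rw [← ha l]
          exact (D.reduces_algebraMap (a l)).mul (hUu l)
      have := hred.sub (h1.add (hr₁.add hr₂))
      rw [hg] at this
      simpa [Algebra.smul_def, hd] using this
    have hdmid : d ∈ midSpace L x := by
      refine Submodule.sub_mem _ he (Submodule.add_mem _ (Submodule.sum_mem _ fun l _ => ?_)
        (Submodule.add_mem _ (coordRing_le_midSpace hf₁) (coordRing_inv_le_midSpace hf₂)))
      rw [← Algebra.smul_def]
      exact Submodule.smul_mem _ _ (hU l)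
    have hΨd : Ψ e = Ψ d := by
      simp only [hd, map_sub, map_add, map_sum, ← Algebra.smul_def, map_smul, hU0, hc1 hf₁,
        hc2 hf₂, smul_zero, Finset.sum_const_zero, add_zero, sub_zero]
    rcases eq_or_ne d 0 with hdz | hdz
    · exact ⟨0, 0, map_zero π, zero_mem _, zero_mem _, by rw [hΨd, hdz, map_zero, mul_zero]⟩
    obtain ⟨c, g, hc0, hg0, hcd⟩ := D.exists_scale hdz
    have hcA : c ∉ A := fun hc => by
      have := (hcd.unique ((D.reduces_algebraMap ⟨c, hc⟩).mul hd0))
      rw [mul_zero] at this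
      exact hg0 this
    have hinv : c⁻¹ ∈ A := (A.mem_or_inv_mem c).resolve_left hcA
    refine ⟨⟨c⁻¹, hinv⟩, algebraMap L F c * d, ?_, ?_, hcd.mem, ?_⟩
    · rw [D.π_eq_zero_iff]
      intro hu
      obtain ⟨b, hb⟩ := hu.exists_right_inv
      apply hcA
      have := congrArg Subtype.val hb
      simp only [MulMemClass.coe_mul, OneMemClass.coe_one] at this
      rw [show c = (b : L) by rw [← mul_one c, ← this, mul_inv_cancel_left₀ hc0]]
      exact b.2
    · rw [← Algebra.smul_def]
      exact Submodule.smul_mem _ _ hdmid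
    · rw [hΨd, ← Algebra.smul_def c d, map_smul, smul_eq_mul, inv_mul_cancel_left₀ hc0]
  -- finitely many values bound the functional
  obtain ⟨m, b, hb, hspan⟩ := hs
  obtain ⟨m', b', hb', hspan'⟩ := hs'
  choose N hN using fun i => self_zpow_mul_mem_coordRing_inv h.infinite.coordGeneric
    (coordRing_le_midSpace (hb i).1)
  choose N' hN' using fun i => self_zpow_mul_mem_coordRing_inv (x := x⁻¹)
    (by rw [inv_inv]; exact h.finite.coordGeneric) (coordRing_le_midSpace (hb' i).1)
  let T : Finset F :=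
    insert 0 ((Finset.univ.biUnion fun i => (Finset.Icc (-(N i : ℤ)) 0).image fun j => x ^ j * b i) ∪
      (Finset.univ.biUnion fun i => (Finset.Icc (-(N' i : ℤ)) 0).image fun j => (x⁻¹) ^ j * b' i))
  obtain ⟨e₀, he₀, hmax⟩ := T.exists_max_image (fun e => A.valuation (Ψ e))
    ⟨0, Finset.mem_insert_self _ _⟩
  have hTmid : ∀ e ∈ T, e ∈ midSpace L x ∧ e ∈ D.O := by
    intro e he
    simp only [T, Finset.mem_insert, Finset.mem_union, Finset.mem_biUnion, Finset.mem_univ,
      true_and, Finset.mem_image] at he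
    rcases he with rfl | ⟨i, j, -, rfl⟩ | ⟨i, j, -, rfl⟩
    · exact ⟨zero_mem _, zero_mem _⟩
    · exact ⟨mul_mem_midSpace (zpow_mem_midSpace j) (coordRing_le_midSpace (hb i).1),
        zpow_mem_valuationSubring h.finite.reduces h.special_coord_ne_zero (hb i).2 j⟩
    · refine ⟨mul_mem_midSpace ?_ (coordRing_inv_le_midSpace (hb' i).1),
        zpow_mem_valuationSubring h.infinite.reduces (inv_ne_zero h.special_coord_ne_zero)
          (hb' i).2 j⟩
      rw [inv_zpow', ]
      exact zpow_mem_midSpace _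
  set M := A.valuation (Ψ e₀) with hM
  let Bd : F → Prop := fun f => ∀ j : ℤ, A.valuation (Ψ (x ^ j * f)) ≤ M
  have hb_bd : ∀ i, Bd (b i) := by
    intro i j
    by_cases hj : j ∈ Finset.Icc (-(N i : ℤ)) 0
    · exact hmax _ (Finset.mem_insert_of_mem (Finset.mem_union_left _
        (Finset.mem_biUnion.mpr ⟨i, Finset.mem_univ _, Finset.mem_image.mpr ⟨j, hj, rfl⟩⟩)))
    · rw [Finset.mem_Icc, not_and_or, not_le, not_le] at hj
      rcases hj with hj | hj
      · rw [hc2 (hN i j hj.le), map_zero]; exact zero_le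
      · rw [hc1 (self_zpow_mul_mem_coordRing hj.le (hb i).1), map_zero]; exact zero_le
  have hb'_bd : ∀ i, Bd (b' i) := by
    intro i j
    have hj' : x ^ j = (x⁻¹) ^ (-j) := by rw [inv_zpow', neg_neg]
    rw [hj']
    by_cases hj : -j ∈ Finset.Icc (-(N' i : ℤ)) 0
    · exact hmax _ (Finset.mem_insert_of_mem (Finset.mem_union_right _
        (Finset.mem_biUnion.mpr ⟨i, Finset.mem_univ _, Finset.mem_image.mpr ⟨-j, hj, rfl⟩⟩)))
    · rw [Finset.mem_Icc, not_and_or, not_le, not_le] at hj
      rcases hj with hj | hj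
      · have := hN' i (-j) hj.le
        rw [inv_inv] at this
        rw [hc1 this, map_zero]; exact zero_le
      · rw [hc2 (self_zpow_mul_mem_coordRing hj.le (hb' i).1), map_zero]; exact zero_le
  have bd_shift : ∀ {f : F}, Bd f → ∀ j : ℤ, Bd (x ^ j * f) := by
    intro f hf j i
    rw [← mul_assoc, ← zpow_add₀ hx0]
    exact hf _
  have bd_add : ∀ {f g : F}, Bd f → Bd g → Bd (f + g) := by
    intro f g hf hg j
    rw [mul_add, map_add]
    exact Valuation.map_add_le _ (hf j) (hg j)
  have bd_zero : Bd 0 := fun j => by rw [mul_zero, map_zero, map_zero]; exact zero_le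
  have bd_ring : ∀ {r : F}, r ∈ laurentRing A x → ∀ {f : F}, Bd f → Bd (r * f) := by
    intro r hr
    induction hr using Subring.closure_induction with
    | mem r hr =>
      intro f hf
      rcases hr with ⟨a, rfl⟩ | rfl | rfl
      · intro j
        rw [mul_left_comm, ← Algebra.smul_def, map_smul, smul_eq_mul, map_mul]
        exact le_trans (mul_le_of_le_one_left' ((A.valuation_le_one_iff _).mpr a.2)) (hf j)
      · simpa using bd_shift hf 1
      · simpa using bd_shift hf (-1)
    | zero => intro f _; rw [zero_mul]; exact bd_zero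
    | one => intro f hf; rwa [one_mul]
    | add r s _ _ hr hs => intro f hf; rw [add_mul]; exact bd_add (hr hf) (hs hf)
    | neg r _ hr =>
      intro f hf j
      rw [neg_mul, mul_neg, map_neg, Valuation.map_neg]
      exact hr hf j
    | mul r s _ _ hr hs => intro f hf; rw [mul_assoc]; exact hr (hs hf)
  have bd_span : ∀ {y : F}, y ∈ laurentRing A x → ∀ {ι : Type} (s : Finset ι) (p : ι → A[X])
      (v : ι → F), (∀ i ∈ s, Bd (v i)) → Bd (∑ i ∈ s, intEval A y (p i) * v i) := by
    intro y hy ι s p v hv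
    exact Finset.sum_induction _ Bd (fun _ _ => bd_add) bd_zero
      fun i hi => bd_ring (intEval_mem_laurentRing hy _) (hv i hi)
  have hall : ∀ e ∈ midSpace L x, e ∈ D.O → Bd e := by
    intro e he heO
    obtain ⟨r, hr⟩ := exists_pow_mul_mem_coordRing h.finite.coordGeneric he
    obtain ⟨r', hr'⟩ := self_zpow_mul_mem_coordRing_inv h.infinite.coordGeneric he
    obtain ⟨P, hP0, hP, p, hp⟩ := hspan _ (hr r le_rfl) (mul_mem (pow_mem h.finite.reduces.mem r) heO)
    obtain ⟨Q, hQ0, hQ, p', hp'⟩ := hspan' _ (hr' _ le_rfl)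
      (zpow_mem_valuationSubring h.finite.reduces h.special_coord_ne_zero heO _)
    let I : Ideal (laurentRing A x) :=
      { carrier := {z | Bd ((z : F) * e)}
        zero_mem' := by
          show Bd ((0 : laurentRing A x) * e)
          rw [Subring.coe_zero, zero_mul]; exact bd_zero
        add_mem' := fun {z w} hz hw => by
          show Bd (((z + w : laurentRing A x) : F) * e)
          rw [Subring.coe_add, add_mul]; exact bd_add hz hw
        smul_mem' := fun c {z} hz => by
          show Bd (((c * z : laurentRing A x) : F) * e)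
          rw [Subring.coe_mul, mul_assoc]; exact bd_ring c.2 hz }
    have hI : I = ⊤ := by
      refine span_eq_top hx0 hP0 (fun i hi => (D.π_eq_zero_iff _).mp (hP i hi)) hQ0
        (fun i hi => (D.π_eq_zero_iff _).mp (hQ i hi)) I ?_ ?_
      · show Bd (intEval A x P * e)
        have h1 : Bd (intEval A x P * (x ^ r * e)) := by
          rw [hp]
          exact bd_span self_mem_laurentRing _ _ _ fun i _ => hb_bd i
        have := bd_shift h1 (-(r : ℤ))
        rwa [mul_left_comm (x ^ (-(r : ℤ))), ← mul_assoc (x ^ (-(r : ℤ))), zpow_neg, zpow_natCast,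
          inv_mul_cancel₀ (pow_ne_zero _ hx0), one_mul] at this
      · show Bd (intEval A x⁻¹ Q * e)
        have h1 : Bd (intEval A x⁻¹ Q * (x ^ (-(r' : ℤ)) * e)) := by
          rw [hp']
          exact bd_span inv_mem_laurentRing _ _ _ fun i _ => hb'_bd i
        have := bd_shift h1 (r' : ℤ)
        rwa [mul_left_comm (x ^ (r' : ℤ)), ← mul_assoc (x ^ (r' : ℤ)), ← zpow_add₀ hx0,
          add_neg_cancel, zpow_zero, one_mul] at this
    have h1 : (1 : laurentRing A x) ∈ I := hI ▸ Submodule.mem_top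
    have h1' : Bd (((1 : laurentRing A x) : F) * e) := h1
    rwa [Subring.coe_one, one_mul] at h1'
  have hle : ∀ e ∈ midSpace L x, e ∈ D.O → A.valuation (Ψ e) ≤ M := fun e he heO => by
    simpa using hall e he heO 0
  have hM0 : M = 0 := by
    by_contra hne
    obtain ⟨c, e', hc, he', he'O, heq⟩ := step e₀ (hTmid e₀ he₀).1 (hTmid e₀ he₀).2
    have hc1 := valuation_lt_one_of_π_eq_zero D hc
    have : M < M := calc
      M = A.valuation (c : L) * A.valuation (Ψ e') := by rw [hM, heq, map_mul]
      _ ≤ A.valuation (c : L) * M := by gcongr; exact hle e' he' he'O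
      _ < 1 * M := by
          have hpos : 0 < M := zero_lt_iff.mpr hne
          gcongr
      _ = M := one_mul M
    exact lt_irrefl M this
  apply hφ0
  refine Submodule.linearMap_qext _ (LinearMap.ext fun ⟨f, hf⟩ => ?_)
  rw [LinearMap.comp_apply, LinearMap.zero_comp, LinearMap.zero_apply, ← hΨ' hf]
  rcases eq_or_ne f 0 with rfl | hf0
  · exact map_zero Ψ
  obtain ⟨c, g, hc0, -, hcf⟩ := D.exists_scale hf0
  have hmid : algebraMap L F c * f ∈ midSpace L x := by
    rw [← Algebra.smul_def]; exact Submodule.smul_mem _ _ hf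
  have h0 : Ψ (algebraMap L F c * f) = 0 := by
    have := hle _ hmid hcf.mem
    rwa [hM0, le_zero_iff, map_eq_zero] at this
  rw [← Algebra.smul_def, map_smul, smul_eq_mul] at h0
  exact (mul_eq_zero.mp h0).resolve_left hc0

end TwoCharts

end Fermat.Agent.RED
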