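import Fermat.Agent.RED.GaussPair
import Fermat.Agent.RED.GenusEq
import Fermat.Agent.RED.X0PlaceReduction
import Fermat.Agent.RED.ChartSpanning
import Fermat.Agent.FlatJ.Conjugates

/-!
# Torsion prime to `ℓ` injects under reduction of `J₀(N)` at `ℓ ∤ N`
-/

set_option autoImplicit false
set_option linter.style.haveILetI false

noncomputable section

open AlgebraicCurve ModularCurve IntermediateField

namespace Fermat.Agent.RED

open TorsionCore

/-- Riemann-Roch bundle of a function field over an algebraically closed field. -/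
theorem rrCurve (K E : Type*) [Field K] [Field E] [Algebra K E] [IsAlgClosed K]
    [FF.IsFunctionField K E] : RRCurve K E (genusFF K E) where
  hasPrincipalDivisors := inferInstance
  deg_one v := v.deg_eq_one_of_isAlgClosed_of_finite
  finite_rr D := FF.finite_riemannRochSpace D
  finrank_rr D hD := FF.finrank_riemannRochSpace_of_lt_degree (by omega)
  finrank_rr_zero := FF.rrDim_zero_eq_one

section General

variable {K F k Fk : Type*} [Field K] [Field F] [Algebra K F] [Field k] [Field Fk] [Algebra k Fk]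
variable {A : ValuationSubring K} {π : A →+* k}
variable [IsAlgClosed K] [IsAlgClosed k] [FF.IsFunctionField K F] [FF.IsFunctionField k Fk]

/-- Reduction never raises the genus. -/
theorem genusFF_special_le (P : ReductionPair A π F Fk) {r : Place K F → Place k Fk}
    (hr : Compatible P r) : genusFF k Fk ≤ genusFF K F := by
  obtain ⟨v⟩ := (FF.instNonemptyPlace : Nonempty (Place K F))
  have hF := rrCurve K F
  have hk := rrCurve k Fk
  set e := genusFF K F + genusFF k Fk with he
  set D : Divisor K F := Finsupp.single v ((2 * e : ℕ) : ℤ) with hD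
  have hdeg : Divisor.degree D = ((2 * e : ℕ) : ℤ) := rrCurve_degree_single hF v _
  have hdeg' : Divisor.degree (Finsupp.mapDomain r D) = ((2 * e : ℕ) : ℤ) := by
    rw [hD, Finsupp.mapDomain_single, rrCurve_degree_single hk]
  obtain ⟨b, hb, hli⟩ := P.exists_lift_basis _ (hF.finite_rr D)
  have hle : Submodule.span k (Set.range (P.red ∘ b)) ≤
      riemannRochSpace (Finsupp.mapDomain r D) := by
    rw [Submodule.span_le]
    rintro _ ⟨i, rfl⟩
    exact red_mem_rr hF hr (hb i)
  have := hk.finite_rr (Finsupp.mapDomain r D)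
  have hfr := Submodule.finrank_mono hle
  rw [finrank_span_eq_card hli, Fintype.card_fin] at hfr
  have h1 := hF.finrank_rr D (by rw [hdeg]; omega)
  have h2 := hk.finrank_rr (Finsupp.mapDomain r D) (by rw [hdeg']; omega)
  rw [hdeg] at h1
  rw [hdeg'] at h2
  omega

/-- A compatible place map is not constant. -/
theorem exists_ne_of_compatible (P : ReductionPair A π F Fk) {r : Place K F → Place k Fk}
    (hr : Compatible P r) {u : P.G} (hu : P.red u ≠ 0) {w : Place k Fk}
    (hw : w.ord (P.red u) ≠ 0) : ∃ P₀ Q₀, r P₀ ≠ r Q₀ := by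
  by_contra! h
  obtain ⟨v⟩ := (FF.instNonemptyPlace : Nonempty (Place K F))
  have hu0 : (u : F) ≠ 0 := fun h0 => hu (by rw [show u = 0 from Subtype.ext h0, map_zero])
  obtain ⟨E, hE, hdeg⟩ := HasPrincipalDivisors.exists_divisor (K := K) (u : F) hu0
  apply hw
  rw [← hr u hu E hE w]
  have hF := rrCurve K F
  have key : ∀ E : Divisor K F,
      Finsupp.mapDomain r E = Finsupp.single (r v) (Divisor.degree E) := by
    intro E
    induction E using Finsupp.induction with
    | zero => simp
    | single_add P n D _ _ ih =>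
      rw [Finsupp.mapDomain_add, ih, Finsupp.mapDomain_single, h P v, map_add,
        rrCurve_degree_single hF, ← Finsupp.single_add]
  rw [key E, hdeg, Finsupp.single_zero]
  rfl

end General

section Modular

variable {N ℓ : ℕ} [NeZero N] {A : ValuationSubring (AlgebraicClosure ℚ)}
  (hℓ : ℓ.Prime) (hN : ¬ℓ ∣ N) (hA : A.LiesOverPrime ℓ)

include hA hℓ in
theorem exists_dvd_pow (a c : A) (ha : IsLocalRing.residue A a = 0)
    (hc : (c : AlgebraicClosure ℚ) ≠ 0) : ∃ n, c ∣ a ^ n := by
  have hnu : (a : AlgebraicClosure ℚ) ∈ A.nonunits := by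
    show A.valuation (a : AlgebraicClosure ℚ) < 1
    rw [← A.valuation_lt_one_iff, ← IsLocalRing.residue_eq_zero_iff]
    exact ha
  obtain ⟨e, he⟩ := FlatJ.exists_pow_tiny A hA hℓ hnu (c : AlgebraicClosure ℚ)⁻¹ 0
  have h := he e le_rfl
  rw [pow_zero, div_one] at h
  refine ⟨e, ⟨_, h⟩, Subtype.ext ?_⟩
  push_cast
  field_simp

include hℓ hA in
theorem exists_nonunit_ne_zero :
    ∃ a : A, IsLocalRing.residue A a = 0 ∧ (a : AlgebraicClosure ℚ) ≠ 0 := by
  refine ⟨⟨(ℓ : AlgebraicClosure ℚ), natCast_mem A ℓ⟩, ?_, by simpa using hℓ.ne_zero⟩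
  rw [IsLocalRing.residue_eq_zero_iff, A.valuation_lt_one_iff]
  exact hA

include hℓ hN hA in
theorem gaussHyp_x0 :
    GaussHyp A (IsLocalRing.residue A) (modularFunctionFieldBar N)
      (modularFunctionFieldFullC (IsLocalRing.ResidueField A) N) where
  surjective := IsLocalRing.residue_surjective
  rank_one := exists_dvd_pow hℓ hA
  generated x hx := by
    obtain ⟨c, g, hc, hg, hred⟩ := (x0Red hℓ hN hA).toDatum.exists_scale hx
    obtain ⟨Y, Z, hY, hZ, gY, gZ, hgY, hgZ, hgZ0, -, -, hfz, hgz⟩ :=
      (isCoefficientwise_x0Red hℓ hN hA).exists_frac hred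
    have hgY0 : gY ≠ 0 := hgz ▸ mul_ne_zero hg hgZ0
    refine ⟨c⁻¹, Y, Z, hY, hZ, hgY ▸ gY.2, hgZ ▸ gZ.2,
      fun e => hgY0 (Subtype.ext (hgY.trans e)), fun e => hgZ0 (Subtype.ext (hgZ.trans e)), ?_⟩
    have := congrArg Subtype.val hfz
    simp only [IntermediateField.coe_mul, coe_algebraMap_eq_C] at this
    rw [← this, ← mul_assoc, ← mul_assoc, ← map_mul, inv_mul_cancel₀ hc, map_one, one_mul]

/-- The Gauss pair of `X₀(N)`. -/
def x0Pair : ReductionPair A (IsLocalRing.residue A) (modularFunctionFieldBar N)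
    (modularFunctionFieldFullC (IsLocalRing.ResidueField A) N) :=
  gaussPair (gaussHyp_x0 hℓ hN hA)

theorem reduces_x0Pair (u : (x0Pair hℓ hN hA).G) :
    (x0Red hℓ hN hA).toDatum.Reduces (u : modularFunctionFieldBar N) ((x0Pair hℓ hN hA).red u) := by
  have hD := isCoefficientwise_x0Red hℓ hN hA
  obtain ⟨ha, hb, hb0, he⟩ := fracPair_spec u
  set a := (fracPair (IsLocalRing.residue A) (modularFunctionFieldBar N) u).1
  set b := (fracPair (IsLocalRing.residue A) (modularFunctionFieldBar N) u).2
  let ga : modularFunctionFieldFullC (IsLocalRing.ResidueField A) N :=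
    ⟨_, coeffMap_mem_of_mem (gaussHyp_x0 hℓ hN hA) ha⟩
  let gb : modularFunctionFieldFullC (IsLocalRing.ResidueField A) N :=
    ⟨_, coeffMap_mem_of_mem (gaussHyp_x0 hℓ hN hA) hb⟩
  have hgb : gb ≠ 0 := fun h => hb0 (congrArg Subtype.val h)
  have h1 := hD.reduces (f := ⟨_, ha⟩) (g := ga) rfl rfl
  have h2 := hD.reduces (f := ⟨_, hb⟩) (g := gb) rfl rfl
  have h3 := h1.mul (h2.inv hgb)
  have hu : (u : modularFunctionFieldBar N) =
      ⟨coeffMap A.subtype a, ha⟩ * (⟨coeffMap A.subtype b, hb⟩ : modularFunctionFieldBar N)⁻¹ := by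
    rw [eq_mul_inv_iff_mul_eq₀ (h2.ne_zero hgb)]
    exact Subtype.ext he
  have hv : (x0Pair hℓ hN hA).red u = ga * gb⁻¹ := by
    refine Subtype.ext ?_
    rw [IntermediateField.coe_mul, IntermediateField.coe_inv, ← div_eq_mul_inv]
    rfl
  rw [hu, hv]
  exact h3

theorem compatible_x0Pair
    {r : Place (AlgebraicClosure ℚ) (modularFunctionFieldBar N) →
      Place (IsLocalRing.ResidueField A) (modularFunctionFieldFullC (IsLocalRing.ResidueField A) N)}
    (hr : IsPlaceReductionModL A N r) : Compatible (x0Pair hℓ hN hA) r := by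
  haveI := hasPrincipalDivisors_bar N
  intro u hu D hD w
  exact isPlaceReduction_of_along (isCoefficientwise_x0Red hℓ hN hA) hr _ _
    (reduces_x0Pair hℓ hN hA u) hu D hD w

/-- **`ℓ`-prime torsion of `J₀(N)` injects under reduction**, given the two charts and their
spanning property. -/
theorem eq_zero_of_reductionModL_eq_zero_of_spans (hlift : X0Lift hℓ hN hA)
    (hs : ChartSpans (x0Red hℓ hN hA).toDatum (RamBound.jPlace N))
    (hs' : ChartSpans (x0Red hℓ hN hA).toDatum (RamBound.jPlace N)⁻¹)
    (h : ReductionInputsModL A N) {m : ℕ} (hm : ¬ℓ ∣ m) (z : JZero N)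
    (hmz : m • z = 0) (hz : reductionModL A N z = 0) : z = 0 := by
  haveI := Galois.place_residueField_isAlgClosed A
  haveI := Galois.place_charP_residueField hA hℓ
  haveI : FF.IsFunctionField (AlgebraicClosure ℚ) (modularFunctionFieldBar N) :=
    MF.Coeff.isFunctionField_laurentBaseChange (AlgebraicClosure ℚ) N
  haveI : FF.IsFunctionField (IsLocalRing.ResidueField A)
      (modularFunctionFieldFullC (IsLocalRing.ResidueField A) N) :=
    isFunctionField_special N (natCast_residue_ne_zero hℓ hN hA)
  obtain ⟨n, hT⟩ := exists_twoCharts_x0 hℓ hN hA hlift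
  have hr := isPlaceReductionModL_placeReductionModL h
  have hc := compatible_x0Pair hℓ hN hA hr
  obtain ⟨D₀, hD₀, hdeg₀⟩ := hT.finite.coordSpecial.exists_zeros 0
  obtain ⟨w, hw⟩ := FF.exists_place_ord_pos (transcendental_jSpecial (k := IsLocalRing.ResidueField A) N)
  have hn : 0 < n := by
    have hfd := FF.finiteDimensional_adjoin
      (transcendental_jSpecial (k := IsLocalRing.ResidueField A) N)
    have heq : D₀ = FF.zeroDivisor _ (jSpecial (k := IsLocalRing.ResidueField A) N) :=
      Finsupp.ext fun v => by rw [hD₀ v, map_zero, sub_zero]; rfl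
    rw [heq, FF.degree_zeroDivisor (transcendental_jSpecial N)] at hdeg₀
    have := Module.finrank_pos (R := (IsLocalRing.ResidueField A)⟮jSpecial (k := IsLocalRing.ResidueField A) N⟯)
      (M := modularFunctionFieldFullC (IsLocalRing.ResidueField A) N)
    omega
  have hg := le_antisymm (genusFF_special_le (x0Pair hℓ hN hA) hc)
    (hT.genusFF_le hn hs hs')
  have hk : RRCurve (IsLocalRing.ResidueField A)
      (modularFunctionFieldFullC (IsLocalRing.ResidueField A) N)
      (genusFF (AlgebraicClosure ℚ) (modularFunctionFieldBar N)) := hg ▸ rrCurve _ _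
  obtain ⟨D, rfl⟩ := Pic0.mk_surjective z
  -- the parameter as an element of the pair
  obtain ⟨c, u, hu, hju⟩ := (x0Pair hℓ hN hA).exists_eq_smul (RamBound.jPlace N)
    hT.coord_ne_zero
  have hnc : ∃ P₀ Q₀, placeReductionModL h P₀ ≠ placeReductionModL h Q₀ := by
    refine exists_ne_of_compatible (x0Pair hℓ hN hA) hc hu (w := w) ?_
    have hred := reduces_x0Pair hℓ hN hA u
    have hcu : (u : modularFunctionFieldBar N) =
        algebraMap _ _ c⁻¹ * RamBound.jPlace N := by
      have hc0 : c ≠ 0 := fun h0 => hT.coord_ne_zero (by rw [hju, h0, zero_smul])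
      rw [hju, Algebra.smul_def, ← mul_assoc, ← map_mul, inv_mul_cancel₀ hc0, map_one, one_mul]
    have hmem : c⁻¹ ∈ A := by
      refine (x0Red hℓ hN hA).toDatum.mem_of_algebraMap_mem ?_
      have hx := hT.finite.reduces.inv hT.special_coord_ne_zero
      have := mul_mem hred.mem hx.mem
      rwa [hcu, mul_assoc, mul_inv_cancel₀ hT.coord_ne_zero, mul_one] at this
    have h' := ((x0Red hℓ hN hA).toDatum.reduces_algebraMap ⟨_, hmem⟩).mul hT.finite.reduces
    rw [← hcu] at h'
    rw [hred.unique h'] at hu ⊢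
    rw [w.ord_mul (left_ne_zero_of_mul hu) hT.special_coord_ne_zero, ord_algebraMap', zero_add]
    omega
  have hmD : Divisor.IsPrincipal
      (m • (D : Divisor (AlgebraicClosure ℚ) (modularFunctionFieldBar N))) := by
    have : Pic0.mk (m • D) = 0 := by
      rw [← hmz]; exact (QuotientAddGroup.mk' _).map_nsmul m D
    have h' := AddSubgroup.mem_addSubgroupOf.mp ((QuotientAddGroup.eq_zero_iff _).mp this)
    rwa [AddSubgroupClass.coe_nsmul] at h'
  rw [reductionModL_mk h D] at hz
  have hrD : Divisor.IsPrincipal (Finsupp.mapDomain (placeReductionModL h)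
      (D : Divisor (AlgebraicClosure ℚ) (modularFunctionFieldBar N))) :=
    AddSubgroup.mem_addSubgroupOf.mp ((QuotientAddGroup.eq_zero_iff _).mp hz)
  have hmk : (m : IsLocalRing.ResidueField A) ≠ 0 := fun h0 =>
    hm ((CharP.cast_eq_zero_iff _ ℓ m).mp h0)
  refine (QuotientAddGroup.eq_zero_iff _).mpr (AddSubgroup.mem_addSubgroupOf.mpr ?_)
  exact isPrincipal_of_mapDomain_isPrincipal IsLocalRing.residue_surjective (rrCurve _ _) hk hc hnc
    (exists_nonunit_ne_zero hℓ hA) (exists_dvd_pow hℓ hA) hmk
    (Divisor.mem_degZero.mp D.2) hmD hrD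

/-- **`ℓ`-prime torsion of `J₀(N)` injects under reduction** at `ℓ ∤ N`. -/
theorem eq_zero_of_reductionModL_eq_zero (hlift : X0Lift hℓ hN hA)
    (h : ReductionInputsModL A N) {m : ℕ} (hm : ¬ℓ ∣ m) (z : JZero N)
    (hmz : m • z = 0) (hz : reductionModL A N z = 0) : z = 0 := by
  haveI := Galois.place_residueField_isAlgClosed A
  haveI : FF.IsFunctionField (AlgebraicClosure ℚ) (modularFunctionFieldBar N) :=
    MF.Coeff.isFunctionField_laurentBaseChange (AlgebraicClosure ℚ) N
  haveI : FF.IsFunctionField (IsLocalRing.ResidueField A)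
      (modularFunctionFieldFullC (IsLocalRing.ResidueField A) N) :=
    isFunctionField_special N (natCast_residue_ne_zero hℓ hN hA)
  obtain ⟨n, hT⟩ := exists_twoCharts_x0 hℓ hN hA hlift
  exact eq_zero_of_reductionModL_eq_zero_of_spans hℓ hN hA hlift hT.finite.exists_spanning
    hT.infinite.exists_spanning h hm z hmz hz

/-- The reduction map is injective on `ℓ`-prime torsion. -/
theorem reductionModL_injOn_torsion (hlift : X0Lift hℓ hN hA)
    (h : ReductionInputsModL A N) {m : ℕ} (hm : ¬ℓ ∣ m) {z w : JZero N}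
    (hz : m • z = 0) (hw : m • w = 0) (he : reductionModL A N z = reductionModL A N w) : z = w :=
  sub_eq_zero.mp (eq_zero_of_reductionModL_eq_zero hℓ hN hA hlift h hm (z - w)
    (by rw [nsmul_sub, hz, hw, sub_zero]) (by rw [map_sub, he, sub_self]))

/-- Good reduction preserves the genus of `X₀(N)`. -/
theorem x0_genusFF_eq (hlift : X0Lift hℓ hN hA) :
    genusFF (IsLocalRing.ResidueField A) (modularFunctionFieldFullC (IsLocalRing.ResidueField A) N)
      = genusFF (AlgebraicClosure ℚ) (modularFunctionFieldBar N) := by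
  haveI := Galois.place_residueField_isAlgClosed A
  haveI : FF.IsFunctionField (AlgebraicClosure ℚ) (modularFunctionFieldBar N) :=
    MF.Coeff.isFunctionField_laurentBaseChange (AlgebraicClosure ℚ) N
  haveI : FF.IsFunctionField (IsLocalRing.ResidueField A)
      (modularFunctionFieldFullC (IsLocalRing.ResidueField A) N) :=
    isFunctionField_special N (natCast_residue_ne_zero hℓ hN hA)
  obtain ⟨n, hT⟩ := exists_twoCharts_x0 hℓ hN hA hlift
  have hn : 0 < n := by
    rw [← hT.finite.finrank_special]
    haveI := FF.finiteDimensional_adjoin (transcendental_jSpecial (k := IsLocalRing.ResidueField A) N)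
    exact Module.finrank_pos
  exact le_antisymm
    (genusFF_special_le (x0Pair hℓ hN hA)
      (compatible_x0Pair hℓ hN hA (isPlaceReductionModL_x0RedPlace hℓ hN hA hlift)))
    (hT.genusFF_le hn hT.finite.exists_spanning hT.infinite.exists_spanning)

/-- Riemann-Roch on the special fibre with the generic genus. -/
theorem x0_rrCurve_special (hlift : X0Lift hℓ hN hA) :
    RRCurve (IsLocalRing.ResidueField A) (modularFunctionFieldFullC (IsLocalRing.ResidueField A) N)
      (genusFF (AlgebraicClosure ℚ) (modularFunctionFieldBar N)) := by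
  haveI := Galois.place_residueField_isAlgClosed A
  haveI : FF.IsFunctionField (IsLocalRing.ResidueField A)
      (modularFunctionFieldFullC (IsLocalRing.ResidueField A) N) :=
    isFunctionField_special N (natCast_residue_ne_zero hℓ hN hA)
  exact x0_genusFF_eq hℓ hN hA hlift ▸ rrCurve _ _

end Modular

end Fermat.Agent.RED
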