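import Fermat.Agent.RED.PlaceReductionCount
import Mathlib.FieldTheory.IsAlgClosed.Basic

/-!
# Equality of orders on a chart
-/

set_option autoImplicit false
set_option linter.unusedSectionVars false

noncomputable section

open AlgebraicCurve Polynomial

namespace Fermat.Agent.RED

theorem degree_eq_sum {K E : Type*} [Field K] [Field E] [Algebra K E]
    (hdeg : ∀ v : Place K E, v.deg = 1) (D : Divisor K E) :
    Divisor.degree D = ∑ v ∈ D.support, D v := by
  rw [Divisor.degree, Finsupp.liftAddHom_apply, Finsupp.sum]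
  exact Finset.sum_congr rfl fun v _ => by simp [hdeg v]

variable {L k : Type*} [Field L] [Field k] {F Fb : Type*} [Field F] [Field Fb] [Algebra L F]
  [Algebra k Fb] {A : ValuationSubring L} {π : A →+* k}
variable [hF : HasPrincipalDivisors L F]

theorem exists_isDivisorOf {f : F} (hf : f ≠ 0) : ∃ E : Divisor L F, IsDivisorOf E f := by
  obtain ⟨E, hE, -⟩ := hF.exists_divisor f hf
  exact ⟨E, hE⟩

variable {D : ReductionDatum A π F Fb} {x : F} {xb : Fb}

theorem OrderPreserved.mul {y y' : F} {g g' : Fb} (h1 : OrderPreserved D x xb y g)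
    (h2 : OrderPreserved D x xb y' g') (hy : y ≠ 0) (hy' : y' ≠ 0) (hg : g ≠ 0) (hg' : g' ≠ 0) :
    OrderPreserved D x xb (y * y') (g * g') := by
  intro E hE Q hQ
  obtain ⟨E1, hE1⟩ := exists_isDivisorOf (L := L) hy
  obtain ⟨E2, hE2⟩ := exists_isDivisorOf (L := L) hy'
  have : E = E1 + E2 := Finsupp.ext fun P => by
    rw [hE P, isDivisorOf_mul hE1 hE2 hy hy' P]
  rw [this, map_add, h1 E1 hE1 Q hQ, h2 E2 hE2 Q hQ, Q.ord_mul hg hg']

theorem OrderPreserved.of_mul_left {y y' : F} {g g' : Fb} (h1 : OrderPreserved D x xb y g)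
    (h12 : OrderPreserved D x xb (y * y') (g * g')) (hy : y ≠ 0) (hy' : y' ≠ 0) (hg : g ≠ 0)
    (hg' : g' ≠ 0) : OrderPreserved D x xb y' g' := by
  intro E hE Q hQ
  obtain ⟨E1, hE1⟩ := exists_isDivisorOf (L := L) hy
  have := h12 (E1 + E) (isDivisorOf_mul hE1 hE hy hy') Q hQ
  rw [map_add, h1 E1 hE1 Q hQ, Q.ord_mul hg hg'] at this
  omega

namespace ReductionChart

variable {n : ℕ} (h : ReductionChart D x xb n)
include h

/-- A function without zeros or poles at the integral places. -/
theorem orderPreserved_of_ord_eq_zero {y : F} {g : Fb}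
    (hy : ∀ P, IsIntegralPlace A x P → P.ord y = 0)
    (hg : ∀ Q : Place k Fb, xb ∈ Q.toValuationSubring → Q.ord g = 0) :
    OrderPreserved D x xb y g := by
  intro E hE Q hQ
  rw [hg Q hQ]
  exact sumOver_eq_zero fun P hP => by rw [hE P, hy P hP.1]

theorem orderPreserved_const (c : L) (d : k) :
    OrderPreserved D x xb (algebraMap L F c) (algebraMap k Fb d) :=
  h.orderPreserved_of_ord_eq_zero (fun P _ => ord_algebraMap' P c) fun Q _ => ord_algebraMap' Q d

theorem sub_algebraMap_ne_zero (c : L) : x - algebraMap L F c ≠ 0 := fun e =>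
  h.coordGeneric.transcendental ((sub_eq_zero.mp e) ▸ isAlgebraic_algebraMap c)

theorem special_sub_algebraMap_ne_zero (c : k) : xb - algebraMap k Fb c ≠ 0 := fun e =>
  h.coordSpecial.transcendental ((sub_eq_zero.mp e) ▸ isAlgebraic_algebraMap c)

theorem orderPreserved_sub (α : A) :
    OrderPreserved D x xb (x - algebraMap L F α) (xb - algebraMap k Fb (π α)) := by
  classical
  intro E hE Q₀ hQ₀
  have hv := h.coordGeneric.deg_one
  have hw := h.coordSpecial.deg_one
  have hyI : x - algebraMap L F α ∈ intRing A x :=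
    sub_mem (self_mem_intRing A x) (algebraMap_mem_intRing A x α)
  have hyg := h.reduces.sub (D.reduces_algebraMap α)
  have hy0 := h.sub_algebraMap_ne_zero (α : L)
  have hg0 := h.special_sub_algebraMap_ne_zero (π α)
  obtain ⟨Z, hZ, hZdeg⟩ := h.coordGeneric.exists_zeros α
  obtain ⟨Zb, hZb, hZbdeg⟩ := h.coordSpecial.exists_zeros (π α)
  rw [degree_eq_sum hv] at hZdeg
  rw [degree_eq_sum hw] at hZbdeg
  have hZmem : ∀ P ∈ Z.support, IsIntegralPlace A x P ∧ Z P = E P ∧ pval P x = (α : L) := by
    intro P hP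
    have hne := Finsupp.mem_support_iff.mp hP
    rw [hZ] at hne
    have hpos : 0 < P.ord (x - algebraMap L F α) := by
      by_contra hle
      exact hne (max_eq_right (not_lt.mp hle))
    have hmem := mem_of_ord_nonneg P hpos.le
    have hxP : x ∈ P.toValuationSubring := by
      simpa using add_mem hmem (P.algebraMap_mem' α)
    have hval : pval P x = (α : L) := by
      have := (pval_eq_zero_iff (hv P) hmem).mpr (Or.inr hpos)
      rwa [pval_sub (hv P) hxP (P.algebraMap_mem' _), pval_algebraMap (hv P), sub_eq_zero] at this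
    exact ⟨⟨hxP, hval ▸ α.2⟩, by rw [hZ, hE P, max_eq_left hpos.le], hval⟩
  have : Nonempty (Place k Fb) := ⟨Q₀⟩
  choose! rr hrr using fun (P : Place L F) (hP : P ∈ Z.support) =>
    h.exists_specializes (hZmem P hP).1
  set T := Zb.support ∪ Z.support.image rr ∪ {Q₀} with hT
  have hfin : ∀ Q ∈ T, xb ∈ Q.toValuationSubring := by
    intro Q hQ
    simp only [hT, Finset.mem_union, Finset.mem_image, Finset.mem_singleton] at hQ
    rcases hQ with (hQ | ⟨P, hP, rfl⟩) | rfl
    · have hne := Finsupp.mem_support_iff.mp hQ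
      rw [hZb] at hne
      have hpos : 0 ≤ Q.ord (xb - algebraMap k Fb (π α)) := by
        by_contra hle
        exact hne (max_eq_right (not_le.mp hle).le)
      simpa using add_mem (mem_of_ord_nonneg Q hpos) (Q.algebraMap_mem' (π α))
    · exact (hrr P hP).2.1
    · exact hQ₀
  -- the count on the special fibre is at most the count on the generic fibre
  have hle : ∀ Q ∈ T, Zb Q ≤ sumOver (Specializes D x xb · Q) Z := by
    intro Q hQ
    have h1 := h.ord_le_sumOver hyI hyg hg0 hE (hfin Q hQ)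
    have h2 : sumOver (Specializes D x xb · Q) E ≤ sumOver (Specializes D x xb · Q) Z := by
      rw [← sub_nonneg, ← map_sub]
      exact sumOver_nonneg fun P hP => by rw [Finsupp.sub_apply, hE P, hZ]; omega
    have h3 : 0 ≤ sumOver (Specializes D x xb · Q) Z :=
      sumOver_nonneg fun P _ => by rw [hZ]; exact le_max_right _ _
    rw [hZb]
    omega
  have hsum : ∑ Q ∈ T, sumOver (Specializes D x xb · Q) Z = ∑ Q ∈ T, Zb Q := by
    have hR : ∑ Q ∈ T, Zb Q = n := by
      rw [← hZbdeg]
      refine (Finset.sum_subset (fun Q hQ => ?_) fun Q _ hQ => ?_).symm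
      · simp [hT, hQ]
      · exact Finsupp.notMem_support_iff.mp hQ
    rw [hR, ← hZdeg]
    simp only [sumOver_apply, Finset.sum_filter]
    rw [Finset.sum_comm]
    refine Finset.sum_congr rfl fun P hP => ?_
    rw [Finset.sum_eq_single (rr P)]
    · rw [if_pos (hrr P hP)]
    · intro Q _ hne
      rw [if_neg fun hs => hne (h.specializes_unique hs (hrr P hP))]
    · intro hnT
      exact absurd (by simp [hT]; exact Or.inr (Or.inr ⟨P, Finsupp.mem_support_iff.mp hP, rfl⟩)) hnT
  have heq := ((Finset.sum_eq_sum_iff_of_le hle).mp hsum.symm) Q₀ (by simp [hT])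
  -- translate back to `E`
  have hord : 0 ≤ Q₀.ord (xb - algebraMap k Fb (π α)) :=
    ord_nonneg_of_mem Q₀ (sub_mem hQ₀ (Q₀.algebraMap_mem' _))
  have hEZ : sumOver (Specializes D x xb · Q₀) E = sumOver (Specializes D x xb · Q₀) Z := by
    rw [← sub_eq_zero, ← map_sub]
    refine sumOver_eq_zero fun P hP => ?_
    rw [Finsupp.sub_apply, hE P, hZ, max_eq_left, sub_self]
    exact ord_nonneg_of_mem P (sub_mem hP.1.1 (P.algebraMap_mem' _))
  rw [hEZ, ← heq, hZb, max_eq_left hord]

/-- Orders of polynomials in `x` are preserved. -/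
theorem orderPreserved_aeval [IsAlgClosed L] (p : L[X]) {g : Fb}
    (hg : D.Reduces (Polynomial.aeval x p) g) (hg0 : g ≠ 0) :
    OrderPreserved D x xb (Polynomial.aeval x p) g := by
  induction hd : p.natDegree using Nat.strong_induction_on generalizing p g with
  | _ d ih =>
  rcases Nat.eq_zero_or_pos d with hd0 | hd0
  · obtain ⟨c, rfl⟩ := Polynomial.natDegree_eq_zero.mp (hd.trans hd0)
    rw [Polynomial.aeval_C] at hg ⊢
    have hcA := D.mem_of_algebraMap_mem hg.mem
    rw [hg.unique (D.reduces_algebraMap ⟨c, hcA⟩)]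
    exact h.orderPreserved_const c _
  obtain ⟨α, hα⟩ := IsAlgClosed.exists_root p
    (fun e => by rw [Polynomial.natDegree_eq_zero_iff_degree_le_zero.mpr e.le] at hd; omega)
  obtain ⟨q, hq⟩ := Polynomial.dvd_iff_isRoot.mpr hα
  have hp0 : p ≠ 0 := fun e => by simp [e] at hd; omega
  have hq0 : q ≠ 0 := fun e => hp0 (by simp [hq, e])
  have hqd : q.natDegree < d := by
    rw [← hd, hq, Polynomial.natDegree_mul (Polynomial.X_sub_C_ne_zero α) hq0,
      Polynomial.natDegree_X_sub_C]
    omega
  by_cases hαA : α ∈ A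
  · have h1 := h.orderPreserved_sub ⟨α, hαA⟩
    have hr1 := h.reduces.sub (D.reduces_algebraMap ⟨α, hαA⟩)
    have hne := h.sub_algebraMap_ne_zero α
    have hbne := h.special_sub_algebraMap_ne_zero (π ⟨α, hαA⟩)
    have hp : Polynomial.aeval x p = (x - algebraMap L F α) * Polynomial.aeval x q := by
      rw [hq]; simp
    have hr2 := (hr1.inv hbne).mul hg
    rw [hp, inv_mul_cancel_left₀ hne] at hr2
    have h2 := ih q.natDegree hqd q hr2 (mul_ne_zero (inv_ne_zero hbne) hg0) rfl
    have h3 := h1.mul h2 hne (hr2.ne_zero (mul_ne_zero (inv_ne_zero hbne) hg0)) hbne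
      (mul_ne_zero (inv_ne_zero hbne) hg0)
    rwa [← hp, mul_inv_cancel_left₀ hbne] at h3
  · have hα0 : α ≠ 0 := fun e => hαA (e ▸ zero_mem A)
    have hinv : α⁻¹ ∈ A := (A.mem_or_inv_mem α).resolve_left hαA
    have hπ := h.π_inv_eq_zero hαA hinv
    have hr1 : D.Reduces (algebraMap L F α⁻¹ * x - 1) (-1) := by
      have := ((D.reduces_algebraMap ⟨α⁻¹, hinv⟩).mul h.reduces).sub D.reduces_one
      rwa [hπ, map_zero, zero_mul, zero_sub] at this
    have hne : algebraMap L F α⁻¹ * x - 1 ≠ 0 := hr1.ne_zero (by simp)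
    have h1 : OrderPreserved D x xb (algebraMap L F α⁻¹ * x - 1) (-1) := by
      refine h.orderPreserved_of_ord_eq_zero (fun P hP => ?_) fun Q _ => ?_
      · have hv := h.coordGeneric.deg_one P
        have hmem := sub_mem (mul_mem (P.algebraMap_mem' α⁻¹) hP.1)
          (one_mem P.toValuationSubring)
        refine ((pval_ne_zero_iff hv hmem).mp ?_).2
        rw [pval_sub hv (mul_mem (P.algebraMap_mem' _) hP.1) (one_mem _), pval_one hv,
          pval_mul hv (P.algebraMap_mem' _) hP.1, pval_algebraMap hv, sub_ne_zero,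
          ne_eq, inv_mul_eq_one₀ hα0]
        exact fun e => hαA (e ▸ hP.2)
      · simpa using ord_algebraMap' Q (-1 : k)
    have hp : Polynomial.aeval x p =
        (algebraMap L F α⁻¹ * x - 1) * Polynomial.aeval x (Polynomial.C α * q) := by
      rw [hq]
      simp only [map_mul, map_sub, Polynomial.aeval_X, Polynomial.aeval_C]
      have : algebraMap L F α⁻¹ * algebraMap L F α = 1 := by
        rw [← map_mul, inv_mul_cancel₀ hα0, map_one]
      linear_combination (-(x * Polynomial.aeval x q)) * this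
    have hr2 := (hr1.inv (by simp)).mul hg
    rw [hp, inv_mul_cancel_left₀ hne] at hr2
    have h2 := ih (Polynomial.C α * q).natDegree
      (by rwa [Polynomial.natDegree_C_mul hα0]) _ hr2 (by simpa using hg0) rfl
    have h3 := h1.mul h2 hne (hr2.ne_zero (by simpa using hg0)) (by simp) (by simpa using hg0)
    rw [← hp] at h3
    simpa using h3

/-- The product of the `x - x(P)` over a divisor. -/
theorem exists_polynomial_bound (E : Divisor L F) :
    ∃ p : L[X], p ≠ 0 ∧ ∀ P : Place L F, x ∈ P.toValuationSubring →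
      (E P : ℤ) ≤ P.ord (Polynomial.aeval x p) := by
  classical
  refine ⟨∏ P ∈ E.support, (Polynomial.X - Polynomial.C (pval P x)) ^ (E P).toNat,
    Finset.prod_ne_zero_iff.mpr fun P _ => pow_ne_zero _ (Polynomial.X_sub_C_ne_zero _),
    fun P hP => ?_⟩
  have hne : ∀ P', (x - algebraMap L F (pval P' x)) ≠ 0 := fun P' => h.sub_algebraMap_ne_zero _
  simp only [map_prod, map_pow, map_sub, Polynomial.aeval_X, Polynomial.aeval_C]
  rw [ord_prod' _ _ _ (fun P' _ => pow_ne_zero _ (hne P'))]
  have hnn : ∀ P' ∈ E.support, 0 ≤ P.ord ((x - algebraMap L F (pval P' x)) ^ (E P').toNat) :=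
    fun P' _ => ord_nonneg_of_mem P (pow_mem (sub_mem hP (P.algebraMap_mem' _)) _)
  by_cases hsupp : P ∈ E.support
  · refine le_trans ?_ (Finset.single_le_sum hnn hsupp)
    rw [ord_pow' P (hne P)]
    refine le_trans (Int.self_le_toNat _) (le_mul_of_one_le_right (Int.natCast_nonneg _) ?_)
    exact (pval_sub_algebraMap (h.coordGeneric.deg_one P) hP).resolve_left (hne P)
  · rw [Finsupp.notMem_support_iff.mp hsupp]
    exact Finset.sum_nonneg hnn

/-- Scaling a nonzero polynomial in `x` to have nonzero reduction. -/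
theorem exists_aeval_reduces {p : L[X]} (hp : p ≠ 0) :
    ∃ (q : L[X]) (g : Fb), g ≠ 0 ∧ D.Reduces (Polynomial.aeval x q) g ∧
      ∀ P : Place L F, P.ord (Polynomial.aeval x q) = P.ord (Polynomial.aeval x p) := by
  have hne : Polynomial.aeval x p ≠ 0 := fun e =>
    h.coordGeneric.transcendental ⟨p, hp, e⟩
  obtain ⟨c, g, hc, hg, hred⟩ := D.exists_scale hne
  refine ⟨Polynomial.C c * p, g, hg, by simpa using hred, fun P => ?_⟩
  rw [map_mul, Polynomial.aeval_C, P.ord_mul (by simpa using hc) hne, ord_algebraMap', zero_add]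

theorem orderPreserved_of_mem [IsAlgClosed L] {y : F} {g : Fb} (hy : y ∈ intRing A x)
    (hyg : D.Reduces y g) (hg : g ≠ 0) : OrderPreserved D x xb y g := by
  have hy0 := hyg.ne_zero hg
  intro E hE Q hQ
  obtain ⟨p, hp, hpb⟩ := h.exists_polynomial_bound E
  obtain ⟨q, gq, hgq, hqred, hqord⟩ := h.exists_aeval_reduces hp
  set Y := Polynomial.aeval x q with hY
  have hY0 := hqred.ne_zero hgq
  obtain ⟨E', hE'⟩ := exists_isDivisorOf (L := L) (mul_ne_zero hY0 (inv_ne_zero hy0))
  have hint : Y * y⁻¹ ∈ coordRing L x :=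
    h.coordGeneric.mem_coordRing_of_forall _ fun P hP => mem_of_ord_nonneg P (by
      rw [P.ord_mul hY0 (inv_ne_zero hy0), P.ord_inv, hqord, ← hE P]
      linarith [hpb P hP])
  have hred' := hqred.mul (hyg.inv hg)
  have hg' := mul_ne_zero hgq (inv_ne_zero hg)
  have h1 := h.ord_le_sumOver hy hyg hg hE hQ
  have h2 := h.ord_le_sumOver (h.bounded _ hint hred'.mem) hred' hg' hE' hQ
  have h3 := h.orderPreserved_aeval q hqred hgq (E + E')
    (fun P => by
      rw [isDivisorOf_mul hE hE' hy0 (mul_ne_zero hY0 (inv_ne_zero hy0)) P,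
        show y * (Y * y⁻¹) = Y by field_simp]) Q hQ
  rw [map_add] at h3
  rw [Q.ord_mul hgq (inv_ne_zero hg), Q.ord_inv] at h2
  omega

/-- Orders are preserved for every function with nonzero reduction. -/
theorem orderPreserved [IsAlgClosed L] {y : F} {g : Fb} (hyg : D.Reduces y g) (hg : g ≠ 0) :
    OrderPreserved D x xb y g := by
  have hy0 := hyg.ne_zero hg
  obtain ⟨E, hE⟩ := exists_isDivisorOf (L := L) hy0
  obtain ⟨p, hp, hpb⟩ := h.exists_polynomial_bound (-E)
  obtain ⟨q, gq, hgq, hqred, hqord⟩ := h.exists_aeval_reduces hp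
  have hY0 := hqred.ne_zero hgq
  have hint : Polynomial.aeval x q * y ∈ coordRing L x :=
    h.coordGeneric.mem_coordRing_of_forall _ fun P hP => mem_of_ord_nonneg P (by
      rw [P.ord_mul hY0 hy0, hqord, ← hE P]
      have := hpb P hP
      rw [Finsupp.neg_apply] at this
      linarith)
  exact (h.orderPreserved_aeval q hqred hgq).of_mul_left
    (h.orderPreserved_of_mem (h.bounded _ hint (hqred.mul hyg).mem) (hqred.mul hyg)
      (mul_ne_zero hgq hg)) hY0 hy0 hgq hg

end ReductionChart

end Fermat.Agent.RED
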