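import Fermat.Agent.RED.CoordData
import Mathlib.LinearAlgebra.Dimension.Constructions
import Mathlib.LinearAlgebra.FiniteDimensional.Lemmas

/-!
# Values of functions at rational places, and weighted sums over divisors
-/

set_option autoImplicit false

noncomputable section

open AlgebraicCurve

namespace Fermat.Agent.RED

section Value

variable {K E : Type*} [Field K] [Field E] [Algebra K E] (v : Place K E)

open Classical in
/-- The value of `f` at a place of degree one (zero where undefined). -/
def pval (f : E) : K :=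
  if h : v.deg = 1 ∧ f ∈ v.toValuationSubring then placeVal v h.1 ⟨f, h.2⟩ else 0

variable {v} (hv : v.deg = 1)
include hv

theorem pval_eq {f : E} (hf : f ∈ v.toValuationSubring) : pval v f = placeVal v hv ⟨f, hf⟩ := by
  rw [pval, dif_pos ⟨hv, hf⟩]

theorem pval_add {f g : E} (hf : f ∈ v.toValuationSubring) (hg : g ∈ v.toValuationSubring) :
    pval v (f + g) = pval v f + pval v g := by
  rw [pval_eq hv hf, pval_eq hv hg, pval_eq hv (add_mem hf hg), ← map_add]
  rfl

theorem pval_sub {f g : E} (hf : f ∈ v.toValuationSubring) (hg : g ∈ v.toValuationSubring) :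
    pval v (f - g) = pval v f - pval v g := by
  rw [pval_eq hv hf, pval_eq hv hg, pval_eq hv (sub_mem hf hg), ← map_sub]
  rfl

theorem pval_mul {f g : E} (hf : f ∈ v.toValuationSubring) (hg : g ∈ v.toValuationSubring) :
    pval v (f * g) = pval v f * pval v g := by
  rw [pval_eq hv hf, pval_eq hv hg, pval_eq hv (mul_mem hf hg), ← map_mul]
  rfl

theorem pval_algebraMap (a : K) : pval v (algebraMap K E a) = a := by
  rw [pval_eq hv (v.algebraMap_mem' a)]
  exact placeVal_algebraMap v hv a

theorem pval_one : pval v (1 : E) = 1 := by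
  simpa using pval_algebraMap hv (1 : K)

theorem pval_zero : pval v (0 : E) = 0 := by
  simpa using pval_algebraMap hv (0 : K)

theorem pval_eq_zero_iff {f : E} (hf : f ∈ v.toValuationSubring) :
    pval v f = 0 ↔ (f = 0 ∨ 0 < v.ord f) := by
  rw [pval_eq hv hf]
  exact placeVal_eq_zero_iff v hv ⟨f, hf⟩

theorem pval_ne_zero_iff {f : E} (hf : f ∈ v.toValuationSubring) :
    pval v f ≠ 0 ↔ (f ≠ 0 ∧ v.ord f = 0) := by
  have h0 := ord_nonneg_of_mem v hf
  rw [ne_eq, pval_eq_zero_iff hv hf]
  constructor
  · intro h
    refine ⟨fun h' => h (Or.inl h'), le_antisymm (not_lt.mp fun h' => h (Or.inr h')) h0⟩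
  · rintro ⟨hne, he⟩ (h | h)
    · exact hne h
    · omega

theorem pval_sub_algebraMap {f : E} (hf : f ∈ v.toValuationSubring) :
    f - algebraMap K E (pval v f) = 0 ∨ 0 < v.ord (f - algebraMap K E (pval v f)) := by
  rw [← pval_eq_zero_iff hv (sub_mem hf (v.algebraMap_mem' _)),
    pval_sub hv hf (v.algebraMap_mem' _), pval_algebraMap hv, sub_self]

end Value

section Ord

variable {K E : Type*} [Field K] [Field E] [Algebra K E] (v : Place K E)

theorem ord_pow' {f : E} (hf : f ≠ 0) (n : ℕ) : v.ord (f ^ n) = n * v.ord f := by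
  induction n with
  | zero => simp
  | succ n ih => rw [pow_succ, v.ord_mul (pow_ne_zero n hf) hf, ih]; push_cast; ring

theorem ord_prod' {ι : Type*} (s : Finset ι) (f : ι → E) (hf : ∀ i ∈ s, f i ≠ 0) :
    v.ord (∏ i ∈ s, f i) = ∑ i ∈ s, v.ord (f i) := by
  induction s using Finset.cons_induction with
  | empty => simp
  | cons a s ha ih =>
    rw [Finset.prod_cons, Finset.sum_cons, v.ord_mul (hf a (Finset.mem_cons_self a s))
      (Finset.prod_ne_zero_iff.mpr fun i hi => hf i (Finset.mem_cons_of_mem hi)),
      ih fun i hi => hf i (Finset.mem_cons_of_mem hi)]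

theorem ord_algebraMap' (a : K) : v.ord (algebraMap K E a) = 0 := by
  rcases eq_or_ne a 0 with rfl | ha
  · simp
  · have hu : IsUnit (algebraMap K v.toValuationSubring a) := (isUnit_iff_ne_zero.mpr ha).map _
    have := v.ord_coe_unit hu.unit
    rwa [IsUnit.unit_spec, Place.coe_algebraMap] at this

/-- Conditions `ord ≥ e` at finitely many rational places cut out a subspace of codimension at
most the total of the `e`'s. -/
theorem exists_vanishing {W : Type*} [AddCommGroup W] [Module K W] [FiniteDimensional K W]
    (φ : W →ₗ[K] E) (S : Finset (Place K E)) (hdeg : ∀ v ∈ S, v.deg = 1)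
    (hmem : ∀ v ∈ S, ∀ w, φ w ∈ v.toValuationSubring) (e : Place K E → ℕ)
    (hlt : ∑ v ∈ S, e v < Module.finrank K W) :
    ∃ w : W, w ≠ 0 ∧ ∀ v ∈ S, φ w = 0 ∨ (e v : ℤ) ≤ v.ord (φ w) := by
  have key : ∀ (S' : Finset (Place K E)), S' ⊆ S → ∃ V : Submodule K W,
      Module.finrank K W ≤ Module.finrank K V + ∑ v ∈ S', e v ∧
        ∀ w ∈ V, ∀ v ∈ S', φ w = 0 ∨ (e v : ℤ) ≤ v.ord (φ w) := by
    classical
    intro S'
    induction S' using Finset.induction with
    | empty => exact fun _ => ⟨⊤, by simp, by simp⟩
    | insert v T hvT ih =>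
      intro hsub
      obtain ⟨hvS, hTS⟩ := Finset.insert_subset_iff.mp hsub
      obtain ⟨V, hV, hVT⟩ := ih hTS
      obtain ⟨π, hπ⟩ := IsDiscreteValuationRing.exists_irreducible v.toValuationSubring
      have hπ0 : (π : E) ≠ 0 := by
        simpa [ne_eq, ZeroMemClass.coe_eq_zero] using hπ.ne_zero
      have hord : v.ord (π : E) = 1 := v.ord_coe_irreducible hπ
      have step : ∀ i : ℕ, ∃ V' : Submodule K W,
          Module.finrank K V ≤ Module.finrank K V' + i ∧ V' ≤ V ∧
            ∀ w ∈ V', φ w = 0 ∨ (i : ℤ) ≤ v.ord (φ w) := by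
        intro i
        induction i with
        | zero =>
          exact ⟨V, by simp, le_rfl, fun w _ =>
            Or.inr (by simpa using ord_nonneg_of_mem v (hmem v hvS w))⟩
        | succ i ih' =>
          obtain ⟨V', hV', hle, hord'⟩ := ih'
          have hmem' : ∀ w : V', φ w * ((π : E) ^ i)⁻¹ ∈ v.toValuationSubring := by
            intro w
            rcases hord' w w.2 with h | h
            · rw [h, zero_mul]; exact zero_mem _
            · rcases eq_or_ne (φ w) 0 with h' | h'
              · rw [h', zero_mul]; exact zero_mem _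
              refine mem_of_ord_nonneg v ?_
              rw [v.ord_mul h' (inv_ne_zero (pow_ne_zero i hπ0)), v.ord_inv,
                ord_pow' v hπ0, hord]
              omega
          have hv := hdeg v hvS
          let ψ : V' →ₗ[K] K :=
            { toFun := fun w => pval v (φ w * ((π : E) ^ i)⁻¹)
              map_add' := fun w w' => by
                rw [← pval_add hv (hmem' w) (hmem' w'), Submodule.coe_add, map_add, add_mul]
              map_smul' := fun a w => by
                rw [Submodule.coe_smul, map_smul, Algebra.smul_def, mul_assoc,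
                  pval_mul hv (v.algebraMap_mem' a) (hmem' w), pval_algebraMap hv]
                rfl }
          refine ⟨(LinearMap.ker ψ).map V'.subtype, ?_,
            (Submodule.map_subtype_le _ _).trans hle, ?_⟩
          · have h1 := LinearMap.finrank_range_add_finrank_ker ψ
            have h2 := Submodule.finrank_le (LinearMap.range ψ)
            rw [Module.finrank_self] at h2
            rw [← (Submodule.equivMapOfInjective _ V'.injective_subtype
              (LinearMap.ker ψ)).finrank_eq]
            omega
          · rintro w ⟨w', hw', rfl⟩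
            rcases eq_or_ne (φ w') 0 with h' | h'
            · exact Or.inl h'
            refine Or.inr ?_
            rcases (pval_eq_zero_iff hv (hmem' w')).mp hw' with h | h
            · exact absurd h (mul_ne_zero h' (inv_ne_zero (pow_ne_zero i hπ0)))
            · rw [v.ord_mul h' (inv_ne_zero (pow_ne_zero i hπ0)), v.ord_inv,
                ord_pow' v hπ0, hord] at h
              push_cast
              simp only [Submodule.subtype_apply]
              omega
      obtain ⟨V', hV', hle, hord'⟩ := step (e v)
      refine ⟨V', ?_, fun w hw u hu => ?_⟩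
      · rw [Finset.sum_insert hvT]; omega
      · rcases Finset.mem_insert.mp hu with rfl | hu
        · exact hord' w hw
        · exact hVT w (hle hw) u hu
  obtain ⟨V, hV, hVS⟩ := key S subset_rfl
  have : V ≠ ⊥ := by
    rintro rfl
    rw [finrank_bot] at hV
    omega
  obtain ⟨w, hw, hw0⟩ := Submodule.exists_mem_ne_zero_of_ne_bot this
  exact ⟨w, hw0, hVS w hw⟩

end Ord

section Sum

variable {α : Type*}

open Classical in
/-- The sum of the multiplicities of the points satisfying `p`. -/
def sumOver (p : α → Prop) : (α →₀ ℤ) →+ ℤ :=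
  Finsupp.liftAddHom fun P => if p P then AddMonoidHom.id ℤ else 0

open Classical in
theorem sumOver_apply (p : α → Prop) (D : α →₀ ℤ) :
    sumOver p D = ∑ P ∈ D.support.filter p, D P := by
  rw [sumOver, Finsupp.liftAddHom_apply, Finsupp.sum, Finset.sum_filter]
  refine Finset.sum_congr rfl fun P _ => ?_
  split_ifs <;> rfl

theorem sumOver_congr {p q : α → Prop} {D : α →₀ ℤ} (h : ∀ P ∈ D.support, (p P ↔ q P)) :
    sumOver p D = sumOver q D := by
  classical
  rw [sumOver_apply, sumOver_apply, Finset.filter_congr h]

theorem sumOver_nonneg {p : α → Prop} {D : α →₀ ℤ} (h : ∀ P, p P → 0 ≤ D P) :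
    0 ≤ sumOver p D := by
  classical
  rw [sumOver_apply]
  exact Finset.sum_nonneg fun P hP => h P (Finset.mem_filter.mp hP).2

theorem sumOver_eq_zero {p : α → Prop} {D : α →₀ ℤ} (h : ∀ P, p P → D P = 0) :
    sumOver p D = 0 := by
  classical
  rw [sumOver_apply]
  exact Finset.sum_eq_zero fun P hP => h P (Finset.mem_filter.mp hP).2

theorem le_sumOver {p : α → Prop} {D : α →₀ ℤ} (h : ∀ P, p P → 0 ≤ D P) {P : α} (hP : p P) :
    D P ≤ sumOver p D := by
  classical
  rw [sumOver_apply]
  by_cases hsupp : P ∈ D.support
  · exact Finset.single_le_sum (f := fun P => D P)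
      (fun Q hQ => h Q (Finset.mem_filter.mp hQ).2) (Finset.mem_filter.mpr ⟨hsupp, hP⟩)
  · rw [Finsupp.notMem_support_iff.mp hsupp]
    exact Finset.sum_nonneg fun Q hQ => h Q (Finset.mem_filter.mp hQ).2

theorem mapDomain_apply_eq_sumOver {β : Type*} (r : α → β) (D : α →₀ ℤ) (Q : β) :
    Finsupp.mapDomain r D Q = sumOver (fun P => r P = Q) D := by
  classical
  rw [sumOver_apply, Finset.sum_filter, Finsupp.mapDomain, Finsupp.sum, Finsupp.finsetSum_apply]
  refine Finset.sum_congr rfl fun P _ => ?_
  rw [Finsupp.single_apply]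

end Sum

end Fermat.Agent.RED
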