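import Mathlib
import Fermat.Prelude.Def_AlgebraicCurve_DivisorClassGroup
import Fermat.Prelude.Def_AlgebraicCurve_Repartitions

/-!
# Prime-to-characteristic torsion injects under reduction (abstract form)

A function field `F/K` with a place-compatible reduction to a function field `Fk/k` of the same
genus.  If `m • D` is principal, the reduction of `D` is principal and `m` is invertible in `k`,
then `D` is principal.  The proof is Newton iteration on pairs of sections over a two-chart cover,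
with lifting of Riemann-Roch spaces through the equality of genera.
-/

set_option autoImplicit false

noncomputable section

namespace Fermat.Agent.RED.TorsionCore

open AlgebraicCurve

/-- Riemann-Roch in large degree, with all places rational. -/
structure RRCurve (K F : Type*) [Field K] [Field F] [Algebra K F] (g : ℕ) : Prop where
  hasPrincipalDivisors : HasPrincipalDivisors K F
  deg_one : ∀ v : Place K F, v.deg = 1
  finite_rr : ∀ D : Divisor K F, FiniteDimensional K (riemannRochSpace D)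
  finrank_rr : ∀ D : Divisor K F, (2 * g : ℤ) ≤ Divisor.degree D →
    (Module.finrank K (riemannRochSpace D) : ℤ) = Divisor.degree D + 1 - g
  finrank_rr_zero : Module.finrank K (riemannRochSpace (0 : Divisor K F)) = 1

variable {K F k Fk : Type*} [Field K] [Field F] [Algebra K F] [Field k] [Field Fk] [Algebra k Fk]

/-- A Gauss-type integral structure on `F` over a valuation ring of `K`, with its residue map. -/
structure ReductionPair (A : ValuationSubring K) (π : A →+* k) (F Fk : Type*) [Field F]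
    [Algebra K F] [Field Fk] [Algebra k Fk] where
  G : Subring F
  algebraMap_mem : ∀ a : A, algebraMap K F a ∈ G
  red : G →+* Fk
  red_algebraMap : ∀ a : A, red ⟨algebraMap K F a, algebraMap_mem a⟩ = algebraMap k Fk (π a)
  inv_mem : ∀ u : G, red u ≠ 0 → (u : F)⁻¹ ∈ G
  exists_eq_smul : ∀ x : F, x ≠ 0 → ∃ (c : K) (u : G), red u ≠ 0 ∧ x = c • (u : F)
  exists_lift_basis : ∀ V : Submodule K F, FiniteDimensional K V →
    ∃ b : Fin (Module.finrank K V) → G,
      (∀ i, (b i : F) ∈ V) ∧ LinearIndependent k (red ∘ b)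

section RR

theorem le_ord_of_mem {D : Divisor K F} {f : F} (hf : f ∈ riemannRochSpace D) (hf0 : f ≠ 0)
    (v : Place K F) : -D v ≤ v.ord f :=
  (mem_riemannRochSpace_iff.mp hf v).resolve_left hf0

theorem mul_mem_rr {D E : Divisor K F} {f g : F} (hf : f ∈ riemannRochSpace D)
    (hg : g ∈ riemannRochSpace E) : f * g ∈ riemannRochSpace (D + E) := by
  rcases eq_or_ne f 0 with rfl | hf0
  · simp
  rcases eq_or_ne g 0 with rfl | hg0
  · simp
  rw [mem_riemannRochSpace_iff]
  intro v
  right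
  rw [v.ord_mul hf0 hg0, Finsupp.add_apply]
  have := le_ord_of_mem hf hf0 v
  have := le_ord_of_mem hg hg0 v
  omega

theorem rr_mono {D E : Divisor K F} (h : D ≤ E) : riemannRochSpace D ≤ riemannRochSpace E := by
  intro f hf
  rw [mem_riemannRochSpace_iff] at hf ⊢
  intro v
  have := Finsupp.le_def.mp h v
  exact (hf v).imp id fun h' => by omega

theorem pow_mem_rr {D : Divisor K F} {f : F} (hf : f ∈ riemannRochSpace D) (m : ℕ) :
    f ^ m ∈ riemannRochSpace (m • D) := by
  induction m with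
  | zero =>
    rw [pow_zero, zero_smul, mem_riemannRochSpace_iff]
    intro v
    right
    simp
  | succ m ih =>
    rw [pow_succ, succ_nsmul]
    exact mul_mem_rr ih hf

theorem inv_mem_rr {D : Divisor K F} {f : F} (hD : ∀ v : Place K F, v.ord f = D v) :
    f⁻¹ ∈ riemannRochSpace D := by
  rw [mem_riemannRochSpace_iff]
  intro v
  right
  rw [v.ord_inv, hD v]

theorem rr_single_inter {E : Divisor K F} {P Q : Place K F} (hPQ : P ≠ Q) {a b N : ℕ}
    {f : F} (h1 : f ∈ riemannRochSpace (E + Finsupp.single P (a : ℤ)))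
    (h2 : f ∈ riemannRochSpace (E + Finsupp.single P (b : ℤ) + Finsupp.single Q (N : ℤ))) :
    f ∈ riemannRochSpace (E + Finsupp.single P (b : ℤ)) := by
  rw [mem_riemannRochSpace_iff] at h1 h2 ⊢
  intro v
  rcases h1 v with h | h
  · exact Or.inl h
  rcases h2 v with h' | h'
  · exact Or.inl h'
  right
  rcases eq_or_ne v Q with rfl | hvQ
  · simp only [Finsupp.add_apply, Finsupp.single_eq_of_ne (Ne.symm hPQ)] at h ⊢
    simpa using h
  · simpa [Finsupp.single_eq_of_ne hvQ] using h'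

theorem le_add_single_natCast (E : Divisor K F) (P : Place K F) (n : ℕ) :
    E ≤ E + Finsupp.single P (n : ℤ) :=
  le_add_of_nonneg_right (Finsupp.single_nonneg.mpr (Int.natCast_nonneg n))

theorem rrCurve_degree_single {g : ℕ} (hF : RRCurve K F g) (P : Place K F) (n : ℤ) :
    Divisor.degree (Finsupp.single P n) = n := by
  simp [hF.deg_one]

end RR

variable {A : ValuationSubring K} {π : A →+* k}

section Lattice

theorem exists_max (A : ValuationSubring K) {ι : Type*} [Finite ι] (c : ι → K)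
    (h : ∃ i, c i ∉ A) : ∃ i, c i ∉ A ∧ ∀ j, c j / c i ∈ A := by
  obtain ⟨i₀, hi₀⟩ := h
  haveI : Nonempty ι := ⟨i₀⟩
  obtain ⟨i, hi⟩ := Finite.exists_max (fun j => A.valuation (c j))
  have hnot : c i ∉ A := by
    intro hmem
    refine hi₀ ((A.valuation_le_one_iff _).mp ((hi i₀).trans ?_))
    exact (A.valuation_le_one_iff _).mpr hmem
  have h0 : c i ≠ 0 := fun h => hnot (h ▸ A.zero_mem)
  refine ⟨i, hnot, fun j => (A.valuation_le_one_iff _).mp ?_⟩
  rw [map_div₀]
  exact div_le_one_of_le₀ (hi j) zero_le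

theorem map_ne_zero_iff_isUnit (hπ : Function.Surjective π) (a : A) : π a ≠ 0 ↔ IsUnit a := by
  have hker : RingHom.ker π = IsLocalRing.maximalIdeal A :=
    IsLocalRing.eq_maximalIdeal (RingHom.ker_isMaximal_of_surjective π hπ)
  rw [ne_eq, ← RingHom.mem_ker, hker, IsLocalRing.mem_maximalIdeal, mem_nonunits_iff, not_not]

namespace ReductionPair

variable (P : ReductionPair A π F Fk)

/-- constants of `A` inside the integral ring -/
def const : A →+* P.G :=
  ((algebraMap K F).comp A.subtype).codRestrict P.G fun a => P.algebraMap_mem a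

@[simp]
theorem coe_const (a : A) : (P.const a : F) = algebraMap K F a := rfl

theorem red_const (a : A) : P.red (P.const a) = algebraMap k Fk (π a) := P.red_algebraMap a

theorem isUnit_of_red_ne_zero {u : P.G} (hu : P.red u ≠ 0) : IsUnit u := by
  have hu0 : (u : F) ≠ 0 := fun h => hu (by rw [show u = 0 from Subtype.ext h, map_zero])
  exact .of_mul_eq_one ⟨_, P.inv_mem u hu⟩ (Subtype.ext (mul_inv_cancel₀ hu0))

theorem coeff_mem {ι : Type*} [Fintype ι] (hπ : Function.Surjective π) {b : ι → P.G}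
    (hb : LinearIndependent k (P.red ∘ b)) {c : ι → K}
    (hc : ∑ i, c i • (b i : F) ∈ P.G) (i : ι) : c i ∈ A := by
  by_contra hi
  obtain ⟨i₀, hi₀, hdiv⟩ := exists_max A c ⟨i, hi⟩
  have h0 : c i₀ ≠ 0 := fun h => hi₀ (h ▸ A.zero_mem)
  have hinv : (c i₀)⁻¹ ∈ A := (A.mem_or_inv_mem _).resolve_left hi₀
  have hπ0 : π ⟨_, hinv⟩ = 0 := by
    by_contra hne
    obtain ⟨y, hy⟩ := isUnit_iff_exists_inv.mp ((map_ne_zero_iff_isUnit hπ _).mp hne)
    apply hi₀
    have h2 := congrArg Subtype.val hy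
    simp only [MulMemClass.coe_mul, OneMemClass.coe_one] at h2
    have : (y : K) = c i₀ := by rw [← mul_one (c i₀), ← h2, mul_inv_cancel_left₀ h0]
    exact this ▸ y.2
  let d : ι → A := fun j => ⟨c j / c i₀, hdiv j⟩
  have key : P.const ⟨_, hinv⟩ * ⟨_, hc⟩ = ∑ j, P.const (d j) * b j := by
    apply Subtype.ext
    push_cast
    simp only [coe_const, d, Algebra.smul_def, Finset.mul_sum]
    refine Finset.sum_congr rfl fun j _ => ?_
    rw [← mul_assoc, ← map_mul, div_eq_inv_mul]
  have hred := congrArg P.red key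
  simp only [map_mul, map_sum, red_const, hπ0, map_zero, zero_mul] at hred
  have hsum : ∑ j, π (d j) • (P.red ∘ b) j = 0 := by
    simpa only [Algebra.smul_def, Function.comp_apply] using hred.symm
  have := Fintype.linearIndependent_iff.mp hb _ hsum i₀
  rw [show d i₀ = 1 from Subtype.ext (div_self h0), map_one] at this
  exact one_ne_zero this

theorem exists_coeff {ι : Type*} [Fintype ι] (hπ : Function.Surjective π)
    {V : Submodule K F} [FiniteDimensional K V] {b : ι → P.G} (hbV : ∀ i, (b i : F) ∈ V)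
    (hb : LinearIndependent k (P.red ∘ b)) (hcard : Fintype.card ι = Module.finrank K V)
    {x : P.G} (hx : (x : F) ∈ V) : ∃ a : ι → A, x = ∑ i, P.const (a i) * b i := by
  have hli : LinearIndependent K (fun i => (⟨_, hbV i⟩ : V)) := by
    rw [Fintype.linearIndependent_iff]
    intro c hc i
    by_contra hne
    have hsum : ∑ j, c j • (b j : F) = 0 := by
      simpa using congrArg Subtype.val hc
    obtain ⟨i₀, hi₀⟩ : ∃ i₀, ∀ j, A.valuation (c j) ≤ A.valuation (c i₀) :=
      haveI : Nonempty ι := ⟨i⟩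
      Finite.exists_max _
    have h0 : c i₀ ≠ 0 := fun h => hne (by
      have := hi₀ i
      rw [h, map_zero, le_zero_iff, map_eq_zero] at this
      exact this)
    let d : ι → A := fun j => ⟨c j / c i₀, (A.valuation_le_one_iff _).mp (by
      rw [map_div₀]; exact div_le_one_of_le₀ (hi₀ j) zero_le)⟩
    have key : ∑ j, P.const (d j) * b j = 0 := by
      apply Subtype.ext
      push_cast
      simp only [coe_const, d, div_eq_inv_mul, ← Algebra.smul_def, mul_smul, ← Finset.smul_sum,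
        hsum, smul_zero]
    have hred := congrArg P.red key
    simp only [map_mul, map_sum, red_const, map_zero] at hred
    have := Fintype.linearIndependent_iff.mp hb (fun j => π (d j))
      (by simpa only [Algebra.smul_def, Function.comp_apply] using hred) i₀
    rw [show d i₀ = 1 from Subtype.ext (div_self h0), map_one] at this
    exact one_ne_zero this
  have hspan := hli.span_eq_top_of_card_eq_finrank' hcard
  obtain ⟨c, hc⟩ := (Submodule.mem_span_range_iff_exists_fun K).mp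
    (hspan ▸ Submodule.mem_top : (⟨x, hx⟩ : V) ∈ Submodule.span K (Set.range _))
  have hc' : ∑ i, c i • (b i : F) = x := by simpa using congrArg Subtype.val hc
  refine ⟨fun i => ⟨c i, P.coeff_mem hπ hb (hc' ▸ x.2) i⟩, Subtype.ext ?_⟩
  push_cast
  simpa [Algebra.smul_def] using hc'.symm

end ReductionPair

end Lattice

section Reduction

variable (P : ReductionPair A π F Fk) (r : Place K F → Place k Fk)

/-- compatibility of the place map with residues of integral units -/
def Compatible : Prop :=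
  ∀ u : P.G, P.red u ≠ 0 → ∀ D : Divisor K F, (∀ v, D v = v.ord (u : F)) →
    ∀ w, Finsupp.mapDomain r D w = w.ord (P.red u)

variable {P r} {g : ℕ}

theorem red_mem_rr (hF : RRCurve K F g) (hr : Compatible P r) {D : Divisor K F} {x : P.G}
    (hx : (x : F) ∈ riemannRochSpace D) : P.red x ∈ riemannRochSpace (Finsupp.mapDomain r D) := by
  rw [mem_riemannRochSpace_iff]
  intro w
  rcases eq_or_ne (P.red x) 0 with h | h
  · exact Or.inl h
  right
  have hx0 : (x : F) ≠ 0 := fun h0 => h (by rw [show x = 0 from Subtype.ext h0, map_zero])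
  obtain ⟨E, hE, -⟩ := hF.hasPrincipalDivisors.exists_divisor _ hx0
  rw [← hr x h E hE w]
  have hle : -D ≤ E := Finsupp.le_def.mpr fun v => by
    rw [hE v, Finsupp.neg_apply]
    exact le_ord_of_mem hx hx0 v
  have := Finsupp.le_def.mp (Finsupp.mapDomain_mono (f := r) hle) w
  rwa [← Finsupp.mapDomain.addMonoidHom_apply, map_neg, Finsupp.mapDomain.addMonoidHom_apply,
    Finsupp.neg_apply] at this

theorem degree_mapDomain (hF : RRCurve K F g) (hk : RRCurve k Fk g) (D : Divisor K F) :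
    Divisor.degree (Finsupp.mapDomain r D) = Divisor.degree D := by
  induction D using Finsupp.induction with
  | zero => simp
  | single_add v n D _ _ ih =>
    rw [Finsupp.mapDomain_add, map_add, map_add, ih, Finsupp.mapDomain_single,
      rrCurve_degree_single hF, rrCurve_degree_single hk]

theorem exists_lattice_basis (hF : RRCurve K F g) (hk : RRCurve k Fk g) (hr : Compatible P r)
    {D : Divisor K F} (hD : (2 * g : ℤ) ≤ Divisor.degree D) :
    ∃ b : Fin (Module.finrank K (riemannRochSpace D)) → P.G,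
      (∀ i, (b i : F) ∈ riemannRochSpace D) ∧ LinearIndependent k (P.red ∘ b) ∧
        Submodule.span k (Set.range (P.red ∘ b)) = riemannRochSpace (Finsupp.mapDomain r D) := by
  obtain ⟨b, hbV, hb⟩ := P.exists_lift_basis _ (hF.finite_rr D)
  refine ⟨b, hbV, hb, ?_⟩
  have := hk.finite_rr (Finsupp.mapDomain r D)
  refine Submodule.eq_of_le_of_finrank_eq ?_ ?_
  · rw [Submodule.span_le]
    rintro _ ⟨i, rfl⟩
    exact red_mem_rr hF hr (hbV i)
  · rw [finrank_span_eq_card hb, Fintype.card_fin]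
    have h1 := hF.finrank_rr D hD
    have h2 := hk.finrank_rr (Finsupp.mapDomain r D) (by rwa [degree_mapDomain hF hk])
    rw [degree_mapDomain hF hk] at h2
    omega

theorem exists_lift (hπ : Function.Surjective π) (hF : RRCurve K F g) (hk : RRCurve k Fk g)
    (hr : Compatible P r) {D : Divisor K F} (hD : (2 * g : ℤ) ≤ Divisor.degree D) {y : Fk}
    (hy : y ∈ riemannRochSpace (Finsupp.mapDomain r D)) :
    ∃ x : P.G, (x : F) ∈ riemannRochSpace D ∧ P.red x = y := by
  obtain ⟨b, hbV, -, hspan⟩ := exists_lattice_basis hF hk hr hD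
  rw [← hspan, Submodule.mem_span_range_iff_exists_fun] at hy
  obtain ⟨c, rfl⟩ := hy
  choose a ha using fun i => hπ (c i)
  refine ⟨∑ i, P.const (a i) * b i, ?_, ?_⟩
  · push_cast
    refine Submodule.sum_mem _ fun i _ => ?_
    rw [ReductionPair.coe_const, ← Algebra.smul_def]
    exact Submodule.smul_mem _ _ (hbV i)
  · simp [ReductionPair.red_const, ha, Algebra.smul_def]

theorem residual_sup (hk : RRCurve k Fk g) {e : Divisor k Fk} {P' Q' : Place k Fk} (hPQ : P' ≠ Q')
    {n N n₀ : ℕ} (hn : n₀ ≤ n) (he : (2 * g : ℤ) ≤ Divisor.degree e + n₀) :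
    riemannRochSpace (e + Finsupp.single P' (n : ℤ) + Finsupp.single Q' (N : ℤ)) =
      riemannRochSpace (e + Finsupp.single P' (n : ℤ)) ⊔
        riemannRochSpace (e + Finsupp.single P' (n₀ : ℤ) + Finsupp.single Q' (N : ℤ)) := by
  set V := riemannRochSpace (e + Finsupp.single P' (n : ℤ) + Finsupp.single Q' (N : ℤ)) with hV
  set V₁ := riemannRochSpace (e + Finsupp.single P' (n : ℤ)) with hV₁
  set V₂ := riemannRochSpace (e + Finsupp.single P' (n₀ : ℤ) + Finsupp.single Q' (N : ℤ)) with hV₂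
  have : FiniteDimensional k V := hk.finite_rr _
  have : FiniteDimensional k V₁ := hk.finite_rr _
  have : FiniteDimensional k V₂ := hk.finite_rr _
  have hle₁ : V₁ ≤ V := rr_mono (by simp)
  have hle₂ : V₂ ≤ V := rr_mono (by
    gcongr)
  have hinf : V₁ ⊓ V₂ = riemannRochSpace (e + Finsupp.single P' (n₀ : ℤ)) := by
    refine le_antisymm (fun f hf => rr_single_inter hPQ hf.1 hf.2) (le_inf ?_ ?_)
    · exact rr_mono (by gcongr)
    · exact rr_mono (by simp)
  refine (Submodule.eq_of_le_of_finrank_eq (sup_le hle₁ hle₂) ?_).symm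
  have h := Submodule.finrank_sup_add_finrank_inf_eq V₁ V₂
  have hn' : (n₀ : ℤ) ≤ n := by exact_mod_cast hn
  have d1 := hk.finrank_rr _ (show (2 * g : ℤ) ≤
    Divisor.degree (e + Finsupp.single P' (n : ℤ)) by
      rw [map_add, rrCurve_degree_single hk]; omega)
  have d0 := hk.finrank_rr _ (show (2 * g : ℤ) ≤
    Divisor.degree (e + Finsupp.single P' (n₀ : ℤ)) by
      rw [map_add, rrCurve_degree_single hk]; omega)
  have d2 := hk.finrank_rr _ (show (2 * g : ℤ) ≤
    Divisor.degree (e + Finsupp.single P' (n₀ : ℤ) + Finsupp.single Q' (N : ℤ)) by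
      rw [map_add, map_add, rrCurve_degree_single hk, rrCurve_degree_single hk]; omega)
  have d3 := hk.finrank_rr _ (show (2 * g : ℤ) ≤
    Divisor.degree (e + Finsupp.single P' (n : ℤ) + Finsupp.single Q' (N : ℤ)) by
      rw [map_add, map_add, rrCurve_degree_single hk, rrCurve_degree_single hk]; omega)
  rw [hinf] at h
  simp only [map_add, rrCurve_degree_single hk] at d0 d1 d2 d3
  show Module.finrank k (V₁ ⊔ V₂ : Submodule k Fk) = Module.finrank k V
  rw [← hV] at d3
  rw [← hV₁] at d1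
  rw [← hV₂] at d2
  omega

theorem exists_decomp (hπ : Function.Surjective π) (hF : RRCurve K F g) (hk : RRCurve k Fk g)
    (hr : Compatible P r) {E : Divisor K F} {P₀ Q₀ : Place K F} (hPQ : r P₀ ≠ r Q₀)
    {n N n₀ : ℕ} (hn : n₀ ≤ n) (he : (2 * g : ℤ) ≤ Divisor.degree E + n₀) {w : P.G}
    (hw : (w : F) ∈
      riemannRochSpace (E + Finsupp.single P₀ (n : ℤ) + Finsupp.single Q₀ (N : ℤ))) :
    ∃ w₁ w₂ : P.G, (w₁ : F) ∈ riemannRochSpace (E + Finsupp.single P₀ (n : ℤ)) ∧
      (w₂ : F) ∈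
        riemannRochSpace (E + Finsupp.single P₀ (n₀ : ℤ) + Finsupp.single Q₀ (N : ℤ)) ∧
      w = w₁ + w₂ := by
  classical
  set D := E + Finsupp.single P₀ (n : ℤ) + Finsupp.single Q₀ (N : ℤ) with hDdef
  set D₁ := E + Finsupp.single P₀ (n : ℤ) with hD₁def
  set D₂ := E + Finsupp.single P₀ (n₀ : ℤ) + Finsupp.single Q₀ (N : ℤ) with hD₂def
  have hn' : (n₀ : ℤ) ≤ n := by exact_mod_cast hn
  have hD : (2 * g : ℤ) ≤ Divisor.degree D := by
    rw [hDdef, map_add, map_add, rrCurve_degree_single hF, rrCurve_degree_single hF]; omega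
  have hD₁ : (2 * g : ℤ) ≤ Divisor.degree D₁ := by
    rw [hD₁def, map_add, rrCurve_degree_single hF]; omega
  have hD₂ : (2 * g : ℤ) ≤ Divisor.degree D₂ := by
    rw [hD₂def, map_add, map_add, rrCurve_degree_single hF, rrCurve_degree_single hF]; omega
  obtain ⟨b, -, hb, hspan⟩ := exists_lattice_basis hF hk hr hD
  have hsplit : ∀ i, ∃ u₁ u₂ : P.G, (u₁ : F) ∈ riemannRochSpace D₁ ∧
      (u₂ : F) ∈ riemannRochSpace D₂ ∧ P.red (u₁ + u₂) = P.red (b i) := by
    intro i
    have hmem : P.red (b i) ∈ riemannRochSpace (Finsupp.mapDomain r D) :=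
      hspan ▸ Submodule.subset_span ⟨i, rfl⟩
    simp only [hDdef, hD₁def, Finsupp.mapDomain_add, Finsupp.mapDomain_single] at hmem
    rw [residual_sup hk hPQ hn (by rwa [degree_mapDomain hF hk])] at hmem
    obtain ⟨y₁, hy₁, y₂, hy₂, hy⟩ := Submodule.mem_sup.mp hmem
    obtain ⟨u₁, hu₁, hru₁⟩ := exists_lift hπ hF hk hr hD₁ (y := y₁) (by
      simpa only [hD₁def, Finsupp.mapDomain_add, Finsupp.mapDomain_single] using hy₁)
    obtain ⟨u₂, hu₂, hru₂⟩ := exists_lift hπ hF hk hr hD₂ (y := y₂) (by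
      simpa only [hD₂def, Finsupp.mapDomain_add, Finsupp.mapDomain_single] using hy₂)
    exact ⟨u₁, u₂, hu₁, hu₂, by rw [map_add, hru₁, hru₂, hy]⟩
  choose u₁ u₂ hu₁ hu₂ hu using hsplit
  have := hF.finite_rr D
  have hle₁ : riemannRochSpace D₁ ≤ riemannRochSpace D := rr_mono (by simp [hDdef, hD₁def])
  have hle₂ : riemannRochSpace D₂ ≤ riemannRochSpace D := rr_mono (by
    rw [hDdef, hD₂def, hD₁def]; gcongr)
  obtain ⟨a, ha⟩ := P.exists_coeff hπ (V := riemannRochSpace D) (b := fun i => u₁ i + u₂ i)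
    (fun i => by push_cast; exact Submodule.add_mem _ (hle₁ (hu₁ i)) (hle₂ (hu₂ i)))
    (by convert hb using 1; funext i; exact hu i) (Fintype.card_fin _) hw
  refine ⟨∑ i, P.const (a i) * u₁ i, ∑ i, P.const (a i) * u₂ i, ?_, ?_, ?_⟩
  · push_cast
    refine Submodule.sum_mem _ fun i _ => ?_
    rw [ReductionPair.coe_const, ← Algebra.smul_def]
    exact Submodule.smul_mem _ _ (hu₁ i)
  · push_cast
    refine Submodule.sum_mem _ fun i _ => ?_
    rw [ReductionPair.coe_const, ← Algebra.smul_def]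
    exact Submodule.smul_mem _ _ (hu₂ i)
  · rw [ha, ← Finset.sum_add_distrib]
    exact Finset.sum_congr rfl fun i _ => mul_add _ _ _

end Reduction

section Main

variable (P : ReductionPair A π F Fk)

theorem const_mul_mem_rr_iff {c : A} (hc : (c : K) ≠ 0) {D : Divisor K F} {w : P.G} :
    ((P.const c * w : P.G) : F) ∈ riemannRochSpace D ↔ (w : F) ∈ riemannRochSpace D := by
  push_cast
  rw [ReductionPair.coe_const, ← Algebra.smul_def]
  refine ⟨fun h => ?_, fun h => Submodule.smul_mem _ _ h⟩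
  simpa [inv_smul_smul₀ hc] using Submodule.smul_mem _ (c : K)⁻¹ h

/-- An approximate `m`-th root of `f`, given by compatible sections on the two charts. -/
def Approx (E : Divisor K F) (P₀ Q₀ : Place K F) (m : ℕ) (f : P.G) (y : Fk) (c : A) : Prop :=
  ∃ (n : ℕ) (x₁ x₂ : P.G),
    (x₁ : F) ∈ riemannRochSpace (E + Finsupp.single P₀ (n : ℤ)) ∧
    (x₂ : F) ∈ riemannRochSpace (E + Finsupp.single Q₀ (n : ℤ)) ∧
    P.red x₁ = y ∧ P.red x₂ = y ∧ P.const c ∣ x₁ ^ m - f ∧ P.const c ∣ x₁ - x₂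

variable {P} {r : Place K F → Place k Fk} {g : ℕ}

theorem step_aux {m : ℕ} {E : Divisor K F} {f x : P.G} {c : A} (hmk : (m : k) ≠ 0)
    (hπ : Function.Surjective π) (hf : P.red f ≠ 0)
    (hfd : ∀ v : Place K F, v.ord (f : F) = (m • -E) v)
    {P₀ : Place K F} {n : ℕ}
    (hx : (x : F) ∈ riemannRochSpace (E + Finsupp.single P₀ (n : ℤ)))
    (hxf : P.const c ∣ x ^ m - f) :
    ∃ x' : P.G, (x' : F) ∈ riemannRochSpace (E + Finsupp.single P₀ ((n + m * n : ℕ) : ℤ)) ∧
      P.const (c * c) ∣ x' ^ m - f ∧ P.const c ∣ x' - x := by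
  have hfu := P.isUnit_of_red_ne_zero hf
  have hmA : IsUnit (m : A) := (map_ne_zero_iff_isUnit hπ _).mp (by rwa [map_natCast])
  obtain ⟨fi, hfi⟩ := isUnit_iff_exists_inv.mp hfu
  obtain ⟨mi, hmi⟩ := isUnit_iff_exists_inv.mp hmA
  have hmi' : (m : P.G) * P.const mi = 1 := by
    rw [← map_natCast P.const m, ← map_mul, hmi, map_one]
  obtain ⟨s, hs⟩ := hxf
  set t := x ^ m * fi with ht
  refine ⟨x * (1 + P.const mi * (1 - t)), ?_, ?_, ?_⟩
  · have hfi' : (fi : F) = (f : F)⁻¹ := by
      refine eq_inv_of_mul_eq_one_left ?_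
      rw [mul_comm]
      exact congrArg Subtype.val hfi
    have htmem : ((t : P.G) : F) ∈ riemannRochSpace (Finsupp.single P₀ ((m * n : ℕ) : ℤ)) := by
      have h := mul_mem_rr (pow_mem_rr hx m) (inv_mem_rr hfd)
      have he : m • (E + Finsupp.single P₀ (n : ℤ)) + m • -E =
          Finsupp.single P₀ ((m * n : ℕ) : ℤ) := by
        rw [smul_add, smul_neg, Finsupp.smul_single, nsmul_eq_mul]
        push_cast
        abel
      rw [he] at h
      simpa [ht, hfi'] using h
    have hone : (1 : F) ∈ riemannRochSpace (Finsupp.single P₀ ((m * n : ℕ) : ℤ)) := by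
      rw [mem_riemannRochSpace_iff]
      intro v
      right
      have := Finsupp.le_def.mp
        (Finsupp.single_nonneg.mpr (Int.natCast_nonneg (m * n)) :
          (0 : Divisor K F) ≤ Finsupp.single P₀ ((m * n : ℕ) : ℤ)) v
      simp only [Place.ord_one, Finsupp.coe_zero, Pi.zero_apply] at this ⊢
      omega
    have hcor : ((1 + P.const mi * (1 - t) : P.G) : F) ∈
        riemannRochSpace (Finsupp.single P₀ ((m * n : ℕ) : ℤ)) := by
      push_cast
      rw [ReductionPair.coe_const, ← Algebra.smul_def]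
      exact Submodule.add_mem _ hone (Submodule.smul_mem _ _ (Submodule.sub_mem _ hone htmem))
    have h := mul_mem_rr hx hcor
    rw [add_assoc, ← Finsupp.single_add] at h
    push_cast at h ⊢
    exact h
  · obtain ⟨R, hR⟩ := sq_dvd_add_pow_sub_sub (P.const mi * (1 - t)) 1 m
    have hst : 1 - t = -(P.const c * (s * fi)) := by
      rw [← mul_assoc, ← hs, sub_mul, hfi, ht]; ring
    simp only [one_pow, one_mul] at hR
    have hpow : (1 + P.const mi * (1 - t)) ^ m =
        1 + (1 - t) + (P.const mi * (1 - t)) ^ 2 * R := by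
      linear_combination hR + (1 - t) * hmi'
    refine ⟨f * ((s * fi) ^ 2) * (t * P.const mi ^ 2 * R - 1), ?_⟩
    have hxm : x ^ m = t * f := by rw [ht, mul_assoc, mul_comm fi f, hfi, mul_one]
    rw [mul_pow, hpow, hxm, map_mul]
    have : t = 1 + P.const c * (s * fi) := by linear_combination -hst
    rw [hst, this]
    ring
  · refine ⟨x * P.const mi * -(s * fi), ?_⟩
    have hst : 1 - t = -(P.const c * (s * fi)) := by
      rw [← mul_assoc, ← hs, sub_mul, hfi, ht]; ring
    rw [hst]; ring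

theorem approx_sq {m : ℕ} {E : Divisor K F} {f : P.G} {y : Fk} {c : A}
    (hmk : (m : k) ≠ 0) (hπ : Function.Surjective π) (hy : y ≠ 0) (hf : P.red f ≠ 0)
    (hfd : ∀ v : Place K F, v.ord (f : F) = (m • -E) v) (hc : π c = 0)
    {P₀ Q₀ : Place K F} (h : Approx P E P₀ Q₀ m f y c) :
    Approx P E P₀ Q₀ m f y (c * c) := by
  obtain ⟨n, x₁, x₂, h1, h2, hr1, hr2, hd1, hd12⟩ := h
  have hd2 : P.const c ∣ x₂ ^ m - f := by
    have := dvd_sub hd1 (hd12.trans (sub_dvd_pow_sub_pow x₁ x₂ m))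
    simpa using this
  obtain ⟨x₁', hm1, hf1, hc1⟩ := step_aux hmk hπ hf hfd h1 hd1
  obtain ⟨x₂', hm2, hf2, hc2⟩ := step_aux hmk hπ hf hfd h2 hd2
  have hredc : ∀ {a b : P.G}, P.const c ∣ a - b → P.red a = P.red b := by
    rintro a b ⟨w, hw⟩
    have := congrArg P.red hw
    rw [map_sub, map_mul, P.red_const, hc, map_zero, zero_mul, sub_eq_zero] at this
    exact this
  have hr1' : P.red x₁' = y := by rw [hredc hc1, hr1]
  have hr2' : P.red x₂' = y := by rw [hredc hc2, hr2]
  refine ⟨n + m * n, x₁', x₂', hm1, hm2, hr1', hr2', hf1, ?_⟩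
  have hmk' : (m : Fk) ≠ 0 := by
    rw [← map_natCast (algebraMap k Fk)]
    exact fun h => hmk ((algebraMap k Fk).injective (h.trans (map_zero _).symm))
  have hS : IsUnit (∑ i ∈ Finset.range m, x₁' ^ i * x₂' ^ (m - 1 - i)) := by
    refine P.isUnit_of_red_ne_zero ?_
    have hval : P.red (∑ i ∈ Finset.range m, x₁' ^ i * x₂' ^ (m - 1 - i)) =
        (m : Fk) * y ^ (m - 1) := by
      rw [map_sum]
      have hterm : ∀ i ∈ Finset.range m, P.red (x₁' ^ i * x₂' ^ (m - 1 - i)) = y ^ (m - 1) := by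
        intro i hi
        rw [map_mul, map_pow, map_pow, hr1', hr2', ← pow_add]
        rw [Finset.mem_range] at hi
        congr 1
        omega
      rw [Finset.sum_congr rfl hterm, Finset.sum_const, Finset.card_range, nsmul_eq_mul]
    rw [hval]
    exact mul_ne_zero hmk' (pow_ne_zero _ hy)
  have hdm : P.const (c * c) ∣ x₁' ^ m - x₂' ^ m := by
    have := dvd_sub hf1 hf2
    simpa using this
  rw [← geom_sum₂_mul, mul_comm] at hdm
  exact hS.dvd_mul_left.mp hdm

theorem approx_base {m : ℕ} {E : Divisor K F} {f : P.G} {y : Fk}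
    (hπ : Function.Surjective π) (hF : RRCurve K F g) (hk : RRCurve k Fk g)
    (hr : Compatible P r) (hE : Divisor.degree E = 0) (hfy : P.red f = y ^ m)
    (hym : y ∈ riemannRochSpace (Finsupp.mapDomain r E))
    (hA : ∃ a : A, π a = 0 ∧ (a : K) ≠ 0) (P₀ Q₀ : Place K F) :
    ∃ c : A, π c = 0 ∧ (c : K) ≠ 0 ∧ Approx P E P₀ Q₀ m f y c := by
  have hlift : ∀ R₀ : Place K F, ∃ x : P.G,
      (x : F) ∈ riemannRochSpace (E + Finsupp.single R₀ ((2 * g : ℕ) : ℤ)) ∧ P.red x = y := by
    intro R₀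
    refine exists_lift hπ hF hk hr ?_ ?_
    · rw [map_add, rrCurve_degree_single hF, hE]; push_cast; omega
    · rw [Finsupp.mapDomain_add, Finsupp.mapDomain_single]
      exact rr_mono (le_add_of_nonneg_right (Finsupp.single_nonneg.mpr (by positivity))) hym
  obtain ⟨x₁, h1, hr1⟩ := hlift P₀
  obtain ⟨x₂, h2, hr2⟩ := hlift Q₀
  have hsmall : ∀ z : P.G, P.red z = 0 → ∃ c : A, π c = 0 ∧ (c : K) ≠ 0 ∧ P.const c ∣ z := by
    intro z hz
    rcases eq_or_ne (z : F) 0 with h0 | h0
    · obtain ⟨a, ha, ha'⟩ := hA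
      exact ⟨a, ha, ha', ⟨0, by rw [mul_zero]; exact Subtype.ext h0⟩⟩
    obtain ⟨c, u, hu, hzu⟩ := P.exists_eq_smul _ h0
    have hc0 : c ≠ 0 := fun h => h0 (by rw [hzu, h, zero_smul])
    by_cases hc : c ∈ A
    · refine ⟨⟨c, hc⟩, ?_, hc0, u, ?_⟩
      · have hz' : z = P.const ⟨c, hc⟩ * u := Subtype.ext (by rw [hzu]; simp [Algebra.smul_def])
        by_contra hne
        rw [hz', map_mul, P.red_const] at hz
        rcases mul_eq_zero.mp hz with h | h
        · exact hne ((algebraMap k Fk).injective (h.trans (map_zero _).symm))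
        · exact hu h
      · exact Subtype.ext (by rw [hzu]; simp [Algebra.smul_def])
    · exfalso
      have hinv : c⁻¹ ∈ A := (A.mem_or_inv_mem _).resolve_left hc
      have hu' : u = P.const ⟨_, hinv⟩ * z := Subtype.ext (by
        push_cast
        rw [hzu, ReductionPair.coe_const, Algebra.smul_def, ← mul_assoc, ← map_mul,
          inv_mul_cancel₀ hc0, map_one, one_mul])
      exact hu (by rw [hu', map_mul, hz, mul_zero])
  obtain ⟨a, ha, ha0, hda⟩ := hsmall (x₁ ^ m - f) (by rw [map_sub, map_pow, hr1, hfy, sub_self])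
  obtain ⟨b, hb, hb0, hdb⟩ := hsmall (x₁ - x₂) (by rw [map_sub, hr1, hr2, sub_self])
  rcases ValuationRing.dvd_total a b with hab | hba
  · exact ⟨a, ha, ha0, _, x₁, x₂, h1, h2, hr1, hr2, hda, (map_dvd P.const hab).trans hdb⟩
  · exact ⟨b, hb, hb0, _, x₁, x₂, h1, h2, hr1, hr2, (map_dvd P.const hba).trans hda, hdb⟩

theorem approx_bounded {m : ℕ} {E : Divisor K F} {f : P.G} {y : Fk} {c : A}
    (hπ : Function.Surjective π) (hF : RRCurve K F g) (hk : RRCurve k Fk g)
    (hr : Compatible P r) (hE : Divisor.degree E = 0) (hc : π c = 0) (hc0 : (c : K) ≠ 0)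
    {P₀ Q₀ : Place K F} (hPQ : r P₀ ≠ r Q₀) (h : Approx P E P₀ Q₀ m f y c) :
    ∃ x₁ x₂ : P.G,
      (x₁ : F) ∈ riemannRochSpace (E + Finsupp.single P₀ ((2 * g : ℕ) : ℤ)) ∧
      (x₂ : F) ∈ riemannRochSpace (E + Finsupp.single Q₀ ((2 * g : ℕ) : ℤ)) ∧
      P.red x₁ = y ∧ P.const c ∣ x₁ - x₂ := by
  obtain ⟨n, x₁, x₂, h1, h2, hr1, -, -, hd⟩ := h
  set n₀ := 2 * g with hn₀
  have key : ∀ {P₀ Q₀ : Place K F}, r P₀ ≠ r Q₀ → ∀ {x₁ x₂ : P.G},
      (x₁ : F) ∈ riemannRochSpace (E + Finsupp.single P₀ ((n + n₀ : ℕ) : ℤ)) →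
      (x₂ : F) ∈ riemannRochSpace (E + Finsupp.single Q₀ ((n + n₀ : ℕ) : ℤ)) →
      P.const c ∣ x₁ - x₂ → ∃ z : P.G,
        (z : F) ∈ riemannRochSpace (E + Finsupp.single P₀ (n₀ : ℤ)) ∧ P.const c ∣ z - x₁ := by
    intro P₀ Q₀ hPQ x₁ x₂ h1 h2 ⟨w, hw⟩
    have hw' : (w : F) ∈ riemannRochSpace
        (E + Finsupp.single P₀ ((n + n₀ : ℕ) : ℤ) + Finsupp.single Q₀ ((n + n₀ : ℕ) : ℤ)) := by
      rw [← const_mul_mem_rr_iff P hc0, ← hw]
      push_cast [-Nat.cast_add]
      refine Submodule.sub_mem _ (rr_mono (le_add_single_natCast _ _ _) h1) (rr_mono ?_ h2)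
      exact add_le_add_left (le_add_single_natCast _ _ _) _
    obtain ⟨w₁, w₂, hw₁, hw₂, hsum⟩ := exists_decomp hπ hF hk hr hPQ
      (Nat.le_add_left n₀ n) (by rw [hE, hn₀]; push_cast; omega) hw'
    refine ⟨x₁ - P.const c * w₁, rr_single_inter
      (fun h => hPQ (congrArg r h)) (a := n + n₀) (N := n + n₀) ?_ ?_, ⟨-w₁, by ring⟩⟩
    · exact Submodule.sub_mem _ h1 ((const_mul_mem_rr_iff P hc0).mpr hw₁)
    · have : x₁ - P.const c * w₁ = x₂ + P.const c * w₂ := by
        linear_combination hw + P.const c * hsum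
      rw [this]
      exact Submodule.add_mem _ (rr_mono (add_le_add_left (le_add_single_natCast _ _ _) _) h2)
        ((const_mul_mem_rr_iff P hc0).mpr hw₂)
  have hle : ∀ R : Place K F, E + Finsupp.single R (n : ℤ) ≤
      E + Finsupp.single R ((n + n₀ : ℕ) : ℤ) := fun R => by
    push_cast
    simp [Finsupp.single_add, Finsupp.single_nonneg]
  obtain ⟨z₁, hz₁, hd₁⟩ := key hPQ (rr_mono (hle _) h1) (rr_mono (hle _) h2) hd
  obtain ⟨z₂, hz₂, hd₂⟩ := key hPQ.symm (rr_mono (hle _) h2) (rr_mono (hle _) h1)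
    ((dvd_sub_comm).mp hd)
  refine ⟨z₁, z₂, hz₁, hz₂, ?_, ?_⟩
  · obtain ⟨w, hw⟩ := hd₁
    have := congrArg P.red hw
    rw [map_sub, map_mul, P.red_const, hc, map_zero, zero_mul, sub_eq_zero] at this
    rw [this, hr1]
  · have : z₁ - z₂ = (z₁ - x₁) - (z₂ - x₂) + (x₁ - x₂) := by ring
    rw [this]
    exact dvd_add (dvd_sub hd₁ hd₂) hd

/-- The subspace with vanishing difference is nonzero. -/
theorem exists_mem_rr (hπ : Function.Surjective π) (hF : RRCurve K F g) (hk : RRCurve k Fk g)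
    (hr : Compatible P r) {E : Divisor K F} (hE : Divisor.degree E = 0) {m : ℕ}
    (hmk : (m : k) ≠ 0) {f : P.G} {y : Fk} (hy : y ≠ 0) (hfy : P.red f = y ^ m)
    (hfd : ∀ v : Place K F, v.ord (f : F) = (m • -E) v)
    (hym : y ∈ riemannRochSpace (Finsupp.mapDomain r E))
    (hA : ∃ a : A, π a = 0 ∧ (a : K) ≠ 0)
    (hrank : ∀ a c : A, π a = 0 → (c : K) ≠ 0 → ∃ n, c ∣ a ^ n)
    {P₀ Q₀ : Place K F} (hPQ : r P₀ ≠ r Q₀) :
    ∃ h : F, h ≠ 0 ∧ h ∈ riemannRochSpace E := by
  classical
  by_contra hno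
  push Not at hno
  set n₀ := 2 * g with hn₀
  set D₁ := E + Finsupp.single P₀ (n₀ : ℤ) with hD₁
  set D₂ := E + Finsupp.single Q₀ (n₀ : ℤ) with hD₂
  set D := E + Finsupp.single P₀ (n₀ : ℤ) + Finsupp.single Q₀ (n₀ : ℤ) with hD
  have := hF.finite_rr D₁
  have := hF.finite_rr D
  have hPQ' : P₀ ≠ Q₀ := fun h => hPQ (congrArg r h)
  have hdis : ∀ x : F, x ∈ riemannRochSpace D₁ → x ∈ riemannRochSpace D₂ → x = 0 := by
    intro x hx1 hx2
    by_contra hne
    refine hno x hne ?_
    rw [hD₂] at hx2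
    have hQ0 : E + Finsupp.single P₀ ((0 : ℕ) : ℤ) = E := by simp
    have := rr_single_inter (E := E) hPQ' (a := n₀) (b := 0) (N := n₀) hx1 (by rwa [hQ0])
    rwa [hQ0] at this
  obtain ⟨e, heV, he, -⟩ := exists_lattice_basis hF hk hr (D := D) (P := P) (by
    rw [hD, map_add, map_add, rrCurve_degree_single hF, rrCurve_degree_single hF, hE, hn₀]
    push_cast; omega)
  -- a linear projection to the first summand killing the second
  let W₁ := (riemannRochSpace D₁).comap (riemannRochSpace D).subtype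
  let W₂ := (riemannRochSpace D₂).comap (riemannRochSpace D).subtype
  have hW : Disjoint W₁ W₂ := by
    rw [Submodule.disjoint_def]
    intro x hx1 hx2
    exact Subtype.ext (hdis _ hx1 hx2)
  obtain ⟨W₁', hW₁, hcompl⟩ := hW.exists_isCompl
  let pr : riemannRochSpace D →ₗ[K] riemannRochSpace D :=
    W₂.projection W₁' hcompl.symm
  let qr : riemannRochSpace D →ₗ[K] riemannRochSpace D := LinearMap.id - pr
  -- denominators of the projection on the lattice
  obtain ⟨d, hd0, hd⟩ : ∃ d : A, (d : K) ≠ 0 ∧ ∀ i, ∃ v : P.G,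
      (v : F) = (d : K) • ((qr ⟨e i, heV i⟩ : riemannRochSpace D) : F) := by
    have hmem : ∀ i, ∃ d : A, (d : K) ≠ 0 ∧
        (d : K) • ((qr ⟨e i, heV i⟩ : riemannRochSpace D) : F) ∈ P.G := by
      intro i
      rcases eq_or_ne ((qr ⟨e i, heV i⟩ : riemannRochSpace D) : F) 0 with h | h
      · exact ⟨1, one_ne_zero, by rw [h, smul_zero]; exact zero_mem _⟩
      obtain ⟨c, u, -, hcu⟩ := P.exists_eq_smul _ h
      by_cases hc : c ∈ A
      · refine ⟨1, one_ne_zero, ?_⟩
        rw [OneMemClass.coe_one, one_smul, hcu, Algebra.smul_def]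
        exact mul_mem (P.algebraMap_mem ⟨c, hc⟩) u.2
      · have hc0 : c ≠ 0 := fun h0 => hc (h0 ▸ A.zero_mem)
        exact ⟨⟨c⁻¹, (A.mem_or_inv_mem _).resolve_left hc⟩, inv_ne_zero hc0,
          by rw [hcu, inv_smul_smul₀ hc0]; exact u.2⟩
    choose di hdi0 hdi using hmem
    refine ⟨∏ i, di i, ?_, fun i => ⟨⟨_, ?_⟩, rfl⟩⟩
    · push_cast
      exact Finset.prod_ne_zero_iff.mpr fun i _ => hdi0 i
    · rw [← Finset.prod_erase_mul Finset.univ di (Finset.mem_univ i)]
      push_cast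
      rw [mul_smul, Algebra.smul_def]
      refine mul_mem ?_ (hdi i)
      have h' := P.algebraMap_mem (∏ j ∈ Finset.univ.erase i, di j)
      push_cast [map_prod] at h' ⊢
      exact h' 
  choose v hv using hd
  -- deep approximation
  obtain ⟨c₀, hc₀, hc₀0, happ⟩ := approx_base (P := P) hπ hF hk hr hE hfy hym hA P₀ Q₀
  have hiter : ∀ i : ℕ, Approx P E P₀ Q₀ m f y (c₀ ^ (2 ^ i)) := by
    intro i
    induction i with
    | zero => simpa using happ
    | succ i ih =>
      rw [pow_succ, pow_mul, pow_two]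
      exact approx_sq hmk hπ hy (by rw [hfy]; exact pow_ne_zero _ hy) hfd
        (by rw [map_pow, hc₀, zero_pow (pow_ne_zero _ two_ne_zero)]) ih
  obtain ⟨N, a, ha⟩ := hrank c₀ (d * c₀) hc₀ (by push_cast; exact mul_ne_zero hd0 hc₀0)
  set c := c₀ ^ (2 ^ N) with hc
  obtain ⟨a', ha'⟩ : d * c₀ ∣ c := (ha ▸ dvd_mul_right _ _ : d * c₀ ∣ c₀ ^ N).trans
    (pow_dvd_pow _ Nat.lt_two_pow_self.le)
  have hcπ : π c = 0 := by rw [hc, map_pow, hc₀, zero_pow (pow_ne_zero _ two_ne_zero)]
  have hc0' : (c : K) ≠ 0 := by rw [hc]; push_cast; exact pow_ne_zero _ hc₀0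
  obtain ⟨x₁, x₂, h1, h2, hr1, w, hw⟩ := approx_bounded hπ hF hk hr hE hcπ hc0' hPQ (hiter N)
  have h1D : (x₁ : F) ∈ riemannRochSpace D := by
    rw [hD]
    exact rr_mono (le_add_single_natCast _ _ _) h1
  have h2D : (x₂ : F) ∈ riemannRochSpace D := by
    rw [hD]
    exact rr_mono (add_le_add_left (le_add_single_natCast _ _ _) _) h2
  have hwD : (w : F) ∈ riemannRochSpace D := by
    rw [← const_mul_mem_rr_iff P hc0', ← hw]
    push_cast
    exact Submodule.sub_mem _ h1D h2D
  obtain ⟨α, hα⟩ := P.exists_coeff hπ heV he (Fintype.card_fin _) hwD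
  have hq : ((qr ⟨_, h1D⟩ : riemannRochSpace D) : F) -
      ((qr ⟨_, h2D⟩ : riemannRochSpace D) : F) = (x₁ : F) := by
    have e1 : pr ⟨_, h1D⟩ = 0 :=
      (Submodule.projection_apply_eq_zero_iff _).mpr (hW₁ h1)
    have e2 : pr ⟨_, h2D⟩ = ⟨_, h2D⟩ :=
      Submodule.projection_apply_left _ (⟨_, h2⟩ : W₂)
    simp [qr, e1, e2]
  have hdiff : (⟨(x₁ : F), h1D⟩ : riemannRochSpace D) - ⟨_, h2D⟩ =
      ∑ i, ((c : K) * α i) • (⟨_, heV i⟩ : riemannRochSpace D) := by
    apply Subtype.ext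
    have := congrArg Subtype.val (hw.trans (congrArg _ hα))
    push_cast at this ⊢
    rw [this, Finset.mul_sum]
    refine Finset.sum_congr rfl fun i _ => ?_
    simp [Algebra.smul_def, mul_assoc]
  have hx : x₁ = P.const (c₀ * a') * ∑ i, P.const (α i) * v i := by
    apply Subtype.ext
    rw [← hq, ← Submodule.coe_sub, ← map_sub, hdiff, map_sum]
    push_cast
    rw [Finset.mul_sum]
    refine Finset.sum_congr rfl fun i _ => ?_
    rw [map_smul, Submodule.coe_smul, hv i, ha']
    simp only [ReductionPair.coe_const, Algebra.smul_def]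
    push_cast
    ring
  apply hy
  rw [← hr1, hx, map_mul, P.red_const, map_mul π, hc₀, zero_mul, map_zero, zero_mul]

/-- **Torsion prime to the residue characteristic injects under reduction.** -/
theorem isPrincipal_of_mapDomain_isPrincipal (hπ : Function.Surjective π) (hF : RRCurve K F g)
    (hk : RRCurve k Fk g) (hr : Compatible P r) (hnc : ∃ P₀ Q₀, r P₀ ≠ r Q₀)
    (hA : ∃ a : A, π a = 0 ∧ (a : K) ≠ 0)
    (hrank : ∀ a c : A, π a = 0 → (c : K) ≠ 0 → ∃ n, c ∣ a ^ n)
    {m : ℕ} (hmk : (m : k) ≠ 0) {D : Divisor K F} (hD0 : Divisor.degree D = 0)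
    (hmD : Divisor.IsPrincipal (m • D)) (hrD : Divisor.IsPrincipal (Finsupp.mapDomain r D)) :
    Divisor.IsPrincipal D := by
  obtain ⟨f₀, hf₀0, hf₀⟩ := hmD
  obtain ⟨y, hy, hyd⟩ := hrD
  obtain ⟨c, u, hu, hcu⟩ := P.exists_eq_smul f₀ hf₀0
  have hc0 : c ≠ 0 := fun h => hf₀0 (by rw [hcu, h, zero_smul])
  have hu0 : (u : F) ≠ 0 := fun h => hu (by rw [show u = 0 from Subtype.ext h, map_zero])
  have hconst : ∀ {a : K}, a ≠ 0 → ∀ v : Place K F, v.ord (algebraMap K F a) = 0 := by
    intro a ha v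
    have hmemb : ∀ b : K, algebraMap K F b ∈ riemannRochSpace (0 : Divisor K F) := fun b => by
      rw [Algebra.algebraMap_eq_smul_one]
      exact Submodule.smul_mem _ _ (by simp [mem_riemannRochSpace_iff])
    have := (mem_riemannRochSpace_iff (D := (0 : Divisor K F))).mp
      (hmemb a) v
    have h' := (mem_riemannRochSpace_iff (D := (0 : Divisor K F))).mp
      (hmemb a⁻¹) v
    have hne : algebraMap K F a ≠ 0 := by simpa using ha
    rw [map_inv₀, v.ord_inv] at h'
    simp only [hne, inv_eq_zero, false_or, Finsupp.coe_zero, Pi.zero_apply, neg_zero] at this h'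
    omega
  have hordu : ∀ v : Place K F, (m • D) v = v.ord (u : F) := fun v => by
    rw [hf₀ v, hcu, Algebra.smul_def, v.ord_mul (by simpa using hc0) hu0, hconst hc0, zero_add]
  -- `red u` is a constant times `y ^ m`
  obtain ⟨κ, hκ⟩ : ∃ κ : k, κ ≠ 0 ∧ P.red u = κ • y ^ m := by
    set ρ := P.red u * (y ^ m)⁻¹ with hρ
    have hρ0 : ρ ∈ riemannRochSpace (0 : Divisor k Fk) := by
      rw [mem_riemannRochSpace_iff]
      intro w
      right
      rw [hρ, w.ord_mul hu (inv_ne_zero (pow_ne_zero _ hy)), w.ord_inv, ← hr u hu _ hordu w]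
      have h1 : w.ord (y ^ m) = m * w.ord y := by
        rw [← zpow_natCast, w.ord_zpow]
      rw [h1, ← hyd w, ← Finsupp.mapDomain.addMonoidHom_apply, map_nsmul,
        Finsupp.mapDomain.addMonoidHom_apply]
      simp
    have h1 : (1 : Fk) ∈ riemannRochSpace (0 : Divisor k Fk) := by
      simp [mem_riemannRochSpace_iff]
    have := hk.finite_rr 0
    obtain ⟨κ, hκ⟩ := (finrank_eq_one_iff_of_nonzero' (⟨1, h1⟩ : riemannRochSpace (0 : Divisor k Fk))
      (fun h => one_ne_zero (congrArg Subtype.val h))).mp hk.finrank_rr_zero ⟨ρ, hρ0⟩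
    have hκ' : ρ = κ • (1 : Fk) := congrArg Subtype.val hκ.symm
    have : P.red u = ρ * y ^ m := by rw [hρ, inv_mul_cancel_right₀ (pow_ne_zero _ hy)]
    refine ⟨κ, ?_, by rw [this, hκ', smul_mul_assoc, one_mul]⟩
    rintro rfl
    exact hu (by rw [this, hκ', zero_smul, zero_mul])
  obtain ⟨hκ0, hκ⟩ := hκ
  obtain ⟨κt, hκt⟩ := hπ κ⁻¹
  have hκt0 : (κt : K) ≠ 0 := fun h => inv_ne_zero hκ0 (by
    rw [← hκt, show κt = 0 from Subtype.ext h, map_zero])
  set f := P.const κt * u with hf
  have hfy : P.red f = y ^ m := by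
    rw [hf, map_mul, P.red_const, hκt, hκ, ← Algebra.smul_def, smul_smul,
      inv_mul_cancel₀ hκ0, one_smul]
  have hE : Divisor.degree (-D) = 0 := by rw [map_neg, hD0, neg_zero]
  obtain ⟨P₀, Q₀, hPQ⟩ := hnc
  obtain ⟨h, hh0, hh⟩ := exists_mem_rr hπ hF hk hr hE hmk hy hfy
    (fun v => by
      rw [hf, MulMemClass.coe_mul, ReductionPair.coe_const, v.ord_mul (by simpa using hκt0) hu0,
        hconst hκt0, zero_add, ← hordu v, neg_neg])
    (by
      rw [mem_riemannRochSpace_iff]
      intro w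
      right
      rw [← Finsupp.mapDomain.addMonoidHom_apply, map_neg, Finsupp.mapDomain.addMonoidHom_apply,
        Finsupp.neg_apply, neg_neg, hyd w])
    hA hrank hPQ
  refine ⟨h, hh0, fun v => ?_⟩
  obtain ⟨H, hH, hHdeg⟩ := hF.hasPrincipalDivisors.exists_divisor h hh0
  have hle : D ≤ H := Finsupp.le_def.mpr fun w => by
    have := le_ord_of_mem hh hh0 w
    rw [Finsupp.neg_apply, neg_neg] at this
    rwa [hH w]
  have hzero : Divisor.degree (H - D) = 0 := by rw [map_sub, hHdeg, hD0, sub_zero]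
  rw [← hH v]
  by_contra hne
  have hpos : 0 < (H - D) v := by
    rw [Finsupp.sub_apply]
    have := Finsupp.le_def.mp hle v
    omega
  have hnn : ∀ w, 0 ≤ (H - D) w := fun w => by
    rw [Finsupp.sub_apply, sub_nonneg]; exact Finsupp.le_def.mp hle w
  have hsum : Divisor.degree (H - D) = ∑ w ∈ (H - D).support, (H - D) w * w.deg := by
    simp [Divisor.degree, Finsupp.sum]
  rw [hsum] at hzero
  have := (Finset.sum_eq_zero_iff_of_nonneg (fun w _ => mul_nonneg (hnn w) (by positivity))).mp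
    hzero v (Finsupp.mem_support_iff.mpr (by omega))
  rw [hF.deg_one v] at this
  omega

end Main

end Fermat.Agent.RED.TorsionCore
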