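import Mathlib
import Fermat.Prelude.Def_ModularCurve_LaurentCoeff
import Fermat.Agent.RED.TorsionCore

/-!
# The Gauss integral structure on a field of Laurent series

If every nonzero element of a field `F` of Laurent series is a constant times a quotient of series
with integral coefficients and nonzero reduction in `Fk`, then the coefficientwise reduction gives
a `ReductionPair`.
-/

set_option autoImplicit false

noncomputable section

namespace Fermat.Agent.RED.TorsionCore

open ModularCurve HahnSeries

section NonZeroDivisor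

theorem isUnit_of_coeff {R : Type*} [CommRing R] (b : LaurentSeries R) (i₀ : ℤ)
    (hu : IsUnit (b.coeff i₀)) (hlow : ∀ i < i₀, IsNilpotent (b.coeff i)) : IsUnit b := by
  classical
  obtain _ | _ := subsingleton_or_nontrivial R
  · exact isUnit_of_subsingleton b
  set hi := b - truncLT i₀ b with hhi
  have hcoeff : ∀ i, hi.coeff i = if i < i₀ then 0 else b.coeff i := by
    intro i
    rw [hhi, coeff_sub, HahnSeries.coeff_truncLT]
    split_ifs <;> simp
  have hne : hi.coeff i₀ ≠ 0 := by
    rw [hcoeff, if_neg (lt_irrefl _)]; exact hu.ne_zero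
  have hord : hi.order = i₀ := by
    refine le_antisymm (order_le_of_coeff_ne_zero hne) ?_
    by_contra h
    push Not at h
    have h0 : hi.coeff hi.order = 0 := by rw [hcoeff, if_pos h]
    exact hne (by
      have : hi = 0 := by
        by_contra hne0
        exact coeff_order_eq_zero.not.mpr hne0 h0
      rw [this, coeff_zero])
  have hhiU : IsUnit hi := by
    refine isUnit_of_isUnit_leadingCoeff_AddUnitOrder ?_ (AddGroup.isAddUnit _)
    rw [leadingCoeff_eq, hord, hcoeff, if_neg (lt_irrefl _)]
    exact hu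
  have hnil : IsNilpotent (truncLT i₀ b) := by
    have hfin : ((truncLT i₀ b).support).Finite := by
      refine (Set.finite_Ico b.order i₀).subset fun i hi' => ?_
      rw [mem_support, HahnSeries.coeff_truncLT] at hi'
      split_ifs at hi' with h
      · exact ⟨order_le_of_coeff_ne_zero hi', h⟩
      · exact absurd rfl hi'
    have hsum : truncLT i₀ b = ∑ i ∈ hfin.toFinset, single i ((truncLT i₀ b).coeff i) := by
      ext j
      rw [coeff_sum, Finset.sum_eq_single j (fun x _ hx => coeff_single_of_ne (Ne.symm hx))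
        (fun h => ?_)]
      · rw [coeff_single_same]
      · rw [coeff_single_same]
        simpa [Set.Finite.mem_toFinset] using h
    rw [hsum]
    refine Commute.isNilpotent_sum (fun i hi' => ?_) fun _ _ _ _ => Commute.all _ _
    rw [Set.Finite.mem_toFinset, mem_support, HahnSeries.coeff_truncLT] at hi'
    split_ifs at hi' with h
    · rw [HahnSeries.coeff_truncLT, if_pos h]
      obtain ⟨n, hn⟩ := hlow i h
      exact ⟨n, by rw [single_pow, hn, map_zero]⟩
    · exact absurd rfl hi'
  have : b = hi + truncLT i₀ b := by rw [hhi, sub_add_cancel]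
  rw [this]
  exact hnil.isUnit_add_left_of_commute hhiU (Commute.all _ _)

variable {K k : Type*} [Field K] [Field k] {A : ValuationSubring K} {π : A →+* k}

/-- A series with a unit coefficient is a non-zero-divisor modulo every constant. -/
theorem dvd_coeff_of_dvd_coeff_mul (hπ : Function.Surjective π)
    (hrank : ∀ a c : A, π a = 0 → (c : K) ≠ 0 → ∃ n, c ∣ a ^ n)
    {b y : LaurentSeries A} (hb : coeffMap π b ≠ 0) {c : A} (hc : (c : K) ≠ 0)
    (h : ∀ n, c ∣ (b * y).coeff n) (n : ℤ) : c ∣ y.coeff n := by
  set f := Ideal.Quotient.mk (Ideal.span {c}) with hf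
  have hzero : ∀ a, f a = 0 ↔ c ∣ a := fun a => by
    rw [hf, Ideal.Quotient.eq_zero_iff_mem, Ideal.mem_span_singleton]
  set i₀ := (coeffMap π b).order with hi₀
  have hu : IsUnit (b.coeff i₀) := by
    refine (map_ne_zero_iff_isUnit hπ _).mp ?_
    rw [← coeffMap_coeff]
    exact coeff_order_eq_zero.not.mpr hb
  have hlow : ∀ i < i₀, IsNilpotent ((coeffMap f b).coeff i) := by
    intro i hi
    have h0 : π (b.coeff i) = 0 := by
      rw [← coeffMap_coeff]; exact coeff_eq_zero_of_lt_order hi
    obtain ⟨N, hN⟩ := hrank _ c h0 hc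
    exact ⟨N, by rw [coeffMap_coeff, ← map_pow, hzero]; exact hN⟩
  have hunit : IsUnit (coeffMap f b) :=
    isUnit_of_coeff _ i₀ (by rw [coeffMap_coeff]; exact hu.map f) hlow
  have hby : coeffMap f b * coeffMap f y = 0 := by
    rw [← map_mul]
    ext m
    rw [coeffMap_coeff, (hzero _).mpr (h m), coeff_zero]
  have hy : coeffMap f y = 0 := hunit.mul_right_eq_zero.mp hby
  rw [← hzero, ← coeffMap_coeff, hy, coeff_zero]

theorem exists_eq_C_mul_of_dvd_coeff {y : LaurentSeries A} {c : A} (hc : (c : K) ≠ 0)
    (h : ∀ n, c ∣ y.coeff n) : ∃ y' : LaurentSeries A, y = C c * y' := by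
  choose f hf using h
  have hc' : c ≠ 0 := fun h0 => hc (by rw [h0]; rfl)
  refine ⟨⟨f, y.isPWO_support.mono fun n hn => ?_⟩, ?_⟩
  · rw [mem_support, hf n]
    exact mul_ne_zero hc' hn
  · ext n
    rw [C_apply, coeff_single_zero_mul, hf n]

theorem coeffMap_C {R S : Type*} [CommRing R] [CommRing S] (f : R →+* S) (c : R) :
    coeffMap f (C c) = C (f c) := by
  rw [C_apply, coeffMap_single, C_apply]

theorem coe_algebraMap_eq_C {F : IntermediateField K (LaurentSeries K)} (c : K) :
    ((algebraMap K F c : F) : LaurentSeries K) = C c := by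
  rw [C_apply]; exact algebraMap_laurentSeries_eq_single K c

theorem C_mem {F : IntermediateField K (LaurentSeries K)} (c : K) : C c ∈ F :=
  coe_algebraMap_eq_C (F := F) c ▸ (algebraMap K F c).2

theorem coe_smul_eq_C_mul {F : IntermediateField K (LaurentSeries K)} (c : K) (x : F) :
    ((c • x : F) : LaurentSeries K) = C c * (x : LaurentSeries K) := by
  rw [Algebra.smul_def, IntermediateField.coe_mul, coe_algebraMap_eq_C]

theorem C_ne_zero {R : Type*} [CommRing R] {c : R} (h : c ≠ 0) : (C c : LaurentSeries R) ≠ 0 := by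
  rw [C_apply]; exact single_ne_zero h

end NonZeroDivisor

section Gauss

variable {K k : Type*} [Field K] [Field k] (A : ValuationSubring K) (π : A →+* k)
variable (F : IntermediateField K (LaurentSeries K)) (Fk : IntermediateField k (LaurentSeries k))

/-- Every element is a constant times a quotient of integral series with nonzero reduction. -/
def GaussGenerated : Prop :=
  ∀ x : F, x ≠ 0 → ∃ (c : K) (a b : LaurentSeries A),
    coeffMap A.subtype a ∈ F ∧ coeffMap A.subtype b ∈ F ∧
    coeffMap π a ∈ Fk ∧ coeffMap π b ∈ Fk ∧ coeffMap π a ≠ 0 ∧ coeffMap π b ≠ 0 ∧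
    (x : LaurentSeries K) * coeffMap A.subtype b = C c * coeffMap A.subtype a

structure GaussHyp : Prop where
  surjective : Function.Surjective π
  rank_one : ∀ a c : A, π a = 0 → (c : K) ≠ 0 → ∃ n, c ∣ a ^ n
  generated : GaussGenerated A π F Fk

variable {A π F Fk}

theorem coeffMap_subtype_injective : Function.Injective (coeffMap A.subtype) := fun x y h =>
  HahnSeries.ext (funext fun n => Subtype.ext (congrArg (fun z : LaurentSeries K => z.coeff n) h))

theorem coeffMap_subtype_C (c : A) : coeffMap A.subtype (C c) = C (c : K) :=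
  coeffMap_C _ _

theorem coeffMap_eq_zero_iff {x : LaurentSeries A} : coeffMap A.subtype x = 0 ↔ x = 0 :=
  map_eq_zero_iff _ coeffMap_subtype_injective

/-- A nonzero element of `F` which is an integral series is a constant times an integral series
with nonzero reduction in `Fk`. -/
theorem exists_normalised (H : GaussHyp A π F Fk) {r : LaurentSeries A}
    (hr : coeffMap A.subtype r ∈ F) (hr0 : r ≠ 0) :
    ∃ (c : A) (y : LaurentSeries A), (c : K) ≠ 0 ∧ r = C c * y ∧
      coeffMap A.subtype y ∈ F ∧ coeffMap π y ∈ Fk ∧ coeffMap π y ≠ 0 := by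
  have hrK : coeffMap A.subtype r ≠ 0 := coeffMap_eq_zero_iff.not.mpr hr0
  obtain ⟨c, a, b, ha, hb, hak, hbk, ha0, hb0, he⟩ :=
    H.generated ⟨_, hr⟩ (fun h => hrK (congrArg Subtype.val h))
  simp only at he
  have hc0 : c ≠ 0 := by
    rintro rfl
    rw [map_zero, zero_mul] at he
    rcases mul_eq_zero.mp he with h | h
    · exact hrK h
    · exact hb0 (by rw [coeffMap_eq_zero_iff.mp h, map_zero])
  have hcA : c ∈ A := by
    by_contra hc
    have hinv : c⁻¹ ∈ A := (A.mem_or_inv_mem _).resolve_left hc
    have heA : a = C (⟨_, hinv⟩ : A) * (r * b) := by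
      apply coeffMap_subtype_injective
      rw [map_mul, map_mul, coeffMap_subtype_C, he, ← mul_assoc, ← map_mul, inv_mul_cancel₀ hc0,
        map_one, one_mul]
    have hπ0 : π ⟨_, hinv⟩ = 0 := by
      by_contra hne
      obtain ⟨y, hy⟩ := isUnit_iff_exists_inv.mp ((map_ne_zero_iff_isUnit H.surjective _).mp hne)
      have h2 := congrArg Subtype.val hy
      simp only [MulMemClass.coe_mul, OneMemClass.coe_one] at h2
      apply hc
      rw [show c = (y : K) by rw [← mul_one c, ← h2, mul_inv_cancel_left₀ hc0]]
      exact y.2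
    exact ha0 (by rw [heA, map_mul, coeffMap_C, hπ0, map_zero, zero_mul])
  set cA : A := ⟨c, hcA⟩
  have heA : r * b = C cA * a := by
    apply coeffMap_subtype_injective
    rw [map_mul, he, map_mul, coeffMap_subtype_C]
  have hdvd : ∀ n, cA ∣ r.coeff n := by
    refine dvd_coeff_of_dvd_coeff_mul H.surjective H.rank_one hb0 hc0 fun n => ?_
    rw [mul_comm, heA, C_apply, coeff_single_zero_mul]
    exact dvd_mul_right _ _
  obtain ⟨y, hy⟩ := exists_eq_C_mul_of_dvd_coeff (c := cA) hc0 hdvd
  have hcne : C (c : K) ≠ (0 : LaurentSeries K) := C_ne_zero hc0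
  have hyb : y * b = a := by
    apply coeffMap_subtype_injective
    have := congrArg (coeffMap A.subtype) heA
    rw [hy, map_mul, map_mul, map_mul, coeffMap_subtype_C, mul_assoc] at this
    rw [map_mul]
    exact mul_left_cancel₀ hcne this
  have hyk : coeffMap π y * coeffMap π b = coeffMap π a := by rw [← map_mul, hyb]
  refine ⟨cA, y, hc0, hy, ?_, ?_, fun h => ha0 (by rw [← hyk, h, zero_mul])⟩
  · have := mul_mem (C_mem (F := F) c⁻¹) hr
    rwa [hy, map_mul, coeffMap_subtype_C, ← mul_assoc, ← map_mul, inv_mul_cancel₀ hc0, map_one,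
      one_mul] at this
  · rw [show coeffMap π y = coeffMap π a / coeffMap π b from eq_div_iff hb0 |>.mpr hyk]
    exact div_mem hak hbk

theorem coeffMap_mem_of_mem (H : GaussHyp A π F Fk) {r : LaurentSeries A}
    (hr : coeffMap A.subtype r ∈ F) : coeffMap π r ∈ Fk := by
  rcases eq_or_ne r 0 with rfl | hr0
  · rw [map_zero]; exact zero_mem _
  obtain ⟨c, y, -, rfl, -, hyk, -⟩ := exists_normalised H hr hr0
  rw [map_mul, coeffMap_C]
  exact mul_mem (C_mem _) hyk

/-- `x` is the quotient `a / b` of integral series, `b` having nonzero reduction. -/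
def IsFrac (π : A →+* k) (F : IntermediateField K (LaurentSeries K)) (x : F)
    (p : LaurentSeries A × LaurentSeries A) : Prop :=
  coeffMap A.subtype p.1 ∈ F ∧ coeffMap A.subtype p.2 ∈ F ∧ coeffMap π p.2 ≠ 0 ∧
    (x : LaurentSeries K) * coeffMap A.subtype p.2 = coeffMap A.subtype p.1

variable (π F) in
/-- The ring of Gauss-integral elements. -/
def gaussRing : Subring F where
  carrier := {x | ∃ p, IsFrac π F x p}
  zero_mem' := ⟨(0, 1), by simp [IsFrac]⟩
  one_mem' := ⟨(1, 1), by simp [IsFrac]⟩
  add_mem' := by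
    rintro x y ⟨⟨a, b⟩, ha, hb, hb0, he⟩ ⟨⟨a', b'⟩, ha', hb', hb0', he'⟩
    refine ⟨(a * b' + a' * b, b * b'), ?_, ?_, ?_, ?_⟩
    · rw [map_add, map_mul, map_mul]; exact add_mem (mul_mem ha hb') (mul_mem ha' hb)
    · rw [map_mul]; exact mul_mem hb hb'
    · rw [map_mul]; exact mul_ne_zero hb0 hb0'
    · simp only [map_mul, map_add, IntermediateField.coe_add] at *
      linear_combination coeffMap A.subtype b' * he + coeffMap A.subtype b * he'
  mul_mem' := by
    rintro x y ⟨⟨a, b⟩, ha, hb, hb0, he⟩ ⟨⟨a', b'⟩, ha', hb', hb0', he'⟩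
    refine ⟨(a * a', b * b'), ?_, ?_, ?_, ?_⟩
    · rw [map_mul]; exact mul_mem ha ha'
    · rw [map_mul]; exact mul_mem hb hb'
    · rw [map_mul]; exact mul_ne_zero hb0 hb0'
    · simp only [map_mul, IntermediateField.coe_mul] at *
      linear_combination (coeffMap A.subtype b' * (y : LaurentSeries K)) * he +
        coeffMap A.subtype a * he'
  neg_mem' := by
    rintro x ⟨⟨a, b⟩, ha, hb, hb0, he⟩
    refine ⟨(-a, b), ?_, hb, hb0, ?_⟩
    · rw [map_neg]; exact neg_mem ha
    · simp only [map_neg, IntermediateField.coe_neg] at *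
      linear_combination -he

variable (π F) in
def fracPair (x : gaussRing π F) : LaurentSeries A × LaurentSeries A := x.2.choose

theorem fracPair_spec (x : gaussRing π F) : IsFrac π F (x : F) (fracPair π F x) :=
  x.2.choose_spec

/-- the reduction, as a series -/
def redSeries (x : gaussRing π F) : LaurentSeries k :=
  coeffMap π (fracPair π F x).1 / coeffMap π (fracPair π F x).2

theorem redSeries_eq (x : gaussRing π F) {a b : LaurentSeries A}
    (h : IsFrac π F (x : F) (a, b)) : redSeries x = coeffMap π a / coeffMap π b := by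
  obtain ⟨-, -, hb0, he⟩ := h
  obtain ⟨-, -, hb0', he'⟩ := fracPair_spec x
  simp only at he hb0
  rw [redSeries, div_eq_div_iff hb0' hb0, ← map_mul, ← map_mul]
  congr 1
  apply coeffMap_subtype_injective
  rw [map_mul, map_mul]
  linear_combination coeffMap A.subtype (fracPair π F x).2 * he -
    coeffMap A.subtype b * he'

theorem redSeries_mem (H : GaussHyp A π F Fk) (x : gaussRing π F) : redSeries x ∈ Fk :=
  div_mem (coeffMap_mem_of_mem H (fracPair_spec x).1) (coeffMap_mem_of_mem H (fracPair_spec x).2.1)

variable (π F) in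
def redSeriesHom : gaussRing π F →+* LaurentSeries k where
  toFun := redSeries
  map_zero' := by
    rw [redSeries_eq 0 (a := 0) (b := 1) (by simp [IsFrac]), map_zero, zero_div]
  map_one' := by
    rw [redSeries_eq 1 (a := 1) (b := 1) (by simp [IsFrac]), map_one, div_one]
  map_add' x y := by
    obtain ⟨ha, hb, hb0, he⟩ := fracPair_spec x
    obtain ⟨ha', hb', hb0', he'⟩ := fracPair_spec y
    rw [redSeries_eq (x + y)
      (a := (fracPair π F x).1 * (fracPair π F y).2 + (fracPair π F y).1 * (fracPair π F x).2)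
      (b := (fracPair π F x).2 * (fracPair π F y).2) ?_]
    · simp only [redSeries, map_add, map_mul]
      rw [div_add_div _ _ hb0 hb0']
      ring
    · refine ⟨?_, ?_, ?_, ?_⟩
      · rw [map_add, map_mul, map_mul]; exact add_mem (mul_mem ha hb') (mul_mem ha' hb)
      · rw [map_mul]; exact mul_mem hb hb'
      · rw [map_mul]; exact mul_ne_zero hb0 hb0'
      · simp only [map_mul, map_add, Subring.coe_add, IntermediateField.coe_add] at *
        linear_combination coeffMap A.subtype (fracPair π F y).2 * he +
          coeffMap A.subtype (fracPair π F x).2 * he'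
  map_mul' x y := by
    obtain ⟨ha, hb, hb0, he⟩ := fracPair_spec x
    obtain ⟨ha', hb', hb0', he'⟩ := fracPair_spec y
    rw [redSeries_eq (x * y) (a := (fracPair π F x).1 * (fracPair π F y).1)
      (b := (fracPair π F x).2 * (fracPair π F y).2) ?_]
    · simp only [redSeries, map_mul]
      rw [div_mul_div_comm]
    · refine ⟨?_, ?_, ?_, ?_⟩
      · rw [map_mul]; exact mul_mem ha ha'
      · rw [map_mul]; exact mul_mem hb hb'
      · rw [map_mul]; exact mul_ne_zero hb0 hb0'
      · simp only [map_mul, Subring.coe_mul, IntermediateField.coe_mul] at *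
        linear_combination (coeffMap A.subtype (fracPair π F y).2 *
          ((y : F) : LaurentSeries K)) * he + coeffMap A.subtype (fracPair π F x).1 * he'

variable (H : GaussHyp A π F Fk)

/-- the reduction into `Fk` -/
def gaussRed : gaussRing π F →+* Fk :=
  (redSeriesHom π F).codRestrict Fk fun x => redSeries_mem H x

theorem coe_gaussRed (x : gaussRing π F) : (gaussRed H x : LaurentSeries k) = redSeries x := rfl

theorem isFrac_integral {y : LaurentSeries A} (hy : coeffMap A.subtype y ∈ F) :
    IsFrac π F ⟨_, hy⟩ (y, 1) := by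
  simp [IsFrac, hy]

/-- the coefficient functional -/
def coeffLin (F : IntermediateField K (LaurentSeries K)) (n : ℤ) : F →ₗ[K] K where
  toFun x := (x : LaurentSeries K).coeff n
  map_add' x y := by simp
  map_smul' c x := by
    rw [coe_smul_eq_C_mul, C_apply, coeff_single_zero_mul, RingHom.id_apply, smul_eq_mul]

/-- `x` is the image of an integral series with nonzero reduction in `Fk`. -/
def IsNormal (π : A →+* k) (F : IntermediateField K (LaurentSeries K)) (x : F)
    (y : LaurentSeries A) : Prop :=
  (x : LaurentSeries K) = coeffMap A.subtype y ∧ coeffMap π y ≠ 0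

/-- triangular elimination on a finite-dimensional space of normalisable series -/
theorem exists_residue_basis (d : ℕ) :
    ∀ W : Submodule K F, FiniteDimensional K W → Module.finrank K W = d →
      (∀ v ∈ W, v ≠ 0 → ∃ (c : K) (x : F) (y : LaurentSeries A), IsNormal π F x y ∧
        v = c • x) →
      ∃ (x : Fin d → F) (y : Fin d → LaurentSeries A), (∀ i, x i ∈ W) ∧
        (∀ i, IsNormal π F (x i) (y i)) ∧
        ∀ g : Fin d → k, ∑ i, C (g i) * coeffMap π (y i) = 0 → ∀ i, g i = 0 := by
  induction d with
  | zero => exact fun W _ _ _ =>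
      ⟨Fin.elim0, Fin.elim0, fun i => i.elim0, fun i => i.elim0, fun _ _ i => i.elim0⟩
  | succ d ih =>
    intro W hW hd hnorm
    obtain ⟨v, hvW, hv0⟩ : ∃ v ∈ W, v ≠ 0 := by
      by_contra! h
      rw [(Submodule.eq_bot_iff W).mpr h, finrank_bot] at hd
      exact Nat.succ_ne_zero d hd.symm
    obtain ⟨c, x, y, ⟨hxy, hy0⟩, hvx⟩ := hnorm v hvW hv0
    have hc0 : c ≠ 0 := fun h => hv0 (by rw [hvx, h, zero_smul])
    have hxW : x ∈ W := by
      have := W.smul_mem c⁻¹ hvW
      rwa [hvx, inv_smul_smul₀ hc0] at this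
    obtain ⟨n, hn⟩ : ∃ n, (coeffMap π y).coeff n ≠ 0 := by
      by_contra! h
      exact hy0 (HahnSeries.ext (funext fun m => by rw [h m]; rfl))
    have hyn : coeffLin F n x ≠ 0 := fun h => hn (by
      change (x : LaurentSeries K).coeff n = 0 at h
      rw [hxy, coeffMap_coeff] at h
      rw [coeffMap_coeff, show y.coeff n = 0 from Subtype.ext h, map_zero])
    let φ : W →ₗ[K] K := (coeffLin F n).comp W.subtype
    have hφ : Function.Surjective φ := fun a =>
      ⟨(a / coeffLin F n x) • (⟨x, hxW⟩ : W), by
        rw [map_smul, smul_eq_mul]; exact div_mul_cancel₀ a hyn⟩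
    let W₁ : Submodule K F := φ.ker.map W.subtype
    have hle : W₁ ≤ W := W.map_subtype_le _
    have hd₁ : Module.finrank K W₁ = d := by
      rw [show Module.finrank K W₁ = Module.finrank K φ.ker from
        Submodule.finrank_map_subtype_eq W φ.ker]
      have h := φ.finrank_range_add_finrank_ker
      rw [LinearMap.range_eq_top.mpr hφ, finrank_top, Module.finrank_self, hd] at h
      omega
    have hW₁ : FiniteDimensional K W₁ := Submodule.finiteDimensional_of_le hle
    obtain ⟨xs, ys, hxs, hns, hli⟩ := ih W₁ hW₁ hd₁ fun v hv => hnorm v (hle hv)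
    refine ⟨Fin.cons x xs, Fin.cons y ys, fun i => ?_, fun i => ?_, ?_⟩
    · cases i using Fin.cases with
      | zero => exact hxW
      | succ j => exact hle (hxs j)
    · cases i using Fin.cases with
      | zero => exact ⟨hxy, hy0⟩
      | succ j => exact hns j
    have hzero : ∀ j, (coeffMap π (ys j)).coeff n = 0 := by
      intro j
      obtain ⟨w, hw, hwe⟩ := hxs j
      have h0 : ((xs j : F) : LaurentSeries K).coeff n = 0 := hwe ▸ hw
      rw [(hns j).1, coeffMap_coeff] at h0
      rw [coeffMap_coeff, show (ys j).coeff n = 0 from Subtype.ext h0, map_zero]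
    intro g hg
    simp only [Fin.sum_univ_succ, Fin.cons_zero, Fin.cons_succ] at hg
    have hg0 : g 0 = 0 := by
      have := congrArg (fun z : LaurentSeries k => z.coeff n) hg
      simp only [coeff_add, coeff_sum, C_apply, coeff_single_zero_mul, hzero, mul_zero,
        Finset.sum_const_zero, add_zero, coeff_zero] at this
      exact (mul_eq_zero.mp this).resolve_right hn
    rw [hg0, map_zero, zero_mul, zero_add] at hg
    intro i
    cases i using Fin.cases with
    | zero => exact hg0
    | succ j => exact hli _ hg j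

variable (A) in
/-- bounded series in `F` -/
def bounded (F : IntermediateField K (LaurentSeries K)) : Submodule K F where
  carrier := {v | ∃ (c : K) (r : LaurentSeries A),
    (v : LaurentSeries K) = C c * coeffMap A.subtype r}
  zero_mem' := ⟨0, 0, by simp⟩
  add_mem' := by
    rintro v w ⟨c, r, hv⟩ ⟨d, s, hw⟩
    have key : ∀ {c d : K}, A.valuation d ≤ A.valuation c → ∀ r s : LaurentSeries A,
        ∃ (e : K) (t : LaurentSeries A),
          C c * coeffMap A.subtype r + C d * coeffMap A.subtype s =
            C e * coeffMap A.subtype t := by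
      intro c d hdc r s
      rcases eq_or_ne c 0 with rfl | hc
      · have : d = 0 := by simpa using hdc
        exact ⟨0, 0, by simp [this]⟩
      have hmem : d / c ∈ A := (A.valuation_le_one_iff _).mp (by
        rw [map_div₀]; exact div_le_one_of_le₀ hdc zero_le)
      refine ⟨c, r + C (⟨_, hmem⟩ : A) * s, ?_⟩
      rw [map_add, map_mul, coeffMap_subtype_C, mul_add, ← mul_assoc, ← map_mul]
      simp [mul_div_cancel₀ _ hc]
    simp only [Set.mem_setOf_eq, IntermediateField.coe_add, hv, hw]
    rcases le_total (A.valuation d) (A.valuation c) with h | h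
    · exact key h r s
    · obtain ⟨e, t, he⟩ := key h s r
      exact ⟨e, t, by rw [add_comm]; exact he⟩
  smul_mem' := by
    rintro a v ⟨c, r, hv⟩
    exact ⟨a * c, r, by rw [coe_smul_eq_C_mul, hv, ← mul_assoc, map_mul]⟩

theorem exists_gauss_lift_basis (V : Submodule K F) (hV : FiniteDimensional K V) :
    ∃ b : Fin (Module.finrank K V) → gaussRing π F,
      (∀ i, (b i : F) ∈ V) ∧ LinearIndependent k (gaussRed H ∘ b) := by
  classical
  let v := Module.finBasis K V
  choose c a b ha hb hak hbk ha0 hb0 he using fun i =>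
    H.generated (v i : F) (fun h => v.ne_zero i (Subtype.ext h))
  set B : LaurentSeries A := ∏ i, b i with hB
  have hBF : coeffMap A.subtype B ∈ F := by rw [hB, map_prod]; exact prod_mem fun i _ => hb i
  have hB0 : coeffMap π B ≠ 0 := by
    rw [hB, map_prod]; exact Finset.prod_ne_zero_iff.mpr fun i _ => hb0 i
  have hBK : coeffMap A.subtype B ≠ 0 := fun h =>
    hB0 (by rw [coeffMap_eq_zero_iff.mp h, map_zero])
  let BF : F := ⟨_, hBF⟩
  have hBF0 : BF ≠ 0 := fun h => hBK (congrArg Subtype.val h)
  let ψ : V →ₗ[K] F := (LinearMap.mulLeft K BF).comp V.subtype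
  have hψ : ∀ x : V, ψ x = BF * (x : F) := fun _ => rfl
  have hψinj : Function.Injective ψ := fun x y h => by
    rw [hψ, hψ] at h
    exact Subtype.ext (mul_left_cancel₀ hBF0 h)
  have hbd : LinearMap.range ψ ≤ bounded A F := by
    rintro _ ⟨x, rfl⟩
    rw [← v.sum_repr x, map_sum]
    refine Submodule.sum_mem _ fun i _ => ?_
    rw [map_smul]
    refine Submodule.smul_mem _ _
      ⟨c i, a i * ∏ j ∈ Finset.univ.erase i, b j, ?_⟩
    rw [hψ, IntermediateField.coe_mul]
    show coeffMap A.subtype B * _ = _
    rw [hB, ← Finset.mul_prod_erase Finset.univ b (Finset.mem_univ i), map_mul, map_mul,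
      ← mul_assoc, ← he i]
    ring
  have hnorm : ∀ w ∈ LinearMap.range ψ, w ≠ 0 →
      ∃ (c : K) (x : F) (y : LaurentSeries A), IsNormal π F x y ∧ w = c • x := by
    intro w hw hw0
    obtain ⟨e, r, her⟩ := hbd hw
    have hw0' : (w : LaurentSeries K) ≠ 0 := fun h => hw0 (Subtype.ext h)
    have he0 : e ≠ 0 := fun h => hw0' (by rw [her, h, map_zero, zero_mul])
    have hrF : coeffMap A.subtype r ∈ F := by
      have := mul_mem (C_mem (F := F) e⁻¹) w.2
      rwa [her, ← mul_assoc, ← map_mul, inv_mul_cancel₀ he0, map_one, one_mul] at this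
    have hr0 : r ≠ 0 := fun h => hw0' (by rw [her, h, map_zero, mul_zero])
    obtain ⟨c', y, -, rfl, hyF, -, hy0⟩ := exists_normalised H hrF hr0
    refine ⟨e * c', ⟨_, hyF⟩, y, ⟨rfl, hy0⟩, Subtype.ext ?_⟩
    rw [her, coe_smul_eq_C_mul, map_mul, coeffMap_subtype_C, map_mul, mul_assoc]
  obtain ⟨x', y, hxW, hn, hli⟩ := exists_residue_basis (π := π) (Module.finrank K V)
    (LinearMap.range ψ) (Module.Finite.range ψ) (LinearMap.finrank_range_of_inj hψinj) hnorm
  choose x hx using hxW
  have hfrac : ∀ i, IsFrac π F (x i : F) (y i, B) := by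
    intro i
    have h := congrArg Subtype.val (hx i)
    rw [hψ, IntermediateField.coe_mul, (hn i).1] at h
    exact ⟨(hn i).1 ▸ (x' i).2, hBF, hB0, by rw [mul_comm]; exact h⟩
  refine ⟨fun i => ⟨x i, _, hfrac i⟩, fun i => (x i).2, ?_⟩
  rw [Fintype.linearIndependent_iff]
  intro g hg
  refine hli g ?_
  have h := congrArg (fun z : Fk => (z : LaurentSeries k)) hg
  simp only [Function.comp_apply, IntermediateField.coe_sum, coe_smul_eq_C_mul,
    ZeroMemClass.coe_zero, coe_gaussRed] at h
  have h' := congrArg (fun z => z * coeffMap π B) h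
  simp only [zero_mul, Finset.sum_mul] at h'
  rw [← h']
  refine Finset.sum_congr rfl fun j _ => ?_
  rw [redSeries_eq (x := ⟨(x j : F), _, hfrac j⟩) (hfrac j), mul_assoc, div_mul_cancel₀ _ hB0]

theorem const_isFrac (a : A) :
    IsFrac π F (algebraMap K F a) (HahnSeries.single 0 a, 1) := by
  refine ⟨?_, by simp, by simp, ?_⟩
  · simp only [coeffMap_single]
    rw [← algebraMap_laurentSeries_eq_single]
    exact F.algebraMap_mem _
  · simp only [coeffMap_single, map_one, mul_one]
    exact algebraMap_laurentSeries_eq_single K (a : K)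

theorem gaussRed_algebraMap (a : A) :
    gaussRed H ⟨algebraMap K F a, _, const_isFrac a⟩ = algebraMap k Fk (π a) := by
  apply Subtype.ext
  rewrite [coe_gaussRed,
    redSeries_eq (x := ⟨algebraMap K F a, _, const_isFrac a⟩) (const_isFrac a),
    map_one, div_one, coeffMap_single, coe_algebraMap_eq_C, C_apply]
  rfl

theorem inv_mem_gaussRing (u : gaussRing π F) (hu : gaussRed H u ≠ 0) :
    (u : F)⁻¹ ∈ gaussRing π F := by
  obtain ⟨ha, hb, hb0, he⟩ := fracPair_spec u
  have ha0 : coeffMap π (fracPair π F u).1 ≠ 0 := by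
    intro h
    apply hu
    apply Subtype.ext
    rw [coe_gaussRed, redSeries, h, zero_div, ZeroMemClass.coe_zero]
  have hu0 : ((u : F) : LaurentSeries K) ≠ 0 := by
    intro h
    apply ha0
    rw [h, zero_mul] at he
    rw [coeffMap_eq_zero_iff.mp he.symm, map_zero]
  have hinv : IsFrac π F (u : F)⁻¹ ((fracPair π F u).2, (fracPair π F u).1) := by
    refine ⟨hb, ha, ha0, ?_⟩
    show (((u : F)⁻¹ : F) : LaurentSeries K) * _ = _
    rw [IntermediateField.coe_inv, ← he, inv_mul_cancel_left₀ hu0]
  exact ⟨_, hinv⟩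

/-- The Gauss reduction pair. -/
def gaussPair : ReductionPair A π F Fk where
  G := gaussRing π F
  algebraMap_mem a := ⟨_, const_isFrac a⟩
  red := gaussRed H
  red_algebraMap a := gaussRed_algebraMap H a
  inv_mem u hu := inv_mem_gaussRing H u hu
  exists_eq_smul x hx := by
    obtain ⟨c, a, b, ha, hb, hak, hbk, ha0, hb0, he⟩ := H.generated x hx
    let u : F := ⟨_, ha⟩ / ⟨_, hb⟩
    have hbK : coeffMap A.subtype b ≠ 0 := fun h =>
      hb0 (by rw [coeffMap_subtype_injective (h.trans (map_zero _).symm), map_zero])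
    have hu : IsFrac π F u (a, b) := ⟨ha, hb, hb0, by simp [u, div_mul_cancel₀ _ hbK]⟩
    refine ⟨c, ⟨u, _, hu⟩, fun h => ?_, Subtype.ext ?_⟩
    · have := congrArg (fun z : Fk => (z : LaurentSeries k)) h
      simp only [coe_gaussRed, ZeroMemClass.coe_zero] at this
      rw [redSeries_eq (x := ⟨u, _, hu⟩) hu] at this
      exact div_ne_zero ha0 hb0 this
    · rw [coe_smul_eq_C_mul]
      show (x : LaurentSeries K) = C c * (coeffMap A.subtype a / coeffMap A.subtype b)
      rw [← mul_div_assoc, ← he, mul_div_cancel_right₀ _ hbK]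
  exists_lift_basis V hV := exists_gauss_lift_basis H V hV

end Gauss

end Fermat.Agent.RED.TorsionCore
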