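import Fermat.Agent.RED.PlaceSpecialization

/-!
# Orders are preserved by specialisation

For a chart and a function `y` with nonzero reduction `g`, the orders of `y` at the places
specialising to `Q` add up to the order of `g` at `Q`.
-/

set_option autoImplicit false
set_option linter.unusedSectionVars false

noncomputable section

open AlgebraicCurve Polynomial

namespace Fermat.Agent.RED

variable {L k : Type*} [Field L] [Field k] {F Fb : Type*} [Field F] [Field Fb] [Algebra L F]
  [Algebra k Fb] {A : ValuationSubring L} {π : A →+* k}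

/-- `E` is the divisor of `f`. -/
def IsDivisorOf (E : Divisor L F) (f : F) : Prop := ∀ P : Place L F, E P = P.ord f

theorem isDivisorOf_mul {E E' : Divisor L F} {f f' : F} (h : IsDivisorOf E f)
    (h' : IsDivisorOf E' f') (hf : f ≠ 0) (hf' : f' ≠ 0) : IsDivisorOf (E + E') (f * f') := by
  intro P
  rw [Finsupp.add_apply, h P, h' P, P.ord_mul hf hf']

variable (D : ReductionDatum A π F Fb) (x : F) (xb : Fb) in
/-- The statement that `y` has the same order over `Q` as its reduction `g`. -/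
def OrderPreserved (y : F) (g : Fb) : Prop :=
  ∀ E : Divisor L F, IsDivisorOf E y → ∀ Q : Place k Fb, xb ∈ Q.toValuationSubring →
    sumOver (Specializes D x xb · Q) E = Q.ord g

namespace ReductionChart

variable {D : ReductionDatum A π F Fb} {x : F} {xb : Fb} {n : ℕ} (h : ReductionChart D x xb n)
include h

theorem ord_nonneg_of_specializes {P : Place L F} {Q : Place k Fb}
    (hPQ : Specializes D x xb P Q) {y : F} (hy : y ∈ coordRing L x) : 0 ≤ P.ord y :=
  ord_nonneg_of_mem P (mem_place_of_mem_coordRing L x P hPQ.1.1 hy)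

/-- For a place `P` at finite distance which does not specialise to `Q`, an integral function
vanishing at `P` whose reduction is a unit at `Q`. -/
theorem exists_avoiding {P : Place L F} (hP : x ∈ P.toValuationSubring) {Q : Place k Fb}
    (hQ : xb ∈ Q.toValuationSubring) (hPQ : ¬Specializes D x xb P Q) :
    ∃ u ∈ intRing A x, ∃ ub, D.Reduces u ub ∧ ub ≠ 0 ∧ Q.ord ub = 0 ∧
      (u = 0 ∨ 1 ≤ P.ord u) := by
  have hv := h.coordGeneric.deg_one P
  have hQd := h.coordSpecial.deg_one Q
  by_cases hint : IsIntegralPlace A x P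
  · obtain ⟨Q', hQ'⟩ := h.exists_specializes hint
    obtain ⟨f, hf, s, hfs, hs, -, h0, h1⟩ :=
      h.exists_separating hQ'.2.1 hQ (fun e => hPQ (e ▸ hQ'))
    have hπ : π ⟨pval P f, h.pval_mem hint hf⟩ = 0 :=
      (hQ'.2.2 f hf s hfs _ rfl).symm.trans h0
    have hred : D.Reduces (f - algebraMap L F (pval P f)) s := by
      have := hfs.sub (D.reduces_algebraMap ⟨pval P f, h.pval_mem hint hf⟩)
      rwa [hπ, map_zero, sub_zero] at this
    obtain ⟨hs0, hs1⟩ :=
      (pval_ne_zero_iff hQd (mem_place_of_mem_coordRing k xb Q hQ hs)).mp h1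
    refine ⟨_, sub_mem hf (algebraMap_mem_intRing A x ⟨_, h.pval_mem hint hf⟩), s, hred, hs0, hs1,
      ?_⟩
    rcases pval_sub_algebraMap hv (h.mem_place hint hf) with e | e
    · exact Or.inl e
    · exact Or.inr e
  · set α := pval P x with hα
    have hαA : α ∉ A := fun hm => hint ⟨hP, hm⟩
    have hα0 : α ≠ 0 := fun e => hαA (e ▸ zero_mem A)
    have hinv : α⁻¹ ∈ A := (A.mem_or_inv_mem α).resolve_left hαA
    have hπ : π ⟨α⁻¹, hinv⟩ = 0 := by
      rw [D.π_eq_zero_iff]
      intro hu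
      obtain ⟨b, hb⟩ := hu.exists_right_inv
      have hb' : α⁻¹ * (b : L) = 1 := congrArg Subtype.val hb
      rw [inv_mul_eq_one₀ hα0] at hb'
      exact hαA (hb'.symm ▸ b.2)
    have hred : D.Reduces (1 - algebraMap L F α⁻¹ * x) 1 := by
      have := D.reduces_one.sub ((D.reduces_algebraMap ⟨α⁻¹, hinv⟩).mul h.reduces)
      rwa [hπ, map_zero, zero_mul, sub_zero] at this
    have hmem : 1 - algebraMap L F α⁻¹ * x ∈ P.toValuationSubring :=
      sub_mem (one_mem _) (mul_mem (P.algebraMap_mem' _) hP)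
    refine ⟨1 - algebraMap L F α⁻¹ * x, sub_mem (one_mem _)
      (mul_mem (algebraMap_mem_intRing A x ⟨α⁻¹, hinv⟩) (self_mem_intRing A x)), 1, hred,
      one_ne_zero, Q.ord_one, ?_⟩
    have hz : pval P (1 - algebraMap L F α⁻¹ * x) = 0 := by
      rw [pval_sub hv (one_mem _) (mul_mem (P.algebraMap_mem' _) hP), pval_one hv,
        pval_mul hv (P.algebraMap_mem' _) hP, pval_algebraMap hv, ← hα, inv_mul_cancel₀ hα0,
        sub_self]
    rcases (pval_eq_zero_iff hv hmem).mp hz with e | e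
    · exact Or.inl e
    · exact Or.inr e

/-- The key inequality. -/
theorem ord_le_sumOver {y : F} {g : Fb} (hy : y ∈ intRing A x) (hyg : D.Reduces y g) (hg : g ≠ 0)
    {E : Divisor L F} (hE : IsDivisorOf E y) {Q : Place k Fb}
    (hQ : xb ∈ Q.toValuationSubring) :
    Q.ord g ≤ sumOver (Specializes D x xb · Q) E := by
  classical
  by_contra hlt
  rw [not_le, sumOver_apply] at hlt
  set S := E.support.filter (fun P => Specializes D x xb P Q) with hS
  have hy0 := hyg.ne_zero hg
  have hnonneg : ∀ P ∈ S, 0 ≤ E P := fun P hP => by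
    rw [hE]
    exact h.ord_nonneg_of_specializes (Finset.mem_filter.mp hP).2
      (mem_coordRing_of_mem_intRing hy)
  obtain ⟨m, hm⟩ := Int.eq_ofNat_of_zero_le
    ((Finset.sum_nonneg hnonneg).trans hlt.le)
  obtain ⟨tb, htb, htb1⟩ := h.coordSpecial.exists_ord_one Q hQ
  obtain ⟨t, ht, httb⟩ := h.lift tb htb
  have htb0 : tb ≠ 0 := by rintro rfl; simp at htb1
  -- the combinations of powers of `t`
  let φ : (Fin m → L) →ₗ[L] F := Fintype.linearCombination L (fun i : Fin m => t ^ (i : ℕ))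
  have hφ : ∀ a, φ a = ∑ i : Fin m, algebraMap L F (a i) * t ^ (i : ℕ) := fun a => by
    simp [φ, Fintype.linearCombination_apply, Algebra.smul_def]
  have hφR : ∀ a, φ a ∈ coordRing L x := fun a => by
    rw [hφ]
    exact sum_mem fun i _ => mul_mem ((coordRing L x).algebraMap_mem _)
      (pow_mem (mem_coordRing_of_mem_intRing ht) _)
  have hsum : ∑ P ∈ S, (E P).toNat < Module.finrank L (Fin m → L) := by
    rw [Module.finrank_fin_fun, ← Int.ofNat_lt, Nat.cast_sum, ← hm]
    exact (Finset.sum_congr rfl fun P hP => Int.toNat_of_nonneg (hnonneg P hP)).trans_lt hlt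
  obtain ⟨a, ha0, hav⟩ := exists_vanishing φ S (fun P _ => h.coordGeneric.deg_one P)
    (fun P hP w => mem_place_of_mem_coordRing L x P (Finset.mem_filter.mp hP).2.1.1 (hφR w))
    (fun P => (E P).toNat) hsum
  -- normalise the coefficients
  obtain ⟨i₀, -, hi₀⟩ := Finset.exists_max_image Finset.univ (fun i => A.valuation (a i))
    ⟨(Function.ne_iff.mp ha0).choose, Finset.mem_univ _⟩
  have hai₀ : a i₀ ≠ 0 := by
    intro h0
    refine ha0 (funext fun i => ?_)
    have := hi₀ i (Finset.mem_univ _)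
    rw [h0, map_zero, le_zero_iff, map_eq_zero] at this
    exact this
  set b : Fin m → L := (a i₀)⁻¹ • a with hb
  have hbA : ∀ i, b i ∈ A := fun i => by
    rw [← A.valuation_le_one_iff, hb, Pi.smul_apply, smul_eq_mul, map_mul, map_inv₀,
      inv_mul_le_one₀ (zero_lt_iff.mpr ((A.valuation).ne_zero_iff.mpr hai₀))]
    exact hi₀ i (Finset.mem_univ _)
  let c : Fin m → k := fun i => π ⟨b i, hbA i⟩
  have hci₀ : c i₀ = 1 := by
    have : (⟨b i₀, hbA i₀⟩ : A) = 1 := Subtype.ext (by simp [hb, inv_mul_cancel₀ hai₀])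
    simp [c, this]
  have hwI : φ b ∈ intRing A x := by
    rw [hφ]
    exact sum_mem fun i _ => mul_mem (algebraMap_mem_intRing A x ⟨b i, hbA i⟩) (pow_mem ht _)
  set wb := ∑ i : Fin m, algebraMap k Fb (c i) * tb ^ (i : ℕ) with hwb
  have hwred : D.Reduces (φ b) wb := by
    rw [hφ]
    exact ReductionDatum.Reduces.sum fun i _ =>
      (D.reduces_algebraMap ⟨b i, hbA i⟩).mul (httb.pow _)
  -- the lowest nonzero coefficient
  obtain ⟨i₁, hi₁, hmin⟩ := Finset.exists_min_image (Finset.univ.filter fun i => c i ≠ 0)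
    (fun i => (i : ℕ)) ⟨i₀, by simp [hci₀]⟩
  have hci₁ : c i₁ ≠ 0 := (Finset.mem_filter.mp hi₁).2
  set wr := ∑ i : Fin m, algebraMap k Fb (c i) * tb ^ ((i : ℕ) - (i₁ : ℕ)) with hwr
  have hfac : wb = tb ^ (i₁ : ℕ) * wr := by
    rw [hwb, hwr, Finset.mul_sum]
    refine Finset.sum_congr rfl fun i _ => ?_
    rcases eq_or_ne (c i) 0 with e | e
    · simp [e]
    · rw [mul_left_comm, ← pow_add,
        Nat.add_sub_cancel' (hmin i (Finset.mem_filter.mpr ⟨Finset.mem_univ _, e⟩))]
  have hQd := h.coordSpecial.deg_one Q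
  have htbQ := mem_place_of_mem_coordRing k xb Q hQ htb
  have htQ0 : pval Q tb = 0 :=
    (pval_eq_zero_iff hQd htbQ).mpr (Or.inr (by omega))
  have hwrQ : ∀ i : Fin m, algebraMap k Fb (c i) * tb ^ ((i : ℕ) - (i₁ : ℕ)) ∈
      Q.toValuationSubring := fun i => mul_mem (Q.algebraMap_mem' _) (pow_mem htbQ _)
  have hrest : ∀ s : Finset (Fin m), i₁ ∉ s →
      (∑ i ∈ s, algebraMap k Fb (c i) * tb ^ ((i : ℕ) - (i₁ : ℕ))) ∈ Q.toValuationSubring ∧
      pval Q (∑ i ∈ s, algebraMap k Fb (c i) * tb ^ ((i : ℕ) - (i₁ : ℕ))) = 0 := by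
    intro s hs
    induction s using Finset.cons_induction with
    | empty => simp [pval_zero hQd]
    | cons j s hj ih =>
      rw [Finset.mem_cons, not_or] at hs
      obtain ⟨ih1, ih2⟩ := ih hs.2
      rw [Finset.sum_cons]
      refine ⟨add_mem (hwrQ j) ih1, ?_⟩
      rw [pval_add hQd (hwrQ j) ih1, ih2, add_zero,
        pval_mul hQd (Q.algebraMap_mem' _) (pow_mem htbQ _), pval_algebraMap hQd]
      rcases eq_or_ne (c j) 0 with e | e
      · rw [e, zero_mul]
      · have hle := hmin j (Finset.mem_filter.mpr ⟨Finset.mem_univ _, e⟩)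
        have hlt' : (i₁ : ℕ) < (j : ℕ) := lt_of_le_of_ne hle fun e' => hs.1 (Fin.ext e')
        obtain ⟨r, hr⟩ : ∃ r, (j : ℕ) - (i₁ : ℕ) = r + 1 := ⟨(j : ℕ) - (i₁ : ℕ) - 1, by omega⟩
        rw [hr, pow_succ, pval_mul hQd (pow_mem htbQ _) htbQ, htQ0, mul_zero, mul_zero]
  have hwrv : pval Q wr = c i₁ := by
    obtain ⟨h1, h2⟩ := hrest (Finset.univ.erase i₁) (Finset.notMem_erase _ _)
    rw [hwr, ← Finset.add_sum_erase _ _ (Finset.mem_univ i₁), pval_add hQd (hwrQ i₁) h1, h2,
      add_zero, Nat.sub_self, pow_zero, mul_one, pval_algebraMap hQd]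
  have hwrmem : wr ∈ Q.toValuationSubring := sum_mem fun i _ => hwrQ i
  obtain ⟨hwr0, hwrord⟩ := (pval_ne_zero_iff hQd hwrmem).mp (hwrv ▸ hci₁)
  have hwb0 : wb ≠ 0 := hfac ▸ mul_ne_zero (pow_ne_zero _ htb0) hwr0
  have hwbord : Q.ord wb = (i₁ : ℕ) := by
    rw [hfac, Q.ord_mul (pow_ne_zero _ htb0) hwr0, ord_pow' Q htb0, htb1, hwrord]
    ring
  -- the multiplier killing the other zeros of `y`
  set T := E.support.filter (fun P => x ∈ P.toValuationSubring ∧ ¬Specializes D x xb P Q) with hT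
  choose! u huI ub hured hub0 hubord huord using fun (P : Place L F) (hP : P ∈ T) =>
    h.exists_avoiding (Finset.mem_filter.mp hP).2.1 hQ (Finset.mem_filter.mp hP).2.2
  set U := ∏ P ∈ T, u P ^ (E P).toNat with hU
  have hUI : U ∈ intRing A x := prod_mem fun P hP => pow_mem (huI P hP) _
  have hUred : D.Reduces U (∏ P ∈ T, ub P ^ (E P).toNat) :=
    ReductionDatum.Reduces.prod fun P hP => (hured P hP).pow _
  have hUb0 : (∏ P ∈ T, ub P ^ (E P).toNat) ≠ 0 :=
    Finset.prod_ne_zero_iff.mpr fun P hP => pow_ne_zero _ (hub0 P hP)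
  have hu0 : ∀ P ∈ T, u P ≠ 0 := fun P hP => (hured P hP).ne_zero (hub0 P hP)
  have hUord : Q.ord (∏ P ∈ T, ub P ^ (E P).toNat) = 0 := by
    rw [ord_prod' _ _ _ (fun P hP => pow_ne_zero _ (hub0 P hP))]
    exact Finset.sum_eq_zero fun P hP => by rw [ord_pow' Q (hub0 P hP), hubord P hP, mul_zero]
  have hw0 : φ b ≠ 0 := hwred.ne_zero hwb0
  have hU0 : U ≠ 0 := hUred.ne_zero hUb0
  -- the quotient is integral
  have hz : φ b * U * y⁻¹ ∈ coordRing L x := by
    refine h.coordGeneric.mem_coordRing_of_forall _ fun P hP => mem_of_ord_nonneg P ?_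
    rw [P.ord_mul (mul_ne_zero hw0 hU0) (inv_ne_zero hy0), P.ord_mul hw0 hU0, P.ord_inv, ← hE]
    have hw : 0 ≤ P.ord (φ b) := ord_nonneg_of_mem P
      (mem_place_of_mem_coordRing L x P hP (hφR b))
    have hU' : 0 ≤ P.ord U := ord_nonneg_of_mem P
      (mem_place_of_mem_coordRing L x P hP (mem_coordRing_of_mem_intRing hUI))
    by_cases hsupp : P ∈ E.support
    swap
    · rw [Finsupp.notMem_support_iff.mp hsupp]; omega
    by_cases hPQ : Specializes D x xb P Q
    · have hPS : P ∈ S := Finset.mem_filter.mpr ⟨hsupp, hPQ⟩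
      have hbeq : φ b = algebraMap L F (a i₀)⁻¹ * φ a := by
        rw [hb, map_smul, Algebra.smul_def]
      have hab : φ a ≠ 0 := fun e => hw0 (by rw [hbeq, e, mul_zero])
      have h1 := (hav P hPS).resolve_left hab
      rw [Int.toNat_of_nonneg (hnonneg P hPS)] at h1
      have h2 : P.ord (φ b) = P.ord (φ a) := by
        rw [hbeq, P.ord_mul (by simpa using hai₀) hab, ord_algebraMap', zero_add]
      omega
    · have hPT : P ∈ T := Finset.mem_filter.mpr ⟨hsupp, hP, hPQ⟩
      have hge : ((E P).toNat : ℤ) ≤ P.ord U := by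
        rw [hU, ord_prod' _ _ _ (fun P' hP' => pow_ne_zero _ (hu0 P' hP'))]
        refine le_trans ?_ (Finset.single_le_sum
          (f := fun P' => P.ord (u P' ^ (E P').toNat)) (fun P' hP' => ?_) hPT)
        · rw [ord_pow' P (hu0 P hPT)]
          exact le_mul_of_one_le_right (Int.natCast_nonneg _)
            ((huord P hPT).resolve_left (hu0 P hPT))
        · exact ord_nonneg_of_mem P (pow_mem (mem_place_of_mem_coordRing L x P hP
            (mem_coordRing_of_mem_intRing (huI P' hP'))) _)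
      have := Int.self_le_toNat (E P)
      omega
  have hzred := (hwred.mul hUred).mul (hyg.inv hg)
  have hzI := h.bounded _ hz hzred.mem
  have := ord_nonneg_of_mem Q
    (mem_place_of_mem_coordRing k xb Q hQ (mem_coordRing_of_reduces h.reduces hzI hzred))
  rw [Q.ord_mul (mul_ne_zero hwb0 hUb0) (inv_ne_zero hg), Q.ord_mul hwb0 hUb0, hwbord, hUord,
    Q.ord_inv, hm] at this
  have hlt1 := i₁.isLt
  omega

end ReductionChart

end Fermat.Agent.RED
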