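import Fermat.Agent.RED.CoordDataFF
import Fermat.Agent.RED.TwoChartsOfBasis
import Fermat.Agent.FF.RiemannRoch

/-!
# Bases adapted to the two charts of a coordinate, and the genus

For `x` of degree `d` there are `w i` and `a i` such that the functions with poles of order at
most `n` over `x = ∞`, and no others, are the `∑ p i (x) * w i` with `deg p i + a i ≤ n`.
Hence `g = 1 - d + ∑ a i`.
-/

set_option autoImplicit false
set_option linter.unusedSectionVars false

noncomputable section

open Polynomial AlgebraicCurve IntermediateField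

namespace Fermat.Agent.RED

variable (K : Type*) {E : Type*} [Field K] [Field E] [Algebra K E]

/-- The functions with poles bounded by `n` times the poles of `x`. -/
def xLevel [FF.IsFunctionField K E] (x : E) (n : ℕ) : Submodule K E :=
  riemannRochSpace (n • FF.poleDivisor K x)

/-- The functions integral over `K[1/x]` which vanish over `x = ∞`. -/
def xTail (x : E) : Submodule K E :=
  (coordRing K x⁻¹).toSubmodule.comap (LinearMap.mulLeft K x)

/-- The leading part of a function of level `n`. -/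
def xLead (x : E) (n : ℕ) : E →ₗ[K] E ⧸ xTail K x :=
  (xTail K x).mkQ ∘ₗ LinearMap.mulLeft K ((x⁻¹) ^ n)

variable {K} [IsAlgClosed K] [FF.IsFunctionField K E] {x : E}

theorem mem_xLevel {f : E} {n : ℕ} :
    f ∈ xLevel K x n ↔ ∀ v : Place K E, (n : ℤ) * min (v.ord x) 0 ≤ v.ord f := by
  rw [xLevel, mem_riemannRochSpace_iff]
  refine forall_congr' fun v => ?_
  have h : -(n • FF.poleDivisor K x) v = (n : ℤ) * min (v.ord x) 0 := by
    rw [Finsupp.smul_apply, FF.poleDivisor_apply, nsmul_eq_mul, ← mul_neg]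
    congr 1
    omega
  rw [h, or_iff_right_iff_imp]
  rintro rfl
  rw [Place.ord_zero]
  exact mul_nonpos_of_nonneg_of_nonpos (by positivity) (min_le_right _ _)

theorem mem_coordRing_iff_ord {f : E} :
    f ∈ coordRing K x ↔ ∀ v : Place K E, 0 ≤ v.ord x → 0 ≤ v.ord f :=
  FF.isIntegralElem_aeval_iff x f

theorem mem_coordRing_inv_iff_ord {f : E} :
    f ∈ coordRing K x⁻¹ ↔ ∀ v : Place K E, v.ord x ≤ 0 → 0 ≤ v.ord f := by
  refine (FF.isIntegralElem_aeval_iff x⁻¹ f).trans (forall_congr' fun v => ?_)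
  rw [v.ord_inv, neg_nonneg]

theorem mem_xLevel_iff {f : E} (hx : x ≠ 0) {n : ℕ} :
    f ∈ xLevel K x n ↔ f ∈ coordRing K x ∧ (x⁻¹) ^ n * f ∈ coordRing K x⁻¹ := by
  rcases eq_or_ne f 0 with rfl | hf
  · simp [zero_mem]
  rw [mem_xLevel, mem_coordRing_iff_ord, mem_coordRing_inv_iff_ord, ← forall_and]
  refine forall_congr' fun v => ?_
  rw [v.ord_mul (pow_ne_zero _ (inv_ne_zero hx)) hf, FF.ord_pow, v.ord_inv]
  rcases le_total (v.ord x) 0 with h | h
  · rw [min_eq_left h]
    constructor
    · intro h1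
      refine ⟨fun h0 => ?_, fun _ => by linarith⟩
      rw [le_antisymm h h0, mul_zero] at h1
      exact h1
    · rintro ⟨-, h2⟩
      linarith [h2 h]
  · rw [min_eq_right h, mul_zero]
    refine ⟨fun h1 => ⟨fun _ => h1, fun h0 => ?_⟩, fun h1 => h1.1 h⟩
    rw [le_antisymm h0 h]
    simpa using h1

omit [FF.IsFunctionField K E] in
theorem xLead_eq_zero_iff {f : E} {n : ℕ} :
    xLead K x n f = 0 ↔ x * ((x⁻¹) ^ n * f) ∈ coordRing K x⁻¹ :=
  (Submodule.Quotient.mk_eq_zero _).trans Iff.rfl

/-- An element of level zero without leading part vanishes. -/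
theorem eq_zero_of_xLead_zero (hx : Transcendental K x) {f : E} (hf : f ∈ xLevel K x 0)
    (h0 : xLead K x 0 f = 0) : f = 0 := by
  by_contra hne
  have hx0 : x ≠ 0 := fun e => hx (e ▸ isAlgebraic_zero)
  rw [xLead_eq_zero_iff, pow_zero, one_mul, mem_coordRing_inv_iff_ord] at h0
  have hmem : f ∈ riemannRochSpace (-FF.poleDivisor K x) := by
    rw [mem_riemannRochSpace_iff]
    refine fun v => Or.inr ?_
    rw [Finsupp.neg_apply, neg_neg, FF.poleDivisor_apply]
    have h1 := mem_xLevel.mp hf v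
    simp only [Nat.cast_zero, zero_mul] at h1
    refine max_le ?_ h1
    rcases le_total (v.ord x) 0 with h | h
    · have := h0 v h
      rw [v.ord_mul hx0 hne] at this
      omega
    · omega
  have hd : Divisor.degree (-FF.poleDivisor K x) < 0 := by
    rw [map_neg, FF.degree_poleDivisor hx, neg_lt_zero]
    have := FF.finiteDimensional_adjoin hx
    exact_mod_cast Module.finrank_pos
  rw [FF.riemannRochSpace_eq_bot hd, Submodule.mem_bot] at hmem
  exact hne hmem

theorem mem_xLevel_of_xLead_zero (hx : x ≠ 0) {f : E} {n : ℕ} (hf : f ∈ xLevel K x (n + 1))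
    (h0 : xLead K x (n + 1) f = 0) : f ∈ xLevel K x n := by
  refine (mem_xLevel_iff hx).mpr ⟨((mem_xLevel_iff hx).mp hf).1, ?_⟩
  rw [xLead_eq_zero_iff] at h0
  convert h0 using 1
  rw [pow_succ]
  field_simp

theorem aeval_mul_mem_xLevel (hx : x ≠ 0) {w : E} {a m n : ℕ} (hw : w ∈ xLevel K x a)
    {p : K[X]} (hp : p.natDegree ≤ m) (hmn : m + a ≤ n) :
    aeval x p * w ∈ xLevel K x n := by
  rcases eq_or_ne w 0 with rfl | hw0
  · simp [zero_mem]
  rw [aeval_eq_sum_range' (Nat.lt_succ_of_le hp), Finset.sum_mul]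
  refine sum_mem fun j hj => ?_
  rw [smul_mul_assoc]
  refine Submodule.smul_mem _ _ (mem_xLevel.mpr fun v => ?_)
  rw [v.ord_mul (pow_ne_zero _ hx) hw0, FF.ord_pow]
  have h1 := mem_xLevel.mp hw v
  have hj' : (j : ℤ) + a ≤ n := by
    have := Finset.mem_range.mp hj
    omega
  rcases le_total (v.ord x) 0 with h | h
  · rw [min_eq_left h] at h1 ⊢
    nlinarith
  · rw [min_eq_right h] at h1 ⊢
    nlinarith [mul_nonneg (Int.natCast_nonneg j) h]

theorem xLead_aeval_mul (hx : x ≠ 0) {w : E} {a m : ℕ} (hw : w ∈ xLevel K x a) {p : K[X]}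
    (hp : p.natDegree ≤ m) :
    xLead K x (m + a) (aeval x p * w) = p.coeff m • xLead K x a w := by
  rw [aeval_eq_sum_range' (Nat.lt_succ_of_le hp), Finset.sum_mul, map_sum,
    Finset.sum_range_succ, Finset.sum_eq_zero, zero_add]
  · rw [smul_mul_assoc, map_smul]
    congr 1
    simp only [xLead, LinearMap.coe_comp, Function.comp_apply, LinearMap.mulLeft_apply]
    congr 1
    rw [pow_add, inv_pow, inv_pow]
    field_simp
  · intro j hj
    rw [smul_mul_assoc, map_smul]
    refine smul_eq_zero_of_right _ (xLead_eq_zero_iff.mpr ?_)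
    obtain ⟨e, he⟩ := Nat.exists_eq_add_of_le (Nat.succ_le_of_lt (Finset.mem_range.mp hj))
    have h : x * ((x⁻¹) ^ (m + a) * (x ^ j * w)) = (x⁻¹) ^ e * ((x⁻¹) ^ a * w) := by
      rw [he, pow_add, pow_add, pow_succ, inv_pow, inv_pow, inv_pow]
      field_simp
    rw [h]
    exact mul_mem (pow_mem (self_mem_coordRing K _) _) ((mem_xLevel_iff hx).mp hw).2

/-- The leading parts of level `n`. -/
def xLeadSpace (K : Type*) {E : Type*} [Field K] [Field E] [Algebra K E] [FF.IsFunctionField K E]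
    (x : E) (n : ℕ) : Submodule K (E ⧸ xTail K x) :=
  (xLevel K x n).map (xLead K x n)

theorem xLeadSpace_mono (hx : x ≠ 0) {m n : ℕ} (h : m ≤ n) :
    xLeadSpace K x m ≤ xLeadSpace K x n := by
  rintro _ ⟨f, hf, rfl⟩
  obtain ⟨e, rfl⟩ := Nat.exists_eq_add_of_le h
  refine ⟨aeval x (Polynomial.X ^ e) * f,
    aeval_mul_mem_xLevel hx hf (natDegree_X_pow_le e) (by omega), ?_⟩
  rw [add_comm m e, xLead_aeval_mul hx hf (natDegree_X_pow_le e), coeff_X_pow_self, one_smul]

/-- Functions with independent leading parts are independent over `K[x]`. -/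
theorem polyIndependent_of_xLead (hx : x ≠ 0) {ι : Type*} [Fintype ι] {w : ι → E} {a : ι → ℕ}
    (hw : ∀ i, w i ∈ xLevel K x (a i))
    (hli : LinearIndependent K fun i => xLead K x (a i) (w i))
    (p : ι → K[X]) (hp : ∑ i, aeval x (p i) * w i = 0) : ∀ i, p i = 0 := by
  classical
  by_contra hne
  push Not at hne
  set s := Finset.univ.filter fun i => p i ≠ 0 with hs
  have hsne : s.Nonempty := hne.imp fun i hi => Finset.mem_filter.mpr ⟨Finset.mem_univ _, hi⟩
  obtain ⟨i₀, hi₀, hmax⟩ := s.exists_max_image (fun i => (p i).natDegree + a i) hsne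
  set n := (p i₀).natDegree + a i₀
  have hterm : ∀ i, xLead K x n (aeval x (p i) * w i) =
      (if p i = 0 then 0 else (p i).coeff (n - a i)) • xLead K x (a i) (w i) := by
    intro i
    rcases eq_or_ne (p i) 0 with h | h
    · rw [if_pos h, h, map_zero, zero_mul, map_zero, zero_smul]
    · have hle := hmax i (Finset.mem_filter.mpr ⟨Finset.mem_univ _, h⟩)
      rw [if_neg h]
      conv_lhs => rw [show n = (n - a i) + a i by omega]
      exact xLead_aeval_mul hx (hw i) (by omega)
  have hsum := congrArg (xLead K x n) hp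
  rw [map_sum, map_zero, Finset.sum_congr rfl fun i _ => hterm i] at hsum
  have h0 := Fintype.linearIndependent_iff.mp hli _ hsum i₀
  have hi₀' := (Finset.mem_filter.mp hi₀).2
  rw [if_neg hi₀', show n - a i₀ = (p i₀).natDegree by omega] at h0
  exact hi₀' (leadingCoeff_eq_zero.mp h0)

/-- A basis adapted to the charts of `x` and `1/x`. -/
structure AdaptedBasis (K : Type*) {E : Type*} [Field K] [Field E] [Algebra K E]
    [FF.IsFunctionField K E] (x : E) (d : ℕ) where
  w : Fin d → E
  a : Fin d → ℕ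
  mem : ∀ i, w i ∈ xLevel K x (a i)
  independent : ∀ p : Fin d → K[X], ∑ i, aeval x (p i) * w i = 0 → ∀ i, p i = 0
  spans : ∀ n, ∀ f ∈ xLevel K x n, ∃ p : Fin d → K[X],
    (∀ i, p i = 0 ∨ (p i).natDegree + a i ≤ n) ∧ ∑ i, aeval x (p i) * w i = f

theorem card_le_finrank_of_xLead (hx : Transcendental K x) {ι : Type*} [Fintype ι] {w : ι → E}
    {a : ι → ℕ} (hw : ∀ i, w i ∈ xLevel K x (a i))
    (hli : LinearIndependent K fun i => xLead K x (a i) (w i)) :
    Fintype.card ι ≤ Module.finrank K⟮x⟯ E := by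
  have := FF.finiteDimensional_adjoin hx
  exact (FF.linearIndependent_adjoin_of_polynomial hx w
    (polyIndependent_of_xLead (fun e : x = 0 => hx (e ▸ isAlgebraic_zero)) hw hli)).fintype_card_le_finrank

theorem finite_xLeadSpace (n : ℕ) : FiniteDimensional K (xLeadSpace K x n) := by
  have : FiniteDimensional K (xLevel K x n) := FF.finite_riemannRochSpace _
  exact Module.Finite.map _ _

theorem finrank_xLeadSpace_le (hx : Transcendental K x) (n : ℕ) :
    Module.finrank K (xLeadSpace K x n) ≤ Module.finrank K⟮x⟯ E := by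
  have := finite_xLeadSpace (K := K) (x := x) n
  let b := Module.finBasis K (xLeadSpace K x n)
  have hpre : ∀ i, ∃ f ∈ xLevel K x n, xLead K x n f = (b i : E ⧸ xTail K x) := fun i => (b i).2
  choose f hf hfb using hpre
  have hli : LinearIndependent K fun i => xLead K x n (f i) := by
    simp only [hfb]
    exact b.linearIndependent.map' (xLeadSpace K x n).subtype (Submodule.ker_subtype _)
  simpa using card_le_finrank_of_xLead hx (a := fun _ => n) hf hli

/-- Leading parts adapted to the filtration up to level `N`. -/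
theorem exists_adapted_upTo (hx : x ≠ 0) (N : ℕ) :
    ∃ S : Set (ℕ × E), S.Finite ∧ (∀ p ∈ S, p.2 ∈ xLevel K x p.1 ∧ p.1 ≤ N) ∧
      LinearIndepOn K (fun p => xLead K x p.1 p.2) S ∧
      ∀ m ≤ N, xLeadSpace K x m ≤
        Submodule.span K ((fun p => xLead K x p.1 p.2) '' {p ∈ S | p.1 ≤ m}) := by
  classical
  set v : ℕ × E → E ⧸ xTail K x := fun p => xLead K x p.1 p.2
  have key : ∀ (N : ℕ) (S : Set (ℕ × E)), (∀ p ∈ S, p.2 ∈ xLevel K x p.1 ∧ p.1 ≤ N) →
      LinearIndepOn K v S → ∃ b, b.Finite ∧ S ⊆ b ∧ (∀ p ∈ b, p.2 ∈ xLevel K x p.1 ∧ p.1 ≤ N) ∧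
        LinearIndepOn K v b ∧ xLeadSpace K x N ≤ Submodule.span K (v '' b) := by
    intro N S hS hli
    obtain ⟨b, hb, hSb, hspan, hbli⟩ := exists_linearIndepOn_extension hli
      (Set.subset_union_left (t := {p : ℕ × E | p.1 = N ∧ p.2 ∈ xLevel K x N}))
    have hb' : ∀ p ∈ b, p.2 ∈ xLevel K x p.1 ∧ p.1 ≤ N := fun p hp =>
      (hb hp).elim (hS p) fun h => ⟨h.1 ▸ h.2, h.1.le⟩
    have := finite_xLeadSpace (K := K) (x := x) N
    have hmem : ∀ p : b, v p ∈ xLeadSpace K x N := fun p =>
      xLeadSpace_mono hx (hb' p p.2).2 ⟨_, (hb' p p.2).1, rfl⟩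
    have hli' : LinearIndependent K fun p : b => (⟨v p, hmem p⟩ : xLeadSpace K x N) :=
      LinearIndependent.of_comp (xLeadSpace K x N).subtype hbli
    refine ⟨b, Set.finite_coe_iff.mp hli'.finite, hSb, hb', hbli, ?_⟩
    rintro _ ⟨f, hf, rfl⟩
    exact hspan ⟨(N, f), Or.inr ⟨rfl, hf⟩, rfl⟩
  induction N with
  | zero =>
    obtain ⟨b, hfin, -, hb, hli, hsp⟩ := key 0 ∅ (by simp) (linearIndepOn_empty K v)
    refine ⟨b, hfin, hb, hli, fun m hm => ?_⟩
    obtain rfl := Nat.le_zero.mp hm
    rwa [show {p ∈ b | p.1 ≤ 0} = b from Set.sep_eq_self_iff_mem_true.mpr fun p hp => (hb p hp).2]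
  | succ N ih =>
    obtain ⟨S, -, hS, hli, hsp⟩ := ih
    obtain ⟨b, hfin, hSb, hb, hbli, hbsp⟩ :=
      key (N + 1) S (fun p hp => ⟨(hS p hp).1, (hS p hp).2.trans N.le_succ⟩) hli
    refine ⟨b, hfin, hb, hbli, fun m hm => ?_⟩
    rcases hm.lt_or_eq with h | rfl
    · exact (hsp m (Nat.lt_succ_iff.mp h)).trans
        (Submodule.span_mono (Set.image_mono fun p hp => ⟨hSb hp.1, hp.2⟩))
    · rwa [show {p ∈ b | p.1 ≤ N + 1} = b from
        Set.sep_eq_self_iff_mem_true.mpr fun p hp => (hb p hp).2]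

/-- The polynomials of degree less than `n + 1 - a i` map onto level `n`. -/
def levelMap (x : E) {d : ℕ} (w : Fin d → E) (a : Fin d → ℕ) (n : ℕ) :
    (∀ i, degreeLT K (n + 1 - a i)) →ₗ[K] E where
  toFun p := ∑ i, aeval x (p i : K[X]) * w i
  map_add' p q := by simp [add_mul, Finset.sum_add_distrib]
  map_smul' c p := by simp [Finset.smul_sum]

theorem mem_degreeLT_iff_or {p : K[X]} {n a : ℕ} :
    p ∈ degreeLT K (n + 1 - a) ↔ p = 0 ∨ p.natDegree + a ≤ n := by
  rcases eq_or_ne p 0 with rfl | hp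
  · simp [zero_mem]
  rw [mem_degreeLT, ← natDegree_lt_iff_degree_lt hp]
  simp only [hp, false_or]
  omega

theorem finrank_degreeLT_pi {d : ℕ} (a : Fin d → ℕ) (n : ℕ) :
    Module.finrank K (∀ i, degreeLT K (n + 1 - a i)) = ∑ i, (n + 1 - a i) := by
  rw [Module.finrank_pi_fintype]
  refine Finset.sum_congr rfl fun i _ => ?_
  rw [LinearEquiv.finrank_eq (degreeLTEquiv K _), Module.finrank_fin_fun]

namespace AdaptedBasis

variable {d : ℕ} (B : AdaptedBasis K x d)

theorem finrank_xLevel (hx : x ≠ 0) (n : ℕ) :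
    Module.finrank K (xLevel K x n) = ∑ i, (n + 1 - B.a i) := by
  have hrange : LinearMap.range (levelMap x B.w B.a n) = xLevel K x n := by
    refine le_antisymm ?_ fun f hf => ?_
    · rintro _ ⟨p, rfl⟩
      show (∑ i, aeval x (p i : K[X]) * B.w i) ∈ xLevel K x n
      refine Submodule.sum_mem _ fun i _ => ?_
      rcases mem_degreeLT_iff_or.mp (p i).2 with h | h
      · rw [h, map_zero, zero_mul]
        exact zero_mem _
      · exact aeval_mul_mem_xLevel hx (B.mem i) le_rfl h
    · obtain ⟨p, hp, hpf⟩ := B.spans n f hf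
      exact ⟨fun i => ⟨p i, mem_degreeLT_iff_or.mpr (hp i)⟩, hpf⟩
  rw [← hrange, LinearMap.finrank_range_of_inj, finrank_degreeLT_pi]
  rw [← LinearMap.ker_eq_bot, LinearMap.ker_eq_bot']
  exact fun p hp => funext fun i => Subtype.ext (B.independent (fun i => (p i : K[X])) hp i)

theorem finrank_xLevel_of_le (hx : x ≠ 0) {n : ℕ} (hn : ∀ i, B.a i ≤ n) :
    (Module.finrank K (xLevel K x n) : ℤ) = d * (n + 1) - ∑ i, (B.a i : ℤ) := by
  rw [B.finrank_xLevel hx, Nat.cast_sum, Finset.sum_congr rfl fun i _ =>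
    Nat.cast_sub (le_trans (hn i) n.le_succ), Finset.sum_sub_distrib]
  simp

theorem w_mem_coordRing (hx : x ≠ 0) (i : Fin d) : B.w i ∈ coordRing K x :=
  ((mem_xLevel_iff hx).mp (B.mem i)).1

/-- The basis of the other chart. -/
theorem inv_w_mem_coordRing (hx : x ≠ 0) (i : Fin d) :
    (x⁻¹) ^ B.a i * B.w i ∈ coordRing K x⁻¹ :=
  ((mem_xLevel_iff hx).mp (B.mem i)).2

theorem exists_coeff {f : E} (hf : f ∈ coordRing K x) :
    ∃ p : Fin d → K[X], ∑ i, aeval x (p i) * B.w i = f := by
  obtain ⟨N, hN⟩ := ((FF.finite_ord_ne_zero (K := K) f).image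
    fun v : Place K E => (v.ord f).natAbs).bddAbove
  have hlev : f ∈ xLevel K x N := mem_xLevel.mpr fun v => by
    rcases le_or_gt 0 (v.ord x) with h | h
    · rw [min_eq_right h, mul_zero]
      exact mem_coordRing_iff_ord.mp hf v h
    · rw [min_eq_left h.le]
      rcases eq_or_ne (v.ord f) 0 with h0 | h0
      · nlinarith
      · have := hN ⟨v, h0, rfl⟩
        nlinarith [abs_le.mp (show |v.ord f| ≤ N by rw [Int.abs_eq_natAbs]; exact_mod_cast this)]
  obtain ⟨p, -, hp⟩ := B.spans N f hlev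
  exact ⟨p, hp⟩

theorem exists_coeff_inv {f : E} (hx : x ≠ 0) (hf : f ∈ coordRing K x⁻¹) :
    ∃ p : Fin d → K[X], ∑ i, aeval x⁻¹ (p i) * ((x⁻¹) ^ B.a i * B.w i) = f := by
  rcases eq_or_ne f 0 with rfl | hf0
  · exact ⟨0, by simp⟩
  obtain ⟨N, hN⟩ := ((FF.finite_ord_ne_zero (K := K) f).image
    fun v : Place K E => (v.ord f).natAbs).bddAbove
  have hlev : x ^ N * f ∈ xLevel K x N := mem_xLevel.mpr fun v => by
    rw [v.ord_mul (pow_ne_zero _ hx) hf0, FF.ord_pow]
    rcases le_or_gt (v.ord x) 0 with h | h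
    · rw [min_eq_left h]
      linarith [mem_coordRing_inv_iff_ord.mp hf v h]
    · rw [min_eq_right h.le, mul_zero]
      rcases eq_or_ne (v.ord f) 0 with h0 | h0
      · nlinarith
      · have := hN ⟨v, h0, rfl⟩
        nlinarith [abs_le.mp (show |v.ord f| ≤ N by rw [Int.abs_eq_natAbs]; exact_mod_cast this)]
  obtain ⟨p, hdeg, hp⟩ := B.spans N (x ^ N * f) hlev
  · refine ⟨fun i => (p i).reflect (N - B.a i), ?_⟩
    have hterm : ∀ i, aeval x⁻¹ ((p i).reflect (N - B.a i)) * ((x⁻¹) ^ B.a i * B.w i) =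
        (x ^ N)⁻¹ * (aeval x (p i) * B.w i) := by
      intro i
      rcases hdeg i with h | h
      · simp [h]
      · rw [aeval_reflect hx _ (by omega)]
        have e : x ^ N = x ^ (N - B.a i) * x ^ B.a i := by
          rw [← pow_add, Nat.sub_add_cancel (by omega)]
        rw [e, inv_pow, mul_inv]
        ring
    rw [Finset.sum_congr rfl fun i _ => hterm i, ← Finset.mul_sum, hp,
      inv_mul_cancel_left₀ (pow_ne_zero _ hx)]

end AdaptedBasis

/-- Adapted bases exist. -/
theorem nonempty_adaptedBasis (hx : Transcendental K x) :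
    Nonempty (AdaptedBasis K x (Module.finrank K⟮x⟯ E)) := by
  classical
  have hx0 : x ≠ 0 := fun e => hx (e ▸ isAlgebraic_zero)
  have hbdd : BddAbove (Set.range fun n => Module.finrank K (xLeadSpace K x n)) :=
    ⟨Module.finrank K⟮x⟯ E, by rintro _ ⟨n, rfl⟩; exact finrank_xLeadSpace_le hx n⟩
  obtain ⟨_, ⟨N, rfl⟩, hmax⟩ :=
    BddAbove.exists_isGreatest_of_nonempty hbdd (Set.range_nonempty _)
  obtain ⟨S, hfin, hS, hli, hsp⟩ := exists_adapted_upTo (K := K) hx0 N
  have : Fintype S := hfin.fintype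
  set d := Fintype.card S
  let e := (Fintype.equivFin S).symm
  let w : Fin d → E := fun i => (e i).1.2
  let a : Fin d → ℕ := fun i => (e i).1.1
  have hw : ∀ i, w i ∈ xLevel K x (a i) := fun i => (hS _ (e i).2).1
  have hlead : LinearIndependent K fun i => xLead K x (a i) (w i) :=
    (linearIndependent_equiv e).mpr hli
  have htop : ∀ n, xLeadSpace K x n ≤
      Submodule.span K ((fun p => xLead K x p.1 p.2) '' {p ∈ S | p.1 ≤ n}) := by
    intro n
    rcases le_or_gt n N with h | h
    · exact hsp n h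
    · have := finite_xLeadSpace (K := K) (x := x) n
      have heq := Submodule.eq_of_le_of_finrank_le (xLeadSpace_mono (K := K) hx0 h.le)
        (hmax ⟨n, rfl⟩)
      rw [← heq]
      exact (hsp N le_rfl).trans (Submodule.span_mono
        (Set.image_mono fun p hp => ⟨hp.1, hp.2.trans h.le⟩))
  have hspans : ∀ n, ∀ f ∈ xLevel K x n, ∃ p : Fin d → K[X],
      (∀ i, p i = 0 ∨ (p i).natDegree + a i ≤ n) ∧ ∑ i, aeval x (p i) * w i = f := by
    have step : ∀ n, ∀ f ∈ xLevel K x n, ∃ c : Fin d → K,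
        (∀ i, ¬ a i ≤ n → c i = 0) ∧
          xLead K x n (f - ∑ i, aeval x (C (c i) * Polynomial.X ^ (n - a i)) * w i) = 0 := by
      intro n f hf
      have hmem := htop n ⟨f, hf, rfl⟩
      have hset : (fun p => xLead K x p.1 p.2) '' {p ∈ S | p.1 ≤ n} ⊆
          (fun i => xLead K x (a i) (w i)) '' {i | a i ≤ n} := by
        rintro _ ⟨p, ⟨hp, hpn⟩, rfl⟩
        refine ⟨e.symm ⟨p, hp⟩, ?_, ?_⟩
        · simpa [a] using hpn
        · simp [a, w]
      obtain ⟨l, hl, hlf⟩ := (Finsupp.mem_span_image_iff_linearCombination K).mp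
        (Submodule.span_mono hset hmem)
      refine ⟨l, fun i hi => ?_, ?_⟩
      · by_contra h
        exact hi ((Finsupp.mem_supported K l).mp hl (Finsupp.mem_support_iff.mpr h))
      rw [map_sub, ← hlf, Finsupp.linearCombination_apply, Finsupp.sum_fintype _ _ (by simp),
        map_sum, sub_eq_zero]
      refine Finset.sum_congr rfl fun i _ => ?_
      by_cases hi : a i ≤ n
      · conv_rhs => rw [show xLead K x n = xLead K x (n - a i + a i) by rw [Nat.sub_add_cancel hi]]
        rw [xLead_aeval_mul hx0 (hw i) ((natDegree_C_mul_X_pow_le _ _))]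
        simp
      · have : l i = 0 := by
          by_contra h
          exact hi ((Finsupp.mem_supported K l).mp hl (Finsupp.mem_support_iff.mpr h))
        simp [this]
    have hstepmem : ∀ n (c : Fin d → K), (∀ i, ¬ a i ≤ n → c i = 0) →
        ∑ i, aeval x (C (c i) * Polynomial.X ^ (n - a i)) * w i ∈ xLevel K x n := by
      intro n c hc
      refine sum_mem fun i _ => ?_
      by_cases hi : a i ≤ n
      · exact aeval_mul_mem_xLevel hx0 (hw i) (natDegree_C_mul_X_pow_le _ _) (by omega)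
      · simp [hc i hi]
    intro n
    induction n with
    | zero =>
      intro f hf
      obtain ⟨c, hc, h0⟩ := step 0 f hf
      have := eq_zero_of_xLead_zero hx (sub_mem hf (hstepmem 0 c hc)) h0
      refine ⟨fun i => C (c i) * Polynomial.X ^ (0 - a i), fun i => ?_, (sub_eq_zero.mp this).symm⟩
      by_cases hi : a i ≤ 0
      · exact Or.inr (by
          have := natDegree_C_mul_X_pow_le (c i) (0 - a i)
          dsimp only
          omega)
      · exact Or.inl (by simp [hc i hi])
    | succ n ih =>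
      intro f hf
      obtain ⟨c, hc, h0⟩ := step (n + 1) f hf
      obtain ⟨p, hp, hpf⟩ := ih _
        (mem_xLevel_of_xLead_zero hx0 (sub_mem hf (hstepmem _ c hc)) h0)
      refine ⟨fun i => p i + C (c i) * Polynomial.X ^ (n + 1 - a i), fun i => ?_, ?_⟩
      · by_cases hi : a i ≤ n + 1
        · refine Or.inr ?_
          have h1 := natDegree_C_mul_X_pow_le (c i) (n + 1 - a i)
          dsimp only
          have h2 := natDegree_add_le (p i) (C (c i) * Polynomial.X ^ (n + 1 - a i))
          rcases hp i with h3 | h3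
          · rw [h3, zero_add]
            omega
          · omega
        · rcases hp i with h3 | h3
          · exact Or.inl (by simp [h3, hc i hi])
          · omega
      · rw [Finset.sum_congr rfl fun i _ => by rw [map_add, add_mul], Finset.sum_add_distrib, hpf,
          sub_add_cancel]
  let B : AdaptedBasis K x d := ⟨w, a, hw, polyIndependent_of_xLead hx0 hw hlead, hspans⟩
  suffices hd : d = Module.finrank K⟮x⟯ E from ⟨hd ▸ B⟩
  refine le_antisymm (by simpa using card_le_finrank_of_xLead hx hw hlead) ?_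
  by_contra hlt
  push Not at hlt
  set D := Module.finrank K⟮x⟯ E
  set g := genusFF K E
  set n : ℕ := d + g + ∑ i, B.a i + 1
  have hn : ∀ i, B.a i ≤ n := fun i => by
    have := Finset.single_le_sum (fun j _ => Nat.zero_le (B.a j)) (Finset.mem_univ i)
    omega
  have h1 := B.finrank_xLevel_of_le hx0 hn
  have h2 := FF.le_finrank_riemannRochSpace (K := K) (n • FF.poleDivisor K x)
  rw [map_nsmul, FF.degree_poleDivisor hx, nsmul_eq_mul] at h2
  have h2' : (n : ℤ) * D + 1 - g ≤ Module.finrank K (xLevel K x n) := h2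
  have h3 : (d : ℤ) + 1 ≤ D := by exact_mod_cast hlt
  have h4 : (0 : ℤ) ≤ ∑ i, (B.a i : ℤ) := Finset.sum_nonneg fun i _ => Int.natCast_nonneg _
  have h5 : (n : ℤ) = d + g + ∑ i, (B.a i : ℤ) + 1 := by simp [n]
  nlinarith [mul_le_mul_of_nonneg_left h3 (Int.natCast_nonneg n)]

/-- The genus in terms of an adapted basis. -/
theorem genusFF_eq_of_adaptedBasis (hx : Transcendental K x)
    (B : AdaptedBasis K x (Module.finrank K⟮x⟯ E)) :
    (genusFF K E : ℤ) = 1 - Module.finrank K⟮x⟯ E + ∑ i, (B.a i : ℤ) := by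
  have hx0 : x ≠ 0 := fun e => hx (e ▸ isAlgebraic_zero)
  set n : ℕ := 2 * genusFF K E + ∑ i, B.a i + 1
  have hn : ∀ i, B.a i ≤ n := fun i => by
    have := Finset.single_le_sum (fun j _ => Nat.zero_le (B.a j)) (Finset.mem_univ i)
    omega
  have hD : (0 : ℤ) < Module.finrank K⟮x⟯ E := by
    have := FF.finiteDimensional_adjoin hx
    exact_mod_cast Module.finrank_pos
  have hdeg : Divisor.degree (n • FF.poleDivisor K x) = (n : ℤ) * Module.finrank K⟮x⟯ E := by
    rw [map_nsmul, FF.degree_poleDivisor hx, nsmul_eq_mul]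
  have h2 := FF.finrank_riemannRochSpace_of_lt_degree (K := K) (D := n • FF.poleDivisor K x) (by
    rw [hdeg]
    have : (2 * (genusFF K E : ℤ) + 1) ≤ n := by simp [n]; positivity
    nlinarith)
  rw [hdeg] at h2
  have h1 := B.finrank_xLevel_of_le hx0 hn
  rw [show (Module.finrank K (xLevel K x n) : ℤ) = _ from h2] at h1
  linarith

end Fermat.Agent.RED
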