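import Fermat.Agent.RED.ReductionDatum
import Mathlib.FieldTheory.Minpoly.IsIntegrallyClosed
import Mathlib.LinearAlgebra.Matrix.Charpoly.Basic
import Mathlib.LinearAlgebra.Matrix.ToLinearEquiv
import Mathlib.RingTheory.Polynomial.RationalRoot

/-!
# Integral functions that are integral over `L[x]` are integral over `A[x]`

This holds as soon as a basis over `k(xb)` of the special field lifts to one over `L(x)` of the
generic field: the characteristic polynomial of multiplication has coefficients in `A[x]` up to a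
primitive factor, and Gauss's lemma passes this to the minimal polynomial.
-/

set_option autoImplicit false
set_option linter.style.haveILetI false

noncomputable section

open Polynomial

namespace Fermat.Agent.RED

variable {L k : Type*} [Field L] [Field k] {F Fb : Type*} [Field F] [Field Fb] [Algebra L F]
  [Algebra k Fb] {A : ValuationSubring L} {π : A →+* k}

/-- A lift of a basis of the special field over `k(xb)` to a basis of the generic one. -/
structure LiftedBasis (D : ReductionDatum A π F Fb) (x : F) (xb : Fb) (ι : Type*) [Fintype ι] where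
  b : ι → F
  bb : ι → Fb
  reduces : ∀ i, D.Reduces (b i) (bb i)
  independent : ∀ p : ι → k[X], ∑ i, Polynomial.aeval xb (p i) * bb i = 0 → ∀ i, p i = 0
  spans : ∀ f : F, ∃ q : L[X], q ≠ 0 ∧ ∃ p : ι → L[X],
    Polynomial.aeval x q * f = ∑ i, Polynomial.aeval x (p i) * b i

/-- Scaling a finite family of polynomials to be integral with nonzero reduction. -/
theorem exists_scale_polynomials (π : A →+* k) {κ : Type*} (s : Finset κ)
    (p : κ → L[X]) (hp : ∃ i ∈ s, p i ≠ 0) :
    ∃ (c : L) (P : κ → A[X]), c ≠ 0 ∧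
      (∀ i ∈ s, (P i).map A.subtype = Polynomial.C c * p i) ∧ ∃ i ∈ s, (P i).map π ≠ 0 := by
  classical
  obtain ⟨i₀, hi₀, hpi₀⟩ := hp
  have hne : (s.sigma fun i => (p i).support).Nonempty :=
    ⟨⟨i₀, (p i₀).natDegree⟩,
      Finset.mem_sigma.mpr ⟨hi₀, Polynomial.natDegree_mem_support_of_nonzero hpi₀⟩⟩
  obtain ⟨⟨i₁, j₁⟩, hm, hmax⟩ :=
    Finset.exists_max_image _ (fun t : Σ _ : κ, ℕ => A.valuation ((p t.1).coeff t.2)) hne
  rw [Finset.mem_sigma, Polynomial.mem_support_iff] at hm
  set m := (p i₁).coeff j₁ with hmdef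
  have hm0 : m ≠ 0 := hm.2
  have hle : ∀ i ∈ s, ∀ j, A.valuation ((p i).coeff j) ≤ A.valuation m := fun i hi j => by
    by_cases h0 : (p i).coeff j = 0
    · rw [h0, map_zero]; exact zero_le
    · exact hmax ⟨i, j⟩ (Finset.mem_sigma.mpr ⟨hi, Polynomial.mem_support_iff.mpr h0⟩)
  have hlift : ∀ i ∈ s, ∃ P : A[X], P.map A.subtype = Polynomial.C m⁻¹ * p i := by
    intro i hi
    refine (Polynomial.mem_lifts _).mp ((Polynomial.lifts_iff_coeff_lifts _).mpr fun j => ?_)
    refine ⟨⟨m⁻¹ * (p i).coeff j, ?_⟩, by rw [Polynomial.coeff_C_mul]; rfl⟩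
    rw [← A.valuation_le_one_iff, map_mul, map_inv₀,
      inv_mul_le_one₀ (zero_lt_iff.mpr ((A.valuation).ne_zero_iff.mpr hm0))]
    exact hle i hi j
  choose! P hP using hlift
  refine ⟨m⁻¹, P, inv_ne_zero hm0, hP, i₁, hm.1, fun e => ?_⟩
  have h1 : ((P i₁).coeff j₁ : L) = 1 := by
    have := congrArg (fun q : L[X] => q.coeff j₁) (hP i₁ hm.1)
    simp only [Polynomial.coeff_map, Polynomial.coeff_C_mul, ← hmdef, inv_mul_cancel₀ hm0] at this
    exact this
  have h2 := congrArg (fun q : k[X] => q.coeff j₁) e
  simp only [Polynomial.coeff_map, Polynomial.coeff_zero] at h2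
  rw [show (P i₁).coeff j₁ = 1 from Subtype.ext h1, map_one] at h2
  exact one_ne_zero h2

theorem aeval_map_subtype (x : F) (P : A[X]) :
    Polynomial.aeval x (P.map A.subtype) = intEval A x P := by
  rw [Polynomial.aeval_def, Polynomial.eval₂_map]
  rfl

theorem reduces_intEval {D : ReductionDatum A π F Fb} {x : F} {xb : Fb} (hx : D.Reduces x xb)
    (P : A[X]) : D.Reduces (intEval A x P) (Polynomial.aeval xb (P.map π)) := by
  induction P using Polynomial.induction_on' with
  | add p q hp hq => rw [map_add, Polynomial.map_add, map_add]; exact hp.add hq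
  | monomial i a =>
    simp only [intEval, Polynomial.coe_eval₂RingHom, Polynomial.eval₂_monomial,
      Polynomial.map_monomial, Polynomial.aeval_monomial, RingHom.comp_apply]
    exact (D.reduces_algebraMap a).mul (hx.pow i)

variable {D : ReductionDatum A π F Fb} {x : F} {xb : Fb} {ι : Type*} [Fintype ι]

/-- Coordinates of an integral function are integral. -/
theorem LiftedBasis.exists_coeff (B : LiftedBasis D x xb ι) (hx : D.Reduces x xb)
    (p : ι → L[X]) (hp : ∑ i, Polynomial.aeval x (p i) * B.b i ∈ D.O) :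
    ∃ P : ι → A[X], ∀ i, (P i).map A.subtype = p i := by
  classical
  by_cases h0 : ∀ i, p i = 0
  · exact ⟨fun _ => 0, fun i => by rw [h0 i, Polynomial.map_zero]⟩
  push Not at h0
  obtain ⟨i₀, hi₀⟩ := h0
  obtain ⟨c, P, hc, hP, i₁, -, hi₁⟩ :=
    exists_scale_polynomials π Finset.univ p ⟨i₀, Finset.mem_univ _, hi₀⟩
  set g := ∑ i, Polynomial.aeval xb ((P i).map π) * B.bb i with hg
  have hg0 : g ≠ 0 := fun e => hi₁ (B.independent _ e i₁)
  have hred : D.Reduces (algebraMap L F c * ∑ i, Polynomial.aeval x (p i) * B.b i) g := by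
    rw [Finset.mul_sum]
    refine ReductionDatum.Reduces.sum fun i _ => ?_
    rw [← mul_assoc, ← Polynomial.aeval_C (R := L) x c, ← map_mul, ← hP i (Finset.mem_univ _),
      aeval_map_subtype]
    exact (reduces_intEval hx _).mul (B.reduces i)
  have hs : ∑ i, Polynomial.aeval x (p i) * B.b i ≠ 0 := right_ne_zero_of_mul (hred.ne_zero hg0)
  have hcinv : algebraMap L F c⁻¹ ∈ D.O := by
    have := mul_mem hp (hred.inv hg0).mem
    convert this using 1
    rw [map_inv₀, mul_inv, mul_left_comm, mul_inv_cancel₀ hs, mul_one]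
  refine ⟨fun i => Polynomial.C (⟨c⁻¹, D.mem_of_algebraMap_mem hcinv⟩ : A) * P i, fun i => ?_⟩
  rw [Polynomial.map_mul, Polynomial.map_C, hP i (Finset.mem_univ _), ← mul_assoc,
    ← Polynomial.C_mul]
  rw [show A.subtype ⟨c⁻¹, D.mem_of_algebraMap_mem hcinv⟩ * c = 1 from inv_mul_cancel₀ hc,
    Polynomial.C_1, one_mul]

theorem natDegree_comp_C_mul_X {R : Type*} [CommRing R] [IsDomain R] (P : R[X]) {Q : R}
    (hQ : Q ≠ 0) : (P.comp (Polynomial.C Q * Polynomial.X)).natDegree = P.natDegree := by
  rw [Polynomial.natDegree_comp, Polynomial.natDegree_C_mul_X Q hQ, mul_one]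

/-- A polynomial over `A[X]`, with primitive leading term, killing an integral function. -/
theorem LiftedBasis.exists_annihilator (B : LiftedBasis D x xb ι) (hx : D.Reduces x xb)
    (hxb : Transcendental k xb) {f : F} (hfO : f ∈ D.O) :
    ∃ G : A[X][X], (G.map (intEval A x)).eval f = 0 ∧ G ≠ 0 ∧
      (G.map (Polynomial.mapRingHom π)).natDegree = G.natDegree ∧
      G.map (Polynomial.mapRingHom π) ≠ 0 := by
  classical
  choose q hq p hp using fun j => B.spans (f * B.b j)
  set qall := ∏ j, q j with hqall
  have hqall0 : qall ≠ 0 := Finset.prod_ne_zero_iff.mpr fun j _ => hq j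
  obtain ⟨c, Qf, hc, hQ, u₀, -, hQπ⟩ :=
    exists_scale_polynomials π ({()} : Finset Unit) (fun _ => qall)
      ⟨(), Finset.mem_singleton_self _, hqall0⟩
  set Q := Qf () with hQdef
  have hQm : Q.map A.subtype = Polynomial.C c * qall := hQ () (Finset.mem_singleton_self _)
  have hrow : ∀ j, ∃ P : ι → A[X],
      intEval A x Q * (f * B.b j) = ∑ i, intEval A x (P i) * B.b i := by
    intro j
    have hprod : qall = (∏ l ∈ Finset.univ.erase j, q l) * q j :=
      (Finset.prod_erase_mul _ _ (Finset.mem_univ j)).symm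
    set p' : ι → L[X] := fun i => Polynomial.C c * (∏ l ∈ Finset.univ.erase j, q l) * p j i
    have hsum : intEval A x Q * (f * B.b j) = ∑ i, Polynomial.aeval x (p' i) * B.b i := by
      rw [← aeval_map_subtype, hQm, hprod, ← mul_assoc (Polynomial.C c), map_mul, mul_assoc, hp,
        Finset.mul_sum]
      exact Finset.sum_congr rfl fun i _ => by simp only [p', map_mul]; ring
    have hmem : ∑ i, Polynomial.aeval x (p' i) * B.b i ∈ D.O :=
      hsum ▸ mul_mem (reduces_intEval hx Q).mem (mul_mem hfO (B.reduces j).mem)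
    obtain ⟨P, hP⟩ := B.exists_coeff hx p' hmem
    exact ⟨P, hsum.trans (Finset.sum_congr rfl fun i _ => by rw [← aeval_map_subtype, hP i])⟩
  choose P hP using hrow
  let M : Matrix ι ι A[X] := Matrix.of P
  have hQ0 : Q.map π ≠ 0 := hQπ
  have hι : ∃ j, B.b j ≠ 0 := by
    by_contra h
    push Not at h
    obtain ⟨q₁, hq₁, p₁, hp₁⟩ := B.spans 1
    rw [mul_one, Finset.sum_eq_zero fun i _ => by rw [h i, mul_zero]] at hp₁
    have hxt : Transcendental L x := by
      intro halg
      obtain ⟨r, hr, hr'⟩ := halg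
      obtain ⟨c', R', hc', hR', u₁, -, hR'π⟩ :=
        exists_scale_polynomials π ({()} : Finset Unit) (fun _ => r)
          ⟨(), Finset.mem_singleton_self _, hr⟩
      refine hxb ⟨_, hR'π, ?_⟩
      refine ((reduces_intEval hx (R' ())).unique ?_)
      rw [← aeval_map_subtype, hR' () (Finset.mem_singleton_self _), map_mul, hr', mul_zero]
      exact D.reduces_zero
    exact hxt ⟨q₁, hq₁, hp₁⟩
  have hdet : (M.map (intEval A x)).charpoly.eval (intEval A x Q * f) = 0 := by
    rw [Matrix.eval_charpoly, ← Matrix.exists_mulVec_eq_zero_iff]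
    refine ⟨B.b, Function.ne_iff.mpr hι, funext fun j => ?_⟩
    rw [Matrix.sub_mulVec, Pi.sub_apply, Matrix.scalar_apply, Matrix.mulVec_diagonal,
      Pi.zero_apply, sub_eq_zero, mul_assoc, hP j]
    rfl
  refine ⟨M.charpoly.comp (Polynomial.C Q * Polynomial.X), ?_, ?_, ?_, ?_⟩
  · rw [Polynomial.map_comp, ← Matrix.charpoly_map, Polynomial.eval_comp, Polynomial.map_mul,
      Polynomial.map_C, Polynomial.map_X, Polynomial.eval_mul, Polynomial.eval_C,
      Polynomial.eval_X]
    exact hdet
  all_goals
    have hQA : Q ≠ 0 := fun e => hQ0 (by rw [e, Polynomial.map_zero])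
    have hmon := M.charpoly_monic
    have hlead : (M.charpoly.map (Polynomial.mapRingHom π)).natDegree = M.charpoly.natDegree :=
      hmon.natDegree_map _
  · intro e
    have h1 := natDegree_comp_C_mul_X M.charpoly hQA
    rw [e, Polynomial.natDegree_zero] at h1
    rw [hmon.natDegree_eq_zero.mp h1.symm] at e
    simp at e
  · rw [Polynomial.map_comp, Polynomial.map_mul, Polynomial.map_C, Polynomial.map_X,
      natDegree_comp_C_mul_X _ (by exact hQ0), hlead, natDegree_comp_C_mul_X _ hQA]
  · intro e
    have h1 := congrArg Polynomial.natDegree e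
    rw [Polynomial.map_comp, Polynomial.map_mul, Polynomial.map_C, Polynomial.map_X,
      natDegree_comp_C_mul_X _ (by exact hQ0), hlead, Polynomial.natDegree_zero] at h1
    rw [hmon.natDegree_eq_zero.mp h1] at e
    simp at e

/-- Integral functions that are integral over `L[x]` are integral over `A[x]`. -/
theorem LiftedBasis.mem_intRing (B : LiftedBasis D x xb ι) (hx : D.Reduces x xb)
    (hxb : Transcendental k xb) (hxt : Transcendental L x) {f : F} (hf : f ∈ coordRing L x)
    (hfO : f ∈ D.O) : f ∈ intRing A x := by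
  classical
  obtain ⟨G, hG, -, hGdeg, hGπ⟩ := B.exists_annihilator hx hxb hfO
  letI : Algebra L[X] F := (coordEval L x).toAlgebra
  haveI : Module.IsTorsionFree L[X] F := by
    rw [Module.isTorsionFree_iff_algebraMap_injective]
    exact transcendental_iff_injective.mp hxt
  have hfi : IsIntegral L[X] f := hf
  set sA : A[X] →+* L[X] := Polynomial.mapRingHom A.subtype with hsA
  have hsAinj : Function.Injective sA := Polynomial.map_injective _ Subtype.val_injective
  have hsinj : Function.Injective (Polynomial.mapRingHom sA) :=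
    Polynomial.map_injective _ (Polynomial.map_injective _ Subtype.val_injective)
  have hG' : Polynomial.aeval f (G.map sA) = 0 := by
    rw [Polynomial.aeval_def, Polynomial.eval₂_map]
    rw [Polynomial.eval_map] at hG
    convert hG using 2
    exact RingHom.ext fun P => aeval_map_subtype x P
  obtain ⟨h, hh⟩ := minpoly.isIntegrallyClosed_dvd hfi hG'
  set m := minpoly L[X] f with hm
  have hmon : m.Monic := minpoly.monic hfi
  have hGne : G.map sA ≠ 0 := fun e => hGπ (by
    rw [hsinj (a₁ := G) (a₂ := 0) (by simpa using e), Polynomial.map_zero])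
  have hhne : h ≠ 0 := fun e => hGne (by rw [hh, e, mul_zero])
  -- scale both factors
  have hscale : ∀ r : L[X][X], r ≠ 0 → ∃ (c : L) (R : A[X][X]), c ≠ 0 ∧
      R.map sA = Polynomial.C (Polynomial.C c) * r ∧ R.map (Polynomial.mapRingHom π) ≠ 0 := by
    intro r hr
    obtain ⟨c, P, hc, hP, i, hir, hi'⟩ :=
      exists_scale_polynomials π r.support (fun i => r.coeff i)
        ⟨r.natDegree, Polynomial.natDegree_mem_support_of_nonzero hr,
          Polynomial.leadingCoeff_ne_zero.mpr hr⟩
    refine ⟨c, ∑ j ∈ r.support, Polynomial.monomial j (P j), hc, ?_, fun e => hi' ?_⟩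
    · conv_rhs => rw [r.as_sum_support, Finset.mul_sum]
      rw [Polynomial.map_sum]
      refine Finset.sum_congr rfl fun j hj => ?_
      rw [Polynomial.map_monomial, Polynomial.C_mul_monomial, ← hP j hj]
      rfl
    · have := congrArg (fun q : k[X][X] => q.coeff i) e
      simp only [Polynomial.map_sum, Polynomial.map_monomial, Polynomial.finsetSum_coeff,
        Polynomial.coeff_monomial, Polynomial.coeff_zero, Finset.sum_ite_eq'] at this
      rwa [if_pos hir] at this
  obtain ⟨c, R, hc, hR, hRπ⟩ := hscale m hmon.ne_zero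
  obtain ⟨e, S, he, hS, hSπ⟩ := hscale h hhne
  have hRS : (R * S).map sA = Polynomial.C (Polynomial.C (c * e)) * G.map sA := by
    rw [Polynomial.map_mul, hR, hS, hh, Polynomial.C_mul, Polynomial.C_mul]; ring
  -- the product of the scalars is a unit of `A`
  obtain ⟨hu, hu0⟩ : ∃ hu : c * e ∈ A, π ⟨c * e, hu⟩ ≠ 0 := by
    by_cases hu : c * e ∈ A
    · refine ⟨hu, fun h0 => ?_⟩
      have : R * S = Polynomial.C (Polynomial.C (⟨c * e, hu⟩ : A)) * G := hsinj (by
        simp only [Polynomial.coe_mapRingHom]
        rw [hRS, Polynomial.map_mul]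
        simp [hsA])
      apply mul_ne_zero hRπ hSπ
      rw [← Polynomial.map_mul, this]
      simp [h0]
    · exfalso
      have hne : c * e ≠ 0 := mul_ne_zero hc he
      have hinv : (c * e)⁻¹ ∈ A := (A.mem_or_inv_mem _).resolve_left hu
      have hπ0 : π ⟨(c * e)⁻¹, hinv⟩ = 0 := by
        rw [D.π_eq_zero_iff]
        intro hun
        obtain ⟨b, hb⟩ := hun.exists_right_inv
        have hb' : (c * e)⁻¹ * (b : L) = 1 := congrArg Subtype.val hb
        rw [inv_mul_eq_one₀ hne] at hb'
        exact hu (hb'.symm ▸ b.2)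
      have : G = Polynomial.C (Polynomial.C (⟨(c * e)⁻¹, hinv⟩ : A)) * (R * S) := hsinj (by
        simp only [Polynomial.coe_mapRingHom]
        rw [Polynomial.map_mul _ (q := R * S), hRS, ← mul_assoc, Polynomial.map_C,
          ← Polynomial.C_mul, hsA, Polynomial.coe_mapRingHom, Polynomial.map_C,
          ← Polynomial.C_mul, show A.subtype ⟨(c * e)⁻¹, hinv⟩ * (c * e) = 1 from
            inv_mul_cancel₀ hne]
        simp)
      apply hGπ
      rw [this, Polynomial.map_mul, Polynomial.map_C, Polynomial.coe_mapRingHom, Polynomial.map_C,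
        hπ0, Polynomial.C_0, Polynomial.C_0, zero_mul]
  have hRSG : R * S = Polynomial.C (Polynomial.C (⟨c * e, hu⟩ : A)) * G := hsinj (by
    simp only [Polynomial.coe_mapRingHom]
    rw [hRS, Polynomial.map_mul]
    simp [hsA])
  have hdegR : R.natDegree = m.natDegree := by
    rw [← Polynomial.natDegree_map_eq_of_injective
      hsAinj R, hR,
      Polynomial.natDegree_C_mul (by simpa using hc)]
  have hdegS : S.natDegree = h.natDegree := by
    rw [← Polynomial.natDegree_map_eq_of_injective
      hsAinj S, hS,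
      Polynomial.natDegree_C_mul (by simpa using he)]
  have hdeg : m.natDegree + h.natDegree = G.natDegree := by
    rw [← Polynomial.natDegree_mul hmon.ne_zero hhne, ← hh,
      Polynomial.natDegree_map_eq_of_injective
        hsAinj]
  have hdegπ : (R.map (Polynomial.mapRingHom π)).natDegree = m.natDegree := by
    have h1 : (R.map (Polynomial.mapRingHom π)).natDegree +
        (S.map (Polynomial.mapRingHom π)).natDegree = G.natDegree := by
      rw [← Polynomial.natDegree_mul hRπ hSπ, ← Polynomial.map_mul, hRSG, Polynomial.map_mul,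
        Polynomial.map_C, Polynomial.natDegree_C_mul (by simpa using hu0), hGdeg]
    have h2 := Polynomial.natDegree_map_le (p := R) (f := Polynomial.mapRingHom π)
    have h3 := Polynomial.natDegree_map_le (p := S) (f := Polynomial.mapRingHom π)
    omega
  have hcoef : (R.coeff m.natDegree).map A.subtype = Polynomial.C c := by
    have := congrArg (fun q : L[X][X] => q.coeff m.natDegree) hR
    simp only [Polynomial.coeff_map, Polynomial.coeff_C_mul, hmon.coeff_natDegree, mul_one,
      hsA] at this
    exact this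
  have hcA : c ∈ A := by
    have := congrArg (fun q : L[X] => q.coeff 0) hcoef
    simp only [Polynomial.coeff_map, Polynomial.coeff_C_zero] at this
    exact this ▸ ((R.coeff m.natDegree).coeff 0).2
  have hcπ : π ⟨c, hcA⟩ ≠ 0 := by
    intro h0
    have hne := Polynomial.leadingCoeff_ne_zero.mpr hRπ
    rw [Polynomial.leadingCoeff, hdegπ, Polynomial.coeff_map] at hne
    apply hne
    have : R.coeff m.natDegree = Polynomial.C ⟨c, hcA⟩ :=
      Polynomial.map_injective _ Subtype.val_injective (by rw [hcoef, Polynomial.map_C]; rfl)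
    rw [this]
    simp [h0]
  have hcu : IsUnit (⟨c, hcA⟩ : A) := not_not.mp ((D.π_eq_zero_iff _).not.mp hcπ)
  obtain ⟨d, hd⟩ := hcu.exists_left_inv
  have hd' : (d : L) * c = 1 := congrArg Subtype.val hd
  have hlift : m ∈ Polynomial.lifts sA :=
    (Polynomial.mem_lifts _).mpr ⟨Polynomial.C (Polynomial.C d) * R, by
      rw [Polynomial.map_mul, hR, ← mul_assoc, Polynomial.map_C, ← Polynomial.C_mul, hsA,
        Polynomial.coe_mapRingHom, Polynomial.map_C, ← Polynomial.C_mul,
        show A.subtype d * c = 1 from hd']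
      simp⟩
  obtain ⟨m', hm', -, hm'mon⟩ := Polynomial.lifts_and_natDegree_eq_and_monic hlift hmon
  refine ⟨m', hm'mon, ?_⟩
  have := minpoly.aeval L[X] f
  rw [← hm, ← hm', Polynomial.aeval_def, Polynomial.eval₂_map] at this
  have he' : (algebraMap L[X] F).comp sA = intEval A x :=
    RingHom.ext fun P => aeval_map_subtype x P
  rwa [he'] at this

end Fermat.Agent.RED
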