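import Fermat.Agent.FF.Basic

/-!
# Constant reductions

A `ConstRed A π F Fb` is a valuation subring `W` of a field `F/L` lying over the valuation ring
`A` of `L`, with residue field `Fb/k`, such that every element is a constant times a unit
(equal value groups).  A parameter is an element `X ∈ W` whose reduction `x` is transcendental
with `[F : L(X)] = [Fb : k(x)]`.
-/

set_option autoImplicit false

noncomputable section

open Polynomial IntermediateField

namespace Fermat.Agent.RED

section Scaling

variable {L k : Type*} [Field L] [Field k] (A : ValuationSubring L)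

/-- A finite nonzero family can be scaled into `A` with some entry equal to one. -/
theorem exists_primitive_scale {ι : Type*} [Finite ι] (v : ι → L) (h : ∃ i, v i ≠ 0) :
    ∃ (c : L) (u : ι → A), c ≠ 0 ∧ (∀ i, v i = c * (u i : L)) ∧ ∃ i, u i = 1 := by
  obtain ⟨i₀, hi₀⟩ := h
  haveI : Nonempty ι := ⟨i₀⟩
  obtain ⟨m, hm⟩ := Finite.exists_max fun i => A.valuation (v i)
  have hm0 : v m ≠ 0 := by
    intro h0
    have := hm i₀
    rw [h0, map_zero, le_zero_iff, map_eq_zero] at this
    exact hi₀ this
  have hmem : ∀ i, v i / v m ∈ A := fun i => by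
    rw [← A.valuation_le_one_iff, map_div₀]
    exact (div_le_one₀ (zero_lt_iff.mpr ((A.valuation.ne_zero_iff).mpr hm0))).mpr (hm i)
  refine ⟨v m, fun i => ⟨v i / v m, hmem i⟩, hm0, fun i => ?_, m, Subtype.ext ?_⟩
  · show v i = v m * (v i / v m)
    field_simp
  · show v m / v m = 1
    exact div_self hm0

variable {A} (π : A →+* k)

/-- A finite family of polynomials, not all zero, is a constant times a family of integral
polynomials whose reductions are not all zero. -/
theorem exists_primitive_polynomials {ι : Type*} [Finite ι] (p : ι → L[X]) (h : ∃ i, p i ≠ 0) :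
    ∃ (c : L) (P : ι → A[X]), c ≠ 0 ∧ (∀ i, p i = Polynomial.C c * (P i).map A.subtype) ∧
      ∃ i, (P i).map π ≠ 0 := by
  classical
  cases nonempty_fintype ι
  set D : ℕ := (Finset.univ.sup fun i => (p i).natDegree) + 1 with hD
  have hdeg : ∀ i, (p i).natDegree < D := fun i =>
    Nat.lt_succ_of_le (Finset.le_sup (f := fun i => (p i).natDegree) (Finset.mem_univ i))
  obtain ⟨c, u, hc, hu, ⟨i₁, m₁⟩, hone⟩ :=
    exists_primitive_scale A (fun x : ι × Fin D => (p x.1).coeff x.2) (by
      obtain ⟨i, hi⟩ := h
      exact ⟨(i, ⟨_, hdeg i⟩), fun h0 => hi (leadingCoeff_eq_zero.mp h0)⟩)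
  let P : ι → A[X] := fun i => ∑ m : Fin D, monomial (m : ℕ) (u (i, m))
  have hP : ∀ i (m : Fin D), (P i).coeff m = u (i, m) := by
    intro i m
    simp only [P, finsetSum_coeff, coeff_monomial]
    rw [Finset.sum_eq_single m]
    · simp
    · intro b _ hb
      simp [Fin.val_eq_val, hb]
    · simp
  refine ⟨c, P, hc, fun i => ?_, i₁, fun h0 => ?_⟩
  · ext m
    rw [coeff_C_mul, coeff_map]
    rcases lt_or_ge m D with hm | hm
    · have h1 := hP i ⟨m, hm⟩
      simp only at h1
      rw [h1]
      exact hu (i, ⟨m, hm⟩)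
    · have h1 : (P i).coeff m = 0 := by
        simp only [P, finsetSum_coeff, coeff_monomial]
        exact Finset.sum_eq_zero fun b _ => if_neg (by omega)
      rw [h1, map_zero, mul_zero, coeff_eq_zero_of_natDegree_lt ((hdeg i).trans_le hm)]
  · have := congrArg (fun q => Polynomial.coeff q m₁) h0
    simp only [coeff_map, coeff_zero, hP, hone, map_one, one_ne_zero] at this

end Scaling

/-- A constant reduction of `F/L` to `Fb/k` over `π : A →+* k`. -/
structure ConstRed {L k : Type*} [Field L] [Field k] (A : ValuationSubring L) (π : A →+* k)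
    (F Fb : Type*) [Field F] [Field Fb] [Algebra L F] [Algebra k Fb] where
  /-- The valuation subring. -/
  W : ValuationSubring F
  /-- The residue map. -/
  red : W →+* Fb
  surjective_π : Function.Surjective π
  algebraMap_mem : ∀ a : A, algebraMap L F (a : L) ∈ W
  red_algebraMap' : ∀ a : A, red ⟨algebraMap L F (a : L), algebraMap_mem a⟩ = algebraMap k Fb (π a)
  red_surjective : Function.Surjective red
  exists_scale' : ∀ f : F, f ≠ 0 →
    ∃ (c : L) (w : W), c ≠ 0 ∧ red w ≠ 0 ∧ f = algebraMap L F c * (w : F)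

namespace ConstRed

variable {L k : Type*} [Field L] [Field k] {A : ValuationSubring L} {π : A →+* k}
variable {F Fb : Type*} [Field F] [Field Fb] [Algebra L F] [Algebra k Fb]
variable (R : ConstRed A π F Fb)

/-- Constants of `A` inside `W`. -/
def const : A →+* R.W where
  toFun a := ⟨algebraMap L F (a : L), R.algebraMap_mem a⟩
  map_one' := Subtype.ext (by simp)
  map_mul' a b := Subtype.ext (by simp)
  map_zero' := Subtype.ext (by simp)
  map_add' a b := Subtype.ext (by simp)

@[simp] theorem coe_const (a : A) : (R.const a : F) = algebraMap L F (a : L) := rfl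

@[simp] theorem red_const (a : A) : R.red (R.const a) = algebraMap k Fb (π a) :=
  R.red_algebraMap' a

theorem exists_scale {f : F} (hf : f ≠ 0) :
    ∃ (c : L) (w : R.W), c ≠ 0 ∧ R.red w ≠ 0 ∧ f = algebraMap L F c * (w : F) :=
  R.exists_scale' f hf

theorem ker_red : RingHom.ker R.red = IsLocalRing.maximalIdeal R.W :=
  haveI := RingHom.ker_isMaximal_of_surjective R.red R.red_surjective
  IsLocalRing.eq_maximalIdeal this

theorem red_ne_zero_iff {w : R.W} : R.red w ≠ 0 ↔ IsUnit w := by
  rw [← not_iff_not, not_not, ← RingHom.mem_ker, R.ker_red, IsLocalRing.mem_maximalIdeal,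
    mem_nonunits_iff]

theorem ne_zero_of_red_ne_zero {w : R.W} (hw : R.red w ≠ 0) : (w : F) ≠ 0 :=
  fun h0 => hw (by rw [show w = 0 from Subtype.ext h0, map_zero])

theorem inv_mem_of_red_ne_zero {w : R.W} (hw : R.red w ≠ 0) : (w : F)⁻¹ ∈ R.W := by
  obtain ⟨u, hu⟩ := R.red_ne_zero_iff.mp hw
  have h : (w : F) * ((u⁻¹ : R.Wˣ) : R.W) = 1 := by
    rw [← hu, ← MulMemClass.coe_mul, Units.mul_inv, OneMemClass.coe_one]
  rw [inv_eq_of_mul_eq_one_right h]
  exact SetLike.coe_mem _

/-- `W ∩ L = A`. -/
theorem algebraMap_mem_iff {c : L} : algebraMap L F c ∈ R.W ↔ c ∈ A := by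
  refine ⟨fun hc => ?_, fun hc => R.algebraMap_mem ⟨c, hc⟩⟩
  by_contra hcA
  have hc0 : c ≠ 0 := fun h0 => hcA (h0 ▸ A.zero_mem)
  have hci : c⁻¹ ∈ A := (A.mem_or_inv_mem c).resolve_left hcA
  have hker : π ⟨c⁻¹, hci⟩ = 0 := by
    haveI := RingHom.ker_isMaximal_of_surjective π R.surjective_π
    rw [← RingHom.mem_ker, IsLocalRing.eq_maximalIdeal this, IsLocalRing.mem_maximalIdeal,
      mem_nonunits_iff]
    intro hu
    obtain ⟨u, hu⟩ := hu
    apply hcA
    have h : c⁻¹ * (((u⁻¹ : Aˣ) : A) : L) = 1 := by
      have := congrArg (fun a : A => (a : L)) u.mul_inv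
      rwa [MulMemClass.coe_mul, hu] at this
    have h2 : (((u⁻¹ : Aˣ) : A) : L) = c := by
      field_simp at h
      exact h
    exact h2 ▸ SetLike.coe_mem _
  have h1 : R.const ⟨c⁻¹, hci⟩ * ⟨algebraMap L F c, hc⟩ = 1 := by
    apply Subtype.ext
    show algebraMap L F c⁻¹ * algebraMap L F c = 1
    rw [← map_mul, inv_mul_cancel₀ hc0, map_one]
  have := congrArg R.red h1
  rw [map_mul, R.red_const, hker, map_zero, zero_mul, map_one] at this
  exact zero_ne_one this

/-- An element reducing to zero is a nonunit constant times an element of `W`. -/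
theorem exists_const_mul_of_red_eq_zero {w : R.W} (hw : R.red w = 0) :
    ∃ (a : A) (w' : R.W), π a = 0 ∧ w = R.const a * w' := by
  rcases eq_or_ne (w : F) 0 with h0 | h0
  · exact ⟨0, 0, map_zero π, Subtype.ext (by simp [h0])⟩
  obtain ⟨c, w', hc, hw', hwc⟩ := R.exists_scale h0
  have hcA : c ∈ A := by
    rw [← R.algebraMap_mem_iff]
    have h : algebraMap L F c = (w : F) * (w' : F)⁻¹ := by
      rw [hwc, mul_assoc, mul_inv_cancel₀ (R.ne_zero_of_red_ne_zero hw'), mul_one]
    rw [h]
    exact mul_mem w.2 (R.inv_mem_of_red_ne_zero hw')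
  have hw2 : w = R.const ⟨c, hcA⟩ * w' := Subtype.ext hwc
  refine ⟨⟨c, hcA⟩, w', ?_, hw2⟩
  have := congrArg R.red hw2
  rw [hw, map_mul, R.red_const, eq_comm, mul_eq_zero, map_eq_zero] at this
  exact this.resolve_right hw'

section Eval

variable (X : R.W)

/-- Evaluation of integral polynomials at `X`. -/
def evW : A[X] →+* R.W := Polynomial.eval₂RingHom R.const X

@[simp] theorem evW_C (a : A) : R.evW X (Polynomial.C a) = R.const a := by simp [evW]

@[simp] theorem evW_X : R.evW X Polynomial.X = X := by simp [evW]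

theorem coe_evW (P : A[X]) : (R.evW X P : F) = aeval (X : F) (P.map A.subtype) := by
  induction P using Polynomial.induction_on' with
  | add P Q hP hQ => simp [hP, hQ]
  | monomial n a => simp [evW, ← C_mul_X_pow_eq_monomial]

theorem red_evW (P : A[X]) : R.red (R.evW X P) = aeval (R.red X) (P.map π) := by
  induction P using Polynomial.induction_on' with
  | add P Q hP hQ => simp [hP, hQ]
  | monomial n a => simp [evW, ← C_mul_X_pow_eq_monomial]

variable {X}

theorem red_evW_ne_zero (hx : Transcendental k (R.red X)) {P : A[X]} (hP : P.map π ≠ 0) :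
    R.red (R.evW X P) ≠ 0 := by
  rw [R.red_evW]
  exact fun h => hP ((transcendental_iff.mp hx) _ h)

include R in
theorem transcendental_of_red (hx : Transcendental k (R.red X)) : Transcendental L (X : F) := by
  rw [transcendental_iff]
  intro p hp
  by_contra hp0
  obtain ⟨c, P, hc, hpP, i, hPne⟩ :=
    exists_primitive_polynomials π (fun _ : Unit => p) ⟨(), hp0⟩
  apply R.red_evW_ne_zero hx hPne
  have h0 : R.evW X (P ()) = 0 := by
    apply Subtype.ext
    rw [R.coe_evW, ZeroMemClass.coe_zero]
    rw [hpP (), map_mul, aeval_C, mul_eq_zero, map_eq_zero] at hp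
    exact hp.resolve_left hc
  rw [h0, map_zero]

/-- Lifts of a family independent over `k(x)` are independent over `L(X)`. -/
theorem linearIndependent_of_red (hx : Transcendental k (R.red X)) {ι : Type*} [Fintype ι]
    {e : ι → R.W} (he : LinearIndependent k⟮R.red X⟯ fun i => R.red (e i)) :
    LinearIndependent L⟮(X : F)⟯ fun i => (e i : F) := by
  refine FF.linearIndependent_adjoin_of_polynomial (R.transcendental_of_red hx) _ fun p hp => ?_
  by_contra hne
  push Not at hne
  obtain ⟨c, P, hc, hpP, i₀, hi₀⟩ := exists_primitive_polynomials π p hne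
  have h0 : ∑ i, R.evW X (P i) * e i = 0 := by
    apply Subtype.ext
    push_cast
    refine (mul_eq_zero.mp ?_).resolve_left ((map_ne_zero (algebraMap L F)).mpr hc)
    rw [Finset.mul_sum, ← hp]
    refine Finset.sum_congr rfl fun i _ => ?_
    rw [hpP i, map_mul, aeval_C, R.coe_evW, mul_assoc]
  have h1 := congrArg R.red h0
  simp only [map_sum, map_mul, map_zero, R.red_evW] at h1
  let y : k⟮R.red X⟯ := ⟨R.red X, mem_adjoin_simple_self k _⟩
  have h2 := Fintype.linearIndependent_iff.mp he (fun i => aeval y ((P i).map π)) (by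
    rw [← h1]
    refine Finset.sum_congr rfl fun i _ => ?_
    show (algebraMap k⟮R.red X⟯ Fb (aeval y ((P i).map π))) * _ = _
    rw [← aeval_algebraMap_apply]
    rfl) i₀
  apply hi₀
  refine (transcendental_iff.mp hx) _ ?_
  have := congrArg (algebraMap k⟮R.red X⟯ Fb) h2
  rwa [← aeval_algebraMap_apply, map_zero] at this

end Eval

/-- A parameter: `x = red X` is transcendental and `[F : L(X)] = [Fb : k(x)]` is finite. -/
structure Param (X : R.W) : Prop where
  transcendental : Transcendental k (R.red X)
  finite : FiniteDimensional L⟮(X : F)⟯ F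
  finite_red : FiniteDimensional k⟮R.red X⟯ Fb
  finrank_eq : Module.finrank L⟮(X : F)⟯ F = Module.finrank k⟮R.red X⟯ Fb

end ConstRed

end Fermat.Agent.RED
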