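import Fermat.Agent.RED.ConstRed

/-!
# Gauss constant reductions

Given a ring `P` ("integral elements") mapping into a field `E/L` and into a field `Eb/k`, with
`Eb` generated by the image of `P` and `[E : L(X)] ≤ [Eb : k(x)]`, the Gauss valuation gives a
constant reduction of `E` to `Eb` with parameter `X`.
-/

set_option autoImplicit false

noncomputable section

open Polynomial IntermediateField

namespace Fermat.Agent.RED

variable {L k : Type*} [Field L] [Field k] {A : ValuationSubring L} {π : A →+* k}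
variable {E Eb : Type*} [Field E] [Field Eb] [Algebra L E] [Algebra k Eb]
variable {P : Type*} [CommRing P]

/-- Integral elements with their two maps. -/
structure GaussMaps (A : ValuationSubring L) (π : A →+* k) (E Eb : Type*) [Field E] [Field Eb]
    [Algebra L E] [Algebra k Eb] (P : Type*) [CommRing P] where
  toE : P →+* E
  toEb : P →+* Eb
  C : A →+* P
  toE_C : ∀ a : A, toE (C a) = algebraMap L E (a : L)
  toEb_C : ∀ a : A, toEb (C a) = algebraMap k Eb (π a)
  toE_injective : Function.Injective toE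

namespace GaussMaps

variable (M : GaussMaps A π E Eb P)

theorem toE_eval₂ (y₀ : P) (p : A[X]) :
    M.toE (p.eval₂ M.C y₀) = aeval (M.toE y₀) (p.map A.subtype) := by
  induction p using Polynomial.induction_on' with
  | add p q hp hq => simp [hp, hq]
  | monomial n a => simp [← C_mul_X_pow_eq_monomial, M.toE_C]

theorem toEb_eval₂ (y₀ : P) (p : A[X]) :
    M.toEb (p.eval₂ M.C y₀) = aeval (M.toEb y₀) (p.map π) := by
  induction p using Polynomial.induction_on' with
  | add p q hp hq => simp [hp, hq]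
  | monomial n a => simp [← C_mul_X_pow_eq_monomial, M.toEb_C]

/-- Hypotheses giving a Gauss reduction with parameter `y₀`. -/
structure Good (y₀ : P) : Prop where
  surjective : Function.Surjective π
  transcendental : Transcendental k (M.toEb y₀)
  finite : FiniteDimensional L⟮M.toE y₀⟯ E
  finrank_le : Module.finrank L⟮M.toE y₀⟯ E ≤ Module.finrank k⟮M.toEb y₀⟯ Eb
  generated : IntermediateField.adjoin k (Set.range M.toEb) = ⊤

namespace Good

variable {M} {y₀ : P} (h : M.Good y₀)

include h

theorem transcendental_E : Transcendental L (M.toE y₀) := by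
  rw [transcendental_iff]
  intro p hp
  by_contra hp0
  obtain ⟨c, P, hc, hpP, i, hPne⟩ :=
    exists_primitive_polynomials π (fun _ : Unit => p) ⟨(), hp0⟩
  apply hPne
  refine (transcendental_iff.mp h.transcendental) _ ?_
  have hp' : p = Polynomial.C c * (P i).map A.subtype := hpP i
  rw [hp', map_mul, aeval_C, mul_eq_zero, map_eq_zero] at hp
  have h0 : (P i).eval₂ M.C y₀ = 0 := M.toE_injective (by
    rw [M.toE_eval₂, map_zero]; exact hp.resolve_left hc)
  rw [← M.toEb_eval₂, h0, map_zero]

/-- Pairs with independent reductions are independent over `L(X)`. -/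
theorem linearIndependent_pairs {ι : Type*} [Fintype ι] {e : ι → P}
    (he : LinearIndependent k⟮M.toEb y₀⟯ fun i => M.toEb (e i)) :
    LinearIndependent L⟮M.toE y₀⟯ fun i => M.toE (e i) := by
  refine FF.linearIndependent_adjoin_of_polynomial h.transcendental_E _ fun p hp => ?_
  by_contra hne
  push Not at hne
  obtain ⟨c, P, hc, hpP, i₀, hi₀⟩ := exists_primitive_polynomials π p hne
  have h0 : ∑ i, (P i).eval₂ M.C y₀ * e i = 0 := by
    apply M.toE_injective
    rw [map_zero, map_sum]
    refine (mul_eq_zero.mp ?_).resolve_left ((map_ne_zero (algebraMap L E)).mpr hc)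
    rw [Finset.mul_sum, ← hp]
    refine Finset.sum_congr rfl fun i _ => ?_
    rw [hpP i, map_mul (aeval (M.toE y₀)), aeval_C, map_mul, M.toE_eval₂, mul_assoc]
  have h1 := congrArg M.toEb h0
  simp only [map_sum, map_mul, map_zero, M.toEb_eval₂] at h1
  let y : k⟮M.toEb y₀⟯ := ⟨M.toEb y₀, mem_adjoin_simple_self k _⟩
  have h2 := Fintype.linearIndependent_iff.mp he (fun i => aeval y ((P i).map π)) (by
    rw [← h1]
    refine Finset.sum_congr rfl fun i _ => ?_
    show (algebraMap k⟮M.toEb y₀⟯ Eb (aeval y ((P i).map π))) * _ = _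
    rw [← aeval_algebraMap_apply]
    rfl) i₀
  apply hi₀
  refine (transcendental_iff.mp h.transcendental) _ ?_
  have := congrArg (algebraMap k⟮M.toEb y₀⟯ Eb) h2
  rwa [← aeval_algebraMap_apply, map_zero] at this

/-- A basis of `Eb` over `k(x)` consisting of reductions, of cardinality `[E : L(X)]`. -/
theorem exists_basis :
    ∃ (m : ℕ) (e : Fin m → P),
      m = Module.finrank L⟮M.toE y₀⟯ E ∧
        LinearIndependent k⟮M.toEb y₀⟯ (fun i => M.toEb (e i)) ∧
        Submodule.span k⟮M.toEb y₀⟯ (Set.range fun i => M.toEb (e i)) = ⊤ := by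
  classical
  haveI := h.finite
  set K₁ := k⟮M.toEb y₀⟯
  set s : Set Eb := Set.range (M.toEb ) with hs
  obtain ⟨b, hbs, hbspan, hbind⟩ := exists_linearIndependent K₁ s
  have hcard : ∀ t : Finset Eb, (t : Set Eb) ⊆ b →
      t.card ≤ Module.finrank L⟮M.toE y₀⟯ E := by
    intro t ht
    choose f hf using fun i : t => (hbs (ht i.2) : (i : Eb) ∈ s)
    have hind : LinearIndependent K₁ fun i : t => M.toEb (f i) := by
      simp only [hf]
      exact hbind.comp (fun i : t => (⟨i, ht i.2⟩ : b))
        (fun i j hij => Subtype.ext (congrArg (fun z : b => (z : Eb)) hij))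
    simpa using (h.linearIndependent_pairs hind).fintype_card_le_finrank
  have hbfin : b.Finite := by
    by_contra hinf
    obtain ⟨t, htb, htc⟩ :=
      Set.Infinite.exists_subset_card_eq hinf (Module.finrank L⟮M.toE y₀⟯ E + 1)
    have := hcard t htb
    omega
  have hadj : Algebra.adjoin K₁ s = ⊤ := by
    have hfd : FiniteDimensional K₁ (Algebra.adjoin K₁ s) := by
      have hmon : (Submonoid.closure s : Set Eb) = s := by
        have hs' : s = (MonoidHom.mrange (M.toEb ).toMonoidHom :
            Submonoid Eb) := by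
          ext; simp [hs, MonoidHom.mem_mrange]
        rw [hs', Submonoid.closure_eq]
      have hsp : Subalgebra.toSubmodule (Algebra.adjoin K₁ s) = Submodule.span K₁ b := by
        rw [Algebra.adjoin_eq_span, hmon, hbspan]
      have : FiniteDimensional K₁ (Submodule.span K₁ b) := FiniteDimensional.span_of_finite K₁ hbfin
      rw [← hsp] at this
      exact this
    refine eq_top_iff.mpr fun g htop => ?_
    clear htop
    have hg := (h.generated.symm ▸ IntermediateField.mem_top : g ∈ IntermediateField.adjoin k (Set.range M.toEb))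
    induction hg using IntermediateField.adjoin_induction with
    | mem z hz => exact Algebra.subset_adjoin hz
    | algebraMap c =>
      obtain ⟨a, rfl⟩ := h.surjective c
      exact Algebra.subset_adjoin ⟨M.C a, M.toEb_C a⟩
    | add z z' _ _ hz hz' => exact add_mem hz hz'
    | inv z _ hz =>
      haveI := hfd
      exact (Algebra.adjoin K₁ s).inv_mem_of_algebraic (x := ⟨z, hz⟩)
        (IsIntegral.isAlgebraic
          ((Algebra.IsIntegral.isIntegral (R := K₁) (⟨z, hz⟩ : Algebra.adjoin K₁ s)).map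
            (Algebra.adjoin K₁ s).val))
    | mul z z' _ _ hz hz' => exact mul_mem hz hz'
  have hspan : Submodule.span K₁ b = ⊤ := by
    have hmon : (Submonoid.closure s : Set Eb) = s := by
      have hs' : s = (MonoidHom.mrange (M.toEb ).toMonoidHom :
          Submonoid Eb) := by
        ext; simp [hs, MonoidHom.mem_mrange]
      rw [hs', Submonoid.closure_eq]
    rw [hbspan, ← hmon, ← Algebra.adjoin_eq_span, hadj, Algebra.top_toSubmodule]
  haveI : Fintype b := hbfin.fintype
  let eb : Fin (Fintype.card b) ≃ b := (Fintype.equivFin b).symm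
  choose f hf using fun i : Fin (Fintype.card b) => (hbs (eb i).2 : ((eb i : b) : Eb) ∈ s)
  have hind : LinearIndependent K₁ fun i => M.toEb (f i) := by
    simp only [hf]
    exact hbind.comp eb eb.injective
  have hrange : Set.range (fun i => M.toEb (f i)) = b := by
    simp only [hf]
    rw [show (fun i => ((eb i : b) : Eb)) = Subtype.val ∘ eb from rfl, Set.range_comp,
      eb.surjective.range_eq, Set.image_univ, Subtype.range_coe]
  refine ⟨_, f, le_antisymm ?_ ?_, hind, by rw [hrange, hspan]⟩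
  · simpa using (h.linearIndependent_pairs hind).fintype_card_le_finrank
  · refine h.finrank_le.trans_eq ?_
    have hb := Module.Basis.mk hind (by rw [hrange, hspan])
    rw [Module.finrank_eq_card_basis hb, Fintype.card_fin]

/-- Every nonzero element of `E` is a constant times a ratio of pairs with nonzero reductions. -/
theorem exists_scale {f : E} (hf : f ≠ 0) :
    ∃ (c : L) (y z : P), c ≠ 0 ∧ M.toEb y ≠ 0 ∧ M.toEb z ≠ 0 ∧
      f * M.toE z = algebraMap L E c * M.toE y := by
  classical
  haveI := h.finite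
  obtain ⟨m, e, hm, hind, hspan⟩ := h.exists_basis
  set K := L⟮M.toE y₀⟯
  have hindE : LinearIndependent K fun i => M.toE (e i) := h.linearIndependent_pairs hind
  haveI : Nonempty (Fin m) := by
    rw [hm]; exact Fin.pos_iff_nonempty.mp Module.finrank_pos
  let bas := basisOfLinearIndependentOfCardEqFinrank hindE (by simp [hm, K])
  have hbas : ∀ i, bas i = M.toE (e i) := fun i => by simp [bas]
  have hrep : f = ∑ i, (bas.repr f i : E) * M.toE (e i) := by
    conv_lhs => rw [← bas.sum_repr f]
    exact Finset.sum_congr rfl fun i _ => by rw [Algebra.smul_def, hbas]; rfl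
  have hrs : ∀ i, ∃ r s : L[X], s ≠ 0 ∧
      (bas.repr f i : E) = aeval (M.toE y₀) r / aeval (M.toE y₀) s := by
    intro i
    obtain ⟨r, s, hrs⟩ := (mem_adjoin_simple_iff (F := L) (bas.repr f i : E)).mp (bas.repr f i).2
    rcases eq_or_ne s 0 with rfl | hs
    · exact ⟨0, 1, one_ne_zero, by simp [hrs]⟩
    · exact ⟨r, s, hs, hrs⟩
  choose r s hs hrs using hrs
  have hsX : ∀ i, aeval (M.toE y₀) (s i) ≠ 0 := fun i h0 =>
    hs i ((transcendental_iff.mp h.transcendental_E) _ h0)
  set q : L[X] := ∏ i, s i with hq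
  have hq0 : q ≠ 0 := Finset.prod_ne_zero_iff.mpr fun i _ => hs i
  set p : Fin m → L[X] := fun i => r i * ∏ j ∈ Finset.univ.erase i, s j with hp
  have hfq : f * aeval (M.toE y₀) q = ∑ i, aeval (M.toE y₀) (p i) * M.toE (e i) := by
    conv_lhs => rw [hrep, Finset.sum_mul]
    refine Finset.sum_congr rfl fun i _ => ?_
    rw [hq, map_prod, ← Finset.mul_prod_erase _ _ (Finset.mem_univ i), hp, map_mul, map_prod,
      hrs i]
    field_simp [hsX i]
  have hqX : aeval (M.toE y₀) q ≠ 0 := fun h0 =>
    hq0 ((transcendental_iff.mp h.transcendental_E) _ h0)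
  have hpne : ∃ i, p i ≠ 0 := by
    by_contra hall
    push Not at hall
    exact mul_ne_zero hf hqX (by simp [hfq, hall])
  obtain ⟨c₁, P, hc₁, hpP, i₀, hi₀⟩ := exists_primitive_polynomials π p hpne
  obtain ⟨c₂, Q, hc₂, hqQ, u, hQne⟩ :=
    exists_primitive_polynomials π (fun _ : Unit => q) ⟨(), hq0⟩
  have hqQ' : q = Polynomial.C c₂ * (Q u).map A.subtype := hqQ u
  refine ⟨c₁ / c₂, ∑ i, (P i).eval₂ M.C y₀ * e i, (Q u).eval₂ M.C y₀,
    div_ne_zero hc₁ hc₂, ?_, ?_, ?_⟩
  · intro h0
    simp only [map_sum, map_mul, M.toEb_eval₂] at h0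
    let y : k⟮M.toEb y₀⟯ := ⟨M.toEb y₀, mem_adjoin_simple_self k _⟩
    have h2 := Fintype.linearIndependent_iff.mp hind (fun i => aeval y ((P i).map π)) (by
      rw [← h0]
      refine Finset.sum_congr rfl fun i _ => ?_
      show (algebraMap k⟮M.toEb y₀⟯ Eb (aeval y ((P i).map π))) * _ = _
      rw [← aeval_algebraMap_apply]
      rfl) i₀
    apply hi₀
    refine (transcendental_iff.mp h.transcendental) _ ?_
    have := congrArg (algebraMap k⟮M.toEb y₀⟯ Eb) h2
    rwa [← aeval_algebraMap_apply, map_zero] at this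
  · rw [M.toEb_eval₂]
    exact fun h0 => hQne ((transcendental_iff.mp h.transcendental) _ h0)
  · have hcc : algebraMap L E c₂ ≠ 0 := (_root_.map_ne_zero _).mpr hc₂
    rw [M.toE_eval₂, map_sum, map_div₀, div_mul_eq_mul_div, eq_div_iff hcc]
    calc f * aeval (M.toE y₀) ((Q u).map A.subtype) * algebraMap L E c₂
        = f * aeval (M.toE y₀) q := by rw [hqQ', map_mul, aeval_C]; ring
      _ = _ := by
        rw [hfq, Finset.mul_sum]
        refine Finset.sum_congr rfl fun i _ => ?_
        rw [hpP i, map_mul (aeval (M.toE y₀)), aeval_C, map_mul, M.toE_eval₂, mul_assoc]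

/-- The Gauss valuation subring of `E`. -/
def gaussRing : ValuationSubring E where
  carrier := {f | ∃ y z : P, M.toEb z ≠ 0 ∧ f * M.toE z = M.toE y}
  mul_mem' := by
    rintro f g ⟨y, z, hz, hf⟩ ⟨y', z', hz', hg⟩
    refine ⟨y * y', z * z', by rw [map_mul]; exact mul_ne_zero hz hz', ?_⟩
    rw [map_mul, map_mul, ← hf, ← hg]; ring
  one_mem' := ⟨1, 1, by rw [map_one]; exact one_ne_zero, by simp⟩
  add_mem' := by
    rintro f g ⟨y, z, hz, hf⟩ ⟨y', z', hz', hg⟩
    refine ⟨y * z' + y' * z, z * z', by rw [map_mul]; exact mul_ne_zero hz hz', ?_⟩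
    rw [map_mul, map_add, map_mul, map_mul, ← hf, ← hg]; ring
  zero_mem' := ⟨0, 1, by rw [map_one]; exact one_ne_zero, by simp⟩
  neg_mem' := by
    rintro f ⟨y, z, hz, hf⟩
    exact ⟨-y, z, hz, by rw [map_neg, ← hf]; ring⟩
  mem_or_inv_mem' := by
    intro f
    rcases eq_or_ne f 0 with rfl | hf
    · exact Or.inl ⟨0, 1, by rw [map_one]; exact one_ne_zero, by simp⟩
    obtain ⟨c, y, z, hc, hy, hz, heq⟩ := h.exists_scale hf
    rcases A.mem_or_inv_mem c with hcA | hcA
    · exact Or.inl ⟨M.C ⟨c, hcA⟩ * y, z, hz, by rw [map_mul, M.toE_C, heq]⟩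
    · refine Or.inr ⟨M.C ⟨c⁻¹, hcA⟩ * z, y, hy, ?_⟩
      rw [map_mul, M.toE_C, map_inv₀, inv_mul_eq_iff_eq_mul₀ hf,
        eq_comm, mul_left_comm, heq, ← mul_assoc,
        inv_mul_cancel₀ ((map_ne_zero (algebraMap L E)).mpr hc), one_mul]

theorem red_eq_of_eq {f : E} {y z y' z' : P} (hz : M.toEb z ≠ 0)
    (hz' : M.toEb z' ≠ 0) (h1 : f * M.toE z = M.toE y)
    (h2 : f * M.toE z' = M.toE y') :
    M.toEb y / M.toEb z = M.toEb y' / M.toEb z' := by
  have heq : y * z' = y' * z := M.toE_injective (by rw [map_mul, map_mul, ← h1, ← h2]; ring)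
  rw [div_eq_div_iff hz hz', ← map_mul, ← map_mul, heq]

/-- The reduction map on the Gauss ring. -/
def gaussRedFun (f : h.gaussRing) : Eb :=
  M.toEb f.2.choose / M.toEb f.2.choose_spec.choose

theorem gaussRedFun_eq {f : h.gaussRing} {y z : P} (hz : M.toEb z ≠ 0)
    (hfy : (f : E) * M.toE z = M.toE y) : h.gaussRedFun f = M.toEb y / M.toEb z :=
  h.red_eq_of_eq f.2.choose_spec.choose_spec.1 hz f.2.choose_spec.choose_spec.2 hfy

/-- The reduction homomorphism on the Gauss ring. -/
def gaussRed : h.gaussRing →+* Eb where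
  toFun := h.gaussRedFun
  map_one' := by
    rw [h.gaussRedFun_eq (y := 1) (z := 1) (by simp) (by simp)]
    simp
  map_mul' := by
    rintro ⟨f, hf⟩ ⟨g, hg⟩
    obtain ⟨y, z, hz, hfy⟩ := id hf
    obtain ⟨y', z', hz', hgy⟩ := id hg
    rw [h.gaussRedFun_eq (y := y * y') (z := z * z') (by rw [map_mul]; exact mul_ne_zero hz hz')
      (by rw [MulMemClass.coe_mul, map_mul, map_mul, ← hfy, ← hgy]; ring),
      h.gaussRedFun_eq hz hfy, h.gaussRedFun_eq hz' hgy, map_mul, map_mul, div_mul_div_comm]
  map_zero' := by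
    rw [h.gaussRedFun_eq (y := 0) (z := 1) (by simp) (by simp)]
    simp
  map_add' := by
    rintro ⟨f, hf⟩ ⟨g, hg⟩
    obtain ⟨y, z, hz, hfy⟩ := id hf
    obtain ⟨y', z', hz', hgy⟩ := id hg
    rw [h.gaussRedFun_eq (y := y * z' + y' * z) (z := z * z')
      (by rw [map_mul]; exact mul_ne_zero hz hz')
      (by rw [AddMemClass.coe_add, map_mul, map_add, map_mul, map_mul, ← hfy, ← hgy]; ring),
      h.gaussRedFun_eq hz hfy, h.gaussRedFun_eq hz' hgy, div_add_div _ _ hz hz']
    simp [mul_comm]

theorem gaussRed_eq {f : h.gaussRing} {y z : P} (hz : M.toEb z ≠ 0)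
    (hfy : (f : E) * M.toE z = M.toE y) : h.gaussRed f = M.toEb y / M.toEb z :=
  h.gaussRedFun_eq hz hfy

theorem toE_mem (y : P) : M.toE y ∈ h.gaussRing :=
  ⟨y, 1, by rw [map_one]; exact one_ne_zero, by simp⟩

theorem gaussRed_surjective : Function.Surjective h.gaussRed := by
  intro g
  have hg : g ∈ IntermediateField.adjoin k (Set.range M.toEb) :=
    h.generated.symm ▸ IntermediateField.mem_top
  suffices ∃ y w : P, M.toEb w ≠ 0 ∧ M.toEb y / M.toEb w = g by
    obtain ⟨y, w, hw, heq⟩ := this
    have hwE : M.toE w ≠ 0 := fun h0 => hw (by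
      rw [show w = 0 from M.toE_injective (by rw [h0, map_zero]), map_zero])
    have hf : M.toE y / M.toE w * M.toE w = M.toE y := div_mul_cancel₀ _ hwE
    refine ⟨⟨M.toE y / M.toE w, y, w, hw, hf⟩, ?_⟩
    rw [h.gaussRed_eq hw hf, heq]
  induction hg using IntermediateField.adjoin_induction with
  | mem z hz =>
    obtain ⟨y, rfl⟩ := hz
    exact ⟨y, 1, by simp, by simp⟩
  | algebraMap c =>
    obtain ⟨a, rfl⟩ := h.surjective c
    exact ⟨M.C a, 1, by simp, by simp [M.toEb_C]⟩
  | add z z' _ _ hz hz' =>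
    obtain ⟨y, w, hw, rfl⟩ := hz
    obtain ⟨y', w', hw', rfl⟩ := hz'
    refine ⟨y * w' + w * y', w * w', by rw [map_mul]; exact mul_ne_zero hw hw', ?_⟩
    rw [div_add_div _ _ hw hw']
    simp
  | inv z _ hz =>
    obtain ⟨y, w, hw, rfl⟩ := hz
    by_cases hy : M.toEb y = 0
    · exact ⟨0, 1, by simp, by simp [hy]⟩
    · exact ⟨w, y, hy, by rw [inv_div]⟩
  | mul z z' _ _ hz hz' =>
    obtain ⟨y, w, hw, rfl⟩ := hz
    obtain ⟨y', w', hw', rfl⟩ := hz'
    exact ⟨y * y', w * w', by rw [map_mul]; exact mul_ne_zero hw hw',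
      by simp [div_mul_div_comm]⟩

theorem gaussRed_toE (y : P) :
    h.gaussRed ⟨M.toE y, h.toE_mem y⟩ = M.toEb y := by
  rw [h.gaussRed_eq (y := y) (z := 1) (by simp) (by simp)]
  simp

/-- The Gauss constant reduction. -/
def constRed : ConstRed A π E Eb where
  W := h.gaussRing
  red := h.gaussRed
  surjective_π := h.surjective
  algebraMap_mem a := by
    rw [← M.toE_C ]
    exact h.toE_mem _
  red_algebraMap' a := by
    rw [h.gaussRed_eq (y := M.C a) (z := 1) (by simp) (by simp [M.toE_C])]
    simp [M.toEb_C]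
  red_surjective := h.gaussRed_surjective
  exists_scale' f hf := by
    obtain ⟨c, y, z, hc, hy, hz, heq⟩ := h.exists_scale hf
    have hzE : M.toE z ≠ 0 := fun h0 => hz (by
      rw [show z = 0 from M.toE_injective (by rw [h0, map_zero]), map_zero])
    have hw : M.toE y / M.toE z * M.toE z = M.toE y := div_mul_cancel₀ _ hzE
    refine ⟨c, ⟨M.toE y / M.toE z, y, z, hz, hw⟩, hc, ?_, ?_⟩
    · rw [h.gaussRed_eq hz hw]
      exact div_ne_zero hy hz
    · show f = algebraMap L E c * (M.toE y / M.toE z)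
      rw [← mul_div_assoc, eq_div_iff hzE, heq]

/-- The parameter of the Gauss constant reduction. -/
def paramX : h.constRed.W := ⟨M.toE y₀, h.toE_mem y₀⟩

theorem red_paramX : h.constRed.red h.paramX = M.toEb y₀ := h.gaussRed_toE y₀

theorem finite_red : FiniteDimensional k⟮M.toEb y₀⟯ Eb := by
  obtain ⟨m, e, hm, hind, hspan⟩ := h.exists_basis
  exact Module.Finite.of_basis (Module.Basis.mk hind hspan.ge)

theorem finrank_eq :
    Module.finrank L⟮M.toE y₀⟯ E = Module.finrank k⟮M.toEb y₀⟯ Eb := by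
  obtain ⟨m, e, hm, hind, hspan⟩ := h.exists_basis
  rw [Module.finrank_eq_card_basis (Module.Basis.mk hind hspan.ge), Fintype.card_fin, hm]

theorem param : h.constRed.Param h.paramX := by
  have key : ∀ z : Eb, z = M.toEb y₀ → Transcendental k z ∧ FiniteDimensional k⟮z⟯ Eb ∧
      Module.finrank L⟮M.toE y₀⟯ E = Module.finrank k⟮z⟯ Eb := by
    rintro z rfl
    exact ⟨h.transcendental, h.finite_red, h.finrank_eq⟩
  obtain ⟨h1, h2, h3⟩ := key _ h.red_paramX
  exact ⟨h1, h.finite, h2, h3⟩

/-- Every element of `W` is a quotient of integral series with nonzero reduction below. -/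
theorem exists_pairs_of_mem {f : E} (hf : f ∈ h.constRed.W) :
    ∃ y z : P, M.toEb z ≠ 0 ∧ f * M.toE z = M.toE y ∧
      h.constRed.red ⟨f, hf⟩ = M.toEb y / M.toEb z := by
  obtain ⟨y, z, hz, heq⟩ := id hf
  exact ⟨y, z, hz, heq, h.gaussRed_eq hz heq⟩

end Good

end GaussMaps

end Fermat.Agent.RED
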