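import Fermat.Agent.RED.CoordData
import Fermat.Agent.FF.RiemannRoch

/-!
# The two-chart computation of the genus

For a coordinate `x`, the functions regular away from the zeros and poles of `x`, modulo the sums
of the two chart rings, form a space of dimension the genus.
-/

set_option autoImplicit false

noncomputable section

open AlgebraicCurve Polynomial

namespace Fermat.Agent.RED

variable (K : Type*) {E : Type*} [Field K] [Field E] [Algebra K E] (x : E)

/-- Functions regular outside the zeros and poles of `x`. -/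
def midSpace : Submodule K E where
  carrier := {f | ∀ v : Place K E, v.ord x = 0 → f ∈ v.toValuationSubring}
  zero_mem' := fun v _ => zero_mem _
  add_mem' := fun ha hb v hv => add_mem (ha v hv) (hb v hv)
  smul_mem' := fun c f hf v hv => by
    rw [Algebra.smul_def]
    exact mul_mem (v.algebraMap_mem' c) (hf v hv)

/-- The sum of the two chart rings, inside the middle space. -/
def chartSum : Submodule K (midSpace K x) :=
  ((coordRing K x).toSubmodule ⊔ (coordRing K x⁻¹).toSubmodule).comap (midSpace K x).subtype

variable {K x}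

theorem mem_midSpace {f : E} :
    f ∈ midSpace K x ↔ ∀ v : Place K E, v.ord x = 0 → f ∈ v.toValuationSubring := Iff.rfl

theorem mul_mem_midSpace {f g : E} (hf : f ∈ midSpace K x) (hg : g ∈ midSpace K x) :
    f * g ∈ midSpace K x := fun v hv => mul_mem (hf v hv) (hg v hv)

theorem zpow_mem_midSpace (j : ℤ) : x ^ j ∈ midSpace K x := fun v hv =>
  mem_of_ord_nonneg v (by rw [v.ord_zpow, hv, mul_zero])

theorem coordRing_le_midSpace {f : E} (hf : f ∈ coordRing K x) : f ∈ midSpace K x := fun v hv =>
  mem_place_of_mem_coordRing K x v (mem_of_ord_nonneg v hv.ge) hf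

theorem coordRing_inv_le_midSpace {f : E} (hf : f ∈ coordRing K x⁻¹) : f ∈ midSpace K x :=
  fun v hv => mem_place_of_mem_coordRing K x⁻¹ v
    (mem_of_ord_nonneg v (by rw [v.ord_inv, hv, neg_zero])) hf

theorem midSpace_inv : midSpace K x⁻¹ = midSpace K x := by
  ext f
  exact forall_congr' fun v => by rw [v.ord_inv, neg_eq_zero]

/-- A function with poles bounded by multiples of the zero and pole divisors. -/
theorem exists_pow_mul_mem_coordRing [HasPrincipalDivisors K E] {n : ℕ} (cd : CoordData K x n)
    {f : E} (hf : f ∈ midSpace K x) : ∃ N : ℕ, ∀ M, N ≤ M → x ^ M * f ∈ coordRing K x := by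
  classical
  rcases eq_or_ne f 0 with rfl | hf0
  · exact ⟨0, fun M _ => by rw [mul_zero]; exact zero_mem _⟩
  have hx0 : x ≠ 0 := fun h => cd.transcendental (h ▸ isAlgebraic_zero)
  obtain ⟨D, hD, -⟩ := HasPrincipalDivisors.exists_divisor (K := K) f hf0
  refine ⟨∑ v ∈ D.support, (D v).natAbs, fun M hM => cd.mem_coordRing_of_forall _ fun v hv => ?_⟩
  refine mem_of_ord_nonneg v ?_
  rw [v.ord_mul (pow_ne_zero _ hx0) hf0, ← zpow_natCast, v.ord_zpow, ← hD v]
  have hx := ord_nonneg_of_mem v hv
  rcases hx.eq_or_lt with h | h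
  · rw [← h, mul_zero, zero_add, hD v]
    exact ord_nonneg_of_mem v (hf v h.symm)
  · have h1 : (D v).natAbs ≤ M := by
      by_cases hmem : v ∈ D.support
      · exact (Finset.single_le_sum (f := fun v => (D v).natAbs) (fun _ _ => Nat.zero_le _)
          hmem).trans hM
      · simp [Finsupp.notMem_support_iff.mp hmem]
    have h2 : (M : ℤ) ≤ M * v.ord x := le_mul_of_one_le_right (by positivity) h
    omega

theorem self_zpow_mul_mem_coordRing_inv [HasPrincipalDivisors K E] {n : ℕ}
    (cd : CoordData K x⁻¹ n) {f : E} (hf : f ∈ midSpace K x) :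
    ∃ N : ℕ, ∀ j : ℤ, j ≤ -(N : ℤ) → x ^ j * f ∈ coordRing K x⁻¹ := by
  obtain ⟨N, hN⟩ := exists_pow_mul_mem_coordRing cd (midSpace_inv (K := K) (x := x) ▸ hf)
  refine ⟨N, fun j hj => ?_⟩
  obtain ⟨M, rfl⟩ : ∃ M : ℕ, j = -(M : ℤ) := ⟨(-j).toNat, by omega⟩
  simpa [zpow_neg, inv_pow] using hN M (by omega)

theorem self_zpow_mul_mem_coordRing {j : ℤ} (hj : 0 ≤ j) {f : E} (hf : f ∈ coordRing K x) :
    x ^ j * f ∈ coordRing K x := by
  obtain ⟨m, rfl⟩ := Int.eq_ofNat_of_zero_le hj
  rw [zpow_natCast]
  exact mul_mem (pow_mem (self_mem_coordRing K x) _) hf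

variable [IsAlgClosed K] [FF.IsFunctionField K E]

/-- **Two-chart genus formula.** -/
theorem finite_and_finrank_midQuotient {n : ℕ} (hn : 0 < n) (cd : CoordData K x n)
    (cd' : CoordData K x⁻¹ n) :
    Module.Finite K (midSpace K x ⧸ chartSum K x) ∧
      Module.finrank K (midSpace K x ⧸ chartSum K x) = genusFF K E := by
  classical
  have hx0 : x ≠ 0 := fun h => cd.transcendental (h ▸ isAlgebraic_zero)
  obtain ⟨D₀, hD₀, hD₀n⟩ := cd.exists_zeros 0
  obtain ⟨D₁, hD₁, hD₁n⟩ := cd'.exists_zeros 0
  replace hD₀ : ∀ v, D₀ v = max (v.ord x) 0 := fun v => by rw [hD₀ v, map_zero, sub_zero]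
  replace hD₁ : ∀ v, D₁ v = max (-v.ord x) 0 := fun v => by
    rw [hD₁ v, map_zero, sub_zero, v.ord_inv]
  let S : ℕ → ℕ → Submodule K E := fun a b => riemannRochSpace (a • D₁ + b • D₀)
  have hS : ∀ {a b : ℕ} {f : E}, f ∈ S a b ↔
      ∀ v : Place K E, f = 0 ∨ -((a : ℤ) * D₁ v + (b : ℤ) * D₀ v) ≤ v.ord f := by
    intro a b f
    show f ∈ riemannRochSpace _ ↔ _
    rw [mem_riemannRochSpace_iff]
    simp
  have hdim : ∀ {a b : ℕ}, 2 * genusFF K E ≤ a + b → 0 < a + b →
      (Module.finrank K (S a b) : ℤ) = (a + b) * n + 1 - genusFF K E := by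
    intro a b h h'
    have hle : (a + b : ℤ) ≤ (a + b : ℤ) * n := le_mul_of_one_le_right (by positivity) (by omega)
    have hd : Divisor.degree (a • D₁ + b • D₀) = (a + b : ℤ) * n := by
      rw [map_add, map_nsmul, map_nsmul, hD₀n, hD₁n, nsmul_eq_mul, nsmul_eq_mul, add_mul]
    show (Module.finrank K (riemannRochSpace _) : ℤ) = _
    rw [FF.finrank_riemannRochSpace_of_lt_degree (by rw [hd]; omega), hd]
  have hmid : ∀ {a b : ℕ}, S a b ≤ midSpace K x := by
    intro a b f hf v hv
    rcases (hS.mp hf) v with rfl | h
    · exact zero_mem _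
    · refine mem_of_ord_nonneg v ?_
      rw [hD₀ v, hD₁ v, hv] at h
      simpa using h
  have hexh : ∀ f ∈ midSpace K x, ∃ a, ∀ a', a ≤ a' → f ∈ S a' a' := by
    intro f hf
    obtain ⟨N, hN⟩ := exists_pow_mul_mem_coordRing cd hf
    obtain ⟨N', hN'⟩ := self_zpow_mul_mem_coordRing_inv cd' hf
    refine ⟨N + N', fun a ha => hS.mpr fun v => ?_⟩
    rcases eq_or_ne f 0 with h | hf0
    · exact Or.inl h
    right
    rw [hD₀ v, hD₁ v]
    rcases lt_trichotomy (v.ord x) 0 with h | h | h
    · have := ord_nonneg_of_mem v (mem_place_of_mem_coordRing K x⁻¹ v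
        (mem_of_ord_nonneg v (by rw [v.ord_inv]; omega)) (hN' (-(N' : ℤ)) le_rfl))
      rw [v.ord_mul (zpow_ne_zero _ hx0) hf0, v.ord_zpow] at this
      rw [max_eq_left (by omega : (0 : ℤ) ≤ -v.ord x), max_eq_right h.le]
      nlinarith
    · rw [h]
      simpa using ord_nonneg_of_mem v (hf v h)
    · have := ord_nonneg_of_mem v (mem_place_of_mem_coordRing K x v
        (mem_of_ord_nonneg v h.le) (hN N le_rfl))
      rw [v.ord_mul (pow_ne_zero _ hx0) hf0, ← zpow_natCast, v.ord_zpow] at this
      rw [max_eq_left h.le, max_eq_right (by omega : -v.ord x ≤ 0)]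
      nlinarith
  have hfd : ∀ a b, FiniteDimensional K (S a b) := fun a b => FF.finite_riemannRochSpace _
  -- the image of a level
  let incl : ∀ a, S a a →ₗ[K] midSpace K x ⧸ chartSum K x := fun a =>
    (chartSum K x).mkQ.comp (Submodule.inclusion hmid)
  have himg : ∀ a, 2 * genusFF K E + 1 ≤ a →
      Module.finrank K (LinearMap.range (incl a)) = genusFF K E := by
    intro a ha
    have hker : (LinearMap.ker (incl a)).map (S a a).subtype = S a 0 ⊔ S 0 a := by
      apply le_antisymm
      · rintro f ⟨⟨f, hf⟩, hker, rfl⟩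
        rw [SetLike.mem_coe, LinearMap.mem_ker] at hker
        have hmem : f ∈ (coordRing K x).toSubmodule ⊔ (coordRing K x⁻¹).toSubmodule :=
          (Submodule.Quotient.mk_eq_zero (chartSum K x)).mp hker
        obtain ⟨f₁, hf₁, f₂, hf₂, rfl⟩ := Submodule.mem_sup.mp hmem
        refine Submodule.add_mem_sup (hS.mpr fun v => ?_) (hS.mpr fun v => ?_)
        · rcases eq_or_ne f₁ 0 with h | h0
          · exact Or.inl h
          right
          rw [hD₁ v]
          by_cases hv : 0 ≤ v.ord x
          · have := ord_nonneg_of_mem v (mem_place_of_mem_coordRing K x v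
              (mem_of_ord_nonneg v hv) hf₁)
            simp [max_eq_right (by omega : -v.ord x ≤ 0), this]
          · push Not at hv
            have h2 := mem_place_of_mem_coordRing K x⁻¹ v
              (mem_of_ord_nonneg v (by rw [v.ord_inv]; omega)) hf₂
            have hs : f₁ + f₂ ∈ FF.ordGE v (-((a : ℤ) * -v.ord x)) := by
              rw [FF.mem_ordGE]
              refine (hS.mp hf v).imp id fun h => ?_
              rw [hD₀ v, hD₁ v, max_eq_left (by omega : (0 : ℤ) ≤ -v.ord x),
                max_eq_right hv.le] at h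
              simpa using h
            have hs2 : f₂ ∈ FF.ordGE v (-((a : ℤ) * -v.ord x)) :=
              FF.mem_ordGE_of_le v (le_trans (by nlinarith) (ord_nonneg_of_mem v h2))
            have := Submodule.sub_mem _ hs hs2
            rw [add_sub_cancel_right] at this
            have := FF.le_ord_of_mem_ordGE v this h0
            rw [max_eq_left (by omega : (0 : ℤ) ≤ -v.ord x)]
            simpa using this
        · rcases eq_or_ne f₂ 0 with h | h0
          · exact Or.inl h
          right
          rw [hD₀ v]
          by_cases hv : v.ord x ≤ 0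
          · have := ord_nonneg_of_mem v (mem_place_of_mem_coordRing K x⁻¹ v
              (mem_of_ord_nonneg v (by rw [v.ord_inv]; omega)) hf₂)
            simp [max_eq_right hv, this]
          · push Not at hv
            have h1 := mem_place_of_mem_coordRing K x v (mem_of_ord_nonneg v hv.le) hf₁
            have hs : f₁ + f₂ ∈ FF.ordGE v (-((a : ℤ) * v.ord x)) := by
              rw [FF.mem_ordGE]
              refine (hS.mp hf v).imp id fun h => ?_
              rw [hD₀ v, hD₁ v, max_eq_left hv.le, max_eq_right (by omega : -v.ord x ≤ 0)] at h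
              simpa using h
            have hs1 : f₁ ∈ FF.ordGE v (-((a : ℤ) * v.ord x)) :=
              FF.mem_ordGE_of_le v (le_trans (by nlinarith) (ord_nonneg_of_mem v h1))
            have := Submodule.sub_mem _ hs hs1
            rw [add_sub_cancel_left] at this
            have := FF.le_ord_of_mem_ordGE v this h0
            rw [max_eq_left hv.le]
            simpa using this
      · refine sup_le ?_ ?_ <;> intro f hf
        · have hfa : f ∈ S a a := hS.mpr fun v => ((hS.mp hf) v).imp id fun h => by
            rw [hD₀ v] at h ⊢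
            simp only [Nat.cast_zero, zero_mul, add_zero] at h
            linarith [mul_nonneg (Int.natCast_nonneg a) (le_max_right (v.ord x) 0)]
          refine ⟨⟨f, hfa⟩, ?_, rfl⟩
          rw [SetLike.mem_coe, LinearMap.mem_ker]
          refine (Submodule.Quotient.mk_eq_zero (chartSum K x)).mpr
            (Submodule.mem_sup_left (cd.mem_coordRing_of_forall f fun v hv => ?_))
          rcases (hS.mp hf) v with rfl | h
          · exact zero_mem _
          · refine mem_of_ord_nonneg v ?_
            rw [hD₁ v, max_eq_right (by have := ord_nonneg_of_mem v hv; omega)] at h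
            simpa using h
        · have hfa : f ∈ S a a := hS.mpr fun v => ((hS.mp hf) v).imp id fun h => by
            rw [hD₁ v] at h ⊢
            simp only [Nat.cast_zero, zero_mul, zero_add] at h
            linarith [mul_nonneg (Int.natCast_nonneg a) (le_max_right (-v.ord x) 0)]
          refine ⟨⟨f, hfa⟩, ?_, rfl⟩
          rw [SetLike.mem_coe, LinearMap.mem_ker]
          refine (Submodule.Quotient.mk_eq_zero (chartSum K x)).mpr
            (Submodule.mem_sup_right (cd'.mem_coordRing_of_forall f fun v hv => ?_))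
          rcases (hS.mp hf) v with rfl | h
          · exact zero_mem _
          · refine mem_of_ord_nonneg v ?_
            have := ord_nonneg_of_mem v hv
            rw [v.ord_inv] at this
            rw [hD₀ v, max_eq_right (by omega : v.ord x ≤ 0)] at h
            simpa using h
    have hinf : S a 0 ⊓ S 0 a = riemannRochSpace (0 : Divisor K E) := by
      ext f
      rw [Submodule.mem_inf, hS, hS, mem_riemannRochSpace_iff, ← forall_and]
      refine forall_congr' fun v => ?_
      rw [hD₀ v, hD₁ v]
      rcases eq_or_ne f 0 with h | h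
      · simp [h]
      simp only [h, false_or, Finsupp.coe_zero, Pi.zero_apply, neg_zero, Nat.cast_zero, zero_mul,
        add_zero, zero_add]
      constructor
      · rintro ⟨h1, h2⟩
        rcases le_total (v.ord x) 0 with hv | hv
        · rw [max_eq_right hv, mul_zero, neg_zero] at h2; exact h2
        · rw [max_eq_right (by omega : -v.ord x ≤ 0), mul_zero, neg_zero] at h1; exact h1
      · intro h'
        constructor <;> exact le_trans (neg_nonpos.mpr (by positivity)) h'
    have := hfd a a
    have := hfd a 0
    have := hfd 0 a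
    have h1 := (incl a).finrank_range_add_finrank_ker
    have h2 := Submodule.finrank_sup_add_finrank_inf_eq (S a 0) (S 0 a)
    rw [← hker, hinf, Submodule.finrank_map_subtype_eq] at h2
    have h3 : Module.finrank K (riemannRochSpace (0 : Divisor K E)) = 1 := FF.rrDim_zero_eq_one
    have d1 := hdim (a := a) (b := a) (by omega) (by omega)
    have d2 := hdim (a := a) (b := 0) (by omega) (by omega)
    have d3 := hdim (a := 0) (b := a) (by omega) (by omega)
    push_cast at d1 d2 d3
    simp only [add_zero, zero_add] at d2 d3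
    rw [add_mul] at d1
    omega
  -- some level is surjective
  set a₀ := 2 * genusFF K E + 1 with ha₀
  have hfr : ∀ a, FiniteDimensional K (LinearMap.range (incl a)) := fun a => by
    have := hfd a a
    exact Module.Finite.range (incl a)
  have htop : LinearMap.range (incl a₀) = ⊤ := by
    rw [eq_top_iff]
    intro q _
    obtain ⟨⟨f, hf⟩, rfl⟩ := (chartSum K x).mkQ_surjective q
    obtain ⟨a, ha⟩ := hexh f hf
    set b := a + a₀ with hb
    have hle : LinearMap.range (incl a₀) ≤ LinearMap.range (incl b) := by
      rintro _ ⟨⟨g, hg⟩, rfl⟩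
      have hgb : g ∈ S b b := hS.mpr fun v => ((hS.mp hg) v).imp id fun h => by
        rw [hD₀ v, hD₁ v] at h ⊢
        have hab : (a₀ : ℤ) ≤ b := by exact_mod_cast (Nat.le_add_left a₀ a)
        nlinarith [le_max_right (v.ord x) 0, le_max_right (-v.ord x) 0]
      exact ⟨⟨g, hgb⟩, rfl⟩
    have := hfr b
    rw [Submodule.eq_of_le_of_finrank_eq hle (by rw [himg a₀ le_rfl, himg b (Nat.le_add_left _ _)])]
    exact ⟨⟨f, ha b (Nat.le_add_right _ _)⟩, rfl⟩
  have := hfr a₀
  refine ⟨Module.Finite.equiv ((LinearEquiv.ofEq _ _ htop).trans Submodule.topEquiv), ?_⟩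
  rw [← finrank_top, ← htop, himg a₀ le_rfl]

end Fermat.Agent.RED
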