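import Fermat.Agent.RED.ReductionDatum

/-!
# Specialisation of places on a chart

For a chart, a place `P` with `x(P) ∈ A` specialises to a unique place `Q` of the special curve with
`g(Q) = π (f(P))` whenever `f` is integral over `A[x]` with reduction `g`.
-/

set_option autoImplicit false
set_option linter.unusedSectionVars false

noncomputable section

open AlgebraicCurve

namespace Fermat.Agent.RED

variable {L k : Type*} [Field L] [Field k] {F Fb : Type*} [Field F] [Field Fb] [Algebra L F]
  [Algebra k Fb] {A : ValuationSubring L} {π : A →+* k}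

/-- The places whose `x`-coordinate is defined and lies in `A`. -/
def IsIntegralPlace (A : ValuationSubring L) (x : F) (P : Place L F) : Prop :=
  x ∈ P.toValuationSubring ∧ pval P x ∈ A

/-- `Q` is the specialisation of `P` on the chart of `x`. -/
def Specializes (D : ReductionDatum A π F Fb) (x : F) (xb : Fb) (P : Place L F)
    (Q : Place k Fb) : Prop :=
  IsIntegralPlace A x P ∧ xb ∈ Q.toValuationSubring ∧
    ∀ f ∈ intRing A x, ∀ g, D.Reduces f g →
      ∀ a : A, pval P f = (a : L) → pval Q g = π a

namespace ReductionChart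

variable {D : ReductionDatum A π F Fb} {x : F} {xb : Fb} {n : ℕ} (h : ReductionChart D x xb n)
include h

theorem mem_place {P : Place L F} (hP : IsIntegralPlace A x P) {f : F} (hf : f ∈ intRing A x) :
    f ∈ P.toValuationSubring :=
  mem_place_of_mem_coordRing L x P hP.1 (mem_coordRing_of_mem_intRing hf)

theorem pval_mem {P : Place L F} (hP : IsIntegralPlace A x P) {f : F} (hf : f ∈ intRing A x) :
    pval P f ∈ A := by
  have hv := h.coordGeneric.deg_one P
  have hmem : ∀ p, intEval A x p ∈ P.toValuationSubring := fun p =>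
    h.mem_place hP (RingHom.isIntegralElem_map (f := intEval A x))
  let e : Polynomial A →+* P.toValuationSubring :=
    (intEval A x).codRestrict P.toValuationSubring.toSubring hmem
  have h1 : e.IsIntegralElem (⟨f, h.mem_place hP hf⟩ : P.toValuationSubring) :=
    RingHom.IsIntegralElem.of_map (g := P.toValuationSubring.subtype) Subtype.val_injective
      (by exact hf)
  have h2 := h1.map (placeVal P hv)
  rw [← pval_eq hv] at h2
  refine mem_valuationSubring_of_isIntegralElem A (fun p => ?_) h2
  induction p using Polynomial.induction_on' with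
  | add p q hp hq => rw [map_add]; exact add_mem hp hq
  | monomial i a =>
    show placeVal P hv ⟨intEval A x _, hmem _⟩ ∈ A
    rw [← pval_eq hv (hmem _)]
    simp only [intEval, Polynomial.coe_eval₂RingHom, Polynomial.eval₂_monomial,
      RingHom.comp_apply]
    have hxi : ∀ j : ℕ, pval P (x ^ j) ∈ A := by
      intro j
      induction j with
      | zero => rw [pow_zero, pval_one hv]; exact one_mem A
      | succ j ih =>
        rw [pow_succ, pval_mul hv (pow_mem hP.1 j) hP.1]
        exact mul_mem ih hP.2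
    rw [pval_mul hv (P.algebraMap_mem' _) (pow_mem hP.1 i), pval_algebraMap hv]
    exact mul_mem a.2 (hxi i)

/-- Integral functions with reduction zero take values in the maximal ideal. -/
theorem π_pval_of_reduces_zero {P : Place L F} (hP : IsIntegralPlace A x P) {f : F}
    (hf : f ∈ intRing A x) (hf0 : D.Reduces f 0) (a : A) (ha : pval P f = (a : L)) : π a = 0 := by
  have hv := h.coordGeneric.deg_one P
  rcases eq_or_ne f 0 with rfl | hne
  · rw [pval_zero hv] at ha
    have : a = 0 := Subtype.ext ha.symm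
    rw [this, map_zero]
  obtain ⟨c, g, hc0, hg, hcf⟩ := D.exists_scale hne
  have hcA : c ∉ A := fun hcA => hg (by
    have := hcf.unique ((D.reduces_algebraMap ⟨c, hcA⟩).mul hf0)
    rw [mul_zero] at this
    exact this)
  have hd : c⁻¹ ∈ A := (A.mem_or_inv_mem c).resolve_left hcA
  have hint : algebraMap L F c * f ∈ intRing A x :=
    h.bounded _ (mul_mem ((coordRing L x).algebraMap_mem c) (mem_coordRing_of_mem_intRing hf))
      hcf.mem
  have hval : pval P (algebraMap L F c * f) = c * a := by
    rw [pval_mul hv (P.algebraMap_mem' c) (h.mem_place hP hf), pval_algebraMap hv, ha]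
  have hca : c * (a : L) ∈ A := hval ▸ h.pval_mem hP hint
  have hmul : a = ⟨c⁻¹, hd⟩ * ⟨c * a, hca⟩ :=
    Subtype.ext (by simp [inv_mul_cancel_left₀ hc0])
  have hπd : π ⟨c⁻¹, hd⟩ = 0 := by
    rw [D.π_eq_zero_iff]
    intro hu
    obtain ⟨b, hb⟩ := hu.exists_right_inv
    have hb' : c⁻¹ * (b : L) = 1 := congrArg Subtype.val hb
    have : (b : L) = c := by
      rw [inv_mul_eq_one₀ hc0] at hb'
      exact hb'.symm
    exact hcA (this ▸ b.2)
  rw [hmul, map_mul, hπd, zero_mul]

/-- The value at the specialisation, as a function of the reduced function. -/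
theorem exists_value {P : Place L F} (hP : IsIntegralPlace A x P) :
    ∃ χ : coordRing k xb →ₐ[k] k, ∀ f ∈ intRing A x, ∀ g : coordRing k xb, D.Reduces f g →
      ∀ a : A, pval P f = (a : L) → χ g = π a := by
  classical
  have hv := h.coordGeneric.deg_one P
  choose lf hlf hlred using fun g : coordRing k xb => h.lift g g.2
  let val : coordRing k xb → k := fun g => π ⟨pval P (lf g), h.pval_mem hP (hlf g)⟩
  have key : ∀ f ∈ intRing A x, ∀ g : coordRing k xb, D.Reduces f g →
      ∀ a : A, pval P f = (a : L) → val g = π a := by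
    intro f hf g hfg a ha
    have h0 : D.Reduces (lf g - f) 0 := by simpa using (hlred g).sub hfg
    have := h.π_pval_of_reduces_zero hP (sub_mem (hlf g) hf) h0
      (⟨pval P (lf g), h.pval_mem hP (hlf g)⟩ - a) (by
        rw [pval_sub hv (h.mem_place hP (hlf g)) (h.mem_place hP hf), ha]
        rfl)
    rwa [map_sub, sub_eq_zero] at this
  have hconst : ∀ c : k, val (algebraMap k (coordRing k xb) c) = c := by
    intro c
    obtain ⟨a, rfl⟩ := D.surjective_π c
    exact key _ (algebraMap_mem_intRing A x a) _ (D.reduces_algebraMap a) a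
      (pval_algebraMap hv _)
  refine ⟨{ toFun := val
            map_one' := by simpa using hconst 1
            map_mul' := fun g g' => ?_
            map_zero' := by simpa using hconst 0
            map_add' := fun g g' => ?_
            commutes' := hconst }, key⟩
  · rw [key _ (mul_mem (hlf g) (hlf g')) (g * g') ((hlred g).mul (hlred g'))
      (⟨_, h.pval_mem hP (hlf g)⟩ * ⟨_, h.pval_mem hP (hlf g')⟩)
      (by rw [pval_mul hv (h.mem_place hP (hlf g)) (h.mem_place hP (hlf g'))]; rfl), map_mul]
  · rw [key _ (add_mem (hlf g) (hlf g')) (g + g') ((hlred g).add (hlred g'))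
      (⟨_, h.pval_mem hP (hlf g)⟩ + ⟨_, h.pval_mem hP (hlf g')⟩)
      (by rw [pval_add hv (h.mem_place hP (hlf g)) (h.mem_place hP (hlf g'))]; rfl), map_add]

theorem exists_specializes {P : Place L F} (hP : IsIntegralPlace A x P) :
    ∃ Q, Specializes D x xb P Q := by
  obtain ⟨χ, hχ⟩ := h.exists_value hP
  obtain ⟨Q, hQx, hQ⟩ := h.coordSpecial.exists_place χ
  have hQd := h.coordSpecial.deg_one Q
  refine ⟨Q, hP, hQx, fun f hf g hfg a ha => ?_⟩
  have hg := mem_coordRing_of_reduces h.reduces hf hfg
  have hval := hχ f hf ⟨g, hg⟩ hfg a ha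
  have hz : χ (⟨g, hg⟩ - algebraMap k (coordRing k xb) (π a)) = 0 := by
    rw [map_sub, AlgHom.commutes, hval]
    simp
  have hgQ := mem_place_of_mem_coordRing k xb Q hQx hg
  have h0 : pval Q (g - algebraMap k Fb (π a)) = 0 :=
    (pval_eq_zero_iff hQd (sub_mem hgQ (Q.algebraMap_mem' _))).mpr (hQ _ hz)
  rwa [pval_sub hQd hgQ (Q.algebraMap_mem' _), pval_algebraMap hQd, sub_eq_zero] at h0

/-- Two places over the chart are separated by the reduction of an integral function vanishing at
the first. -/
theorem exists_separating {Q Q' : Place k Fb} (hQ : xb ∈ Q.toValuationSubring)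
    (hQ' : xb ∈ Q'.toValuationSubring) (hne : Q ≠ Q') :
    ∃ f ∈ intRing A x, ∃ g, D.Reduces f g ∧ g ∈ coordRing k xb ∧ g ≠ 0 ∧ pval Q g = 0 ∧
      pval Q' g ≠ 0 := by
  obtain ⟨s, hs, hs0, hsQ, hsQ'⟩ := h.coordSpecial.separate Q Q' hQ hQ' hne
  obtain ⟨f, hf, hfs⟩ := h.lift s hs
  exact ⟨f, hf, s, hfs, hs, hs0,
    (pval_eq_zero_iff (h.coordSpecial.deg_one Q) (mem_place_of_mem_coordRing k xb Q hQ hs)).mpr
      (Or.inr hsQ),
    (pval_ne_zero_iff (h.coordSpecial.deg_one Q') (mem_place_of_mem_coordRing k xb Q' hQ' hs)).mpr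
      ⟨hs0, hsQ'⟩⟩

theorem specializes_unique {P : Place L F} {Q Q' : Place k Fb} (hQ : Specializes D x xb P Q)
    (hQ' : Specializes D x xb P Q') : Q = Q' := by
  by_contra hne
  obtain ⟨f, hf, g, hfg, -, -, h0, h1⟩ := h.exists_separating hQ.2.1 hQ'.2.1 hne
  obtain ⟨a, ha⟩ : ∃ a : A, pval P f = (a : L) := ⟨⟨_, h.pval_mem hQ.1 hf⟩, rfl⟩
  exact h1 ((hQ'.2.2 f hf g hfg a ha).trans ((hQ.2.2 f hf g hfg a ha).symm.trans h0))

/-- `xb(Q)` is the reduction of `x(P)`. -/
theorem pval_coord {P : Place L F} {Q : Place k Fb} (hQ : Specializes D x xb P Q) (a : A)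
    (ha : pval P x = (a : L)) : pval Q xb = π a :=
  hQ.2.2 x (self_mem_intRing A x) xb h.reduces a ha

/-- The inverse of a constant outside `A` reduces to zero. -/
theorem π_inv_eq_zero {α : L} (hα : α ∉ A) (hα' : α⁻¹ ∈ A) : π ⟨α⁻¹, hα'⟩ = 0 := by
  have hα0 : α ≠ 0 := fun e => hα (e ▸ zero_mem A)
  rw [D.π_eq_zero_iff]
  intro hu
  obtain ⟨b, hb⟩ := hu.exists_right_inv
  have hb' : α⁻¹ * (b : L) = 1 := congrArg Subtype.val hb
  rw [inv_mul_eq_one₀ hα0] at hb'
  exact hα (hb'.symm ▸ b.2)

end ReductionChart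

end Fermat.Agent.RED
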