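import Fermat.Agent.RED.PlaceValue

/-!
# Constant reductions of function fields and charts

`ReductionDatum A π F Fb` is a valuation subring `O` of `F` extending `A` (unramified over it: every
function can be scaled by a constant to a unit of `O`) with a reduction map to `Fb`.
`ReductionChart D x xb n` adds a coordinate whose reduction keeps the degree and for which the
integral closures reduce onto each other. From it we get the specialisation of places on the chart.
-/

set_option autoImplicit false

noncomputable section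

open AlgebraicCurve Polynomial

namespace Fermat.Agent.RED

variable {L k : Type*} [Field L] [Field k]

/-- A constant reduction of a function field `F / L` to `Fb / k` above `π : A → k`. -/
structure ReductionDatum (A : ValuationSubring L) (π : A →+* k) (F Fb : Type*) [Field F] [Field Fb]
    [Algebra L F] [Algebra k Fb] where
  O : ValuationSubring F
  red : O →+* Fb
  surjective_π : Function.Surjective π
  algebraMap_mem : ∀ a : A, algebraMap L F a ∈ O
  red_algebraMap : ∀ a : A, red ⟨_, algebraMap_mem a⟩ = algebraMap k Fb (π a)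
  scale : ∀ f : F, f ≠ 0 →
    ∃ c : L, ∃ h : algebraMap L F c * f ∈ O, red ⟨algebraMap L F c * f, h⟩ ≠ 0

variable {F Fb : Type*} [Field F] [Field Fb] [Algebra L F] [Algebra k Fb]
variable {A : ValuationSubring L} {π : A →+* k}

namespace ReductionDatum

variable (D : ReductionDatum A π F Fb)

/-- `f` is integral with reduction `g`. -/
def Reduces (f : F) (g : Fb) : Prop := ∃ h : f ∈ D.O, D.red ⟨f, h⟩ = g

variable {D}

theorem Reduces.mem {f : F} {g : Fb} (h : D.Reduces f g) : f ∈ D.O := h.1

theorem Reduces.unique {f : F} {g g' : Fb} (h : D.Reduces f g) (h' : D.Reduces f g') : g = g' :=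
  h.2.symm.trans h'.2

theorem Reduces.add {f f' : F} {g g' : Fb} (h : D.Reduces f g) (h' : D.Reduces f' g') :
    D.Reduces (f + f') (g + g') :=
  ⟨add_mem h.1 h'.1, by rw [← h.2, ← h'.2, ← map_add]; rfl⟩

theorem Reduces.sub {f f' : F} {g g' : Fb} (h : D.Reduces f g) (h' : D.Reduces f' g') :
    D.Reduces (f - f') (g - g') :=
  ⟨sub_mem h.1 h'.1, by rw [← h.2, ← h'.2, ← map_sub]; rfl⟩

theorem Reduces.mul {f f' : F} {g g' : Fb} (h : D.Reduces f g) (h' : D.Reduces f' g') :
    D.Reduces (f * f') (g * g') :=
  ⟨mul_mem h.1 h'.1, by rw [← h.2, ← h'.2, ← map_mul]; rfl⟩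

variable (D)

theorem reduces_zero : D.Reduces 0 0 := ⟨zero_mem _, map_zero D.red⟩

theorem reduces_one : D.Reduces 1 1 := ⟨one_mem _, map_one D.red⟩

theorem reduces_algebraMap (a : A) : D.Reduces (algebraMap L F a) (algebraMap k Fb (π a)) :=
  ⟨D.algebraMap_mem a, D.red_algebraMap a⟩

variable {D}

theorem Reduces.pow {f : F} {g : Fb} (h : D.Reduces f g) (n : ℕ) : D.Reduces (f ^ n) (g ^ n) := by
  induction n with
  | zero => simpa using D.reduces_one
  | succ n ih => rw [pow_succ, pow_succ]; exact ih.mul h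

theorem Reduces.prod {ι : Type*} {s : Finset ι} {f : ι → F} {g : ι → Fb}
    (h : ∀ i ∈ s, D.Reduces (f i) (g i)) : D.Reduces (∏ i ∈ s, f i) (∏ i ∈ s, g i) := by
  induction s using Finset.cons_induction with
  | empty => simpa using D.reduces_one
  | cons a s ha ih =>
    rw [Finset.prod_cons, Finset.prod_cons]
    exact (h a (Finset.mem_cons_self a s)).mul (ih fun i hi => h i (Finset.mem_cons_of_mem hi))

theorem Reduces.sum {ι : Type*} {s : Finset ι} {f : ι → F} {g : ι → Fb}
    (h : ∀ i ∈ s, D.Reduces (f i) (g i)) : D.Reduces (∑ i ∈ s, f i) (∑ i ∈ s, g i) := by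
  induction s using Finset.cons_induction with
  | empty => simpa using D.reduces_zero
  | cons a s ha ih =>
    rw [Finset.sum_cons, Finset.sum_cons]
    exact (h a (Finset.mem_cons_self a s)).add (ih fun i hi => h i (Finset.mem_cons_of_mem hi))

theorem π_eq_zero_iff (D : ReductionDatum A π F Fb) (a : A) : π a = 0 ↔ ¬IsUnit a := by
  refine ⟨fun h hu => (hu.map π).ne_zero h, fun hu => ?_⟩
  by_contra hne
  have : (RingHom.ker π).IsMaximal := RingHom.ker_isMaximal_of_surjective π D.surjective_π
  have : RingHom.ker π = IsLocalRing.maximalIdeal A := IsLocalRing.eq_maximalIdeal inferInstance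
  exact hne (by rw [← RingHom.mem_ker, this, IsLocalRing.mem_maximalIdeal]; exact hu)

/-- A constant in `O` lies in `A`. -/
theorem mem_of_algebraMap_mem (D : ReductionDatum A π F Fb) {c : L}
    (hc : algebraMap L F c ∈ D.O) : c ∈ A := by
  by_contra h
  have hc0 : c ≠ 0 := fun h0 => h (h0 ▸ zero_mem A)
  have hinv : c⁻¹ ∈ A := (A.mem_or_inv_mem c).resolve_left h
  have hnu : ¬IsUnit (⟨c⁻¹, hinv⟩ : A) := by
    intro hu
    obtain ⟨b, hb⟩ := hu.exists_right_inv
    have : (b : L) = c := by
      have := congrArg Subtype.val hb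
      simpa [inv_mul_eq_one₀ hc0, eq_comm] using this
    exact h (this ▸ b.2)
  have h1 := (D.reduces_algebraMap ⟨c⁻¹, hinv⟩).mul
    (show D.Reduces (algebraMap L F c) (D.red ⟨_, hc⟩) from ⟨hc, rfl⟩)
  rw [(π_eq_zero_iff D _).mpr hnu, map_zero, zero_mul, ← map_mul, inv_mul_cancel₀ hc0,
    map_one] at h1
  exact zero_ne_one (h1.unique D.reduces_one)

theorem Reduces.ne_zero {f : F} {g : Fb} (h : D.Reduces f g) (hg : g ≠ 0) : f ≠ 0 := by
  rintro rfl
  exact hg (h.unique D.reduces_zero)

/-- A function with nonzero reduction is a unit of `O`. -/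
theorem Reduces.inv {f : F} {g : Fb} (h : D.Reduces f g) (hg : g ≠ 0) : D.Reduces f⁻¹ g⁻¹ := by
  have hf := h.ne_zero hg
  obtain ⟨c, hc, hne⟩ := D.scale f⁻¹ (inv_ne_zero hf)
  have h1 := h.mul (show D.Reduces (algebraMap L F c * f⁻¹) (D.red ⟨_, hc⟩) from ⟨hc, rfl⟩)
  rw [show f * (algebraMap L F c * f⁻¹) = algebraMap L F c by field_simp] at h1
  have hcA : c ∈ A := D.mem_of_algebraMap_mem h1.mem
  have hne' : π ⟨c, hcA⟩ ≠ 0 := by
    intro h0
    have := h1.unique (D.reduces_algebraMap ⟨c, hcA⟩)
    rw [h0, map_zero] at this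
    exact mul_ne_zero hg hne this
  have hu : IsUnit (⟨c, hcA⟩ : A) := not_not.mp ((π_eq_zero_iff D _).not.mp hne')
  obtain ⟨d, hd⟩ := hu.exists_right_inv
  have hd' : c * (d : L) = 1 := congrArg Subtype.val hd
  have h2 := (D.reduces_algebraMap d).mul
    (show D.Reduces (algebraMap L F c * f⁻¹) (D.red ⟨_, hc⟩) from ⟨hc, rfl⟩)
  rw [← mul_assoc, ← map_mul, mul_comm (d : L) c, hd', map_one, one_mul] at h2
  obtain ⟨hm, hm'⟩ := h2
  have h3 := h.mul (show D.Reduces f⁻¹ (D.red ⟨_, hm⟩) from ⟨hm, rfl⟩)
  rw [mul_inv_cancel₀ hf] at h3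
  exact ⟨hm, eq_inv_of_mul_eq_one_right (h3.unique D.reduces_one)⟩

/-- Every nonzero function is a constant times a function with nonzero reduction. -/
theorem exists_scale (D : ReductionDatum A π F Fb) {f : F} (hf : f ≠ 0) :
    ∃ (c : L) (g : Fb), c ≠ 0 ∧ g ≠ 0 ∧ D.Reduces (algebraMap L F c * f) g := by
  obtain ⟨c, hc, hne⟩ := D.scale f hf
  refine ⟨c, _, ?_, hne, ⟨hc, rfl⟩⟩
  rintro rfl
  refine hne ?_
  have : (⟨_, hc⟩ : D.O) = 0 := Subtype.ext (by simp)
  rw [this, map_zero]

end ReductionDatum

section IntRing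

variable (A) (x : F)

/-- Evaluation of polynomials over `A` at `x`. -/
abbrev intEval : A[X] →+* F :=
  Polynomial.eval₂RingHom ((algebraMap L F).comp A.subtype) x

/-- The functions integral over `A[x]`. -/
def intRing : Subring F where
  carrier := {f | (intEval A x).IsIntegralElem f}
  mul_mem' ha hb := RingHom.IsIntegralElem.mul _ ha hb
  one_mem' := RingHom.isIntegralElem_one (f := intEval A x)
  add_mem' ha hb := RingHom.IsIntegralElem.add _ ha hb
  zero_mem' := RingHom.isIntegralElem_zero (f := intEval A x)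
  neg_mem' ha := RingHom.IsIntegralElem.neg _ ha

theorem algebraMap_mem_intRing (a : A) : algebraMap L F a ∈ intRing A x := by
  have h := RingHom.isIntegralElem_map (f := intEval A x) (x := Polynomial.C a)
  simp only [intEval, Polynomial.coe_eval₂RingHom, Polynomial.eval₂_C] at h
  exact h

theorem self_mem_intRing : x ∈ intRing A x := by
  have h := RingHom.isIntegralElem_map (f := intEval A x) (x := Polynomial.X)
  simp only [intEval, Polynomial.coe_eval₂RingHom, Polynomial.eval₂_X] at h
  exact h

variable {A x}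

theorem mem_coordRing_of_mem_intRing {f : F} (hf : f ∈ intRing A x) : f ∈ coordRing L x := by
  have hcomp : (coordEval L x).comp (Polynomial.mapRingHom A.subtype) = intEval A x :=
    Polynomial.ringHom_ext (fun a => by simp [intEval]) (by simp [intEval])
  exact RingHom.IsIntegralElem.of_comp (f := Polynomial.mapRingHom A.subtype) (hcomp ▸ hf)

theorem mem_of_mem_intRing {D : ReductionDatum A π F Fb} (hx : x ∈ D.O) {f : F}
    (hf : f ∈ intRing A x) : f ∈ D.O := by
  refine mem_valuationSubring_of_isIntegralElem D.O (fun p => ?_) hf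
  simp only [intEval, Polynomial.coe_eval₂RingHom, Polynomial.eval₂_eq_sum_range]
  exact sum_mem fun i _ => mul_mem (D.algebraMap_mem _) (pow_mem hx i)

/-- Reductions of integral functions are integral over `k[xb]`. -/
theorem mem_coordRing_of_reduces {D : ReductionDatum A π F Fb} {xb : Fb} (hx : D.Reduces x xb)
    {f : F} {g : Fb} (hf : f ∈ intRing A x) (hfg : D.Reduces f g) : g ∈ coordRing k xb := by
  obtain ⟨hfO, rfl⟩ := hfg
  have hmem : ∀ p : A[X], intEval A x p ∈ D.O := fun p =>
    mem_of_mem_intRing (D := D) hx.mem (RingHom.isIntegralElem_map (f := intEval A x))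
  let e : A[X] →+* D.O := (intEval A x).codRestrict D.O.toSubring hmem
  have h1 : e.IsIntegralElem (⟨f, hfO⟩ : D.O) :=
    RingHom.IsIntegralElem.of_map (g := D.O.subtype) Subtype.val_injective
      (by exact hf)
  have h2 : D.red.comp e = (coordEval k xb).comp (Polynomial.mapRingHom π) := by
    refine Polynomial.ringHom_ext (fun a => ?_) ?_
    · have : e (Polynomial.C a) = ⟨_, D.algebraMap_mem a⟩ :=
        Subtype.ext (by simp [e, intEval])
      simp [this, D.red_algebraMap]
    · have : e Polynomial.X = ⟨x, hx.mem⟩ := Subtype.ext (by simp [e, intEval])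
      simp [this, hx.2]
  exact RingHom.IsIntegralElem.of_comp (f := Polynomial.mapRingHom π) (h2 ▸ h1.map D.red)

end IntRing

/-- A chart for the reduction: a coordinate `x` of degree `n` on both curves. -/
structure ReductionChart (D : ReductionDatum A π F Fb) (x : F) (xb : Fb) (n : ℕ) : Prop where
  reduces : D.Reduces x xb
  coordGeneric : CoordData L x n
  coordSpecial : CoordData k xb n
  bounded : ∀ f ∈ coordRing L x, f ∈ D.O → f ∈ intRing A x
  lift : ∀ g ∈ coordRing k xb, ∃ f ∈ intRing A x, D.Reduces f g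

end Fermat.Agent.RED
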